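import Mathlib

/-!
# Leading-term calculus modulo powers of an element `l`

`Lead l i a x` means `x ≡ 1 + a * l ^ i  (mod l ^ (i + 1))`.
-/

namespace Fermat.Agent.S10

section Lead

variable {R : Type*} [CommRing R] (l : R)

/-- `x ≡ 1 + a * l ^ i  (mod l ^ (i + 1))`. -/
def Lead (i : ℕ) (a : ℤ) (x : R) : Prop := l ^ (i + 1) ∣ x - 1 - (a : R) * l ^ i

variable {l}

lemma lead_iff {i : ℕ} {a : ℤ} {x : R} :
    Lead l i a x ↔ l ^ (i + 1) ∣ x - 1 - (a : R) * l ^ i := Iff.rfl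

lemma lead_one (i : ℕ) : Lead l i 0 (1 : R) := by
  simp [Lead]

lemma lead_zero_iff {i : ℕ} {x : R} : Lead l i 0 x ↔ l ^ (i + 1) ∣ x - 1 := by
  simp [Lead]

lemma Lead.dvd_sub_one {i : ℕ} {a : ℤ} {x : R} (h : Lead l i a x) : l ^ i ∣ x - 1 := by
  obtain ⟨t, ht⟩ := h
  refine ⟨(a : R) + l * t, ?_⟩
  linear_combination ht

lemma Lead.congr_coeff {i : ℕ} {a b : ℤ} {x : R} (h : Lead l i a x) (hab : l ∣ ((a - b : ℤ) : R)) :
    Lead l i b x := by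
  obtain ⟨t, ht⟩ := h
  obtain ⟨s, hs⟩ := hab
  refine ⟨t + s, ?_⟩
  push_cast at hs
  linear_combination ht + l ^ i * hs

lemma Lead.mono {i j : ℕ} {x : R} (h : l ^ j ∣ x - 1) (hij : i + 1 ≤ j) : Lead l i 0 x :=
  lead_zero_iff.2 ((pow_dvd_pow l hij).trans h)

lemma Lead.mul {i : ℕ} (hi : 1 ≤ i) {a b : ℤ} {x y : R} (hx : Lead l i a x)
    (hy : Lead l i b y) : Lead l i (a + b) (x * y) := by
  obtain ⟨j, rfl⟩ : ∃ j, i = j + 1 := ⟨i - 1, by omega⟩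
  obtain ⟨X, hX⟩ := hx
  obtain ⟨Y, hY⟩ := hy
  refine ⟨(a : R) * b * l ^ j + X * y + (1 + a * l ^ (j + 1)) * Y, ?_⟩
  push_cast
  linear_combination y * hX + (1 + (a : R) * l ^ (j + 1)) * hY

lemma Lead.pow {i : ℕ} (hi : 1 ≤ i) {a : ℤ} {x : R} (hx : Lead l i a x) (e : ℕ) :
    Lead l i (e * a) (x ^ e) := by
  induction e with
  | zero => simpa using lead_one i
  | succ n ih =>
    have := ih.mul hi hx
    rw [pow_succ]
    convert this using 1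
    push_cast
    ring

lemma Lead.units_inv {i : ℕ} (hi : 1 ≤ i) {a : ℤ} {u : Rˣ} (hx : Lead l i a (u : R)) :
    Lead l i (-a) ((u⁻¹ : Rˣ) : R) := by
  obtain ⟨j, rfl⟩ : ∃ j, i = j + 1 := ⟨i - 1, by omega⟩
  obtain ⟨X, hX⟩ := hx
  refine ⟨((u⁻¹ : Rˣ) : R) * (-X + (a : R) ^ 2 * l ^ j + a * l ^ (j + 1) * X), ?_⟩
  have hu : ((u⁻¹ : Rˣ) : R) * (u : R) = 1 := by simp
  push_cast
  linear_combination (((u⁻¹ : Rˣ) : R) * ((a : R) * l ^ (j + 1) - 1)) * hX +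
    (1 - (a : R) * l ^ (j + 1)) * hu

lemma Lead.units_zpow {i : ℕ} (hi : 1 ≤ i) {a : ℤ} {u : Rˣ} (hx : Lead l i a (u : R)) (e : ℤ) :
    Lead l i (e * a) (((u ^ e : Rˣ)) : R) := by
  obtain ⟨n, rfl | rfl⟩ := e.eq_nat_or_neg
  · simpa using hx.pow hi n
  · have h1 : Lead l i ((n : ℤ) * a) (((u ^ n : Rˣ)) : R) := by simpa using hx.pow hi n
    have h2 := h1.units_inv hi
    rw [zpow_neg, zpow_natCast]
    convert h2 using 1
    ring

lemma Lead.prod {ι : Type*} {i : ℕ} (hi : 1 ≤ i) (s : Finset ι) {a : ι → ℤ} {x : ι → R}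
    (h : ∀ k ∈ s, Lead l i (a k) (x k)) : Lead l i (∑ k ∈ s, a k) (∏ k ∈ s, x k) := by
  classical
  induction s using Finset.induction_on with
  | empty => simpa using lead_one i
  | insert k s hk ih =>
    rw [Finset.sum_insert hk, Finset.prod_insert hk]
    exact (h k (Finset.mem_insert_self k s)).mul hi
      (ih fun k' hk' => h k' (Finset.mem_insert_of_mem hk'))

end Lead

end Fermat.Agent.S10
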