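import Mathlib
import Fermat.Agent.S10.Lead

/-!
# Units congruent to `1` modulo powers of `λ = ζ - 1`; triangular independence
-/

set_option linter.unusedSectionVars false

namespace Fermat.Agent.S10

open NumberField IsCyclotomicExtension.Rat Polynomial

section CongSubgroup

variable {R : Type*} [CommRing R]

/-- Units congruent to `1` modulo `l ^ i`. -/
def congSubgroup (l : R) (i : ℕ) : Subgroup Rˣ :=
  (Units.map (Ideal.Quotient.mk (Ideal.span {l ^ i})).toMonoidHom).ker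

lemma mem_congSubgroup_iff {l : R} {i : ℕ} {u : Rˣ} :
    u ∈ congSubgroup l i ↔ l ^ i ∣ (u : R) - 1 := by
  rw [congSubgroup, MonoidHom.mem_ker, Units.ext_iff, Units.coe_map, Units.val_one,
    RingHom.toMonoidHom_eq_coe, MonoidHom.coe_coe, ← map_one (Ideal.Quotient.mk _),
    Ideal.Quotient.eq, Ideal.mem_span_singleton]

lemma congSubgroup_mono {l : R} {i j : ℕ} (h : i ≤ j) : congSubgroup l j ≤ congSubgroup l i := by
  intro u hu
  rw [mem_congSubgroup_iff] at hu ⊢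
  exact (pow_dvd_pow l h).trans hu

end CongSubgroup

section Cyclo

variable {p : ℕ} [hp : Fact p.Prime] {K : Type*} [Field K] [NumberField K]
  [hK : IsCyclotomicExtension {p} ℚ K] {ζ : K} (hζ : IsPrimitiveRoot ζ p)

local notation3 "λ" => hζ.toInteger - 1

lemma lam_dvd_root_sub_one {μ : 𝓞 K} (hμ : μ ^ p = 1) : λ ∣ μ - 1 := by
  obtain ⟨i, -, rfl⟩ := hζ.toInteger_isPrimitiveRoot.eq_pow_of_pow_eq_one hμ
  simpa using sub_dvd_pow_sub_pow hζ.toInteger 1 i

lemma lam_pow_dvd_pow_sub_one {x : 𝓞 K} (hx : λ ∣ x - 1) : λ ^ p ∣ x ^ p - 1 := by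
  have h := hζ.toInteger_isPrimitiveRoot.pow_sub_pow_eq_prod_sub_mul x 1 hp.out.pos
  rw [one_pow] at h
  have hc : λ ^ p = ∏ _μ ∈ nthRootsFinset p (1 : 𝓞 K), λ := by
    rw [Finset.prod_const, hζ.toInteger_isPrimitiveRoot.card_nthRootsFinset]
  rw [h, hc]
  refine Finset.prod_dvd_prod_of_dvd _ _ fun μ hμ => ?_
  have hμ' : μ ^ p = 1 := (mem_nthRootsFinset hp.out.pos 1).1 hμ
  have h2 := lam_dvd_root_sub_one hζ hμ'
  have : x - μ * 1 = (x - 1) - (μ - 1) := by ring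
  rw [this]
  exact dvd_sub hx h2

lemma lam_dvd_intCast_iff {n : ℤ} : λ ∣ (n : 𝓞 K) ↔ (p : ℤ) ∣ n :=
  zeta_sub_one_dvd_intCast_iff' p hζ

lemma lam_pow_dvd_p : λ ^ (p - 1) ∣ (p : 𝓞 K) :=
  (associated_zeta_sub_one_pow_prime p hζ).dvd

lemma lam_ne_zero : λ ≠ 0 := hζ.zeta_sub_one_prime'.ne_zero

/-- Every integer of `ℚ(ζ)` is congruent to a rational integer modulo `λ`. -/
lemma exists_int_lam_dvd_sub (x : 𝓞 K) : ∃ n : ℤ, λ ∣ x - n := by
  obtain ⟨f, hf⟩ := (hζ.integralPowerBasis).exists_eq_aeval' x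
  rw [hζ.integralPowerBasis_gen] at hf
  refine ⟨f.eval 1, ?_⟩
  have h := Polynomial.sub_dvd_eval_sub hζ.toInteger 1 (f.map (algebraMap ℤ (𝓞 K)))
  rw [eval_map, eval_map, ← aeval_def, ← hf, eval₂_at_one] at h
  simpa using h

/-- The leading coefficient of something that is `≡ 1` one level higher vanishes mod `p`. -/
lemma Lead.dvd_of_dvd {i : ℕ} {a : ℤ} {x : 𝓞 K} (h : Lead (λ) i a x)
    (h1 : λ ^ (i + 1) ∣ x - 1) : (p : ℤ) ∣ a := by
  rw [← lam_dvd_intCast_iff hζ]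
  have h2 : λ ^ (i + 1) ∣ (a : 𝓞 K) * λ ^ i := by
    have := dvd_sub h1 h
    simpa using this
  rw [pow_succ, mul_comm (a : 𝓞 K)] at h2
  exact (mul_dvd_mul_iff_left (pow_ne_zero i (lam_ne_zero hζ))).1 h2

end Cyclo

end Fermat.Agent.S10

namespace Fermat.Agent.S10

open NumberField IsCyclotomicExtension.Rat Polynomial

section ClaimA

variable {p : ℕ} [hp : Fact p.Prime] {K : Type*} [Field K] [NumberField K]
  [hK : IsCyclotomicExtension {p} ℚ K] {ζ : K} (hζ : IsPrimitiveRoot ζ p)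

local notation3 "λ" => hζ.toInteger - 1

/-- `ζ` as a unit of the ring of integers. -/
noncomputable def zetaUnit : (𝓞 K)ˣ :=
  (hζ.toInteger_isPrimitiveRoot.isUnit hp.out.ne_zero).unit

@[simp] lemma coe_zetaUnit : ((zetaUnit hζ : (𝓞 K)ˣ) : 𝓞 K) = hζ.toInteger := rfl

lemma zetaUnit_pow_prime : zetaUnit hζ ^ p = 1 := by
  apply Units.ext
  rw [Units.val_pow_eq_pow_val, coe_zetaUnit, Units.val_one]
  exact hζ.toInteger_isPrimitiveRoot.pow_eq_one

lemma lead_zeta : Lead (λ) 1 1 hζ.toInteger := by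
  simp [Lead]

lemma zetaUnit_mem_congSubgroup : zetaUnit hζ ∈ congSubgroup (λ) 1 :=
  mem_congSubgroup_iff.2 (by simp)

/-- `p`-th powers of units `≡ 1 mod λ` are `≡ 1 mod λ ^ p`. -/
lemma pow_mem_congSubgroup {u : (𝓞 K)ˣ} (hu : u ∈ congSubgroup (λ) 1) :
    u ^ p ∈ congSubgroup (λ) p := by
  rw [mem_congSubgroup_iff] at hu ⊢
  rw [pow_one] at hu
  simpa using lam_pow_dvd_pow_sub_one hζ hu

lemma zpow_mem_congSubgroup_of_dvd {u : (𝓞 K)ˣ} (hu : u ∈ congSubgroup (λ) 1) {e : ℤ}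
    (he : (p : ℤ) ∣ e) : u ^ e ∈ congSubgroup (λ) p := by
  obtain ⟨d, rfl⟩ := he
  rw [zpow_mul, zpow_natCast]
  exact Subgroup.zpow_mem _ (pow_mem_congSubgroup hζ hu) d

/-- **Triangular independence**: units `v i` with
`v i ≡ 1 + c i * λ ^ lev i  (mod λ ^ (lev i + 1))`, `p ∤ c i`, strictly increasing levels
`1 ≤ lev i ≤ p - 2`, are independent modulo units congruent to a rational integer mod `p`. -/
theorem hindep_of_triangular {m : ℕ} (v : Fin m → (𝓞 K)ˣ) (lev : Fin m → ℕ) (c : Fin m → ℤ)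
    (hlev : StrictMono lev) (h1 : ∀ i, 1 ≤ lev i) (h2 : ∀ i, lev i + 2 ≤ p)
    (hc : ∀ i, ¬ (p : ℤ) ∣ c i)
    (hv : ∀ i, Lead (λ) (lev i) (c i) (v i : 𝓞 K)) :
    ∀ e : Fin m → ℤ, (∃ n : ℤ, (p : 𝓞 K) ∣ ((∏ i, v i ^ e i : (𝓞 K)ˣ) : 𝓞 K) - n) →
      ∀ i, (p : ℤ) ∣ e i := by
  intro e ⟨n, h⟩
  have hp2 : 2 ≤ p := hp.out.two_le
  set P : (𝓞 K)ˣ := ∏ k, v k ^ e k with hP
  have hv1 : ∀ k : Fin m, v k ∈ congSubgroup (λ) (lev k) := fun k =>
    mem_congSubgroup_iff.2 (hv k).dvd_sub_one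
  have hP1 : P ∈ congSubgroup (λ) 1 := Subgroup.prod_mem _ fun k _ =>
    Subgroup.zpow_mem _ (congSubgroup_mono (h1 k) (hv1 k)) _
  -- Step 1: `P ≡ 1 mod λ ^ (p - 1)`
  have hPp : P ∈ congSubgroup (λ) (p - 1) := by
    rw [mem_congSubgroup_iff]
    have h0 : λ ^ (p - 1) ∣ (P : 𝓞 K) - n := (lam_pow_dvd_p hζ).trans h
    have h1' : λ ∣ (P : 𝓞 K) - n := (dvd_pow_self _ (by omega : p - 1 ≠ 0)).trans h0
    have h2' : λ ∣ (P : 𝓞 K) - 1 := by simpa using mem_congSubgroup_iff.1 hP1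
    have h3 : λ ∣ ((n - 1 : ℤ) : 𝓞 K) := by
      have := dvd_sub h2' h1'
      push_cast
      convert this using 1
      ring
    rw [lam_dvd_intCast_iff] at h3
    have h4 : λ ^ (p - 1) ∣ ((n - 1 : ℤ) : 𝓞 K) := by
      refine (lam_pow_dvd_p hζ).trans ?_
      obtain ⟨d, hd⟩ := h3
      exact ⟨(d : 𝓞 K), by rw [hd]; push_cast; ring⟩
    have := dvd_add h0 h4
    convert this using 1
    push_cast
    ring
  -- Step 2: induction on the index
  suffices H : ∀ N : ℕ, ∀ k : Fin m, (k : ℕ) = N → (p : ℤ) ∣ e k from fun k => H k k rfl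
  intro N
  induction N using Nat.strong_induction_on with
  | _ N ih =>
    intro k hk
    have hlead : ∀ k' ∈ (Finset.univ : Finset (Fin m)),
        Lead (λ) (lev k) (if k' = k then e k * c k else 0)
          (((v k' ^ e k' : (𝓞 K)ˣ)) : 𝓞 K) := by
      intro k' _
      rcases lt_trichotomy k' k with hlt | heq | hgt
      · rw [if_neg hlt.ne]
        have hdvd : (p : ℤ) ∣ e k' := ih k' (by rw [← hk]; exact hlt) k' rfl
        have h1' := zpow_mem_congSubgroup_of_dvd hζ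
          (congSubgroup_mono (h1 k') (hv1 k')) hdvd
        have := h2 k
        exact Lead.mono (mem_congSubgroup_iff.1 h1') (by omega)
      · subst heq
        rw [if_pos rfl]
        exact (hv k').units_zpow (h1 k') (e k')
      · rw [if_neg hgt.ne']
        have h1' : v k' ^ e k' ∈ congSubgroup (λ) (lev k') :=
          Subgroup.zpow_mem _ (hv1 k') _
        have hgt' : lev k < lev k' := hlev hgt
        exact Lead.mono (mem_congSubgroup_iff.1 h1') (by omega)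
    have hprod := Lead.prod (h1 k) Finset.univ hlead
    rw [Finset.sum_ite_eq' Finset.univ k, if_pos (Finset.mem_univ k)] at hprod
    have hcoe : ((P : (𝓞 K)ˣ) : 𝓞 K) = ∏ k', (((v k' ^ e k' : (𝓞 K)ˣ)) : 𝓞 K) := by
      rw [hP, Units.coe_prod]
    rw [← hcoe] at hprod
    have hP' : λ ^ (lev k + 1) ∣ (P : 𝓞 K) - 1 := by
      have := h2 k
      exact (pow_dvd_pow _ (by omega)).trans (mem_congSubgroup_iff.1 hPp)
    have hfin := Lead.dvd_of_dvd hζ hprod hP'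
    rcases (Nat.prime_iff_prime_int.mp hp.out).dvd_or_dvd hfin with h1' | h1'
    · exact h1'
    · exact absurd h1' (hc k)

end ClaimA

end Fermat.Agent.S10
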