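import Mathlib
import Fermat.Agent.S10.Triangular

/-!
# A small verified calculator for `λ`-adic expansions of cyclotomic units

Elements of `ℤ[ζ]` are represented modulo `(p, λ ^ N)` (with `λ = ζ - 1`, `N ≤ p - 1`) by the list
of the first `N` coefficients of their expansion in powers of `λ`.
-/

set_option linter.unusedSectionVars false

namespace Fermat.Agent.S10

/-! ### List arithmetic (polynomials in one variable with natural coefficients) -/

/-- Addition of coefficient lists. -/
def ladd : List ℕ → List ℕ → List ℕ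
  | [], M => M
  | a :: L, [] => a :: L
  | a :: L, b :: M => (a + b) :: ladd L M

/-- Scalar multiplication of a coefficient list. -/
def lsmul (c : ℕ) : List ℕ → List ℕ
  | [] => []
  | a :: L => (c * a) :: lsmul c L

/-- Multiplication of coefficient lists. -/
def lmul : List ℕ → List ℕ → List ℕ
  | [], _ => []
  | a :: L, M => ladd (lsmul a M) (0 :: lmul L M)

/-- Truncate to `N` coefficients and reduce them modulo `p`. -/
def lred (p : ℕ) : ℕ → List ℕ → List ℕ
  | 0, _ => []
  | _ + 1, [] => []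
  | N + 1, a :: L => (a % p) :: lred p N L

/-- Truncated multiplication. -/
def lmulT (p N : ℕ) (L M : List ℕ) : List ℕ := lred p N (lmul L M)

/-- Truncated power. -/
def lpowT (p N : ℕ) (L : List ℕ) : ℕ → List ℕ
  | 0 => [1]
  | n + 1 => lmulT p N (lpowT p N L n) L

/-- The expansion of `1 + ζ + ⋯ + ζ ^ (a - 1)` where `ζ = 1 + λ`. -/
def lgeom (p N : ℕ) : ℕ → List ℕ
  | 0 => []
  | a + 1 => lred p N (ladd [1] (lmul [1, 1] (lgeom p N a)))

section Val

variable {R : Type*} [CommRing R] (l : R)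

/-- Value of a coefficient list at `l`. -/
def lval : List ℕ → R
  | [] => 0
  | a :: L => (a : R) + l * lval L

@[simp] lemma lval_nil : lval l [] = 0 := rfl

@[simp] lemma lval_cons (a : ℕ) (L : List ℕ) : lval l (a :: L) = (a : R) + l * lval l L := rfl

lemma lval_ladd : ∀ L M : List ℕ, lval l (ladd L M) = lval l L + lval l M
  | [], M => by simp [ladd]
  | a :: L, [] => by simp [ladd]
  | a :: L, b :: M => by
    simp only [ladd, lval_cons, lval_ladd L M]
    push_cast
    ring

lemma lval_lsmul (c : ℕ) : ∀ L : List ℕ, lval l (lsmul c L) = (c : R) * lval l L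
  | [] => by simp [lsmul]
  | a :: L => by
    simp only [lsmul, lval_cons, lval_lsmul c L]
    push_cast
    ring

lemma lval_lmul : ∀ L M : List ℕ, lval l (lmul L M) = lval l L * lval l M
  | [], M => by simp [lmul]
  | a :: L, M => by
    simp only [lmul, lval_ladd, lval_lsmul, lval_cons, lval_lmul L M]
    push_cast
    ring

lemma lval_lred {p : ℕ} : ∀ (N : ℕ) (L : List ℕ), l ^ N ∣ (p : R) →
    l ^ N ∣ lval l L - lval l (lred p N L)
  | 0, L, _ => by simp
  | N + 1, [], _ => by simp [lred]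
  | N + 1, a :: L, h => by
    have hN : l ^ N ∣ (p : R) := (pow_dvd_pow l (Nat.le_succ N)).trans h
    obtain ⟨t, ht⟩ := lval_lred N L hN
    obtain ⟨s, hs⟩ := h
    refine ⟨t + ((a / p : ℕ) : R) * s, ?_⟩
    have ha : (a : R) = ((a % p : ℕ) : R) + (p : R) * ((a / p : ℕ) : R) := by
      exact_mod_cast congrArg (Nat.cast : ℕ → R) (Nat.mod_add_div a p).symm
    simp only [lred, lval_cons]
    rw [pow_succ] at hs ⊢
    linear_combination ha + l * ht + ((a / p : ℕ) : R) * hs

/-- `x` is represented by the list `L` modulo `l ^ N`. -/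
def Rep (N : ℕ) (L : List ℕ) (x : R) : Prop := l ^ N ∣ x - lval l L

variable {l}

lemma Rep.of_eq {N : ℕ} {L : List ℕ} {x : R} (h : x = lval l L) : Rep l N L x := by
  simp [Rep, h]

lemma Rep.red {p N : ℕ} {L : List ℕ} {x : R} (hpN : l ^ N ∣ (p : R)) (h : Rep l N L x) :
    Rep l N (lred p N L) x := by
  have := dvd_add h (lval_lred l N L hpN)
  simpa [Rep] using this

lemma Rep.mul {p N : ℕ} {L M : List ℕ} {x y : R} (hpN : l ^ N ∣ (p : R)) (hx : Rep l N L x)
    (hy : Rep l N M y) : Rep l N (lmulT p N L M) (x * y) := by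
  refine Rep.red hpN ?_
  obtain ⟨s, hs⟩ := hx
  obtain ⟨t, ht⟩ := hy
  refine ⟨s * y + lval l L * t, ?_⟩
  rw [lval_lmul]
  linear_combination y * hs + lval l L * ht

lemma Rep.pow {p N : ℕ} {L : List ℕ} {x : R} (hpN : l ^ N ∣ (p : R)) (hx : Rep l N L x) :
    ∀ n : ℕ, Rep l N (lpowT p N L n) (x ^ n)
  | 0 => Rep.of_eq (by simp [lpowT])
  | n + 1 => by
    rw [pow_succ]
    exact (Rep.pow hpN hx n).mul hpN hx

lemma Rep.geom {p N : ℕ} (hpN : l ^ N ∣ (p : R)) {ζ : R} (hζ : ζ = 1 + l) :
    ∀ a : ℕ, Rep l N (lgeom p N a) (∑ i ∈ Finset.range a, ζ ^ i)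
  | 0 => Rep.of_eq (by simp [lgeom])
  | a + 1 => by
    refine Rep.red hpN ?_
    obtain ⟨s, hs⟩ := Rep.geom hpN hζ a
    refine ⟨ζ * s, ?_⟩
    rw [geom_sum_succ, lval_ladd, lval_lmul]
    simp only [lval_cons, lval_nil]
    rw [hζ] at hs ⊢
    push_cast
    linear_combination (1 + l) * hs

end Val

/-! ### Expressions -/

/-- Expressions for products of powers of `ζ` and of the cyclotomic units
`g a = 1 + ζ + ⋯ + ζ ^ (a - 1)`. -/
inductive UExpr : Type
  | z : UExpr
  | g : ℕ → UExpr
  | mul : UExpr → UExpr → UExpr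
  | pow : UExpr → ℕ → UExpr

namespace UExpr

/-- Value of an expression. -/
def eval {R : Type*} [CommRing R] (ζ : R) : UExpr → R
  | z => ζ
  | g a => ∑ i ∈ Finset.range a, ζ ^ i
  | mul x y => x.eval ζ * y.eval ζ
  | pow x n => x.eval ζ ^ n

/-- The coefficient list of an expression modulo `(p, λ ^ N)`. -/
def toList (p N : ℕ) : UExpr → List ℕ
  | z => lred p N [1, 1]
  | g a => lgeom p N a
  | mul x y => lmulT p N (x.toList p N) (y.toList p N)
  | pow x n => lpowT p N (x.toList p N) n

/-- Well-formedness: every `g a` has `0 < a < p`. -/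
def wf (p : ℕ) : UExpr → Bool
  | z => true
  | g a => decide (0 < a) && decide (a < p)
  | mul x y => x.wf p && y.wf p
  | pow x _ => x.wf p

lemma rep {R : Type*} [CommRing R] {l ζ : R} {p N : ℕ} (hpN : l ^ N ∣ (p : R))
    (hζ : ζ = 1 + l) : ∀ e : UExpr, Rep l N (e.toList p N) (e.eval ζ)
  | z => Rep.red hpN (Rep.of_eq (by simp [eval, hζ]))
  | g a => Rep.geom hpN hζ a
  | mul x y => (rep hpN hζ x).mul hpN (rep hpN hζ y)
  | pow x n => (rep hpN hζ x).pow hpN n

lemma isUnit_eval {R : Type*} [CommRing R] [IsDomain R] {ζ : R} {p : ℕ} (hp : p.Prime)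
    (hζ : IsPrimitiveRoot ζ p) : ∀ e : UExpr, e.wf p = true → IsUnit (e.eval ζ)
  | z, _ => hζ.isUnit hp.ne_zero
  | g a, h => by
    simp only [wf, Bool.and_eq_true, decide_eq_true_eq] at h
    refine hζ.geom_sum_isUnit hp.two_le ?_
    exact (Nat.coprime_of_lt_prime (Nat.pos_iff_ne_zero.1 h.1) h.2 hp).symm
  | mul x y, h => by
    simp only [wf, Bool.and_eq_true] at h
    exact (isUnit_eval hp hζ x h.1).mul (isUnit_eval hp hζ y h.2)
  | pow x n, h => (isUnit_eval hp hζ x h).pow n

end UExpr

section Final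

variable {R : Type*} [CommRing R] {l : R}

lemma lval_replicate_append (i : ℕ) (L : List ℕ) :
    lval l (List.replicate i 0 ++ L) = l ^ i * lval l L := by
  induction i with
  | zero => simp
  | succ n ih =>
    rw [List.replicate_succ, List.cons_append, lval_cons, ih]
    push_cast
    ring

/-- From the computed coefficient list to the leading-term statement. -/
lemma lead_of_toList {ζ : R} {p : ℕ} (hζ : ζ = 1 + l) (e : UExpr) (i c : ℕ)
    (hpN : l ^ (i + 2) ∣ (p : R))
    (h : e.toList p (i + 2) = 1 :: (List.replicate i 0 ++ [c])) :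
    Lead l (i + 1) (c : ℤ) (e.eval ζ) := by
  have hrep := UExpr.rep hpN hζ e
  rw [h] at hrep
  unfold Rep at hrep
  rw [lval_cons, lval_replicate_append] at hrep
  simp only [lval_cons, lval_nil, mul_zero, add_zero] at hrep
  unfold Lead
  convert hrep using 1
  push_cast
  ring

end Final

end Fermat.Agent.S10
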