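import Mathlib
import Fermat.Agent.S10.UnitsCalc

/-!
# Explicit independent units for `p = 5, 7, 11, 13`

For each of these primes we exhibit `(p - 1) / 2` units of `ℤ[ζ_p]` (namely `ζ` and suitable
products of the cyclotomic units `1 + ζ + ⋯ + ζ ^ (a - 1)`) which are independent modulo units
congruent to a rational integer mod `p`.
-/

set_option linter.unusedSectionVars false

namespace Fermat.Agent.S10

open NumberField

section Generic

variable {p : ℕ} [hp : Fact p.Prime] {K : Type*} [Field K] [NumberField K]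
  [hK : IsCyclotomicExtension {p} ℚ K]

/-- Packaging: a family of expressions whose computed `λ`-adic expansions are triangular gives a
family of independent units. -/
theorem hindep_of_exprs {m : ℕ} (ex : Fin m → UExpr) (lev : Fin m → ℕ) (c : Fin m → ℕ)
    (hwf : ∀ k, (ex k).wf p = true)
    (hlev : StrictMono lev) (h2 : ∀ k, lev k + 1 + 2 ≤ p)
    (hc : ∀ k, ¬ p ∣ c k)
    (hlist : ∀ k, (ex k).toList p (lev k + 2) = 1 :: (List.replicate (lev k) 0 ++ [c k])) :
    ∃ v : Fin m → (𝓞 K)ˣ, ∀ e : Fin m → ℤ,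
      (∃ n : ℤ, (p : 𝓞 K) ∣ ((∏ i, v i ^ e i : (𝓞 K)ˣ) : 𝓞 K) - n) → ∀ i, (p : ℤ) ∣ e i := by
  have hζ : IsPrimitiveRoot (IsCyclotomicExtension.zeta p ℚ K) p :=
    IsCyclotomicExtension.zeta_spec p ℚ K
  have hz := hζ.toInteger_isPrimitiveRoot
  have hu : ∀ k, IsUnit ((ex k).eval hζ.toInteger) := fun k =>
    UExpr.isUnit_eval hp.out hz (ex k) (hwf k)
  refine ⟨fun k => (hu k).unit, ?_⟩
  refine hindep_of_triangular hζ (fun k => (hu k).unit) (fun k => lev k + 1) (fun k => (c k : ℤ))
    (fun a b hab => Nat.succ_lt_succ (hlev hab)) (fun k => Nat.succ_le_succ (Nat.zero_le _)) h2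
    (fun k h => hc k (by exact_mod_cast h)) ?_
  intro k
  have hpN : (hζ.toInteger - 1) ^ (lev k + 2) ∣ (p : 𝓞 K) :=
    (pow_dvd_pow _ (by have := h2 k; omega)).trans (lam_pow_dvd_p hζ)
  have := lead_of_toList (l := hζ.toInteger - 1) (ζ := hζ.toInteger) (p := p) (by ring) (ex k)
    (lev k) (c k) hpN (hlist k)
  simpa using this

end Generic

end Fermat.Agent.S10
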