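import Mathlib
import Fermat.Agent.S10.UnitsIndep
import Fermat.Agent.S11.CaseII
import Fermat.Agent.S11.helper94_KummerGeneric

/-!
# Kummer's lemma for `p = 5, 7, 11, 13`

A unit of `ℤ[ζ_p]` congruent to a rational integer modulo `p` is a `p`-th power, for
`p = 5, 7, 11, 13`. The proof uses explicit units with triangular `λ`-adic expansions (checked by
kernel computation) and Dirichlet's unit theorem (through `kummerLemma_of_indep`).
-/

namespace Fermat.Agent.S10

open NumberField UExpr

/-- The units used for `p = 5`. -/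
def unitExprs5 : Fin 2 → UExpr :=
  ![z,
    pow (mul (pow z 2) (g 2)) 4]

/-- Their levels (minus one) for `p = 5`. -/
def unitLevels5 : Fin 2 → ℕ := ![0, 1]

/-- Their leading coefficients for `p = 5`. -/
def unitCoeffs5 : Fin 2 → ℕ := ![1, 3]

set_option maxRecDepth 100000 in
theorem unitExprs5_toList : ∀ k, (unitExprs5 k).toList 5 (unitLevels5 k + 2) =
    1 :: (List.replicate (unitLevels5 k) 0 ++ [unitCoeffs5 k]) := by
  decide +kernel

/-- **Kummer's lemma** for `p = 5`. -/
theorem kummerLemma_five (K : Type*) [Field K] [NumberField K]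
    [IsCyclotomicExtension {5} ℚ K] : Fermat.Agent.S11.KummerLemma 5 K := by
  have : Fact (Nat.Prime 5) := ⟨by norm_num⟩
  obtain ⟨v, hv⟩ := hindep_of_exprs (p := 5) (K := K) unitExprs5 unitLevels5 unitCoeffs5
    (by decide) (by intro a b; revert a b; decide) (by decide) (by decide) unitExprs5_toList
  exact Fermat.Agent.S11.helper94.kummerLemma_of_indep K (by norm_num) v hv

/-- The units used for `p = 7`. -/
def unitExprs7 : Fin 3 → UExpr :=
  ![z,
    pow (mul (pow z 3) (g 2)) 6,
    pow (mul (pow z 5) (mul (pow (g 2) 2) (g 3))) 6]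

/-- Their levels (minus one) for `p = 7`. -/
def unitLevels7 : Fin 3 → ℕ := ![0, 1, 3]

/-- Their leading coefficients for `p = 7`. -/
def unitCoeffs7 : Fin 3 → ℕ := ![1, 6, 4]

set_option maxRecDepth 100000 in
theorem unitExprs7_toList : ∀ k, (unitExprs7 k).toList 7 (unitLevels7 k + 2) =
    1 :: (List.replicate (unitLevels7 k) 0 ++ [unitCoeffs7 k]) := by
  decide +kernel

/-- **Kummer's lemma** for `p = 7`. -/
theorem kummerLemma_seven (K : Type*) [Field K] [NumberField K]
    [IsCyclotomicExtension {7} ℚ K] : Fermat.Agent.S11.KummerLemma 7 K := by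
  have : Fact (Nat.Prime 7) := ⟨by norm_num⟩
  obtain ⟨v, hv⟩ := hindep_of_exprs (p := 7) (K := K) unitExprs7 unitLevels7 unitCoeffs7
    (by decide) (by intro a b; revert a b; decide) (by decide) (by decide) unitExprs7_toList
  exact Fermat.Agent.S11.helper94.kummerLemma_of_indep K (by norm_num) v hv

/-- The units used for `p = 11`. -/
def unitExprs11 : Fin 5 → UExpr :=
  ![z,
    pow (mul (pow z 5) (g 2)) 10,
    pow (mul (pow z 4) (mul (g 2) (g 3))) 10,
    pow (mul (pow z 5) (mul (pow (g 2) 7) (mul (g 3) (g 4)))) 10,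
    pow (mul (z) (mul (pow (g 2) 5) (mul (pow (g 3) 3) (mul (pow (g 4) 9) (g 5))))) 10]

/-- Their levels (minus one) for `p = 11`. -/
def unitLevels11 : Fin 5 → ℕ := ![0, 1, 3, 5, 7]

/-- Their leading coefficients for `p = 11`. -/
def unitCoeffs11 : Fin 5 → ℕ := ![1, 4, 2, 10, 9]

set_option maxRecDepth 100000 in
theorem unitExprs11_toList : ∀ k, (unitExprs11 k).toList 11 (unitLevels11 k + 2) =
    1 :: (List.replicate (unitLevels11 k) 0 ++ [unitCoeffs11 k]) := by
  decide +kernel

/-- **Kummer's lemma** for `p = 11`. -/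
theorem kummerLemma_eleven (K : Type*) [Field K] [NumberField K]
    [IsCyclotomicExtension {11} ℚ K] : Fermat.Agent.S11.KummerLemma 11 K := by
  have : Fact (Nat.Prime 11) := ⟨by norm_num⟩
  obtain ⟨v, hv⟩ := hindep_of_exprs (p := 11) (K := K) unitExprs11 unitLevels11 unitCoeffs11
    (by decide) (by intro a b; revert a b; decide) (by decide) (by decide) unitExprs11_toList
  exact Fermat.Agent.S11.helper94.kummerLemma_of_indep K (by norm_num) v hv

/-- The units used for `p = 13`. -/
def unitExprs13 : Fin 6 → UExpr :=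
  ![z,
    pow (mul (pow z 6) (g 2)) 12,
    pow (mul (pow z 9) (mul (pow (g 2) 6) (g 3))) 12,
    pow (mul (pow z 6) (mul (pow (g 2) 7) (mul (pow (g 3) 2) (g 4)))) 12,
    pow (mul (z) (mul (pow (g 2) 12) (mul (pow (g 3) 11) (mul (pow (g 4) 4) (g 5))))) 12,
    pow (mul (pow z 2) (mul (pow (g 2) 3) (mul (pow (g 3) 10) (mul (pow (g 4) 12) (mul (pow (g 5) 9) (g 6)))))) 12]

/-- Their levels (minus one) for `p = 13`. -/
def unitLevels13 : Fin 6 → ℕ := ![0, 1, 3, 5, 7, 9]

/-- Their leading coefficients for `p = 13`. -/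
def unitCoeffs13 : Fin 6 → ℕ := ![1, 8, 2, 12, 12, 11]

set_option maxRecDepth 100000 in
theorem unitExprs13_toList : ∀ k, (unitExprs13 k).toList 13 (unitLevels13 k + 2) =
    1 :: (List.replicate (unitLevels13 k) 0 ++ [unitCoeffs13 k]) := by
  decide +kernel

/-- **Kummer's lemma** for `p = 13`. -/
theorem kummerLemma_thirteen (K : Type*) [Field K] [NumberField K]
    [IsCyclotomicExtension {13} ℚ K] : Fermat.Agent.S11.KummerLemma 13 K := by
  have : Fact (Nat.Prime 13) := ⟨by norm_num⟩
  obtain ⟨v, hv⟩ := hindep_of_exprs (p := 13) (K := K) unitExprs13 unitLevels13 unitCoeffs13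
    (by decide) (by intro a b; revert a b; decide) (by decide) (by decide) unitExprs13_toList
  exact Fermat.Agent.S11.helper94.kummerLemma_of_indep K (by norm_num) v hv

end Fermat.Agent.S10
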