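import Mathlib

/-!
# Tools for proving that `𝓞 K` is a PID for small prime cyclotomic fields (helper12)

Generic lemmas: primes above `q` in `ℚ(ζ_p)` cut out by a factor of the cyclotomic polynomial
mod `q` (Kummer-Dedekind) and a certificate-based criterion for such a prime to be principal.
-/

set_option autoImplicit false

namespace Fermat.Agent.S10.helper12

open NumberField Polynomial Ideal

section core

variable (p : ℕ) [hp : Fact p.Prime] (K : Type*) [Field K] [NumberField K]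
  [hK : IsCyclotomicExtension {p} ℚ K]

/-- The chosen primitive `p`-th root of unity, as an algebraic integer. -/
noncomputable abbrev zetaInt : 𝓞 K := (IsCyclotomicExtension.zeta_spec p ℚ K).toInteger

theorem minpoly_zetaInt : minpoly ℤ (zetaInt p K) = cyclotomic p ℤ := by
  rw [← RingOfIntegers.minpoly_coe]
  exact (cyclotomic_eq_minpoly (IsCyclotomicExtension.zeta_spec p ℚ K) hp.out.pos).symm

theorem not_dvd_exponent_zetaInt (q : ℕ) [hq : Fact q.Prime] :
    ¬ q ∣ RingOfIntegers.exponent (zetaInt p K) := by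
  rw [RingOfIntegers.exponent_eq_one_iff.mpr <|
    IsCyclotomicExtension.Rat.adjoin_singleton_eq_top (IsCyclotomicExtension.zeta_spec p ℚ K)]
  exact hq.out.not_dvd_one

theorem sum_zetaInt_pow : ∑ i ∈ Finset.range p, (zetaInt p K) ^ i = 0 := by
  have h := minpoly.aeval ℤ (zetaInt p K)
  rw [minpoly_zetaInt, cyclotomic_prime] at h
  simpa using h

/-- Kummer–Dedekind: a monic irreducible factor `Q mod q` of the cyclotomic polynomial gives the
prime `(q, Q(ζ))` above `q`. -/
theorem span_pair_mem_primesOver (q : ℕ) [hq : Fact q.Prime] (Q : ℤ[X])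
    (hQmonic : (Q.map (Int.castRingHom (ZMod q))).Monic)
    (hQirr : Irreducible (Q.map (Int.castRingHom (ZMod q))))
    (hQdvd : Q.map (Int.castRingHom (ZMod q)) ∣ cyclotomic p (ZMod q)) :
    span {(q : 𝓞 K), aeval (zetaInt p K) Q} ∈ primesOver (span {(q : ℤ)}) (𝓞 K) := by
  classical
  have hexp := not_dvd_exponent_zetaInt p K q
  have hne : map (Int.castRingHom (ZMod q)) (minpoly ℤ (zetaInt p K)) ≠ 0 :=
    map_monic_ne_zero (minpoly.monic (zetaInt p K).isIntegral)
  have hQ : Q.map (Int.castRingHom (ZMod q)) ∈ RingOfIntegers.monicFactorsMod (zetaInt p K) q := by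
    rw [Multiset.mem_toFinset, Polynomial.mem_normalizedFactors_iff hne]
    refine ⟨hQirr, hQmonic, ?_⟩
    rw [minpoly_zetaInt, map_cyclotomic]
    exact hQdvd
  rw [← NumberField.Ideal.primesOverSpanEquivMonicFactorsMod_symm_apply_eq_span hexp hQ]
  exact ((NumberField.Ideal.primesOverSpanEquivMonicFactorsMod hexp).symm ⟨_, hQ⟩).prop

/-- Certificate criterion: if `α β = q`, `α γ = Q(ζ)` and `α = q δ + Q(ζ) ε`, then the prime
`(q, Q(ζ))` is principal, generated by `α`. -/
theorem exists_isPrincipal_primesOver (q : ℕ) [hq : Fact q.Prime] (Q : ℤ[X])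
    (hQmonic : (Q.map (Int.castRingHom (ZMod q))).Monic)
    (hQirr : Irreducible (Q.map (Int.castRingHom (ZMod q))))
    (hQdvd : Q.map (Int.castRingHom (ZMod q)) ∣ cyclotomic p (ZMod q))
    (α β γ δ ε : 𝓞 K) (h1 : α * β = (q : 𝓞 K)) (h2 : α * γ = aeval (zetaInt p K) Q)
    (h3 : α = (q : 𝓞 K) * δ + aeval (zetaInt p K) Q * ε) :
    ∃ P ∈ primesOver (span {(q : ℤ)}) (𝓞 K), Submodule.IsPrincipal P := by
  refine ⟨_, span_pair_mem_primesOver p K q Q hQmonic hQirr hQdvd, ⟨α, ?_⟩⟩
  apply le_antisymm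
  · rw [Ideal.span_le]
    rintro x (rfl | rfl)
    · exact Ideal.mem_span_singleton.mpr ⟨β, h1.symm⟩
    · exact Ideal.mem_span_singleton.mpr ⟨γ, h2.symm⟩
  · rw [Ideal.submodule_span_eq, Ideal.span_le, Set.singleton_subset_iff, SetLike.mem_coe, h3]
    exact Ideal.add_mem _ (Ideal.mul_mem_right _ _ (Ideal.subset_span (by simp)))
      (Ideal.mul_mem_right _ _ (Ideal.subset_span (by simp)))

/-- For a prime `q ≠ p`, some prime above `q` has norm `q ^ orderOf (q mod p)`. -/
theorem exists_primesOver_lt_pow (q : ℕ) [hq : Fact q.Prime] (hqp : q ≠ p) (B f : ℕ)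
    (hf : orderOf (q : ZMod p) = f) (hB : B < q ^ f) :
    ∃ P ∈ primesOver (span {(q : ℤ)}) (𝓞 K), B < q ^ P.inertiaDeg ℤ ∨ Submodule.IsPrincipal P := by
  obtain ⟨⟨P, hP1, hP2⟩⟩ := (span {(q : ℤ)}).nonempty_primesOver (S := 𝓞 K)
  refine ⟨P, ⟨hP1, hP2⟩, Or.inl ?_⟩
  have hndvd : ¬ q ∣ p := fun h => hqp ((Nat.prime_dvd_prime_iff_eq hq.out hp.out).mp h)
  rw [IsCyclotomicExtension.Rat.inertiaDeg_eq_of_not_dvd q K P hndvd, hf]
  exact hB

/-- The prime above `p` is principal. -/
theorem exists_isPrincipal_primesOver_self :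
    ∃ P ∈ primesOver (span {(p : ℤ)}) (𝓞 K), Submodule.IsPrincipal P := by
  obtain ⟨⟨P, hP1, hP2⟩⟩ := (span {(p : ℤ)}).nonempty_primesOver (S := 𝓞 K)
  refine ⟨P, ⟨hP1, hP2⟩, ⟨zetaInt p K - 1, ?_⟩⟩
  exact IsCyclotomicExtension.Rat.eq_span_zeta_sub_one_of_liesOver' p K
      (IsCyclotomicExtension.zeta_spec p ℚ K) P

end core

end Fermat.Agent.S10.helper12
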