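import Mathlib
import Fermat.Agent.S10.helper12_PIDCore

/-!
# `ℤ[ζ_13]` is a PID (helper12)

Minkowski bound `< 307`; primes `q ≤ 306` either have `q ^ f > 306` (`f` = order of `q` mod `13`),
or a prime above `q` is principal by an explicit certificate.
-/

set_option autoImplicit false

namespace Fermat.Agent.S10.helper12

open NumberField Polynomial Ideal Module

section p13

local instance fact_prime_13 : Fact (Nat.Prime 13) := ⟨by norm_num⟩

theorem isRoot_cyclotomic_13_53 : (cyclotomic 13 (ZMod 53)).IsRoot (36 : ZMod 53) := by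
  rw [cyclotomic_prime, IsRoot.def, eval_finsetSum]
  simp only [eval_pow, eval_X]
  decide

theorem exists_isPrincipal_primesOver_13_53 (K : Type*) [Field K] [NumberField K]
    [hK : IsCyclotomicExtension {13} ℚ K] :
    ∃ P ∈ primesOver (span {((53 : ℕ) : ℤ)}) (𝓞 K), Submodule.IsPrincipal P := by
  have : Fact (Nat.Prime 53) := ⟨by norm_num⟩
  have hΦ := sum_zetaInt_pow 13 K
  simp only [Finset.sum_range_succ, Finset.sum_range_zero, zero_add, pow_zero, pow_one] at hΦ
  set ζ := zetaInt 13 K with hζdef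
  have hmap : (X - C (36 : ℤ)).map (Int.castRingHom (ZMod 53)) = X - C (36 : ZMod 53) := by
    rw [Polynomial.map_sub, Polynomial.map_X, Polynomial.map_C, map_ofNat]
  have hQ : aeval ζ (X - C (36 : ℤ)) = ζ - 36 := by
    rw [map_sub, aeval_X, aeval_C, map_ofNat]
  refine exists_isPrincipal_primesOver 13 K 53 (X - C (36 : ℤ)) ?_ ?_ ?_
    (1 + ζ + ζ ^ 3)
    (1 - 24 * ζ - 35 * ζ ^ 2 - 25 * ζ ^ 3 - 10 * ζ ^ 4 - 14 * ζ ^ 5 - 20 * ζ ^ 6 - 29 * ζ ^ 7 - 16 * ζ ^ 8 - 23 * ζ ^ 9 - 7 * ζ ^ 10 - 36 * ζ ^ 11)
    (17 * ζ + 24 * ζ ^ 2 + 17 * ζ ^ 3 + 7 * ζ ^ 4 + 10 * ζ ^ 5 + 14 * ζ ^ 6 + 20 * ζ ^ 7 + 11 * ζ ^ 8 + 16 * ζ ^ 9 + 5 * ζ ^ 10 + 25 * ζ ^ 11)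
    (881) (1297 + 36 * ζ + ζ ^ 2) ?_ ?_ ?_
  · rw [hmap]; exact monic_X_sub_C _
  · rw [hmap]; exact irreducible_X_sub_C _
  · rw [hmap, dvd_iff_isRoot]
    exact isRoot_cyclotomic_13_53
  · push_cast
    linear_combination (-52 + 29 * ζ - 36 * ζ ^ 2) * hΦ
  · rw [hQ]
    linear_combination (36 - 20 * ζ + 25 * ζ ^ 2) * hΦ
  · rw [hQ]; push_cast; ring

theorem isRoot_cyclotomic_13_79 : (cyclotomic 13 (ZMod 79)).IsRoot (64 : ZMod 79) := by
  rw [cyclotomic_prime, IsRoot.def, eval_finsetSum]
  simp only [eval_pow, eval_X]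
  decide

theorem exists_isPrincipal_primesOver_13_79 (K : Type*) [Field K] [NumberField K]
    [hK : IsCyclotomicExtension {13} ℚ K] :
    ∃ P ∈ primesOver (span {((79 : ℕ) : ℤ)}) (𝓞 K), Submodule.IsPrincipal P := by
  have : Fact (Nat.Prime 79) := ⟨by norm_num⟩
  have hΦ := sum_zetaInt_pow 13 K
  simp only [Finset.sum_range_succ, Finset.sum_range_zero, zero_add, pow_zero, pow_one] at hΦ
  set ζ := zetaInt 13 K with hζdef
  have hmap : (X - C (64 : ℤ)).map (Int.castRingHom (ZMod 79)) = X - C (64 : ZMod 79) := by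
    rw [Polynomial.map_sub, Polynomial.map_X, Polynomial.map_C, map_ofNat]
  have hQ : aeval ζ (X - C (64 : ℤ)) = ζ - 64 := by
    rw [map_sub, aeval_X, aeval_C, map_ofNat]
  refine exists_isPrincipal_primesOver 13 K 79 (X - C (64 : ℤ)) ?_ ?_ ?_
    (1 + ζ - ζ ^ 4)
    (24 - 25 * ζ - 27 * ζ ^ 2 + 10 * ζ ^ 3 - 3 * ζ ^ 4 - 39 * ζ ^ 5 - 5 * ζ ^ 6 - 2 * ζ ^ 7 - 18 * ζ ^ 8 - 38 * ζ ^ 9 + 16 * ζ ^ 10 - 35 * ζ ^ 11)
    (-19 + 21 * ζ + 22 * ζ ^ 2 - 8 * ζ ^ 3 + 3 * ζ ^ 4 + 32 * ζ ^ 5 + 4 * ζ ^ 6 + 2 * ζ ^ 7 + 15 * ζ ^ 8 + 31 * ζ ^ 9 - 13 * ζ ^ 10 + 29 * ζ ^ 11)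
    (-212369) (-262143 - 4096 * ζ - 64 * ζ ^ 2 - ζ ^ 3) ?_ ?_ ?_
  · rw [hmap]; exact monic_X_sub_C _
  · rw [hmap]; exact irreducible_X_sub_C _
  · rw [hmap, dvd_iff_isRoot]
    exact isRoot_cyclotomic_13_79
  · push_cast
    linear_combination (-55 + 54 * ζ - 51 * ζ ^ 2 + 35 * ζ ^ 3) * hΦ
  · rw [hQ]
    linear_combination (45 - 44 * ζ + 42 * ζ ^ 2 - 29 * ζ ^ 3) * hΦ
  · rw [hQ]; push_cast; ring

theorem isRoot_cyclotomic_13_131 : (cyclotomic 13 (ZMod 131)).IsRoot (80 : ZMod 131) := by
  rw [cyclotomic_prime, IsRoot.def, eval_finsetSum]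
  simp only [eval_pow, eval_X]
  decide

theorem exists_isPrincipal_primesOver_13_131 (K : Type*) [Field K] [NumberField K]
    [hK : IsCyclotomicExtension {13} ℚ K] :
    ∃ P ∈ primesOver (span {((131 : ℕ) : ℤ)}) (𝓞 K), Submodule.IsPrincipal P := by
  have : Fact (Nat.Prime 131) := ⟨by norm_num⟩
  have hΦ := sum_zetaInt_pow 13 K
  simp only [Finset.sum_range_succ, Finset.sum_range_zero, zero_add, pow_zero, pow_one] at hΦ
  set ζ := zetaInt 13 K with hζdef
  have hmap : (X - C (80 : ℤ)).map (Int.castRingHom (ZMod 131)) = X - C (80 : ZMod 131) := by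
    rw [Polynomial.map_sub, Polynomial.map_X, Polynomial.map_C, map_ofNat]
  have hQ : aeval ζ (X - C (80 : ℤ)) = ζ - 80 := by
    rw [map_sub, aeval_X, aeval_C, map_ofNat]
  refine exists_isPrincipal_primesOver 13 K 131 (X - C (80 : ℤ)) ?_ ?_ ?_
    (1 - ζ - ζ ^ 3)
    (111 + 78 * ζ + 17 * ζ ^ 2 + 67 * ζ ^ 3 + 84 * ζ ^ 4 + 40 * ζ ^ 5 + 46 * ζ ^ 6 + 69 * ζ ^ 7 + 48 * ζ ^ 8 + 33 * ζ ^ 9 + 41 * ζ ^ 10 + 28 * ζ ^ 11)
    (-68 - 47 * ζ - 10 * ζ ^ 2 - 41 * ζ ^ 3 - 51 * ζ ^ 4 - 24 * ζ ^ 5 - 28 * ζ ^ 6 - 42 * ζ ^ 7 - 29 * ζ ^ 8 - 20 * ζ ^ 9 - 25 * ζ ^ 10 - 17 * ζ ^ 11)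
    (-3909) (-6401 - 80 * ζ - ζ ^ 2) ?_ ?_ ?_
  · rw [hmap]; exact monic_X_sub_C _
  · rw [hmap]; exact irreducible_X_sub_C _
  · rw [hmap, dvd_iff_isRoot]
    exact isRoot_cyclotomic_13_131
  · push_cast
    linear_combination (-20 - 13 * ζ - 28 * ζ ^ 2) * hΦ
  · rw [hQ]
    linear_combination (12 + 8 * ζ + 17 * ζ ^ 2) * hΦ
  · rw [hQ]; push_cast; ring

theorem isRoot_cyclotomic_13_157 : (cyclotomic 13 (ZMod 157)).IsRoot (75 : ZMod 157) := by
  rw [cyclotomic_prime, IsRoot.def, eval_finsetSum]
  simp only [eval_pow, eval_X]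
  decide

theorem exists_isPrincipal_primesOver_13_157 (K : Type*) [Field K] [NumberField K]
    [hK : IsCyclotomicExtension {13} ℚ K] :
    ∃ P ∈ primesOver (span {((157 : ℕ) : ℤ)}) (𝓞 K), Submodule.IsPrincipal P := by
  have : Fact (Nat.Prime 157) := ⟨by norm_num⟩
  have hΦ := sum_zetaInt_pow 13 K
  simp only [Finset.sum_range_succ, Finset.sum_range_zero, zero_add, pow_zero, pow_one] at hΦ
  set ζ := zetaInt 13 K with hζdef
  have hmap : (X - C (75 : ℤ)).map (Int.castRingHom (ZMod 157)) = X - C (75 : ZMod 157) := by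
    rw [Polynomial.map_sub, Polynomial.map_X, Polynomial.map_C, map_ofNat]
  have hQ : aeval ζ (X - C (75 : ℤ)) = ζ - 75 := by
    rw [map_sub, aeval_X, aeval_C, map_ofNat]
  refine exists_isPrincipal_primesOver 13 K 157 (X - C (75 : ℤ)) ?_ ?_ ?_
    (1 - ζ + ζ ^ 2 + ζ ^ 4)
    (89 + 86 * ζ + 42 * ζ ^ 2 + 77 * ζ ^ 3 + 67 * ζ ^ 4 + 25 * ζ ^ 5 + 37 * ζ ^ 6 + 56 * ζ ^ 7 + 73 * ζ ^ 8 + 113 * ζ ^ 9 + 124 * ζ ^ 10 + 76 * ζ ^ 11)
    (-43 - 41 * ζ - 20 * ζ ^ 2 - 37 * ζ ^ 3 - 32 * ζ ^ 4 - 12 * ζ ^ 5 - 18 * ζ ^ 6 - 27 * ζ ^ 7 - 35 * ζ ^ 8 - 54 * ζ ^ 9 - 59 * ζ ^ 10 - 36 * ζ ^ 11)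
    (201568) (421949 + 5626 * ζ + 75 * ζ ^ 2 + ζ ^ 3) ?_ ?_ ?_
  · rw [hmap]; exact monic_X_sub_C _
  · rw [hmap]; exact irreducible_X_sub_C _
  · rw [hmap, dvd_iff_isRoot]
    exact isRoot_cyclotomic_13_157
  · push_cast
    linear_combination (-68 + 65 * ζ + 48 * ζ ^ 2 + 76 * ζ ^ 3) * hΦ
  · rw [hQ]
    linear_combination (32 - 31 * ζ - 23 * ζ ^ 2 - 36 * ζ ^ 3) * hΦ
  · rw [hQ]; push_cast; ring

theorem map_Q_13_3 :
    (X ^ 3 - X - 1 : ℤ[X]).map (Int.castRingHom (ZMod 3)) = X ^ 3 - X - 1 := by
  simp only [Polynomial.map_sub, Polynomial.map_pow, Polynomial.map_X, Polynomial.map_one]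

theorem natDegree_Q_13_3 : (X ^ 3 - X - 1 : (ZMod 3)[X]).natDegree = 3 := by
  compute_degree!

theorem monic_Q_13_3 : (X ^ 3 - X - 1 : (ZMod 3)[X]).Monic := by
  monicity!

theorem irreducible_Q_13_3 : Irreducible (X ^ 3 - X - 1 : (ZMod 3)[X]) := by
  apply irreducible_of_degree_le_three_of_not_isRoot
  · rw [natDegree_Q_13_3]; decide
  · intro x
    rw [IsRoot.def]
    simp only [eval_sub, eval_pow, eval_X, eval_one]
    revert x
    decide

theorem dvd_Q_13_3 : (X ^ 3 - X - 1 : (ZMod 3)[X]) ∣ cyclotomic 13 (ZMod 3) := by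
  have h : cyclotomic 13 ℤ = (X ^ 3 - X - 1) * (20 + 15 * X + 11 * X ^ 2 + 8 * X ^ 3 + 6 * X ^ 4
      + 4 * X ^ 5 + 3 * X ^ 6 + 2 * X ^ 7 + X ^ 8 + X ^ 9) + 3 * (7 + 12 * X + 9 * X ^ 2) := by
    rw [cyclotomic_prime]
    simp only [Finset.sum_range_succ, Finset.sum_range_zero, zero_add, pow_zero, pow_one]
    ring
  have h3 : (3 : (ZMod 3)[X]) = 0 := by
    have := CharP.cast_eq_zero ((ZMod 3)[X]) 3
    exact_mod_cast this
  have := congrArg (Polynomial.map (Int.castRingHom (ZMod 3))) h
  rw [map_cyclotomic] at this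
  rw [this]
  simp only [Polynomial.map_add, Polynomial.map_mul, Polynomial.map_sub, Polynomial.map_pow,
    Polynomial.map_X, Polynomial.map_one, Polynomial.map_ofNat, h3, zero_mul, add_zero]
  exact dvd_mul_right _ _

theorem exists_isPrincipal_primesOver_13_3 (K : Type*) [Field K] [NumberField K]
    [hK : IsCyclotomicExtension {13} ℚ K] :
    ∃ P ∈ primesOver (span {((3 : ℕ) : ℤ)}) (𝓞 K), Submodule.IsPrincipal P := by
  have : Fact (Nat.Prime 3) := ⟨by norm_num⟩
  have hΦ := sum_zetaInt_pow 13 K
  simp only [Finset.sum_range_succ, Finset.sum_range_zero, zero_add, pow_zero, pow_one] at hΦ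
  set ζ := zetaInt 13 K with hζdef
  have hQ : aeval ζ (X ^ 3 - X - 1 : ℤ[X]) = ζ ^ 3 - ζ - 1 := by
    simp only [map_sub, map_pow, aeval_X, map_one]
  refine exists_isPrincipal_primesOver 13 K 3 (X ^ 3 - X - 1) ?_ ?_ ?_
    (1 + ζ - ζ ^ 3)
    (-1 - ζ ^ 2 - ζ ^ 3 - 2 * ζ ^ 5 - ζ ^ 7 - 2 * ζ ^ 8 + ζ ^ 9 - 3 * ζ ^ 10)
    (-1) 0 (-1) ?_ ?_ ?_
  · rw [map_Q_13_3]; exact monic_Q_13_3
  · rw [map_Q_13_3]; exact irreducible_Q_13_3
  · rw [map_Q_13_3]; exact dvd_Q_13_3
  · push_cast
    linear_combination (-4 + 3 * ζ) * hΦ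
  · rw [hQ]; ring
  · rw [hQ]; push_cast; ring

variable (K : Type*) [Field K] [NumberField K] [hK : IsCyclotomicExtension {13} ℚ K]

theorem minkowski_floor_13 :
    ⌊(4 / Real.pi) ^ InfinitePlace.nrComplexPlaces K *
      ((finrank ℚ K).factorial / (finrank ℚ K) ^ (finrank ℚ K) * √|(discr K : ℝ)|)⌋₊ ≤ 306 := by
  rw [IsCyclotomicExtension.Rat.discr_prime 13 K, IsCyclotomicExtension.Rat.finrank 13 K,
    IsCyclotomicExtension.Rat.nrComplexPlaces_eq_totient_div_two 13,
    Nat.totient_prime (by norm_num : Nat.Prime 13)]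
  apply Nat.lt_succ_iff.mp
  rw [Nat.floor_lt (by positivity)]
  have hpi : (3.1415 : ℝ) < Real.pi := Real.pi_gt_d4
  have h1 : (4 / Real.pi) < 4 / 3.1415 := by
    apply div_lt_div_of_pos_left (by norm_num) (by norm_num) hpi
  have h2 : (4 / Real.pi) ^ 6 < (4 / 3.1415) ^ 6 := by
    apply pow_lt_pow_left₀ h1 (by positivity) (by norm_num)
  have h3 : √|(((-1 : ℤ) ^ ((13 - 1) / 2) * (13 : ℕ) ^ (13 - 2) : ℤ) : ℝ)| < 1338716 := by
    rw [Real.sqrt_lt' (by norm_num)]
    norm_num [abs_of_pos]
  have h4 : (0 : ℝ) ≤ √|(((-1 : ℤ) ^ ((13 - 1) / 2) * (13 : ℕ) ^ (13 - 2) : ℤ) : ℝ)| :=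
    Real.sqrt_nonneg _
  have h5 : (0 : ℝ) < (4 / Real.pi) ^ 6 := by positivity
  calc (4 / Real.pi) ^ ((13 - 1) / 2) *
        (((13 - 1 : ℕ).factorial : ℝ) / ((13 - 1 : ℕ) : ℝ) ^ (13 - 1) *
          √|(((-1 : ℤ) ^ ((13 - 1) / 2) * (13 : ℕ) ^ (13 - 2) : ℤ) : ℝ)|)
      = (4 / Real.pi) ^ 6 * ((479001600 : ℝ) / 12 ^ 12 *
          √|(((-1 : ℤ) ^ ((13 - 1) / 2) * (13 : ℕ) ^ (13 - 2) : ℤ) : ℝ)|) := by
        norm_num [Nat.factorial]
    _ ≤ (4 / Real.pi) ^ 6 * ((479001600 : ℝ) / 12 ^ 12 * 1338716) := by
        gcongr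
    _ ≤ (4 / 3.1415) ^ 6 * ((479001600 : ℝ) / 12 ^ 12 * 1338716) := by
        gcongr
    _ < ((306 + 1 : ℕ) : ℝ) := by norm_num

theorem pid13 : IsPrincipalIdealRing (𝓞 K) := by
  have : IsGalois ℚ K := IsCyclotomicExtension.isGalois {13} ℚ K
  apply RingOfIntegers.isPrincipalIdealRing_of_isPrincipal_of_lt_or_isPrincipal_of_mem_primesOver_of_mem_Icc
  intro q hq hqprime
  have hB := minkowski_floor_13 K
  have hqB : q ≤ 306 := (Finset.mem_Icc.mp hq).2.trans hB
  have : Fact q.Prime := ⟨hqprime⟩
  have key : ∀ f : ℕ, q ≠ 13 → orderOf (q : ZMod 13) = f → 306 < q ^ f →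
      ∃ P ∈ primesOver (span {(q : ℤ)}) (𝓞 K),
        ⌊(4 / Real.pi) ^ InfinitePlace.nrComplexPlaces K *
      ((finrank ℚ K).factorial / (finrank ℚ K) ^ (finrank ℚ K) * √|(discr K : ℝ)|)⌋₊
            < q ^ P.inertiaDeg ℤ ∨ Submodule.IsPrincipal P :=
    fun f hne hf hlt => exists_primesOver_lt_pow 13 K q hne _ f hf (lt_of_le_of_lt hB hlt)
  have keyP : (∃ P ∈ primesOver (span {(q : ℤ)}) (𝓞 K), Submodule.IsPrincipal P) →
      ∃ P ∈ primesOver (span {(q : ℤ)}) (𝓞 K),
        ⌊(4 / Real.pi) ^ InfinitePlace.nrComplexPlaces K *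
      ((finrank ℚ K).factorial / (finrank ℚ K) ^ (finrank ℚ K) * √|(discr K : ℝ)|)⌋₊
            < q ^ P.inertiaDeg ℤ ∨ Submodule.IsPrincipal P :=
    fun ⟨P, hP, h⟩ => ⟨P, hP, Or.inr h⟩
  have hq1 : 1 ≤ q := hqprime.one_le
  interval_cases q
  · exact absurd hqprime (by norm_num)
  · exact key 12 (by norm_num) (by rw [orderOf_eq_iff (by norm_num)]; decide) (by norm_num)
  · exact keyP (exists_isPrincipal_primesOver_13_3 K)
  · exact absurd hqprime (by norm_num)
  · exact key 4 (by norm_num) (by rw [orderOf_eq_iff (by norm_num)]; decide) (by norm_num)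
  · exact absurd hqprime (by norm_num)
  · exact key 12 (by norm_num) (by rw [orderOf_eq_iff (by norm_num)]; decide) (by norm_num)
  · exact absurd hqprime (by norm_num)
  · exact absurd hqprime (by norm_num)
  · exact absurd hqprime (by norm_num)
  · exact key 12 (by norm_num) (by rw [orderOf_eq_iff (by norm_num)]; decide) (by norm_num)
  · exact absurd hqprime (by norm_num)
  · exact keyP (exists_isPrincipal_primesOver_self 13 K)
  · exact absurd hqprime (by norm_num)
  · exact absurd hqprime (by norm_num)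
  · exact absurd hqprime (by norm_num)
  · exact key 6 (by norm_num) (by rw [orderOf_eq_iff (by norm_num)]; decide) (by norm_num)
  · exact absurd hqprime (by norm_num)
  · exact key 12 (by norm_num) (by rw [orderOf_eq_iff (by norm_num)]; decide) (by norm_num)
  · exact absurd hqprime (by norm_num)
  · exact absurd hqprime (by norm_num)
  · exact absurd hqprime (by norm_num)
  · exact key 6 (by norm_num) (by rw [orderOf_eq_iff (by norm_num)]; decide) (by norm_num)
  · exact absurd hqprime (by norm_num)
  · exact absurd hqprime (by norm_num)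
  · exact absurd hqprime (by norm_num)
  · exact absurd hqprime (by norm_num)
  · exact absurd hqprime (by norm_num)
  · exact key 3 (by norm_num) (by rw [orderOf_eq_iff (by norm_num)]; decide) (by norm_num)
  · exact absurd hqprime (by norm_num)
  · exact key 4 (by norm_num) (by rw [orderOf_eq_iff (by norm_num)]; decide) (by norm_num)
  · exact absurd hqprime (by norm_num)
  · exact absurd hqprime (by norm_num)
  · exact absurd hqprime (by norm_num)
  · exact absurd hqprime (by norm_num)
  · exact absurd hqprime (by norm_num)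
  · exact key 12 (by norm_num) (by rw [orderOf_eq_iff (by norm_num)]; decide) (by norm_num)
  · exact absurd hqprime (by norm_num)
  · exact absurd hqprime (by norm_num)
  · exact absurd hqprime (by norm_num)
  · exact key 12 (by norm_num) (by rw [orderOf_eq_iff (by norm_num)]; decide) (by norm_num)
  · exact absurd hqprime (by norm_num)
  · exact key 6 (by norm_num) (by rw [orderOf_eq_iff (by norm_num)]; decide) (by norm_num)
  · exact absurd hqprime (by norm_num)
  · exact absurd hqprime (by norm_num)
  · exact absurd hqprime (by norm_num)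
  · exact key 4 (by norm_num) (by rw [orderOf_eq_iff (by norm_num)]; decide) (by norm_num)
  · exact absurd hqprime (by norm_num)
  · exact absurd hqprime (by norm_num)
  · exact absurd hqprime (by norm_num)
  · exact absurd hqprime (by norm_num)
  · exact absurd hqprime (by norm_num)
  · exact keyP (exists_isPrincipal_primesOver_13_53 K)
  · exact absurd hqprime (by norm_num)
  · exact absurd hqprime (by norm_num)
  · exact absurd hqprime (by norm_num)
  · exact absurd hqprime (by norm_num)
  · exact absurd hqprime (by norm_num)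
  · exact key 12 (by norm_num) (by rw [orderOf_eq_iff (by norm_num)]; decide) (by norm_num)
  · exact absurd hqprime (by norm_num)
  · exact key 3 (by norm_num) (by rw [orderOf_eq_iff (by norm_num)]; decide) (by norm_num)
  · exact absurd hqprime (by norm_num)
  · exact absurd hqprime (by norm_num)
  · exact absurd hqprime (by norm_num)
  · exact absurd hqprime (by norm_num)
  · exact absurd hqprime (by norm_num)
  · exact key 12 (by norm_num) (by rw [orderOf_eq_iff (by norm_num)]; decide) (by norm_num)
  · exact absurd hqprime (by norm_num)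
  · exact absurd hqprime (by norm_num)
  · exact absurd hqprime (by norm_num)
  · exact key 12 (by norm_num) (by rw [orderOf_eq_iff (by norm_num)]; decide) (by norm_num)
  · exact absurd hqprime (by norm_num)
  · exact key 4 (by norm_num) (by rw [orderOf_eq_iff (by norm_num)]; decide) (by norm_num)
  · exact absurd hqprime (by norm_num)
  · exact absurd hqprime (by norm_num)
  · exact absurd hqprime (by norm_num)
  · exact absurd hqprime (by norm_num)
  · exact absurd hqprime (by norm_num)
  · exact keyP (exists_isPrincipal_primesOver_13_79 K)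
  · exact absurd hqprime (by norm_num)
  · exact absurd hqprime (by norm_num)
  · exact absurd hqprime (by norm_num)
  · exact key 4 (by norm_num) (by rw [orderOf_eq_iff (by norm_num)]; decide) (by norm_num)
  · exact absurd hqprime (by norm_num)
  · exact absurd hqprime (by norm_num)
  · exact absurd hqprime (by norm_num)
  · exact absurd hqprime (by norm_num)
  · exact absurd hqprime (by norm_num)
  · exact key 12 (by norm_num) (by rw [orderOf_eq_iff (by norm_num)]; decide) (by norm_num)
  · exact absurd hqprime (by norm_num)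
  · exact absurd hqprime (by norm_num)
  · exact absurd hqprime (by norm_num)
  · exact absurd hqprime (by norm_num)
  · exact absurd hqprime (by norm_num)
  · exact absurd hqprime (by norm_num)
  · exact absurd hqprime (by norm_num)
  · exact key 12 (by norm_num) (by rw [orderOf_eq_iff (by norm_num)]; decide) (by norm_num)
  · exact absurd hqprime (by norm_num)
  · exact absurd hqprime (by norm_num)
  · exact absurd hqprime (by norm_num)
  · exact key 6 (by norm_num) (by rw [orderOf_eq_iff (by norm_num)]; decide) (by norm_num)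
  · exact absurd hqprime (by norm_num)
  · exact key 2 (by norm_num) (by rw [orderOf_eq_iff (by norm_num)]; decide) (by norm_num)
  · exact absurd hqprime (by norm_num)
  · exact absurd hqprime (by norm_num)
  · exact absurd hqprime (by norm_num)
  · exact key 3 (by norm_num) (by rw [orderOf_eq_iff (by norm_num)]; decide) (by norm_num)
  · exact absurd hqprime (by norm_num)
  · exact key 4 (by norm_num) (by rw [orderOf_eq_iff (by norm_num)]; decide) (by norm_num)
  · exact absurd hqprime (by norm_num)
  · exact absurd hqprime (by norm_num)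
  · exact absurd hqprime (by norm_num)
  · exact key 3 (by norm_num) (by rw [orderOf_eq_iff (by norm_num)]; decide) (by norm_num)
  · exact absurd hqprime (by norm_num)
  · exact absurd hqprime (by norm_num)
  · exact absurd hqprime (by norm_num)
  · exact absurd hqprime (by norm_num)
  · exact absurd hqprime (by norm_num)
  · exact absurd hqprime (by norm_num)
  · exact absurd hqprime (by norm_num)
  · exact absurd hqprime (by norm_num)
  · exact absurd hqprime (by norm_num)
  · exact absurd hqprime (by norm_num)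
  · exact absurd hqprime (by norm_num)
  · exact absurd hqprime (by norm_num)
  · exact absurd hqprime (by norm_num)
  · exact key 6 (by norm_num) (by rw [orderOf_eq_iff (by norm_num)]; decide) (by norm_num)
  · exact absurd hqprime (by norm_num)
  · exact absurd hqprime (by norm_num)
  · exact absurd hqprime (by norm_num)
  · exact keyP (exists_isPrincipal_primesOver_13_131 K)
  · exact absurd hqprime (by norm_num)
  · exact absurd hqprime (by norm_num)
  · exact absurd hqprime (by norm_num)
  · exact absurd hqprime (by norm_num)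
  · exact absurd hqprime (by norm_num)
  · exact key 12 (by norm_num) (by rw [orderOf_eq_iff (by norm_num)]; decide) (by norm_num)
  · exact absurd hqprime (by norm_num)
  · exact key 3 (by norm_num) (by rw [orderOf_eq_iff (by norm_num)]; decide) (by norm_num)
  · exact absurd hqprime (by norm_num)
  · exact absurd hqprime (by norm_num)
  · exact absurd hqprime (by norm_num)
  · exact absurd hqprime (by norm_num)
  · exact absurd hqprime (by norm_num)
  · exact absurd hqprime (by norm_num)
  · exact absurd hqprime (by norm_num)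
  · exact absurd hqprime (by norm_num)
  · exact absurd hqprime (by norm_num)
  · exact key 12 (by norm_num) (by rw [orderOf_eq_iff (by norm_num)]; decide) (by norm_num)
  · exact absurd hqprime (by norm_num)
  · exact key 4 (by norm_num) (by rw [orderOf_eq_iff (by norm_num)]; decide) (by norm_num)
  · exact absurd hqprime (by norm_num)
  · exact absurd hqprime (by norm_num)
  · exact absurd hqprime (by norm_num)
  · exact absurd hqprime (by norm_num)
  · exact absurd hqprime (by norm_num)
  · exact keyP (exists_isPrincipal_primesOver_13_157 K)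
  · exact absurd hqprime (by norm_num)
  · exact absurd hqprime (by norm_num)
  · exact absurd hqprime (by norm_num)
  · exact absurd hqprime (by norm_num)
  · exact absurd hqprime (by norm_num)
  · exact key 12 (by norm_num) (by rw [orderOf_eq_iff (by norm_num)]; decide) (by norm_num)
  · exact absurd hqprime (by norm_num)
  · exact absurd hqprime (by norm_num)
  · exact absurd hqprime (by norm_num)
  · exact key 12 (by norm_num) (by rw [orderOf_eq_iff (by norm_num)]; decide) (by norm_num)
  · exact absurd hqprime (by norm_num)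
  · exact absurd hqprime (by norm_num)
  · exact absurd hqprime (by norm_num)
  · exact absurd hqprime (by norm_num)
  · exact absurd hqprime (by norm_num)
  · exact key 6 (by norm_num) (by rw [orderOf_eq_iff (by norm_num)]; decide) (by norm_num)
  · exact absurd hqprime (by norm_num)
  · exact absurd hqprime (by norm_num)
  · exact absurd hqprime (by norm_num)
  · exact absurd hqprime (by norm_num)
  · exact absurd hqprime (by norm_num)
  · exact key 6 (by norm_num) (by rw [orderOf_eq_iff (by norm_num)]; decide) (by norm_num)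
  · exact absurd hqprime (by norm_num)
  · exact key 2 (by norm_num) (by rw [orderOf_eq_iff (by norm_num)]; decide) (by norm_num)
  · exact absurd hqprime (by norm_num)
  · exact absurd hqprime (by norm_num)
  · exact absurd hqprime (by norm_num)
  · exact absurd hqprime (by norm_num)
  · exact absurd hqprime (by norm_num)
  · exact absurd hqprime (by norm_num)
  · exact absurd hqprime (by norm_num)
  · exact absurd hqprime (by norm_num)
  · exact absurd hqprime (by norm_num)
  · exact key 3 (by norm_num) (by rw [orderOf_eq_iff (by norm_num)]; decide) (by norm_num)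
  · exact absurd hqprime (by norm_num)
  · exact key 12 (by norm_num) (by rw [orderOf_eq_iff (by norm_num)]; decide) (by norm_num)
  · exact absurd hqprime (by norm_num)
  · exact absurd hqprime (by norm_num)
  · exact absurd hqprime (by norm_num)
  · exact key 12 (by norm_num) (by rw [orderOf_eq_iff (by norm_num)]; decide) (by norm_num)
  · exact absurd hqprime (by norm_num)
  · exact key 6 (by norm_num) (by rw [orderOf_eq_iff (by norm_num)]; decide) (by norm_num)
  · exact absurd hqprime (by norm_num)
  · exact absurd hqprime (by norm_num)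
  · exact absurd hqprime (by norm_num)
  · exact absurd hqprime (by norm_num)
  · exact absurd hqprime (by norm_num)
  · exact absurd hqprime (by norm_num)
  · exact absurd hqprime (by norm_num)
  · exact absurd hqprime (by norm_num)
  · exact absurd hqprime (by norm_num)
  · exact absurd hqprime (by norm_num)
  · exact absurd hqprime (by norm_num)
  · exact key 3 (by norm_num) (by rw [orderOf_eq_iff (by norm_num)]; decide) (by norm_num)
  · exact absurd hqprime (by norm_num)
  · exact absurd hqprime (by norm_num)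
  · exact absurd hqprime (by norm_num)
  · exact absurd hqprime (by norm_num)
  · exact absurd hqprime (by norm_num)
  · exact absurd hqprime (by norm_num)
  · exact absurd hqprime (by norm_num)
  · exact absurd hqprime (by norm_num)
  · exact absurd hqprime (by norm_num)
  · exact absurd hqprime (by norm_num)
  · exact absurd hqprime (by norm_num)
  · exact key 12 (by norm_num) (by rw [orderOf_eq_iff (by norm_num)]; decide) (by norm_num)
  · exact absurd hqprime (by norm_num)
  · exact absurd hqprime (by norm_num)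
  · exact absurd hqprime (by norm_num)
  · exact key 12 (by norm_num) (by rw [orderOf_eq_iff (by norm_num)]; decide) (by norm_num)
  · exact absurd hqprime (by norm_num)
  · exact key 4 (by norm_num) (by rw [orderOf_eq_iff (by norm_num)]; decide) (by norm_num)
  · exact absurd hqprime (by norm_num)
  · exact absurd hqprime (by norm_num)
  · exact absurd hqprime (by norm_num)
  · exact key 2 (by norm_num) (by rw [orderOf_eq_iff (by norm_num)]; decide) (by norm_num)
  · exact absurd hqprime (by norm_num)
  · exact absurd hqprime (by norm_num)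
  · exact absurd hqprime (by norm_num)
  · exact absurd hqprime (by norm_num)
  · exact absurd hqprime (by norm_num)
  · exact key 4 (by norm_num) (by rw [orderOf_eq_iff (by norm_num)]; decide) (by norm_num)
  · exact absurd hqprime (by norm_num)
  · exact key 12 (by norm_num) (by rw [orderOf_eq_iff (by norm_num)]; decide) (by norm_num)
  · exact absurd hqprime (by norm_num)
  · exact absurd hqprime (by norm_num)
  · exact absurd hqprime (by norm_num)
  · exact absurd hqprime (by norm_num)
  · exact absurd hqprime (by norm_num)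
  · exact absurd hqprime (by norm_num)
  · exact absurd hqprime (by norm_num)
  · exact absurd hqprime (by norm_num)
  · exact absurd hqprime (by norm_num)
  · exact key 6 (by norm_num) (by rw [orderOf_eq_iff (by norm_num)]; decide) (by norm_num)
  · exact absurd hqprime (by norm_num)
  · exact absurd hqprime (by norm_num)
  · exact absurd hqprime (by norm_num)
  · exact absurd hqprime (by norm_num)
  · exact absurd hqprime (by norm_num)
  · exact key 6 (by norm_num) (by rw [orderOf_eq_iff (by norm_num)]; decide) (by norm_num)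
  · exact absurd hqprime (by norm_num)
  · exact absurd hqprime (by norm_num)
  · exact absurd hqprime (by norm_num)
  · exact absurd hqprime (by norm_num)
  · exact absurd hqprime (by norm_num)
  · exact key 3 (by norm_num) (by rw [orderOf_eq_iff (by norm_num)]; decide) (by norm_num)
  · exact absurd hqprime (by norm_num)
  · exact absurd hqprime (by norm_num)
  · exact absurd hqprime (by norm_num)
  · exact absurd hqprime (by norm_num)
  · exact absurd hqprime (by norm_num)
  · exact key 3 (by norm_num) (by rw [orderOf_eq_iff (by norm_num)]; decide) (by norm_num)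
  · exact absurd hqprime (by norm_num)
  · exact key 12 (by norm_num) (by rw [orderOf_eq_iff (by norm_num)]; decide) (by norm_num)
  · exact absurd hqprime (by norm_num)
  · exact absurd hqprime (by norm_num)
  · exact absurd hqprime (by norm_num)
  · exact absurd hqprime (by norm_num)
  · exact absurd hqprime (by norm_num)
  · exact key 6 (by norm_num) (by rw [orderOf_eq_iff (by norm_num)]; decide) (by norm_num)
  · exact absurd hqprime (by norm_num)
  · exact absurd hqprime (by norm_num)
  · exact absurd hqprime (by norm_num)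
  · exact key 4 (by norm_num) (by rw [orderOf_eq_iff (by norm_num)]; decide) (by norm_num)
  · exact absurd hqprime (by norm_num)
  · exact key 6 (by norm_num) (by rw [orderOf_eq_iff (by norm_num)]; decide) (by norm_num)
  · exact absurd hqprime (by norm_num)
  · exact absurd hqprime (by norm_num)
  · exact absurd hqprime (by norm_num)
  · exact absurd hqprime (by norm_num)
  · exact absurd hqprime (by norm_num)
  · exact absurd hqprime (by norm_num)
  · exact absurd hqprime (by norm_num)
  · exact absurd hqprime (by norm_num)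
  · exact absurd hqprime (by norm_num)
  · exact key 12 (by norm_num) (by rw [orderOf_eq_iff (by norm_num)]; decide) (by norm_num)
  · exact absurd hqprime (by norm_num)
  · exact absurd hqprime (by norm_num)
  · exact absurd hqprime (by norm_num)
  · exact absurd hqprime (by norm_num)
  · exact absurd hqprime (by norm_num)
  · exact absurd hqprime (by norm_num)
  · exact absurd hqprime (by norm_num)
  · exact absurd hqprime (by norm_num)
  · exact absurd hqprime (by norm_num)
  · exact absurd hqprime (by norm_num)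
  · exact absurd hqprime (by norm_num)
  · exact absurd hqprime (by norm_num)
  · exact absurd hqprime (by norm_num)

end p13

end Fermat.Agent.S10.helper12

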