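import Mathlib
import Fermat.Agent.S10.helper12_PIDCore

/-!
# `ℤ[ζ_7]` is a PID (helper12)

Minkowski bound `< 5`; primes `q ≤ 4` either have `q ^ f > 4` (`f` = order of `q` mod `7`),
or a prime above `q` is principal by an explicit certificate.
-/

set_option autoImplicit false

namespace Fermat.Agent.S10.helper12

open NumberField Polynomial Ideal Module

section p7

local instance fact_prime_7 : Fact (Nat.Prime 7) := ⟨by norm_num⟩

variable (K : Type*) [Field K] [NumberField K] [hK : IsCyclotomicExtension {7} ℚ K]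

theorem minkowski_floor_7 :
    ⌊(4 / Real.pi) ^ InfinitePlace.nrComplexPlaces K *
      ((finrank ℚ K).factorial / (finrank ℚ K) ^ (finrank ℚ K) * √|(discr K : ℝ)|)⌋₊ ≤ 4 := by
  rw [IsCyclotomicExtension.Rat.discr_prime 7 K, IsCyclotomicExtension.Rat.finrank 7 K,
    IsCyclotomicExtension.Rat.nrComplexPlaces_eq_totient_div_two 7,
    Nat.totient_prime (by norm_num : Nat.Prime 7)]
  apply Nat.lt_succ_iff.mp
  rw [Nat.floor_lt (by positivity)]
  have hpi : (3 : ℝ) < Real.pi := Real.pi_gt_three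
  have h1 : (4 / Real.pi) < 4 / 3 := by
    apply div_lt_div_of_pos_left (by norm_num) (by norm_num) hpi
  have h2 : (4 / Real.pi) ^ 3 < (4 / 3) ^ 3 := by
    apply pow_lt_pow_left₀ h1 (by positivity) (by norm_num)
  have h3 : √|(((-1 : ℤ) ^ ((7 - 1) / 2) * (7 : ℕ) ^ (7 - 2) : ℤ) : ℝ)| < 130 := by
    rw [Real.sqrt_lt' (by norm_num)]
    norm_num [abs_of_pos]
  have h4 : (0 : ℝ) ≤ √|(((-1 : ℤ) ^ ((7 - 1) / 2) * (7 : ℕ) ^ (7 - 2) : ℤ) : ℝ)| :=
    Real.sqrt_nonneg _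
  have h5 : (0 : ℝ) < (4 / Real.pi) ^ 3 := by positivity
  calc (4 / Real.pi) ^ ((7 - 1) / 2) *
        (((7 - 1 : ℕ).factorial : ℝ) / ((7 - 1 : ℕ) : ℝ) ^ (7 - 1) *
          √|(((-1 : ℤ) ^ ((7 - 1) / 2) * (7 : ℕ) ^ (7 - 2) : ℤ) : ℝ)|)
      = (4 / Real.pi) ^ 3 * ((720 : ℝ) / 6 ^ 6 *
          √|(((-1 : ℤ) ^ ((7 - 1) / 2) * (7 : ℕ) ^ (7 - 2) : ℤ) : ℝ)|) := by
        norm_num [Nat.factorial]
    _ ≤ (4 / Real.pi) ^ 3 * ((720 : ℝ) / 6 ^ 6 * 130) := by
        gcongr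
    _ ≤ (4 / 3) ^ 3 * ((720 : ℝ) / 6 ^ 6 * 130) := by
        gcongr
    _ < ((4 + 1 : ℕ) : ℝ) := by norm_num

theorem pid7 : IsPrincipalIdealRing (𝓞 K) := by
  have : IsGalois ℚ K := IsCyclotomicExtension.isGalois {7} ℚ K
  apply RingOfIntegers.isPrincipalIdealRing_of_isPrincipal_of_lt_or_isPrincipal_of_mem_primesOver_of_mem_Icc
  intro q hq hqprime
  have hB := minkowski_floor_7 K
  have hqB : q ≤ 4 := (Finset.mem_Icc.mp hq).2.trans hB
  have : Fact q.Prime := ⟨hqprime⟩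
  have key : ∀ f : ℕ, q ≠ 7 → orderOf (q : ZMod 7) = f → 4 < q ^ f →
      ∃ P ∈ primesOver (span {(q : ℤ)}) (𝓞 K),
        ⌊(4 / Real.pi) ^ InfinitePlace.nrComplexPlaces K *
      ((finrank ℚ K).factorial / (finrank ℚ K) ^ (finrank ℚ K) * √|(discr K : ℝ)|)⌋₊
            < q ^ P.inertiaDeg ℤ ∨ Submodule.IsPrincipal P :=
    fun f hne hf hlt => exists_primesOver_lt_pow 7 K q hne _ f hf (lt_of_le_of_lt hB hlt)
  have keyP : (∃ P ∈ primesOver (span {(q : ℤ)}) (𝓞 K), Submodule.IsPrincipal P) →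
      ∃ P ∈ primesOver (span {(q : ℤ)}) (𝓞 K),
        ⌊(4 / Real.pi) ^ InfinitePlace.nrComplexPlaces K *
      ((finrank ℚ K).factorial / (finrank ℚ K) ^ (finrank ℚ K) * √|(discr K : ℝ)|)⌋₊
            < q ^ P.inertiaDeg ℤ ∨ Submodule.IsPrincipal P :=
    fun ⟨P, hP, h⟩ => ⟨P, hP, Or.inr h⟩
  have hq1 : 1 ≤ q := hqprime.one_le
  interval_cases q
  · exact absurd hqprime (by norm_num)
  · exact key 3 (by norm_num) (by rw [orderOf_eq_iff (by norm_num)]; decide) (by norm_num)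
  · exact key 6 (by norm_num) (by rw [orderOf_eq_iff (by norm_num)]; decide) (by norm_num)
  · exact absurd hqprime (by norm_num)

end p7

end Fermat.Agent.S10.helper12

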