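import Mathlib
import Fermat.Agent.S10.helper12_PIDCore

/-!
# `ℤ[ζ₁₁]` is a PID (helper12)
-/

set_option autoImplicit false

namespace Fermat.Agent.S10.helper12

open NumberField Polynomial Ideal Module

section p11

local instance fact_prime_11 : Fact (Nat.Prime 11) := ⟨by norm_num⟩

theorem isRoot_cyclotomic_11_23 : (cyclotomic 11 (ZMod 23)).IsRoot (4 : ZMod 23) := by
  rw [cyclotomic_prime, IsRoot.def, eval_finsetSum]
  simp only [eval_pow, eval_X]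
  decide

variable (K : Type*) [Field K] [NumberField K] [hK : IsCyclotomicExtension {11} ℚ K]

theorem minkowski_floor_11 :
    ⌊(4 / Real.pi) ^ InfinitePlace.nrComplexPlaces K *
      ((finrank ℚ K).factorial / (finrank ℚ K) ^ (finrank ℚ K) * √|(discr K : ℝ)|)⌋₊ ≤ 58 := by
  rw [IsCyclotomicExtension.Rat.discr_prime 11 K, IsCyclotomicExtension.Rat.finrank 11 K,
    IsCyclotomicExtension.Rat.nrComplexPlaces_eq_totient_div_two 11,
    Nat.totient_prime (by norm_num : Nat.Prime 11)]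
  apply Nat.lt_succ_iff.mp
  rw [Nat.floor_lt (by positivity)]
  have hpi : (3.1415 : ℝ) < Real.pi := Real.pi_gt_d4
  have h1 : (4 / Real.pi) < 4 / 3.1415 := by
    apply div_lt_div_of_pos_left (by norm_num) (by norm_num) hpi
  have h2 : (4 / Real.pi) ^ 5 < (4 / 3.1415) ^ 5 := by
    apply pow_lt_pow_left₀ h1 (by positivity) (by norm_num)
  have h3 : √|(((-1 : ℤ) ^ ((11 - 1) / 2) * (11 : ℕ) ^ (11 - 2) : ℤ) : ℝ)| < 48559 := by
    rw [Real.sqrt_lt' (by norm_num)]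
    norm_num [abs_of_pos]
  have h4 : (0 : ℝ) ≤ √|(((-1 : ℤ) ^ ((11 - 1) / 2) * (11 : ℕ) ^ (11 - 2) : ℤ) : ℝ)| :=
    Real.sqrt_nonneg _
  have h5 : (0 : ℝ) < (4 / Real.pi) ^ 5 := by positivity
  calc (4 / Real.pi) ^ ((11 - 1) / 2) *
        (((11 - 1 : ℕ).factorial : ℝ) / ((11 - 1 : ℕ) : ℝ) ^ (11 - 1) *
          √|(((-1 : ℤ) ^ ((11 - 1) / 2) * (11 : ℕ) ^ (11 - 2) : ℤ) : ℝ)|)
      = (4 / Real.pi) ^ 5 * ((3628800 : ℝ) / 10 ^ 10 *
          √|(((-1 : ℤ) ^ ((11 - 1) / 2) * (11 : ℕ) ^ (11 - 2) : ℤ) : ℝ)|) := by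
        norm_num [Nat.factorial]
    _ ≤ (4 / Real.pi) ^ 5 * ((3628800 : ℝ) / 10 ^ 10 * 48559) := by
        gcongr
    _ ≤ (4 / 3.1415) ^ 5 * ((3628800 : ℝ) / 10 ^ 10 * 48559) := by
        gcongr
    _ < ((58 + 1 : ℕ) : ℝ) := by norm_num

theorem exists_isPrincipal_primesOver_23 :
    ∃ P ∈ primesOver (span {((23 : ℕ) : ℤ)}) (𝓞 K), Submodule.IsPrincipal P := by
  have : Fact (Nat.Prime 23) := ⟨by norm_num⟩
  have hΦ := sum_zetaInt_pow 11 K
  simp only [Finset.sum_range_succ, Finset.sum_range_zero, zero_add, pow_zero, pow_one] at hΦ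
  set ζ := zetaInt 11 K with hζdef
  have hmap : (X - C (4 : ℤ)).map (Int.castRingHom (ZMod 23)) = X - C (4 : ZMod 23) := by
    rw [Polynomial.map_sub, Polynomial.map_X, Polynomial.map_C, map_ofNat]
  have hQ : aeval ζ (X - C (4 : ℤ)) = ζ - 4 := by
    rw [map_sub, aeval_X, aeval_C, map_ofNat]
  refine exists_isPrincipal_primesOver 11 K 23 (X - C (4 : ℤ)) ?_ ?_ ?_
    (1 + ζ + ζ ^ 3)
    (-2 - 14 * ζ - 17 * ζ ^ 2 - 12 * ζ ^ 3 - 5 * ζ ^ 4 - 9 * ζ ^ 5 - 10 * ζ ^ 6 - 16 * ζ ^ 7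
      - 6 * ζ ^ 8 - 15 * ζ ^ 9)
    (1 + 3 * ζ + 3 * ζ ^ 2 + 2 * ζ ^ 3 + ζ ^ 4 + 2 * ζ ^ 5 + 2 * ζ ^ 6 + 3 * ζ ^ 7 + ζ ^ 8
      + 3 * ζ ^ 9)
    3 (17 + 4 * ζ + ζ ^ 2) ?_ ?_ ?_
  · rw [hmap]; exact monic_X_sub_C _
  · rw [hmap]; exact irreducible_X_sub_C _
  · rw [hmap, dvd_iff_isRoot]
    exact isRoot_cyclotomic_11_23
  · push_cast
    linear_combination (-25 + 9 * ζ - 15 * ζ ^ 2) * hΦ
  · rw [hQ]
    linear_combination (5 - 2 * ζ + 3 * ζ ^ 2) * hΦ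
  · rw [hQ]; push_cast; ring

theorem pid11 : IsPrincipalIdealRing (𝓞 K) := by
  have : IsGalois ℚ K := IsCyclotomicExtension.isGalois {11} ℚ K
  apply RingOfIntegers.isPrincipalIdealRing_of_isPrincipal_of_lt_or_isPrincipal_of_mem_primesOver_of_mem_Icc
  intro q hq hqprime
  have hB := minkowski_floor_11 K
  have hq58 : q ≤ 58 := (Finset.mem_Icc.mp hq).2.trans hB
  have : Fact q.Prime := ⟨hqprime⟩
  have key : ∀ f : ℕ, q ≠ 11 → orderOf (q : ZMod 11) = f → 58 < q ^ f →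
      ∃ P ∈ primesOver (span {(q : ℤ)}) (𝓞 K),
        ⌊(4 / Real.pi) ^ InfinitePlace.nrComplexPlaces K *
          ((finrank ℚ K).factorial / (finrank ℚ K) ^ (finrank ℚ K) * √|(discr K : ℝ)|)⌋₊
            < q ^ P.inertiaDeg ℤ ∨ Submodule.IsPrincipal P :=
    fun f h11 hf hlt => exists_primesOver_lt_pow 11 K q h11 _ f hf (lt_of_le_of_lt hB hlt)
  have keyP : (∃ P ∈ primesOver (span {(q : ℤ)}) (𝓞 K), Submodule.IsPrincipal P) →
      ∃ P ∈ primesOver (span {(q : ℤ)}) (𝓞 K),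
        ⌊(4 / Real.pi) ^ InfinitePlace.nrComplexPlaces K *
          ((finrank ℚ K).factorial / (finrank ℚ K) ^ (finrank ℚ K) * √|(discr K : ℝ)|)⌋₊
            < q ^ P.inertiaDeg ℤ ∨ Submodule.IsPrincipal P :=
    fun ⟨P, hP, h⟩ => ⟨P, hP, Or.inr h⟩
  have hq1 : 1 ≤ q := hqprime.one_le
  interval_cases q
  all_goals first
    | (exfalso; revert hqprime; norm_num; done)
    | exact keyP (exists_isPrincipal_primesOver_self 11 K)
    | exact keyP (exists_isPrincipal_primesOver_23 K)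
    | exact key 10 (by norm_num) (by rw [orderOf_eq_iff (by norm_num)]; decide) (by norm_num)
    | exact key 5 (by norm_num) (by rw [orderOf_eq_iff (by norm_num)]; decide) (by norm_num)
    | exact key 2 (by norm_num) (by rw [orderOf_eq_iff (by norm_num)]; decide) (by norm_num)

end p11

end Fermat.Agent.S10.helper12
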