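import Fermat.Agent.S10.helper15_PIDTools

set_option autoImplicit false
set_option linter.unusedSimpArgs false

namespace Fermat.Agent.S10.helper15

open NumberField Ideal Polynomial Real

theorem normIdentity_11_23 {R : Type*} [CommRing R] (ζ : R) (h1 : ζ ^ 11 = 1)
    (hΦ : 1 + ζ + ζ ^ 2 + ζ ^ 3 + ζ ^ 4 + ζ ^ 5 + ζ ^ 6 + ζ ^ 7 + ζ ^ 8 + ζ ^ 9 + ζ ^ 10 = 0) :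
    (1 - (ζ ^ 1) + (ζ ^ 1) ^ 3) * (1 - (ζ ^ 2) + (ζ ^ 2) ^ 3) * (1 - (ζ ^ 3) + (ζ ^ 3) ^ 3) * (1 - (ζ ^ 4) + (ζ ^ 4) ^ 3) * (1 - (ζ ^ 5) + (ζ ^ 5) ^ 3) * (1 - (ζ ^ 6) + (ζ ^ 6) ^ 3) * (1 - (ζ ^ 7) + (ζ ^ 7) ^ 3) * (1 - (ζ ^ 8) + (ζ ^ 8) ^ 3) * (1 - (ζ ^ 9) + (ζ ^ 9) ^ 3) * (1 - (ζ ^ 10) + (ζ ^ 10) ^ 3) = 23 := by
  have e2 : (1 - (ζ ^ 1) + (ζ ^ 1) ^ 3) * (1 - (ζ ^ 2) + (ζ ^ 2) ^ 3) = (1 - ζ - ζ ^ 2 + 2 * ζ ^ 3 - ζ ^ 5 + ζ ^ 6 - ζ ^ 7 + ζ ^ 9) := by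
    linear_combination (0) * h1
  have e3 : (1 - ζ - ζ ^ 2 + 2 * ζ ^ 3 - ζ ^ 5 + ζ ^ 6 - ζ ^ 7 + ζ ^ 9) * (1 - (ζ ^ 3) + (ζ ^ 3) ^ 3) = (-ζ ^ 2 + 2 * ζ ^ 4 - ζ ^ 5 - ζ ^ 6 + ζ ^ 8 + ζ ^ 9) := by
    linear_combination (-1 + ζ - ζ ^ 3 + ζ ^ 4 - ζ ^ 5 + ζ ^ 7) * h1
  have e4 : (-ζ ^ 2 + 2 * ζ ^ 4 - ζ ^ 5 - ζ ^ 6 + ζ ^ 8 + ζ ^ 9) * (1 - (ζ ^ 4) + (ζ ^ 4) ^ 3) = (-ζ - 2 * ζ ^ 2 - ζ ^ 3 + 2 * ζ ^ 4 + ζ ^ 5 - ζ ^ 6 - ζ ^ 7 - ζ ^ 8 + 3 * ζ ^ 9 + 2 * ζ ^ 10) := by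
    linear_combination (-ζ - ζ ^ 2 - ζ ^ 3 + 2 * ζ ^ 5 - ζ ^ 6 - ζ ^ 7 + ζ ^ 9 + ζ ^ 10) * h1
  have e5 : (-ζ - 2 * ζ ^ 2 - ζ ^ 3 + 2 * ζ ^ 4 + ζ ^ 5 - ζ ^ 6 - ζ ^ 7 - ζ ^ 8 + 3 * ζ ^ 9 + 2 * ζ ^ 10) * (1 - (ζ ^ 5) + (ζ ^ 5) ^ 3) = (-ζ + 2 * ζ ^ 2 - 2 * ζ ^ 3 - 2 * ζ ^ 6 + 2 * ζ ^ 8 + 2 * ζ ^ 9) := by
    linear_combination (4 * ζ ^ 2 - ζ ^ 3 - 2 * ζ ^ 4 - ζ ^ 5 - 2 * ζ ^ 6 - ζ ^ 7 + 2 * ζ ^ 8 + ζ ^ 9 - ζ ^ 10 - ζ ^ 11 - ζ ^ 12 + 3 * ζ ^ 13 + 2 * ζ ^ 14) * h1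
  have e6 : (-ζ + 2 * ζ ^ 2 - 2 * ζ ^ 3 - 2 * ζ ^ 6 + 2 * ζ ^ 8 + 2 * ζ ^ 9) * (1 - (ζ ^ 6) + (ζ ^ 6) ^ 3) = (ζ - 4 * ζ ^ 3 + 2 * ζ ^ 5 - 2 * ζ ^ 6 + ζ ^ 7 - ζ ^ 8 + 6 * ζ ^ 9 - 2 * ζ ^ 10) := by
    linear_combination (2 * ζ - 2 * ζ ^ 2 - 2 * ζ ^ 3 + 2 * ζ ^ 5 - ζ ^ 8 + 2 * ζ ^ 9 - 2 * ζ ^ 10 - 2 * ζ ^ 13 + 2 * ζ ^ 15 + 2 * ζ ^ 16) * h1
  have e7 : (ζ - 4 * ζ ^ 3 + 2 * ζ ^ 5 - 2 * ζ ^ 6 + ζ ^ 7 - ζ ^ 8 + 6 * ζ ^ 9 - 2 * ζ ^ 10) * (1 - (ζ ^ 7) + (ζ ^ 7) ^ 3) = (1 - ζ - 2 * ζ ^ 2 - 5 * ζ ^ 3 + 3 * ζ ^ 4 - 6 * ζ ^ 5 + ζ ^ 6 + 4 * ζ ^ 8 + 4 * ζ ^ 9 + 2 * ζ ^ 10) := by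
    linear_combination (1 - 2 * ζ - 2 * ζ ^ 2 - ζ ^ 3 + 3 * ζ ^ 4 - 8 * ζ ^ 5 + 3 * ζ ^ 6 - ζ ^ 7 + 6 * ζ ^ 8 - 2 * ζ ^ 9 + ζ ^ 11 - 4 * ζ ^ 13 + 2 * ζ ^ 15 - 2 * ζ ^ 16 + ζ ^ 17 - ζ ^ 18 + 6 * ζ ^ 19 - 2 * ζ ^ 20) * h1
  have e8 : (1 - ζ - 2 * ζ ^ 2 - 5 * ζ ^ 3 + 3 * ζ ^ 4 - 6 * ζ ^ 5 + ζ ^ 6 + 4 * ζ ^ 8 + 4 * ζ ^ 9 + 2 * ζ ^ 10) * (1 - (ζ ^ 8) + (ζ ^ 8) ^ 3) = (10 - 2 * ζ + 5 * ζ ^ 2 - 7 * ζ ^ 3 + ζ ^ 4 - 15 * ζ ^ 5 - 8 * ζ ^ 7 + 4 * ζ ^ 8 + 5 * ζ ^ 9 + 8 * ζ ^ 10) := by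
    linear_combination (9 - ζ + 7 * ζ ^ 2 - 2 * ζ ^ 3 - 2 * ζ ^ 4 - 9 * ζ ^ 5 - ζ ^ 6 - 8 * ζ ^ 7 + ζ ^ 8 + 4 * ζ ^ 10 + 4 * ζ ^ 11 + 2 * ζ ^ 12 + ζ ^ 13 - ζ ^ 14 - 2 * ζ ^ 15 - 5 * ζ ^ 16 + 3 * ζ ^ 17 - 6 * ζ ^ 18 + ζ ^ 19 + 4 * ζ ^ 21 + 4 * ζ ^ 22 + 2 * ζ ^ 23) * h1
  have e9 : (10 - 2 * ζ + 5 * ζ ^ 2 - 7 * ζ ^ 3 + ζ ^ 4 - 15 * ζ ^ 5 - 8 * ζ ^ 7 + 4 * ζ ^ 8 + 5 * ζ ^ 9 + 8 * ζ ^ 10) * (1 - (ζ ^ 9) + (ζ ^ 9) ^ 3) = (5 - 3 * ζ + 8 * ζ ^ 2 + 13 * ζ ^ 3 + 9 * ζ ^ 4 + 3 * ζ ^ 5 - 6 * ζ ^ 6 - 8 * ζ ^ 7 - 11 * ζ ^ 8 - 4 * ζ ^ 9 - 5 * ζ ^ 10) := by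
    linear_combination (-5 - ζ + 3 * ζ ^ 2 + 20 * ζ ^ 3 + 8 * ζ ^ 4 + 18 * ζ ^ 5 - 6 * ζ ^ 6 - 15 * ζ ^ 8 + ζ ^ 9 - 15 * ζ ^ 10 - 8 * ζ ^ 12 + 4 * ζ ^ 13 + 5 * ζ ^ 14 + 8 * ζ ^ 15 + 10 * ζ ^ 16 - 2 * ζ ^ 17 + 5 * ζ ^ 18 - 7 * ζ ^ 19 + ζ ^ 20 - 15 * ζ ^ 21 - 8 * ζ ^ 23 + 4 * ζ ^ 24 + 5 * ζ ^ 25 + 8 * ζ ^ 26) * h1
  have e10 : (5 - 3 * ζ + 8 * ζ ^ 2 + 13 * ζ ^ 3 + 9 * ζ ^ 4 + 3 * ζ ^ 5 - 6 * ζ ^ 6 - 8 * ζ ^ 7 - 11 * ζ ^ 8 - 4 * ζ ^ 9 - 5 * ζ ^ 10) * (1 - (ζ ^ 10) + (ζ ^ 10) ^ 3) = (21 - 2 * ζ - 2 * ζ ^ 2 - 2 * ζ ^ 3 - 2 * ζ ^ 4 - 2 * ζ ^ 5 - 2 * ζ ^ 6 - 2 * ζ ^ 7 - 2 * ζ ^ 8 - 2 * ζ ^ 9 - 2 * ζ ^ 10) := by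
    linear_combination (16 + ζ - 10 * ζ ^ 2 - 15 * ζ ^ 3 - 11 * ζ ^ 4 - 5 * ζ ^ 5 + 4 * ζ ^ 6 + 6 * ζ ^ 7 + 9 * ζ ^ 8 + 2 * ζ ^ 9 + 8 * ζ ^ 10 + 13 * ζ ^ 11 + 9 * ζ ^ 12 + 3 * ζ ^ 13 - 6 * ζ ^ 14 - 8 * ζ ^ 15 - 11 * ζ ^ 16 - 4 * ζ ^ 17 - 5 * ζ ^ 18 + 5 * ζ ^ 19 - 3 * ζ ^ 20 + 8 * ζ ^ 21 + 13 * ζ ^ 22 + 9 * ζ ^ 23 + 3 * ζ ^ 24 - 6 * ζ ^ 25 - 8 * ζ ^ 26 - 11 * ζ ^ 27 - 4 * ζ ^ 28 - 5 * ζ ^ 29) * h1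
  rw [e2, e3, e4, e5, e6, e7, e8, e9, e10]
  linear_combination (-2) * hΦ

theorem cast_23_zmod_11 : ((23 : ℕ) : ZMod 11) = 1 := by decide

theorem exists_isPrincipal_11_23 (K : Type*) [Field K] [NumberField K]
    [IsCyclotomicExtension {11} ℚ K] :
    ∃ P ∈ primesOver (span {((23 : ℕ) : ℤ)}) (𝓞 K), Submodule.IsPrincipal P := by
  have hp : Fact (Nat.Prime 11) := ⟨by norm_num⟩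
  have hζ := IsCyclotomicExtension.zeta_spec 11 ℚ K
  have h1 : (IsCyclotomicExtension.zeta 11 ℚ K) ^ 11 = 1 := hζ.pow_eq_one
  have hΦ : (let ζ := IsCyclotomicExtension.zeta 11 ℚ K; 1 + ζ + ζ ^ 2 + ζ ^ 3 + ζ ^ 4 + ζ ^ 5 + ζ ^ 6 + ζ ^ 7 + ζ ^ 8 + ζ ^ 9 + ζ ^ 10) = 0 := by
    have := hζ.geom_sum_eq_zero (by norm_num)
    simp only [Finset.sum_range_succ, Finset.sum_range_zero] at this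
    linear_combination this
  have hord : orderOf ((23 : ℕ) : ZMod 11) = 1 := by
    rw [cast_23_zmod_11, orderOf_one]
  refine exists_isPrincipal_of_prod_eq (p := 11) (K := K) 23 (by norm_num) (by norm_num)
    (1 - X + X ^ 3 : ℤ[X]) 1 hord ?_
  simp only [Finset.prod_Ico_succ_top, Finset.Ico_self, Finset.prod_empty, map_sub, map_add,
    map_one, map_pow, aeval_X, Nat.one_le_ofNat, le_refl, one_mul]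
  rw [normIdentity_11_23 _ h1 hΦ]
  norm_num

theorem minkowski_floor_le_11 (K : Type*) [Field K] [NumberField K]
    [IsCyclotomicExtension {11} ℚ K] :
    ⌊(4 / π) ^ InfinitePlace.nrComplexPlaces K *
      ((Module.finrank ℚ K).factorial / (Module.finrank ℚ K) ^ Module.finrank ℚ K *
        √|(discr K : ℝ)|)⌋₊ ≤ 60 := by
  have hp : Fact (Nat.Prime 11) := ⟨by norm_num⟩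
  rw [IsCyclotomicExtension.Rat.discr_prime 11 K, IsCyclotomicExtension.finrank (n := 11) K
    (Polynomial.cyclotomic.irreducible_rat (by norm_num)),
    IsCyclotomicExtension.Rat.nrComplexPlaces_eq_totient_div_two 11,
    Nat.totient_prime hp.out]
  have hfact : ((11 - 1 : ℕ).factorial : ℝ) = 3628800 := by
    norm_num [Nat.factorial]
  have hsqrt : √|(((-1) ^ ((11 - 1) / 2) * (11 : ℕ) ^ (11 - 2) : ℤ) : ℝ)| ≤ 48560 := by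
    rw [Real.sqrt_le_left (by norm_num)]
    norm_num
  have hpi : (4 / π) ^ ((11 - 1) / 2) ≤ (4 / 3.14 : ℝ) ^ ((11 - 1) / 2) := by
    apply pow_le_pow_left₀ (by positivity)
    apply div_le_div_of_nonneg_left (by norm_num) (by norm_num) pi_gt_d2.le
  rw [hfact]
  have hlt : (4 / π) ^ ((11 - 1) / 2) *
      ((3628800 : ℝ) / ((11 - 1 : ℕ) : ℝ) ^ (11 - 1) *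
        √|(((-1) ^ ((11 - 1) / 2) * (11 : ℕ) ^ (11 - 2) : ℤ) : ℝ)|) < ((60 + 1 : ℕ) : ℝ) := by
    calc _ ≤ (4 / 3.14 : ℝ) ^ ((11 - 1) / 2) *
          ((3628800 : ℝ) / ((11 - 1 : ℕ) : ℝ) ^ (11 - 1) * 48560) := by
          gcongr
      _ < ((60 + 1 : ℕ) : ℝ) := by norm_num
  have := (Nat.floor_lt (by positivity)).mpr hlt
  omega

set_option maxRecDepth 100000 in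
theorem check11 : ∀ q ∈ Finset.Icc 2 60, ∀ k ∈ Finset.Icc 1 5,
    (q ∈ ({2, 3, 5, 7} : Finset ℕ) ∨ ∀ r ∈ ({2, 3, 5, 7} : Finset ℕ), q % r ≠ 0) →
    q ≠ 11 → q ∉ ({23} : Finset ℕ) → q ^ k ≤ 60 → q ^ k % 11 ≠ 1 := by
  decide

/-- The ring of integers of `ℚ(ζ_11)` is a principal ideal domain. -/
theorem pid11 (K : Type*) [Field K] [NumberField K] [IsCyclotomicExtension {11} ℚ K] :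
    IsPrincipalIdealRing (𝓞 K) := by
  have hp : Fact (Nat.Prime 11) := ⟨by norm_num⟩
  refine isPrincipalIdealRing_of_checks (p := 11) 60 (minkowski_floor_le_11 K)
    {23} ?_ ?_
  · intro q hq _ _
    simp only [Finset.mem_singleton] at hq
    subst hq
    exact exists_isPrincipal_11_23 K
  · intro q hq hqB hqp hqexc k hk hle
    have hkm : k ≤ 5 := exponent_le_of_pow_le hq.two_le hle (by norm_num)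
    exact check11 q (Finset.mem_Icc.mpr ⟨hq.two_le, hqB⟩) k (Finset.mem_Icc.mpr ⟨hk, hkm⟩)
      (prime_mem_or_forall_mod_ne_zero hq _ (by
        intro r hr
        simp only [Finset.mem_insert, Finset.mem_singleton] at hr
        rcases hr with rfl | rfl | rfl | rfl <;> norm_num)) hqp hqexc hle

end Fermat.Agent.S10.helper15
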