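import Fermat.Agent.S10.helper15_PIDTools

set_option autoImplicit false
set_option linter.unusedSimpArgs false

namespace Fermat.Agent.S10.helper15

open NumberField Ideal Polynomial Real

theorem normIdentity_13_3 {R : Type*} [CommRing R] (ζ : R) (h1 : ζ ^ 13 = 1)
    (hΦ : 1 + ζ + ζ ^ 2 + ζ ^ 3 + ζ ^ 4 + ζ ^ 5 + ζ ^ 6 + ζ ^ 7 + ζ ^ 8 + ζ ^ 9 + ζ ^ 10 + ζ ^ 11 + ζ ^ 12 = 0) :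
    (1 + (ζ ^ 1) - (ζ ^ 1) ^ 3) * (1 + (ζ ^ 2) - (ζ ^ 2) ^ 3) * (1 + (ζ ^ 3) - (ζ ^ 3) ^ 3) * (1 + (ζ ^ 4) - (ζ ^ 4) ^ 3) * (1 + (ζ ^ 5) - (ζ ^ 5) ^ 3) * (1 + (ζ ^ 6) - (ζ ^ 6) ^ 3) * (1 + (ζ ^ 7) - (ζ ^ 7) ^ 3) * (1 + (ζ ^ 8) - (ζ ^ 8) ^ 3) * (1 + (ζ ^ 9) - (ζ ^ 9) ^ 3) * (1 + (ζ ^ 10) - (ζ ^ 10) ^ 3) * (1 + (ζ ^ 11) - (ζ ^ 11) ^ 3) * (1 + (ζ ^ 12) - (ζ ^ 12) ^ 3) = 27 := by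
  have e2 : (1 + (ζ ^ 1) - (ζ ^ 1) ^ 3) * (1 + (ζ ^ 2) - (ζ ^ 2) ^ 3) = (1 + ζ + ζ ^ 2 - ζ ^ 5 - ζ ^ 6 - ζ ^ 7 + ζ ^ 9) := by
    linear_combination (0) * h1
  have e3 : (1 + ζ + ζ ^ 2 - ζ ^ 5 - ζ ^ 6 - ζ ^ 7 + ζ ^ 9) * (1 + (ζ ^ 3) - (ζ ^ 3) ^ 3) = (1 + 2 * ζ + 2 * ζ ^ 2 + 2 * ζ ^ 3 + ζ ^ 4 - ζ ^ 5 - ζ ^ 6 - ζ ^ 7 - ζ ^ 8 - ζ ^ 9 - 2 * ζ ^ 10 - ζ ^ 11 + ζ ^ 12) := by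
    linear_combination (ζ + ζ ^ 2 + ζ ^ 3 - ζ ^ 5) * h1
  have e4 : (1 + 2 * ζ + 2 * ζ ^ 2 + 2 * ζ ^ 3 + ζ ^ 4 - ζ ^ 5 - ζ ^ 6 - ζ ^ 7 - ζ ^ 8 - ζ ^ 9 - 2 * ζ ^ 10 - ζ ^ 11 + ζ ^ 12) * (1 + (ζ ^ 4) - (ζ ^ 4) ^ 3) = (-2 - 2 * ζ - ζ ^ 2 + 2 * ζ ^ 3 + 3 * ζ ^ 4 + 2 * ζ ^ 5 + 2 * ζ ^ 6 + 2 * ζ ^ 7 + ζ ^ 8 - 2 * ζ ^ 10 - 3 * ζ ^ 11 - ζ ^ 12) := by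
    linear_combination (-3 - 4 * ζ - 3 * ζ ^ 2 + ζ ^ 4 + ζ ^ 5 + ζ ^ 6 + ζ ^ 7 + ζ ^ 8 + 2 * ζ ^ 9 + ζ ^ 10 - ζ ^ 11) * h1
  have e5 : (-2 - 2 * ζ - ζ ^ 2 + 2 * ζ ^ 3 + 3 * ζ ^ 4 + 2 * ζ ^ 5 + 2 * ζ ^ 6 + 2 * ζ ^ 7 + ζ ^ 8 - 2 * ζ ^ 10 - 3 * ζ ^ 11 - ζ ^ 12) * (1 + (ζ ^ 5) - (ζ ^ 5) ^ 3) = (2 - ζ - ζ ^ 2 + ζ ^ 3 + 3 * ζ ^ 4 - 2 * ζ ^ 5 - 3 * ζ ^ 6 - ζ ^ 7 + ζ ^ 8 + ζ ^ 9 - ζ ^ 10 - ζ ^ 11 + 3 * ζ ^ 12) := by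
    linear_combination (4 + ζ - ζ ^ 3 - 2 * ζ ^ 5 - 3 * ζ ^ 6 - 2 * ζ ^ 7 - 2 * ζ ^ 8 - 2 * ζ ^ 9 - ζ ^ 10 + 2 * ζ ^ 12 + 3 * ζ ^ 13 + ζ ^ 14) * h1
  have e6 : (2 - ζ - ζ ^ 2 + ζ ^ 3 + 3 * ζ ^ 4 - 2 * ζ ^ 5 - 3 * ζ ^ 6 - ζ ^ 7 + ζ ^ 8 + ζ ^ 9 - ζ ^ 10 - ζ ^ 11 + 3 * ζ ^ 12) * (1 + (ζ ^ 6) - (ζ ^ 6) ^ 3) = (-ζ + ζ ^ 2 + ζ ^ 3 - ζ ^ 4 - ζ ^ 5 - ζ ^ 7 - ζ ^ 8 - ζ ^ 9 + 4 * ζ ^ 10 + ζ ^ 12) := by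
    linear_combination (-2 + 2 * ζ ^ 2 - 4 * ζ ^ 4 + ζ ^ 5 + ζ ^ 6 + ζ ^ 7 - ζ ^ 8 - 3 * ζ ^ 9 + 2 * ζ ^ 10 + 3 * ζ ^ 11 + ζ ^ 12 - ζ ^ 13 - ζ ^ 14 + ζ ^ 15 + ζ ^ 16 - 3 * ζ ^ 17) * h1
  have e7 : (-ζ + ζ ^ 2 + ζ ^ 3 - ζ ^ 4 - ζ ^ 5 - ζ ^ 7 - ζ ^ 8 - ζ ^ 9 + 4 * ζ ^ 10 + ζ ^ 12) * (1 + (ζ ^ 7) - (ζ ^ 7) ^ 3) = (1 - 2 * ζ + ζ ^ 2 + ζ ^ 3 + 4 * ζ ^ 4 - 5 * ζ ^ 5 + ζ ^ 6 - 2 * ζ ^ 7 - 2 * ζ ^ 8 + ζ ^ 9 + 4 * ζ ^ 10 - 2 * ζ ^ 11 + ζ ^ 12) := by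
    linear_combination (1 - ζ + 5 * ζ ^ 4 - 4 * ζ ^ 5 + ζ ^ 6 - ζ ^ 7 + ζ ^ 9 - ζ ^ 10 - ζ ^ 11 + ζ ^ 12 + ζ ^ 13 + ζ ^ 15 + ζ ^ 16 + ζ ^ 17 - 4 * ζ ^ 18 - ζ ^ 20) * h1
  have e8 : (1 - 2 * ζ + ζ ^ 2 + ζ ^ 3 + 4 * ζ ^ 4 - 5 * ζ ^ 5 + ζ ^ 6 - 2 * ζ ^ 7 - 2 * ζ ^ 8 + ζ ^ 9 + 4 * ζ ^ 10 - 2 * ζ ^ 11 + ζ ^ 12) * (1 + (ζ ^ 8) - (ζ ^ 8) ^ 3) = (-5 - 2 * ζ - 5 * ζ ^ 2 + 4 * ζ ^ 3 + 4 * ζ ^ 4 + ζ ^ 5 + ζ ^ 6 - 2 * ζ ^ 7 - 5 * ζ ^ 8 + ζ ^ 9 + 4 * ζ ^ 10 - 2 * ζ ^ 11 + 7 * ζ ^ 12) := by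
    linear_combination (-6 - 6 * ζ ^ 2 + 3 * ζ ^ 3 + 6 * ζ ^ 5 - 4 * ζ ^ 8 + 2 * ζ ^ 9 - ζ ^ 10 - ζ ^ 11 + 2 * ζ ^ 12 - ζ ^ 13 - ζ ^ 14 - 4 * ζ ^ 15 + 5 * ζ ^ 16 - ζ ^ 17 + 2 * ζ ^ 18 + 2 * ζ ^ 19 - ζ ^ 20 - 4 * ζ ^ 21 + 2 * ζ ^ 22 - ζ ^ 23) * h1
  have e9 : (-5 - 2 * ζ - 5 * ζ ^ 2 + 4 * ζ ^ 3 + 4 * ζ ^ 4 + ζ ^ 5 + ζ ^ 6 - 2 * ζ ^ 7 - 5 * ζ ^ 8 + ζ ^ 9 + 4 * ζ ^ 10 - 2 * ζ ^ 11 + 7 * ζ ^ 12) * (1 + (ζ ^ 9) - (ζ ^ 9) ^ 3) = (-8 + 4 * ζ - 2 * ζ ^ 2 + 7 * ζ ^ 3 - 5 * ζ ^ 4 - 2 * ζ ^ 5 + 4 * ζ ^ 6 - 5 * ζ ^ 7 + 4 * ζ ^ 8 + ζ ^ 9 + ζ ^ 10 - 11 * ζ ^ 11 + 13 * ζ ^ 12) := by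
    linear_combination (-3 + 6 * ζ + 3 * ζ ^ 2 + 3 * ζ ^ 3 - 9 * ζ ^ 4 - 3 * ζ ^ 5 + 3 * ζ ^ 6 - 3 * ζ ^ 7 + 9 * ζ ^ 8 + 5 * ζ ^ 9 - ζ ^ 10 - 4 * ζ ^ 11 + 2 * ζ ^ 12 - 7 * ζ ^ 13 + 5 * ζ ^ 14 + 2 * ζ ^ 15 + 5 * ζ ^ 16 - 4 * ζ ^ 17 - 4 * ζ ^ 18 - ζ ^ 19 - ζ ^ 20 + 2 * ζ ^ 21 + 5 * ζ ^ 22 - ζ ^ 23 - 4 * ζ ^ 24 + 2 * ζ ^ 25 - 7 * ζ ^ 26) * h1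
  have e10 : (-8 + 4 * ζ - 2 * ζ ^ 2 + 7 * ζ ^ 3 - 5 * ζ ^ 4 - 2 * ζ ^ 5 + 4 * ζ ^ 6 - 5 * ζ ^ 7 + 4 * ζ ^ 8 + ζ ^ 9 + ζ ^ 10 - 11 * ζ ^ 11 + 13 * ζ ^ 12) * (1 + (ζ ^ 10) - (ζ ^ 10) ^ 3) = (-2 - 2 * ζ + 7 * ζ ^ 2 - 2 * ζ ^ 3 - 2 * ζ ^ 4 - 2 * ζ ^ 5 + 7 * ζ ^ 6 - 11 * ζ ^ 7 - 2 * ζ ^ 8 + 16 * ζ ^ 9 - 11 * ζ ^ 10 - 2 * ζ ^ 11 + 7 * ζ ^ 12) := by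
    linear_combination (6 - 6 * ζ + 9 * ζ ^ 2 - 9 * ζ ^ 3 + 3 * ζ ^ 4 + 3 * ζ ^ 6 - 6 * ζ ^ 7 - 6 * ζ ^ 8 + 15 * ζ ^ 9 - 4 * ζ ^ 10 + 5 * ζ ^ 11 - 4 * ζ ^ 12 - ζ ^ 13 - ζ ^ 14 + 11 * ζ ^ 15 - 13 * ζ ^ 16 + 8 * ζ ^ 17 - 4 * ζ ^ 18 + 2 * ζ ^ 19 - 7 * ζ ^ 20 + 5 * ζ ^ 21 + 2 * ζ ^ 22 - 4 * ζ ^ 23 + 5 * ζ ^ 24 - 4 * ζ ^ 25 - ζ ^ 26 - ζ ^ 27 + 11 * ζ ^ 28 - 13 * ζ ^ 29) * h1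
  have e11 : (-2 - 2 * ζ + 7 * ζ ^ 2 - 2 * ζ ^ 3 - 2 * ζ ^ 4 - 2 * ζ ^ 5 + 7 * ζ ^ 6 - 11 * ζ ^ 7 - 2 * ζ ^ 8 + 16 * ζ ^ 9 - 11 * ζ ^ 10 - 2 * ζ ^ 11 + 7 * ζ ^ 12) * (1 + (ζ ^ 11) - (ζ ^ 11) ^ 3) = (-2 + 7 * ζ + 7 * ζ ^ 2 - 20 * ζ ^ 3 + 16 * ζ ^ 4 - 11 * ζ ^ 5 - 2 * ζ ^ 6 + 7 * ζ ^ 7 - 11 * ζ ^ 8 + 7 * ζ ^ 9 - 2 * ζ ^ 10 - 2 * ζ ^ 11 + 7 * ζ ^ 12) := by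
    linear_combination (9 * ζ - 18 * ζ ^ 3 + 18 * ζ ^ 4 - 9 * ζ ^ 5 - 9 * ζ ^ 6 + 18 * ζ ^ 7 - 9 * ζ ^ 8 - 9 * ζ ^ 9 + 9 * ζ ^ 10 + 2 * ζ ^ 11 + 2 * ζ ^ 12 - 7 * ζ ^ 13 + 11 * ζ ^ 14 + 2 * ζ ^ 15 - 16 * ζ ^ 16 + 11 * ζ ^ 17 + 2 * ζ ^ 18 - 7 * ζ ^ 19 + 2 * ζ ^ 20 + 2 * ζ ^ 21 - 7 * ζ ^ 22 + 2 * ζ ^ 23 + 2 * ζ ^ 24 + 2 * ζ ^ 25 - 7 * ζ ^ 26 + 11 * ζ ^ 27 + 2 * ζ ^ 28 - 16 * ζ ^ 29 + 11 * ζ ^ 30 + 2 * ζ ^ 31 - 7 * ζ ^ 32) * h1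
  have e12 : (-2 + 7 * ζ + 7 * ζ ^ 2 - 20 * ζ ^ 3 + 16 * ζ ^ 4 - 11 * ζ ^ 5 - 2 * ζ ^ 6 + 7 * ζ ^ 7 - 11 * ζ ^ 8 + 7 * ζ ^ 9 - 2 * ζ ^ 10 - 2 * ζ ^ 11 + 7 * ζ ^ 12) * (1 + (ζ ^ 12) - (ζ ^ 12) ^ 3) = (25 - 2 * ζ - 2 * ζ ^ 2 - 2 * ζ ^ 3 - 2 * ζ ^ 4 - 2 * ζ ^ 5 - 2 * ζ ^ 6 - 2 * ζ ^ 7 - 2 * ζ ^ 8 - 2 * ζ ^ 9 - 2 * ζ ^ 10 - 2 * ζ ^ 11 - 2 * ζ ^ 12) := by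
    linear_combination (27 - 9 * ζ - 9 * ζ ^ 2 + 18 * ζ ^ 3 - 18 * ζ ^ 4 + 9 * ζ ^ 5 - 9 * ζ ^ 7 + 9 * ζ ^ 8 - 9 * ζ ^ 9 - 7 * ζ ^ 12 + 20 * ζ ^ 13 - 16 * ζ ^ 14 + 11 * ζ ^ 15 + 2 * ζ ^ 16 - 7 * ζ ^ 17 + 11 * ζ ^ 18 - 7 * ζ ^ 19 + 2 * ζ ^ 20 + 2 * ζ ^ 21 - 7 * ζ ^ 22 + 2 * ζ ^ 23 - 7 * ζ ^ 24 - 7 * ζ ^ 25 + 20 * ζ ^ 26 - 16 * ζ ^ 27 + 11 * ζ ^ 28 + 2 * ζ ^ 29 - 7 * ζ ^ 30 + 11 * ζ ^ 31 - 7 * ζ ^ 32 + 2 * ζ ^ 33 + 2 * ζ ^ 34 - 7 * ζ ^ 35) * h1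
  rw [e2, e3, e4, e5, e6, e7, e8, e9, e10, e11, e12]
  linear_combination (-2) * hΦ

theorem cast_3_zmod_13_pow : ((3 : ℕ) : ZMod 13) ^ 3 = 1 := by decide
theorem cast_3_zmod_13_ne : ((3 : ℕ) : ZMod 13) ≠ 1 := by decide

theorem exists_isPrincipal_13_3 (K : Type*) [Field K] [NumberField K]
    [IsCyclotomicExtension {13} ℚ K] :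
    ∃ P ∈ primesOver (span {((3 : ℕ) : ℤ)}) (𝓞 K), Submodule.IsPrincipal P := by
  have hp : Fact (Nat.Prime 13) := ⟨by norm_num⟩
  have hζ := IsCyclotomicExtension.zeta_spec 13 ℚ K
  have h1 : (IsCyclotomicExtension.zeta 13 ℚ K) ^ 13 = 1 := hζ.pow_eq_one
  have hΦ : (let ζ := IsCyclotomicExtension.zeta 13 ℚ K; 1 + ζ + ζ ^ 2 + ζ ^ 3 + ζ ^ 4 + ζ ^ 5 + ζ ^ 6 + ζ ^ 7 + ζ ^ 8 + ζ ^ 9 + ζ ^ 10 + ζ ^ 11 + ζ ^ 12) = 0 := by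
    have := hζ.geom_sum_eq_zero (by norm_num)
    simp only [Finset.sum_range_succ, Finset.sum_range_zero] at this
    linear_combination this
  have hm : Fact (Nat.Prime 3) := ⟨by norm_num⟩
  have hord : orderOf ((3 : ℕ) : ZMod 13) = 3 :=
    orderOf_eq_prime cast_3_zmod_13_pow cast_3_zmod_13_ne
  refine exists_isPrincipal_of_prod_eq (p := 13) (K := K) 3 (by norm_num) (by norm_num)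
    (1 + X - X ^ 3 : ℤ[X]) 3 hord ?_
  simp only [Finset.prod_Ico_succ_top, Finset.Ico_self, Finset.prod_empty, map_sub, map_add,
    map_one, map_pow, aeval_X, Nat.one_le_ofNat, le_refl, one_mul]
  rw [normIdentity_13_3 _ h1 hΦ]
  norm_num

theorem normIdentity_13_53 {R : Type*} [CommRing R] (ζ : R) (h1 : ζ ^ 13 = 1)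
    (hΦ : 1 + ζ + ζ ^ 2 + ζ ^ 3 + ζ ^ 4 + ζ ^ 5 + ζ ^ 6 + ζ ^ 7 + ζ ^ 8 + ζ ^ 9 + ζ ^ 10 + ζ ^ 11 + ζ ^ 12 = 0) :
    (1 - (ζ ^ 1) + (ζ ^ 1) ^ 3) * (1 - (ζ ^ 2) + (ζ ^ 2) ^ 3) * (1 - (ζ ^ 3) + (ζ ^ 3) ^ 3) * (1 - (ζ ^ 4) + (ζ ^ 4) ^ 3) * (1 - (ζ ^ 5) + (ζ ^ 5) ^ 3) * (1 - (ζ ^ 6) + (ζ ^ 6) ^ 3) * (1 - (ζ ^ 7) + (ζ ^ 7) ^ 3) * (1 - (ζ ^ 8) + (ζ ^ 8) ^ 3) * (1 - (ζ ^ 9) + (ζ ^ 9) ^ 3) * (1 - (ζ ^ 10) + (ζ ^ 10) ^ 3) * (1 - (ζ ^ 11) + (ζ ^ 11) ^ 3) * (1 - (ζ ^ 12) + (ζ ^ 12) ^ 3) = 53 := by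
  have e2 : (1 - (ζ ^ 1) + (ζ ^ 1) ^ 3) * (1 - (ζ ^ 2) + (ζ ^ 2) ^ 3) = (1 - ζ - ζ ^ 2 + 2 * ζ ^ 3 - ζ ^ 5 + ζ ^ 6 - ζ ^ 7 + ζ ^ 9) := by
    linear_combination (0) * h1
  have e3 : (1 - ζ - ζ ^ 2 + 2 * ζ ^ 3 - ζ ^ 5 + ζ ^ 6 - ζ ^ 7 + ζ ^ 9) * (1 - (ζ ^ 3) + (ζ ^ 3) ^ 3) = (1 - 2 * ζ + ζ ^ 4 + ζ ^ 5 - ζ ^ 6 - ζ ^ 7 + ζ ^ 8 + ζ ^ 9 - ζ ^ 11 + ζ ^ 12) := by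
    linear_combination (-ζ + ζ ^ 2 - ζ ^ 3 + ζ ^ 5) * h1
  have e4 : (1 - 2 * ζ + ζ ^ 4 + ζ ^ 5 - ζ ^ 6 - ζ ^ 7 + ζ ^ 8 + ζ ^ 9 - ζ ^ 11 + ζ ^ 12) * (1 - (ζ ^ 4) + (ζ ^ 4) ^ 3) = (-2 - 2 * ζ + ζ ^ 2 + ζ ^ 4 + 2 * ζ ^ 5 - 2 * ζ ^ 6 + ζ ^ 8 + ζ ^ 11 + ζ ^ 12) := by
    linear_combination (-3 + ζ ^ 2 + ζ ^ 4 - ζ ^ 5 - ζ ^ 6 + ζ ^ 7 + ζ ^ 8 - ζ ^ 10 + ζ ^ 11) * h1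
  have e5 : (-2 - 2 * ζ + ζ ^ 2 + ζ ^ 4 + 2 * ζ ^ 5 - 2 * ζ ^ 6 + ζ ^ 8 + ζ ^ 11 + ζ ^ 12) * (1 - (ζ ^ 5) + (ζ ^ 5) ^ 3) = (-2 - ζ - ζ ^ 2 - 3 * ζ ^ 3 + ζ ^ 4 + 4 * ζ ^ 5 + ζ ^ 6 + ζ ^ 7 - ζ ^ 8 - ζ ^ 9 - ζ ^ 10 + 3 * ζ ^ 11 + ζ ^ 12) := by
    linear_combination (ζ - 2 * ζ ^ 2 - 3 * ζ ^ 3 + ζ ^ 6 + 2 * ζ ^ 7 - 2 * ζ ^ 8 + ζ ^ 10 + ζ ^ 13 + ζ ^ 14) * h1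
  have e6 : (-2 - ζ - ζ ^ 2 - 3 * ζ ^ 3 + ζ ^ 4 + 4 * ζ ^ 5 + ζ ^ 6 + ζ ^ 7 - ζ ^ 8 - ζ ^ 9 - ζ ^ 10 + 3 * ζ ^ 11 + ζ ^ 12) * (1 - (ζ ^ 6) + (ζ ^ 6) ^ 3) = (-4 - ζ - ζ ^ 2 + ζ ^ 3 - ζ ^ 4 + ζ ^ 5 + 2 * ζ ^ 6 + ζ ^ 7 - 3 * ζ ^ 8 + 3 * ζ ^ 9 + 2 * ζ ^ 10 + ζ ^ 12) := by
    linear_combination (-2 + 4 * ζ ^ 3 - 2 * ζ ^ 4 - 3 * ζ ^ 5 - ζ ^ 6 - ζ ^ 7 - 3 * ζ ^ 8 + ζ ^ 9 + 4 * ζ ^ 10 + ζ ^ 11 + ζ ^ 12 - ζ ^ 13 - ζ ^ 14 - ζ ^ 15 + 3 * ζ ^ 16 + ζ ^ 17) * h1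
  have e7 : (-4 - ζ - ζ ^ 2 + ζ ^ 3 - ζ ^ 4 + ζ ^ 5 + 2 * ζ ^ 6 + ζ ^ 7 - 3 * ζ ^ 8 + 3 * ζ ^ 9 + 2 * ζ ^ 10 + ζ ^ 12) * (1 - (ζ ^ 7) + (ζ ^ 7) ^ 3) = (-5 + 3 * ζ ^ 2 - 5 * ζ ^ 3 + 3 * ζ ^ 5 + ζ ^ 6 + 6 * ζ ^ 7 - 6 * ζ ^ 8 + 3 * ζ ^ 9 + 2 * ζ ^ 11 - ζ ^ 12) := by
    linear_combination (-1 + ζ + 4 * ζ ^ 2 - 6 * ζ ^ 3 + ζ ^ 4 + 2 * ζ ^ 5 - ζ ^ 6 + ζ ^ 7 - 4 * ζ ^ 8 - ζ ^ 9 - ζ ^ 10 + ζ ^ 11 - ζ ^ 12 + ζ ^ 13 + 2 * ζ ^ 14 + ζ ^ 15 - 3 * ζ ^ 16 + 3 * ζ ^ 17 + 2 * ζ ^ 18 + ζ ^ 20) * h1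
  have e8 : (-5 + 3 * ζ ^ 2 - 5 * ζ ^ 3 + 3 * ζ ^ 5 + ζ ^ 6 + 6 * ζ ^ 7 - 6 * ζ ^ 8 + 3 * ζ ^ 9 + 2 * ζ ^ 11 - ζ ^ 12) * (1 - (ζ ^ 8) + (ζ ^ 8) ^ 3) = (-5 - 6 * ζ - 3 * ζ ^ 2 + 4 * ζ ^ 3 - 2 * ζ ^ 4 + 9 * ζ ^ 5 - 7 * ζ ^ 6 + 10 * ζ ^ 7 - ζ ^ 8 + 5 * ζ ^ 9 - 4 * ζ ^ 10 + 2 * ζ ^ 11 - ζ ^ 12) := by
    linear_combination (-6 * ζ - 6 * ζ ^ 2 + 9 * ζ ^ 3 - 2 * ζ ^ 4 + 6 * ζ ^ 5 - 8 * ζ ^ 6 + 4 * ζ ^ 7 + 2 * ζ ^ 9 - ζ ^ 10 - 5 * ζ ^ 11 + 3 * ζ ^ 13 - 5 * ζ ^ 14 + 3 * ζ ^ 16 + ζ ^ 17 + 6 * ζ ^ 18 - 6 * ζ ^ 19 + 3 * ζ ^ 20 + 2 * ζ ^ 22 - ζ ^ 23) * h1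
  have e9 : (-5 - 6 * ζ - 3 * ζ ^ 2 + 4 * ζ ^ 3 - 2 * ζ ^ 4 + 9 * ζ ^ 5 - 7 * ζ ^ 6 + 10 * ζ ^ 7 - ζ ^ 8 + 5 * ζ ^ 9 - 4 * ζ ^ 10 + 2 * ζ ^ 11 - ζ ^ 12) * (1 - (ζ ^ 9) + (ζ ^ 9) ^ 3) = (-4 - 20 * ζ - 2 * ζ ^ 2 - 9 * ζ ^ 3 + 3 * ζ ^ 4 + 2 * ζ ^ 5 + 6 * ζ ^ 6 + ζ ^ 7 + 10 * ζ ^ 8 + 9 * ζ ^ 9 + 7 * ζ ^ 10 + ζ ^ 11 - 3 * ζ ^ 12) := by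
    linear_combination (1 - 14 * ζ + ζ ^ 2 - 13 * ζ ^ 3 + 5 * ζ ^ 4 - 7 * ζ ^ 5 + 13 * ζ ^ 6 - 9 * ζ ^ 7 + 11 * ζ ^ 8 - ζ ^ 9 + 5 * ζ ^ 10 - 4 * ζ ^ 11 + 2 * ζ ^ 12 - ζ ^ 13 - 5 * ζ ^ 14 - 6 * ζ ^ 15 - 3 * ζ ^ 16 + 4 * ζ ^ 17 - 2 * ζ ^ 18 + 9 * ζ ^ 19 - 7 * ζ ^ 20 + 10 * ζ ^ 21 - ζ ^ 22 + 5 * ζ ^ 23 - 4 * ζ ^ 24 + 2 * ζ ^ 25 - ζ ^ 26) * h1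
  have e10 : (-4 - 20 * ζ - 2 * ζ ^ 2 - 9 * ζ ^ 3 + 3 * ζ ^ 4 + 2 * ζ ^ 5 + 6 * ζ ^ 6 + ζ ^ 7 + 10 * ζ ^ 8 + 9 * ζ ^ 9 + 7 * ζ ^ 10 + ζ ^ 11 - 3 * ζ ^ 12) * (1 - (ζ ^ 10) + (ζ ^ 10) ^ 3) = (14 - 16 * ζ - 3 * ζ ^ 2 - 18 * ζ ^ 3 - 2 * ζ ^ 4 - 28 * ζ ^ 5 - 5 * ζ ^ 6 - 15 * ζ ^ 7 + 12 * ζ ^ 8 + 14 * ζ ^ 9 + 17 * ζ ^ 10 + 22 * ζ ^ 11 + 9 * ζ ^ 12) := by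
    linear_combination (18 + 4 * ζ - ζ ^ 2 - 9 * ζ ^ 3 - 5 * ζ ^ 4 - 30 * ζ ^ 5 - 11 * ζ ^ 6 - 16 * ζ ^ 7 + 2 * ζ ^ 8 + 5 * ζ ^ 9 + 6 * ζ ^ 10 + ζ ^ 11 + 10 * ζ ^ 12 + 9 * ζ ^ 13 + 7 * ζ ^ 14 + ζ ^ 15 - 3 * ζ ^ 16 - 4 * ζ ^ 17 - 20 * ζ ^ 18 - 2 * ζ ^ 19 - 9 * ζ ^ 20 + 3 * ζ ^ 21 + 2 * ζ ^ 22 + 6 * ζ ^ 23 + ζ ^ 24 + 10 * ζ ^ 25 + 9 * ζ ^ 26 + 7 * ζ ^ 27 + ζ ^ 28 - 3 * ζ ^ 29) * h1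
  have e11 : (14 - 16 * ζ - 3 * ζ ^ 2 - 18 * ζ ^ 3 - 2 * ζ ^ 4 - 28 * ζ ^ 5 - 5 * ζ ^ 6 - 15 * ζ ^ 7 + 12 * ζ ^ 8 + 14 * ζ ^ 9 + 17 * ζ ^ 10 + 22 * ζ ^ 11 + 9 * ζ ^ 12) * (1 - (ζ ^ 11) + (ζ ^ 11) ^ 3) = (12 - 13 * ζ + 11 * ζ ^ 2 + 24 * ζ ^ 3 + 20 * ζ ^ 4 + 9 * ζ ^ 5 - 8 * ζ ^ 6 - 15 * ζ ^ 7 - 21 * ζ ^ 8 - 11 * ζ ^ 9 - 10 * ζ ^ 10 + 6 * ζ ^ 11 - 3 * ζ ^ 12) := by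
    linear_combination (-2 + 3 * ζ + 14 * ζ ^ 2 + 42 * ζ ^ 3 + 22 * ζ ^ 4 + 37 * ζ ^ 5 - 3 * ζ ^ 6 - 33 * ζ ^ 8 - 25 * ζ ^ 9 - 27 * ζ ^ 10 - 2 * ζ ^ 11 - 28 * ζ ^ 12 - 5 * ζ ^ 13 - 15 * ζ ^ 14 + 12 * ζ ^ 15 + 14 * ζ ^ 16 + 17 * ζ ^ 17 + 22 * ζ ^ 18 + 9 * ζ ^ 19 + 14 * ζ ^ 20 - 16 * ζ ^ 21 - 3 * ζ ^ 22 - 18 * ζ ^ 23 - 2 * ζ ^ 24 - 28 * ζ ^ 25 - 5 * ζ ^ 26 - 15 * ζ ^ 27 + 12 * ζ ^ 28 + 14 * ζ ^ 29 + 17 * ζ ^ 30 + 22 * ζ ^ 31 + 9 * ζ ^ 32) * h1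
  have e12 : (12 - 13 * ζ + 11 * ζ ^ 2 + 24 * ζ ^ 3 + 20 * ζ ^ 4 + 9 * ζ ^ 5 - 8 * ζ ^ 6 - 15 * ζ ^ 7 - 21 * ζ ^ 8 - 11 * ζ ^ 9 - 10 * ζ ^ 10 + 6 * ζ ^ 11 - 3 * ζ ^ 12) * (1 - (ζ ^ 12) + (ζ ^ 12) ^ 3) = (49 - 4 * ζ - 4 * ζ ^ 2 - 4 * ζ ^ 3 - 4 * ζ ^ 4 - 4 * ζ ^ 5 - 4 * ζ ^ 6 - 4 * ζ ^ 7 - 4 * ζ ^ 8 - 4 * ζ ^ 9 - 4 * ζ ^ 10 - 4 * ζ ^ 11 - 4 * ζ ^ 12) := by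
    linear_combination (37 + 9 * ζ - 15 * ζ ^ 2 - 28 * ζ ^ 3 - 24 * ζ ^ 4 - 13 * ζ ^ 5 + 4 * ζ ^ 6 + 11 * ζ ^ 7 + 17 * ζ ^ 8 + 7 * ζ ^ 9 + 6 * ζ ^ 10 - 10 * ζ ^ 11 + 11 * ζ ^ 12 + 24 * ζ ^ 13 + 20 * ζ ^ 14 + 9 * ζ ^ 15 - 8 * ζ ^ 16 - 15 * ζ ^ 17 - 21 * ζ ^ 18 - 11 * ζ ^ 19 - 10 * ζ ^ 20 + 6 * ζ ^ 21 - 3 * ζ ^ 22 + 12 * ζ ^ 23 - 13 * ζ ^ 24 + 11 * ζ ^ 25 + 24 * ζ ^ 26 + 20 * ζ ^ 27 + 9 * ζ ^ 28 - 8 * ζ ^ 29 - 15 * ζ ^ 30 - 21 * ζ ^ 31 - 11 * ζ ^ 32 - 10 * ζ ^ 33 + 6 * ζ ^ 34 - 3 * ζ ^ 35) * h1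
  rw [e2, e3, e4, e5, e6, e7, e8, e9, e10, e11, e12]
  linear_combination (-4) * hΦ

theorem cast_53_zmod_13 : ((53 : ℕ) : ZMod 13) = 1 := by decide

theorem exists_isPrincipal_13_53 (K : Type*) [Field K] [NumberField K]
    [IsCyclotomicExtension {13} ℚ K] :
    ∃ P ∈ primesOver (span {((53 : ℕ) : ℤ)}) (𝓞 K), Submodule.IsPrincipal P := by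
  have hp : Fact (Nat.Prime 13) := ⟨by norm_num⟩
  have hζ := IsCyclotomicExtension.zeta_spec 13 ℚ K
  have h1 : (IsCyclotomicExtension.zeta 13 ℚ K) ^ 13 = 1 := hζ.pow_eq_one
  have hΦ : (let ζ := IsCyclotomicExtension.zeta 13 ℚ K; 1 + ζ + ζ ^ 2 + ζ ^ 3 + ζ ^ 4 + ζ ^ 5 + ζ ^ 6 + ζ ^ 7 + ζ ^ 8 + ζ ^ 9 + ζ ^ 10 + ζ ^ 11 + ζ ^ 12) = 0 := by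
    have := hζ.geom_sum_eq_zero (by norm_num)
    simp only [Finset.sum_range_succ, Finset.sum_range_zero] at this
    linear_combination this
  have hord : orderOf ((53 : ℕ) : ZMod 13) = 1 := by
    rw [cast_53_zmod_13, orderOf_one]
  refine exists_isPrincipal_of_prod_eq (p := 13) (K := K) 53 (by norm_num) (by norm_num)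
    (1 - X + X ^ 3 : ℤ[X]) 1 hord ?_
  simp only [Finset.prod_Ico_succ_top, Finset.Ico_self, Finset.prod_empty, map_sub, map_add,
    map_one, map_pow, aeval_X, Nat.one_le_ofNat, le_refl, one_mul]
  rw [normIdentity_13_53 _ h1 hΦ]
  norm_num

theorem normIdentity_13_79 {R : Type*} [CommRing R] (ζ : R) (h1 : ζ ^ 13 = 1)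
    (hΦ : 1 + ζ + ζ ^ 2 + ζ ^ 3 + ζ ^ 4 + ζ ^ 5 + ζ ^ 6 + ζ ^ 7 + ζ ^ 8 + ζ ^ 9 + ζ ^ 10 + ζ ^ 11 + ζ ^ 12 = 0) :
    (1 - (ζ ^ 1) - (ζ ^ 1) ^ 4) * (1 - (ζ ^ 2) - (ζ ^ 2) ^ 4) * (1 - (ζ ^ 3) - (ζ ^ 3) ^ 4) * (1 - (ζ ^ 4) - (ζ ^ 4) ^ 4) * (1 - (ζ ^ 5) - (ζ ^ 5) ^ 4) * (1 - (ζ ^ 6) - (ζ ^ 6) ^ 4) * (1 - (ζ ^ 7) - (ζ ^ 7) ^ 4) * (1 - (ζ ^ 8) - (ζ ^ 8) ^ 4) * (1 - (ζ ^ 9) - (ζ ^ 9) ^ 4) * (1 - (ζ ^ 10) - (ζ ^ 10) ^ 4) * (1 - (ζ ^ 11) - (ζ ^ 11) ^ 4) * (1 - (ζ ^ 12) - (ζ ^ 12) ^ 4) = 79 := by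
  have e2 : (1 - (ζ ^ 1) - (ζ ^ 1) ^ 4) * (1 - (ζ ^ 2) - (ζ ^ 2) ^ 4) = (1 - ζ - ζ ^ 2 + ζ ^ 3 - ζ ^ 4 + ζ ^ 6 - ζ ^ 8 + ζ ^ 9 + ζ ^ 12) := by
    linear_combination (0) * h1
  have e3 : (1 - ζ - ζ ^ 2 + ζ ^ 3 - ζ ^ 4 + ζ ^ 6 - ζ ^ 8 + ζ ^ 9 + ζ ^ 12) * (1 - (ζ ^ 3) - (ζ ^ 3) ^ 4) = (2 - 3 * ζ ^ 2 + ζ ^ 3 + 2 * ζ ^ 7 - 2 * ζ ^ 8 - ζ ^ 12) := by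
    linear_combination (1 + ζ - 2 * ζ ^ 2 + ζ ^ 3 - ζ ^ 5 + ζ ^ 7 - ζ ^ 8 - ζ ^ 11) * h1
  have e4 : (2 - 3 * ζ ^ 2 + ζ ^ 3 + 2 * ζ ^ 7 - 2 * ζ ^ 8 - ζ ^ 12) * (1 - (ζ ^ 4) - (ζ ^ 4) ^ 4) = (2 - 2 * ζ ^ 2 - 2 * ζ ^ 4 + 3 * ζ ^ 5 + 2 * ζ ^ 6 + ζ ^ 7 - 2 * ζ ^ 8 - 2 * ζ ^ 10 + ζ ^ 12) := by
    linear_combination (ζ ^ 2 - ζ ^ 3 + 3 * ζ ^ 5 - ζ ^ 6 - 2 * ζ ^ 10 + 2 * ζ ^ 11 + ζ ^ 15) * h1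
  have e5 : (2 - 2 * ζ ^ 2 - 2 * ζ ^ 4 + 3 * ζ ^ 5 + 2 * ζ ^ 6 + ζ ^ 7 - 2 * ζ ^ 8 - 2 * ζ ^ 10 + ζ ^ 12) * (1 - (ζ ^ 5) - (ζ ^ 5) ^ 4) = (2 - ζ + 2 * ζ ^ 2 - ζ ^ 4 + ζ ^ 5 + ζ ^ 6 + ζ ^ 7 - 2 * ζ ^ 8 + 4 * ζ ^ 9 - 5 * ζ ^ 10 - 3 * ζ ^ 12) := by
    linear_combination (-ζ + 4 * ζ ^ 2 + ζ ^ 4 - ζ ^ 6 - 2 * ζ ^ 7 + 2 * ζ ^ 9 + 2 * ζ ^ 11 - 3 * ζ ^ 12 - 2 * ζ ^ 13 - ζ ^ 14 + 2 * ζ ^ 15 + 2 * ζ ^ 17 - ζ ^ 19) * h1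
  have e6 : (2 - ζ + 2 * ζ ^ 2 - ζ ^ 4 + ζ ^ 5 + ζ ^ 6 + ζ ^ 7 - 2 * ζ ^ 8 + 4 * ζ ^ 9 - 5 * ζ ^ 10 - 3 * ζ ^ 12) * (1 - (ζ ^ 6) - (ζ ^ 6) ^ 4) = (-1 + ζ - ζ ^ 2 + 4 * ζ ^ 3 - 2 * ζ ^ 4 + 3 * ζ ^ 5 + ζ ^ 6 - 2 * ζ ^ 7 + ζ ^ 8 + 4 * ζ ^ 9 - ζ ^ 10 - 3 * ζ ^ 11 - 3 * ζ ^ 12) := by
    linear_combination (-3 + 2 * ζ - 3 * ζ ^ 2 + 4 * ζ ^ 3 - ζ ^ 4 + 2 * ζ ^ 5 + 2 * ζ ^ 6 - 4 * ζ ^ 7 + 5 * ζ ^ 8 + 3 * ζ ^ 10 - 2 * ζ ^ 11 + ζ ^ 12 - 2 * ζ ^ 13 + ζ ^ 15 - ζ ^ 16 - ζ ^ 17 - ζ ^ 18 + 2 * ζ ^ 19 - 4 * ζ ^ 20 + 5 * ζ ^ 21 + 3 * ζ ^ 23) * h1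
  have e7 : (-1 + ζ - ζ ^ 2 + 4 * ζ ^ 3 - 2 * ζ ^ 4 + 3 * ζ ^ 5 + ζ ^ 6 - 2 * ζ ^ 7 + ζ ^ 8 + 4 * ζ ^ 9 - ζ ^ 10 - 3 * ζ ^ 11 - 3 * ζ ^ 12) * (1 - (ζ ^ 7) - (ζ ^ 7) ^ 4) = (1 + 6 * ζ - ζ ^ 2 - ζ ^ 3 + 2 * ζ ^ 5 + 6 * ζ ^ 6 - 4 * ζ ^ 7 - ζ ^ 8 + 7 * ζ ^ 9 - 6 * ζ ^ 10 - 5 * ζ ^ 11 - 5 * ζ ^ 12) := by
    linear_combination (2 + 5 * ζ - 5 * ζ ^ 3 + 2 * ζ ^ 4 - ζ ^ 5 + 5 * ζ ^ 6 - 3 * ζ ^ 7 - ζ ^ 8 + 2 * ζ ^ 9 - ζ ^ 10 - 4 * ζ ^ 11 + ζ ^ 12 + 3 * ζ ^ 13 + 3 * ζ ^ 14 + ζ ^ 15 - ζ ^ 16 + ζ ^ 17 - 4 * ζ ^ 18 + 2 * ζ ^ 19 - 3 * ζ ^ 20 - ζ ^ 21 + 2 * ζ ^ 22 - ζ ^ 23 - 4 * ζ ^ 24 + ζ ^ 25 + 3 * ζ ^ 26 + 3 * ζ ^ 27) * h1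
  have e8 : (1 + 6 * ζ - ζ ^ 2 - ζ ^ 3 + 2 * ζ ^ 5 + 6 * ζ ^ 6 - 4 * ζ ^ 7 - ζ ^ 8 + 7 * ζ ^ 9 - 6 * ζ ^ 10 - 5 * ζ ^ 11 - 5 * ζ ^ 12) * (1 - (ζ ^ 8) - (ζ ^ 8) ^ 4) = (3 + ζ - 4 * ζ ^ 2 + 6 * ζ ^ 3 - 2 * ζ ^ 4 + 13 * ζ ^ 5 + 10 * ζ ^ 6 - 5 * ζ ^ 7 - ζ ^ 8 + 2 * ζ ^ 9 - 5 * ζ ^ 10 - 6 * ζ ^ 11 - 11 * ζ ^ 12) := by
    linear_combination (2 - 5 * ζ - 3 * ζ ^ 2 + 7 * ζ ^ 3 - 2 * ζ ^ 4 + 11 * ζ ^ 5 + 4 * ζ ^ 6 - ζ ^ 7 + ζ ^ 8 + ζ ^ 9 - 2 * ζ ^ 11 - 6 * ζ ^ 12 + 4 * ζ ^ 13 + ζ ^ 14 - 7 * ζ ^ 15 + 6 * ζ ^ 16 + 5 * ζ ^ 17 + 5 * ζ ^ 18 - ζ ^ 19 - 6 * ζ ^ 20 + ζ ^ 21 + ζ ^ 22 - 2 * ζ ^ 24 - 6 * ζ ^ 25 + 4 * ζ ^ 26 + ζ ^ 27 - 7 * ζ ^ 28 +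 6 * ζ ^ 29 + 5 * ζ ^ 30 + 5 * ζ ^ 31) * h1
  have e9 : (3 + ζ - 4 * ζ ^ 2 + 6 * ζ ^ 3 - 2 * ζ ^ 4 + 13 * ζ ^ 5 + 10 * ζ ^ 6 - 5 * ζ ^ 7 - ζ ^ 8 + 2 * ζ ^ 9 - 5 * ζ ^ 10 - 6 * ζ ^ 11 - 11 * ζ ^ 12) * (1 - (ζ ^ 9) - (ζ ^ 9) ^ 4) = (-1 - 10 * ζ - 27 * ζ ^ 2 + ζ ^ 3 + 4 * ζ ^ 4 + 12 * ζ ^ 5 + 13 * ζ ^ 6 + 6 * ζ ^ 7 + 16 * ζ ^ 8 + 10 * ζ ^ 9 - 9 * ζ ^ 10 - 3 * ζ ^ 11 - 13 * ζ ^ 12) := by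
    linear_combination (-4 - 11 * ζ - 23 * ζ ^ 2 - 5 * ζ ^ 3 + 6 * ζ ^ 4 - ζ ^ 5 + 3 * ζ ^ 6 + 11 * ζ ^ 7 + 17 * ζ ^ 8 + 11 * ζ ^ 9 - 3 * ζ ^ 10 - ζ ^ 11 + 4 * ζ ^ 12 - 6 * ζ ^ 13 + 2 * ζ ^ 14 - 13 * ζ ^ 15 - 10 * ζ ^ 16 + 5 * ζ ^ 17 + ζ ^ 18 - 2 * ζ ^ 19 + 5 * ζ ^ 20 + 6 * ζ ^ 21 + 11 * ζ ^ 22 - 3 * ζ ^ 23 - ζ ^ 24 + 4 * ζ ^ 25 - 6 * ζ ^ 26 + 2 * ζ ^ 27 - 13 * ζ ^ 28 - 10 * ζ ^ 29 + 5 * ζ ^ 30 + ζ ^ 31 - 2 * ζ ^ 32 + 5 * ζ ^ 33 + 6 * ζ ^ 34 + 11 * ζ ^ 35) * h1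
  have e10 : (-1 - 10 * ζ - 27 * ζ ^ 2 + ζ ^ 3 + 4 * ζ ^ 4 + 12 * ζ ^ 5 + 13 * ζ ^ 6 + 6 * ζ ^ 7 + 16 * ζ ^ 8 + 10 * ζ ^ 9 - 9 * ζ ^ 10 - 3 * ζ ^ 11 - 13 * ζ ^ 12) * (1 - (ζ ^ 10) - (ζ ^ 10) ^ 4) = (11 - 13 * ζ - 29 * ζ ^ 2 + 15 * ζ ^ 3 - 3 * ζ ^ 4 - 8 * ζ ^ 5 - 9 * ζ ^ 6 + 2 * ζ ^ 7 + 13 * ζ ^ 8 + 7 * ζ ^ 9 - 18 * ζ ^ 10 + 16 * ζ ^ 11 + 17 * ζ ^ 12) := by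
    linear_combination (12 - 3 * ζ - 2 * ζ ^ 2 + 14 * ζ ^ 3 - 7 * ζ ^ 4 - 20 * ζ ^ 5 - 22 * ζ ^ 6 - 4 * ζ ^ 7 - 3 * ζ ^ 8 - 3 * ζ ^ 9 - 10 * ζ ^ 10 + 9 * ζ ^ 11 + 3 * ζ ^ 12 + 13 * ζ ^ 13 + ζ ^ 14 + 10 * ζ ^ 15 + 27 * ζ ^ 16 - ζ ^ 17 - 4 * ζ ^ 18 - 12 * ζ ^ 19 - 13 * ζ ^ 20 - 6 * ζ ^ 21 - 16 * ζ ^ 22 - 10 * ζ ^ 23 + 9 * ζ ^ 24 + 3 * ζ ^ 25 + 13 * ζ ^ 26 + ζ ^ 27 + 10 * ζ ^ 28 + 27 * ζ ^ 29 - ζ ^ 30 - 4 * ζ ^ 31 - 12 * ζ ^ 32 - 13 * ζ ^ 33 - 6 * ζ ^ 34 - 16 * ζ ^ 35 - 10 * ζ ^ 36 + 9 * ζ ^ 37 + 3 * ζ ^ 38 + 13 * ζ ^ 39) * h1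
  have e11 : (11 - 13 * ζ - 29 * ζ ^ 2 + 15 * ζ ^ 3 - 3 * ζ ^ 4 - 8 * ζ ^ 5 - 9 * ζ ^ 6 + 2 * ζ ^ 7 + 13 * ζ ^ 8 + 7 * ζ ^ 9 - 18 * ζ ^ 10 + 16 * ζ ^ 11 + 17 * ζ ^ 12) * (1 - (ζ ^ 11) - (ζ ^ 11) ^ 4) = (27 - 35 * ζ - 8 * ζ ^ 2 + 7 * ζ ^ 3 - 11 * ζ ^ 4 - 21 * ζ ^ 5 - 9 * ζ ^ 6 + 24 * ζ ^ 7 + 16 * ζ ^ 8 - 6 * ζ ^ 9 - 27 * ζ ^ 10 + 14 * ζ ^ 11 + 28 * ζ ^ 12) := by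
    linear_combination (16 - 22 * ζ + 21 * ζ ^ 2 - 8 * ζ ^ 3 - 8 * ζ ^ 4 - 13 * ζ ^ 5 + 22 * ζ ^ 7 + 3 * ζ ^ 8 - 13 * ζ ^ 9 - 9 * ζ ^ 10 + 9 * ζ ^ 11 - 2 * ζ ^ 12 - 13 * ζ ^ 13 - 7 * ζ ^ 14 + 18 * ζ ^ 15 - 16 * ζ ^ 16 - 17 * ζ ^ 17 - 11 * ζ ^ 18 + 13 * ζ ^ 19 + 29 * ζ ^ 20 - 15 * ζ ^ 21 + 3 * ζ ^ 22 + 8 * ζ ^ 23 + 9 * ζ ^ 24 - 2 * ζ ^ 25 - 13 * ζ ^ 26 - 7 * ζ ^ 27 + 18 * ζ ^ 28 - 16 * ζ ^ 29 - 17 * ζ ^ 30 - 11 * ζ ^ 31 + 13 * ζ ^ 32 + 29 * ζ ^ 33 - 15 * ζ ^ 34 + 3 * ζ ^ 35 + 8 * ζ ^ 36 + 9 * ζ ^ 37 - 2 * ζ ^ 38 - 13 * ζ ^ 39 - 7 * ζ ^ 40 + 18 * ζ ^ 41 - 16 * ζ ^ 42 - 17 * ζ ^ 43) * h1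
  have e12 : (27 - 35 * ζ - 8 * ζ ^ 2 + 7 * ζ ^ 3 - 11 * ζ ^ 4 - 21 * ζ ^ 5 - 9 * ζ ^ 6 + 24 * ζ ^ 7 + 16 * ζ ^ 8 - 6 * ζ ^ 9 - 27 * ζ ^ 10 + 14 * ζ ^ 11 + 28 * ζ ^ 12) * (1 - (ζ ^ 12) - (ζ ^ 12) ^ 4) = (73 - 6 * ζ - 6 * ζ ^ 2 - 6 * ζ ^ 3 - 6 * ζ ^ 4 - 6 * ζ ^ 5 - 6 * ζ ^ 6 - 6 * ζ ^ 7 - 6 * ζ ^ 8 - 6 * ζ ^ 9 - 6 * ζ ^ 10 - 6 * ζ ^ 11 - 6 * ζ ^ 12) := by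
    linear_combination (46 + 29 * ζ + 2 * ζ ^ 2 - 13 * ζ ^ 3 + 5 * ζ ^ 4 + 15 * ζ ^ 5 + 3 * ζ ^ 6 - 30 * ζ ^ 7 - 22 * ζ ^ 8 + 21 * ζ ^ 10 - 20 * ζ ^ 11 - 7 * ζ ^ 12 + 11 * ζ ^ 13 + 21 * ζ ^ 14 + 9 * ζ ^ 15 - 24 * ζ ^ 16 - 16 * ζ ^ 17 + 6 * ζ ^ 18 + 27 * ζ ^ 19 - 14 * ζ ^ 20 - 28 * ζ ^ 21 - 27 * ζ ^ 22 + 35 * ζ ^ 23 + 8 * ζ ^ 24 - 7 * ζ ^ 25 + 11 * ζ ^ 26 + 21 * ζ ^ 27 + 9 * ζ ^ 28 - 24 * ζ ^ 29 - 16 * ζ ^ 30 + 6 * ζ ^ 31 + 27 * ζ ^ 32 - 14 * ζ ^ 33 - 28 * ζ ^ 34 - 27 * ζ ^ 35 + 35 * ζ ^ 36 + 8 * ζ ^ 37 - 7 * ζ ^ 38 + 11 * ζ ^ 39 + 21 * ζ ^ 40 + 9 * ζ ^ 41 - 24 * ζ ^ 42 - 16 * ζ ^ 43 + 6 * ζ ^ 44 + 27 * ζ ^ 45 - 14 * ζ ^ 46 - 28 *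 ζ ^ 47) * h1
  rw [e2, e3, e4, e5, e6, e7, e8, e9, e10, e11, e12]
  linear_combination (-6) * hΦ

theorem cast_79_zmod_13 : ((79 : ℕ) : ZMod 13) = 1 := by decide

theorem exists_isPrincipal_13_79 (K : Type*) [Field K] [NumberField K]
    [IsCyclotomicExtension {13} ℚ K] :
    ∃ P ∈ primesOver (span {((79 : ℕ) : ℤ)}) (𝓞 K), Submodule.IsPrincipal P := by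
  have hp : Fact (Nat.Prime 13) := ⟨by norm_num⟩
  have hζ := IsCyclotomicExtension.zeta_spec 13 ℚ K
  have h1 : (IsCyclotomicExtension.zeta 13 ℚ K) ^ 13 = 1 := hζ.pow_eq_one
  have hΦ : (let ζ := IsCyclotomicExtension.zeta 13 ℚ K; 1 + ζ + ζ ^ 2 + ζ ^ 3 + ζ ^ 4 + ζ ^ 5 + ζ ^ 6 + ζ ^ 7 + ζ ^ 8 + ζ ^ 9 + ζ ^ 10 + ζ ^ 11 + ζ ^ 12) = 0 := by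
    have := hζ.geom_sum_eq_zero (by norm_num)
    simp only [Finset.sum_range_succ, Finset.sum_range_zero] at this
    linear_combination this
  have hord : orderOf ((79 : ℕ) : ZMod 13) = 1 := by
    rw [cast_79_zmod_13, orderOf_one]
  refine exists_isPrincipal_of_prod_eq (p := 13) (K := K) 79 (by norm_num) (by norm_num)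
    (1 - X - X ^ 4 : ℤ[X]) 1 hord ?_
  simp only [Finset.prod_Ico_succ_top, Finset.Ico_self, Finset.prod_empty, map_sub, map_add,
    map_one, map_pow, aeval_X, Nat.one_le_ofNat, le_refl, one_mul]
  rw [normIdentity_13_79 _ h1 hΦ]
  norm_num

theorem normIdentity_13_131 {R : Type*} [CommRing R] (ζ : R) (h1 : ζ ^ 13 = 1)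
    (hΦ : 1 + ζ + ζ ^ 2 + ζ ^ 3 + ζ ^ 4 + ζ ^ 5 + ζ ^ 6 + ζ ^ 7 + ζ ^ 8 + ζ ^ 9 + ζ ^ 10 + ζ ^ 11 + ζ ^ 12 = 0) :
    (1 - (ζ ^ 1) - (ζ ^ 1) ^ 3) * (1 - (ζ ^ 2) - (ζ ^ 2) ^ 3) * (1 - (ζ ^ 3) - (ζ ^ 3) ^ 3) * (1 - (ζ ^ 4) - (ζ ^ 4) ^ 3) * (1 - (ζ ^ 5) - (ζ ^ 5) ^ 3) * (1 - (ζ ^ 6) - (ζ ^ 6) ^ 3) * (1 - (ζ ^ 7) - (ζ ^ 7) ^ 3) * (1 - (ζ ^ 8) - (ζ ^ 8) ^ 3) * (1 - (ζ ^ 9) - (ζ ^ 9) ^ 3) * (1 - (ζ ^ 10) - (ζ ^ 10) ^ 3) * (1 - (ζ ^ 11) - (ζ ^ 11) ^ 3) * (1 - (ζ ^ 12) - (ζ ^ 12) ^ 3) = 131 := by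
  have e2 : (1 - (ζ ^ 1) - (ζ ^ 1) ^ 3) * (1 - (ζ ^ 2) - (ζ ^ 2) ^ 3) = (1 - ζ - ζ ^ 2 + ζ ^ 5 - ζ ^ 6 + ζ ^ 7 + ζ ^ 9) := by
    linear_combination (0) * h1
  have e3 : (1 - ζ - ζ ^ 2 + ζ ^ 5 - ζ ^ 6 + ζ ^ 7 + ζ ^ 9) * (1 - (ζ ^ 3) - (ζ ^ 3) ^ 3) = (1 - 2 * ζ - 2 * ζ ^ 3 + ζ ^ 4 + ζ ^ 5 - ζ ^ 6 + ζ ^ 7 - ζ ^ 8 + ζ ^ 9 + ζ ^ 11 - ζ ^ 12) := by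
    linear_combination (-ζ + ζ ^ 2 - ζ ^ 3 - ζ ^ 5) * h1
  have e4 : (1 - 2 * ζ - 2 * ζ ^ 3 + ζ ^ 4 + ζ ^ 5 - ζ ^ 6 + ζ ^ 7 - ζ ^ 8 + ζ ^ 9 + ζ ^ 11 - ζ ^ 12) * (1 - (ζ ^ 4) - (ζ ^ 4) ^ 3) = (2 - 2 * ζ + ζ ^ 2 - 2 * ζ ^ 3 - ζ ^ 4 + 4 * ζ ^ 5 - 2 * ζ ^ 6 + 4 * ζ ^ 7 - 3 * ζ ^ 8 + ζ ^ 11 - ζ ^ 12) := by
    linear_combination (1 + ζ ^ 2 - ζ ^ 4 + ζ ^ 5 - ζ ^ 6 + ζ ^ 7 - ζ ^ 8 - ζ ^ 10 + ζ ^ 11) * h1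
  have e5 : (2 - 2 * ζ + ζ ^ 2 - 2 * ζ ^ 3 - ζ ^ 4 + 4 * ζ ^ 5 - 2 * ζ ^ 6 + 4 * ζ ^ 7 - 3 * ζ ^ 8 + ζ ^ 11 - ζ ^ 12) * (1 - (ζ ^ 5) - (ζ ^ 5) ^ 3) = (4 - ζ - ζ ^ 2 - ζ ^ 3 - ζ ^ 4 + 4 * ζ ^ 5 + ζ ^ 6 - ζ ^ 7 + ζ ^ 8 - 3 * ζ ^ 9 - ζ ^ 10 + 3 * ζ ^ 11 - 5 * ζ ^ 12) := by
    linear_combination (2 + ζ - 2 * ζ ^ 2 + ζ ^ 3 + 2 * ζ ^ 5 + ζ ^ 6 - 4 * ζ ^ 7 + 2 * ζ ^ 8 - 4 * ζ ^ 9 + 3 * ζ ^ 10 - ζ ^ 13 + ζ ^ 14) * h1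
  have e6 : (4 - ζ - ζ ^ 2 - ζ ^ 3 - ζ ^ 4 + 4 * ζ ^ 5 + ζ ^ 6 - ζ ^ 7 + ζ ^ 8 - 3 * ζ ^ 9 - ζ ^ 10 + 3 * ζ ^ 11 - 5 * ζ ^ 12) * (1 - (ζ ^ 6) - (ζ ^ 6) ^ 3) = (4 + ζ + 3 * ζ ^ 2 - 3 * ζ ^ 3 + ζ ^ 4 + 5 * ζ ^ 5 - 2 * ζ ^ 6 + ζ ^ 7 + 3 * ζ ^ 8 - ζ ^ 9 - 4 * ζ ^ 10 - 2 * ζ ^ 11 - 5 * ζ ^ 12) := by
    linear_combination (2 * ζ + 4 * ζ ^ 2 - 2 * ζ ^ 3 + 2 * ζ ^ 4 + ζ ^ 5 + ζ ^ 6 + ζ ^ 7 + ζ ^ 8 + ζ ^ 9 - 4 * ζ ^ 10 - ζ ^ 11 + ζ ^ 12 - ζ ^ 13 + 3 * ζ ^ 14 + ζ ^ 15 - 3 * ζ ^ 16 + 5 * ζ ^ 17) * h1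
  have e7 : (4 + ζ + 3 * ζ ^ 2 - 3 * ζ ^ 3 + ζ ^ 4 + 5 * ζ ^ 5 - 2 * ζ ^ 6 + ζ ^ 7 + 3 * ζ ^ 8 - ζ ^ 9 - 4 * ζ ^ 10 - 2 * ζ ^ 11 - 5 * ζ ^ 12) * (1 - (ζ ^ 7) - (ζ ^ 7) ^ 3) = (1 + 2 * ζ - ζ ^ 2 - 5 * ζ ^ 3 + 6 * ζ ^ 4 + 11 * ζ ^ 5 + 5 * ζ ^ 6 + 2 * ζ ^ 7 - 2 * ζ ^ 8 - 5 * ζ ^ 9 - 4 * ζ ^ 10 - 11 * ζ ^ 12) := by
    linear_combination (-3 + ζ - 4 * ζ ^ 2 - 2 * ζ ^ 3 + 5 * ζ ^ 4 + 6 * ζ ^ 5 + 7 * ζ ^ 6 + 5 * ζ ^ 7 - 4 * ζ ^ 8 - ζ ^ 9 - 3 * ζ ^ 10 + 3 * ζ ^ 11 - ζ ^ 12 - 5 * ζ ^ 13 + 2 * ζ ^ 14 - ζ ^ 15 - 3 * ζ ^ 16 + ζ ^ 17 + 4 * ζ ^ 18 + 2 * ζ ^ 19 + 5 * ζ ^ 20) * h1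
  have e8 : (1 + 2 * ζ - ζ ^ 2 - 5 * ζ ^ 3 + 6 * ζ ^ 4 + 11 * ζ ^ 5 + 5 * ζ ^ 6 + 2 * ζ ^ 7 - 2 * ζ ^ 8 - 5 * ζ ^ 9 - 4 * ζ ^ 10 - 11 * ζ ^ 12) * (1 - (ζ ^ 8) - (ζ ^ 8) ^ 3) = (-9 + 2 * ζ - 9 * ζ ^ 2 - 14 * ζ ^ 3 + 6 * ζ ^ 4 + 13 * ζ ^ 5 + 7 * ζ ^ 6 + 18 * ζ ^ 7 + ζ ^ 8 - 7 * ζ ^ 9 + 8 * ζ ^ 10 + 4 * ζ ^ 11 - 19 * ζ ^ 12) := by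
    linear_combination (-10 - 8 * ζ ^ 2 - 9 * ζ ^ 3 + 2 * ζ ^ 5 + 2 * ζ ^ 6 + 16 * ζ ^ 7 + 4 * ζ ^ 8 + 11 * ζ ^ 10 - ζ ^ 11 - 2 * ζ ^ 12 + ζ ^ 13 + 5 * ζ ^ 14 - 6 * ζ ^ 15 - 11 * ζ ^ 16 - 5 * ζ ^ 17 - 2 * ζ ^ 18 + 2 * ζ ^ 19 + 5 * ζ ^ 20 + 4 * ζ ^ 21 + 11 * ζ ^ 23) * h1
  have e9 : (-9 + 2 * ζ - 9 * ζ ^ 2 - 14 * ζ ^ 3 + 6 * ζ ^ 4 + 13 * ζ ^ 5 + 7 * ζ ^ 6 + 18 * ζ ^ 7 + ζ ^ 8 - 7 * ζ ^ 9 + 8 * ζ ^ 10 + 4 * ζ ^ 11 - 19 * ζ ^ 12) * (1 - (ζ ^ 9) - (ζ ^ 9) ^ 3) = (4 - 2 * ζ - 18 * ζ ^ 2 - 23 * ζ ^ 3 + 19 * ζ ^ 4 + 14 * ζ ^ 5 - 14 * ζ ^ 6 + 7 * ζ ^ 7 + 2 * ζ ^ 8 + ζ ^ 9 + 13 * ζ ^ 10 + 5 * ζ ^ 11 - 9 * ζ ^ 12) := by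
    linear_combination (13 - 4 * ζ - 9 * ζ ^ 2 - 9 * ζ ^ 3 + 13 * ζ ^ 4 + ζ ^ 5 - 21 * ζ ^ 6 - 11 * ζ ^ 7 + ζ ^ 8 - ζ ^ 9 + 7 * ζ ^ 10 - 8 * ζ ^ 11 - 4 * ζ ^ 12 + 19 * ζ ^ 13 + 9 * ζ ^ 14 - 2 * ζ ^ 15 + 9 * ζ ^ 16 + 14 * ζ ^ 17 - 6 * ζ ^ 18 - 13 * ζ ^ 19 - 7 * ζ ^ 20 - 18 * ζ ^ 21 - ζ ^ 22 + 7 * ζ ^ 23 - 8 * ζ ^ 24 - 4 * ζ ^ 25 + 19 * ζ ^ 26) * h1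
  have e10 : (4 - 2 * ζ - 18 * ζ ^ 2 - 23 * ζ ^ 3 + 19 * ζ ^ 4 + 14 * ζ ^ 5 - 14 * ζ ^ 6 + 7 * ζ ^ 7 + 2 * ζ ^ 8 + ζ ^ 9 + 13 * ζ ^ 10 + 5 * ζ ^ 11 - 9 * ζ ^ 12) * (1 - (ζ ^ 10) - (ζ ^ 10) ^ 3) = (26 - 34 * ζ - 37 * ζ ^ 2 + 8 * ζ ^ 4 + 14 * ζ ^ 5 + 3 * ζ ^ 6 + 17 * ζ ^ 7 - 22 * ζ ^ 8 - 4 * ζ ^ 9 + 23 * ζ ^ 10 + 7 * ζ ^ 12) := by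
    linear_combination (22 - 32 * ζ - 19 * ζ ^ 2 + 23 * ζ ^ 3 - 11 * ζ ^ 4 + 17 * ζ ^ 6 + 10 * ζ ^ 7 - 24 * ζ ^ 8 - 5 * ζ ^ 9 + 14 * ζ ^ 10 - 7 * ζ ^ 11 - 2 * ζ ^ 12 - ζ ^ 13 - 13 * ζ ^ 14 - 5 * ζ ^ 15 + 9 * ζ ^ 16 - 4 * ζ ^ 17 + 2 * ζ ^ 18 + 18 * ζ ^ 19 + 23 * ζ ^ 20 - 19 * ζ ^ 21 - 14 * ζ ^ 22 + 14 * ζ ^ 23 - 7 * ζ ^ 24 - 2 * ζ ^ 25 - ζ ^ 26 - 13 * ζ ^ 27 - 5 * ζ ^ 28 + 9 * ζ ^ 29) * h1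
  have e11 : (26 - 34 * ζ - 37 * ζ ^ 2 + 8 * ζ ^ 4 + 14 * ζ ^ 5 + 3 * ζ ^ 6 + 17 * ζ ^ 7 - 22 * ζ ^ 8 - 4 * ζ ^ 9 + 23 * ζ ^ 10 + 7 * ζ ^ 12) * (1 - (ζ ^ 11) - (ζ ^ 11) ^ 3) = (60 - 51 * ζ - 23 * ζ ^ 2 - 10 * ζ ^ 3 - 18 * ζ ^ 4 - 3 * ζ ^ 5 + 18 * ζ ^ 6 - 5 * ζ ^ 7 - 11 * ζ ^ 8 + 33 * ζ ^ 9 + 16 * ζ ^ 10 - 34 * ζ ^ 11 + 27 * ζ ^ 12) := by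
    linear_combination (34 - 17 * ζ + 14 * ζ ^ 2 - 10 * ζ ^ 3 - 26 * ζ ^ 4 - 17 * ζ ^ 5 + 15 * ζ ^ 6 - 22 * ζ ^ 7 + 11 * ζ ^ 8 + 37 * ζ ^ 9 - 7 * ζ ^ 10 - 8 * ζ ^ 11 - 14 * ζ ^ 12 - 3 * ζ ^ 13 - 17 * ζ ^ 14 + 22 * ζ ^ 15 + 4 * ζ ^ 16 - 23 * ζ ^ 17 - 7 * ζ ^ 19 - 26 * ζ ^ 20 + 34 * ζ ^ 21 + 37 * ζ ^ 22 - 8 * ζ ^ 24 - 14 * ζ ^ 25 - 3 * ζ ^ 26 - 17 * ζ ^ 27 + 22 * ζ ^ 28 + 4 * ζ ^ 29 - 23 * ζ ^ 30 - 7 * ζ ^ 32) * h1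
  have e12 : (60 - 51 * ζ - 23 * ζ ^ 2 - 10 * ζ ^ 3 - 18 * ζ ^ 4 - 3 * ζ ^ 5 + 18 * ζ ^ 6 - 5 * ζ ^ 7 - 11 * ζ ^ 8 + 33 * ζ ^ 9 + 16 * ζ ^ 10 - 34 * ζ ^ 11 + 27 * ζ ^ 12) * (1 - (ζ ^ 12) - (ζ ^ 12) ^ 3) = (121 - 10 * ζ - 10 * ζ ^ 2 - 10 * ζ ^ 3 - 10 * ζ ^ 4 - 10 * ζ ^ 5 - 10 * ζ ^ 6 - 10 * ζ ^ 7 - 10 * ζ ^ 8 - 10 * ζ ^ 9 - 10 * ζ ^ 10 - 10 * ζ ^ 11 - 10 * ζ ^ 12) := by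
    linear_combination (61 + 41 * ζ + 13 * ζ ^ 2 + 8 * ζ ^ 4 - 7 * ζ ^ 5 - 28 * ζ ^ 6 - 5 * ζ ^ 7 + ζ ^ 8 - 43 * ζ ^ 9 - 26 * ζ ^ 10 + 24 * ζ ^ 11 + 23 * ζ ^ 12 + 10 * ζ ^ 13 + 18 * ζ ^ 14 + 3 * ζ ^ 15 - 18 * ζ ^ 16 + 5 * ζ ^ 17 + 11 * ζ ^ 18 - 33 * ζ ^ 19 - 16 * ζ ^ 20 + 34 * ζ ^ 21 - 27 * ζ ^ 22 - 60 * ζ ^ 23 + 51 * ζ ^ 24 + 23 * ζ ^ 25 + 10 * ζ ^ 26 + 18 * ζ ^ 27 + 3 * ζ ^ 28 - 18 * ζ ^ 29 + 5 * ζ ^ 30 + 11 * ζ ^ 31 - 33 * ζ ^ 32 - 16 * ζ ^ 33 + 34 * ζ ^ 34 - 27 * ζ ^ 35) * h1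
  rw [e2, e3, e4, e5, e6, e7, e8, e9, e10, e11, e12]
  linear_combination (-10) * hΦ

theorem cast_131_zmod_13 : ((131 : ℕ) : ZMod 13) = 1 := by decide

theorem exists_isPrincipal_13_131 (K : Type*) [Field K] [NumberField K]
    [IsCyclotomicExtension {13} ℚ K] :
    ∃ P ∈ primesOver (span {((131 : ℕ) : ℤ)}) (𝓞 K), Submodule.IsPrincipal P := by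
  have hp : Fact (Nat.Prime 13) := ⟨by norm_num⟩
  have hζ := IsCyclotomicExtension.zeta_spec 13 ℚ K
  have h1 : (IsCyclotomicExtension.zeta 13 ℚ K) ^ 13 = 1 := hζ.pow_eq_one
  have hΦ : (let ζ := IsCyclotomicExtension.zeta 13 ℚ K; 1 + ζ + ζ ^ 2 + ζ ^ 3 + ζ ^ 4 + ζ ^ 5 + ζ ^ 6 + ζ ^ 7 + ζ ^ 8 + ζ ^ 9 + ζ ^ 10 + ζ ^ 11 + ζ ^ 12) = 0 := by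
    have := hζ.geom_sum_eq_zero (by norm_num)
    simp only [Finset.sum_range_succ, Finset.sum_range_zero] at this
    linear_combination this
  have hord : orderOf ((131 : ℕ) : ZMod 13) = 1 := by
    rw [cast_131_zmod_13, orderOf_one]
  refine exists_isPrincipal_of_prod_eq (p := 13) (K := K) 131 (by norm_num) (by norm_num)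
    (1 - X - X ^ 3 : ℤ[X]) 1 hord ?_
  simp only [Finset.prod_Ico_succ_top, Finset.Ico_self, Finset.prod_empty, map_sub, map_add,
    map_one, map_pow, aeval_X, Nat.one_le_ofNat, le_refl, one_mul]
  rw [normIdentity_13_131 _ h1 hΦ]
  norm_num

theorem normIdentity_13_157 {R : Type*} [CommRing R] (ζ : R) (h1 : ζ ^ 13 = 1)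
    (hΦ : 1 + ζ + ζ ^ 2 + ζ ^ 3 + ζ ^ 4 + ζ ^ 5 + ζ ^ 6 + ζ ^ 7 + ζ ^ 8 + ζ ^ 9 + ζ ^ 10 + ζ ^ 11 + ζ ^ 12 = 0) :
    (1 - (ζ ^ 1) + (ζ ^ 1) ^ 2 + (ζ ^ 1) ^ 4) * (1 - (ζ ^ 2) + (ζ ^ 2) ^ 2 + (ζ ^ 2) ^ 4) * (1 - (ζ ^ 3) + (ζ ^ 3) ^ 2 + (ζ ^ 3) ^ 4) * (1 - (ζ ^ 4) + (ζ ^ 4) ^ 2 + (ζ ^ 4) ^ 4) * (1 - (ζ ^ 5) + (ζ ^ 5) ^ 2 + (ζ ^ 5) ^ 4) * (1 - (ζ ^ 6) + (ζ ^ 6) ^ 2 + (ζ ^ 6) ^ 4) * (1 - (ζ ^ 7) + (ζ ^ 7) ^ 2 + (ζ ^ 7) ^ 4) * (1 - (ζ ^ 8) + (ζ ^ 8) ^ 2 + (ζ ^ 8) ^ 4) * (1 - (ζ ^ 9) + (ζ ^ 9) ^ 2 + (ζ ^ 9) ^ 4) * (1 - (ζ ^ 10) + (ζ ^ 10) ^ 2 + (ζ ^ 10) ^ 4) * (1 - (ζ ^ 11) + (ζ ^ 11) ^ 2 + (ζ ^ 11) ^ 4) * (1 - (ζ ^ 12) + (ζ ^ 12) ^ 2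 + (ζ ^ 12) ^ 4) = 157 := by
  have e2 : (1 - (ζ ^ 1) + (ζ ^ 1) ^ 2 + (ζ ^ 1) ^ 4) * (1 - (ζ ^ 2) + (ζ ^ 2) ^ 2 + (ζ ^ 2) ^ 4) = (1 - ζ + ζ ^ 3 + ζ ^ 4 - ζ ^ 5 + 2 * ζ ^ 8 - ζ ^ 9 + ζ ^ 10 + ζ ^ 12) := by
    linear_combination (0) * h1
  have e3 : (1 - ζ + ζ ^ 3 + ζ ^ 4 - ζ ^ 5 + 2 * ζ ^ 8 - ζ ^ 9 + ζ ^ 10 + ζ ^ 12) * (1 - (ζ ^ 3) + (ζ ^ 3) ^ 2 + (ζ ^ 3) ^ 4) = (-1 + ζ - ζ ^ 2 + 2 * ζ ^ 3 + ζ ^ 4 + 2 * ζ ^ 8 + ζ ^ 9 + 2 * ζ ^ 10 - 2 * ζ ^ 11 + 3 * ζ ^ 12) := by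
    linear_combination (-2 + 2 * ζ - ζ ^ 2 + 2 * ζ ^ 3 - ζ ^ 4 + ζ ^ 5 + 2 * ζ ^ 7 - ζ ^ 8 + ζ ^ 9 + ζ ^ 11) * h1
  have e4 : (-1 + ζ - ζ ^ 2 + 2 * ζ ^ 3 + ζ ^ 4 + 2 * ζ ^ 8 + ζ ^ 9 + 2 * ζ ^ 10 - 2 * ζ ^ 11 + 3 * ζ ^ 12) * (1 - (ζ ^ 4) + (ζ ^ 4) ^ 2 + (ζ ^ 4) ^ 4) = (-3 * ζ + 4 * ζ ^ 2 + 4 * ζ ^ 4 + ζ ^ 6 + 2 * ζ ^ 7 + 2 * ζ ^ 9 + ζ ^ 10 + 2 * ζ ^ 11 + 3 * ζ ^ 12) := by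
    linear_combination (1 - 4 * ζ + 5 * ζ ^ 2 - 2 * ζ ^ 3 + 2 * ζ ^ 4 + ζ ^ 5 + 4 * ζ ^ 7 + 2 * ζ ^ 11 + ζ ^ 12 + 2 * ζ ^ 13 - 2 * ζ ^ 14 + 3 * ζ ^ 15) * h1
  have e5 : (-3 * ζ + 4 * ζ ^ 2 + 4 * ζ ^ 4 + ζ ^ 6 + 2 * ζ ^ 7 + 2 * ζ ^ 9 + ζ ^ 10 + 2 * ζ ^ 11 + 3 * ζ ^ 12) * (1 - (ζ ^ 5) + (ζ ^ 5) ^ 2 + (ζ ^ 5) ^ 4) = (1 + ζ + 3 * ζ ^ 2 + ζ ^ 3 + 4 * ζ ^ 4 + 2 * ζ ^ 5 + 9 * ζ ^ 6 - ζ ^ 7 - ζ ^ 8 + 5 * ζ ^ 9 + ζ ^ 10 + 2 * ζ ^ 11 + 5 * ζ ^ 12) := by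
    linear_combination (1 + 4 * ζ - ζ ^ 2 + ζ ^ 3 + 2 * ζ ^ 5 + 5 * ζ ^ 6 + ζ ^ 7 - ζ ^ 8 + 7 * ζ ^ 9 + 4 * ζ ^ 11 + ζ ^ 13 + 2 * ζ ^ 14 + 2 * ζ ^ 16 + ζ ^ 17 + 2 * ζ ^ 18 + 3 * ζ ^ 19) * h1
  have e6 : (1 + ζ + 3 * ζ ^ 2 + ζ ^ 3 + 4 * ζ ^ 4 + 2 * ζ ^ 5 + 9 * ζ ^ 6 - ζ ^ 7 - ζ ^ 8 + 5 * ζ ^ 9 + ζ ^ 10 + 2 * ζ ^ 11 + 5 * ζ ^ 12) * (1 - (ζ ^ 6) + (ζ ^ 6) ^ 2 + (ζ ^ 6) ^ 4) = (6 + 6 * ζ + 3 * ζ ^ 2 + 6 * ζ ^ 3 + 13 * ζ ^ 4 + 5 * ζ ^ 5 + 6 * ζ ^ 6 + 2 * ζ ^ 7 + 2 * ζ ^ 8 + 7 * ζ ^ 9 + 4 * ζ ^ 10 + 6 * ζ ^ 11 - 2 * ζ ^ 12) := by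
    linear_combination (5 + 5 * ζ + 5 * ζ ^ 3 + 9 * ζ ^ 4 + 3 * ζ ^ 5 - 2 * ζ ^ 6 + 4 * ζ ^ 7 + 6 * ζ ^ 8 + 3 * ζ ^ 9 + 7 * ζ ^ 10 + 6 * ζ ^ 11 + ζ ^ 12 + 3 * ζ ^ 13 + ζ ^ 14 + 4 * ζ ^ 15 + 2 * ζ ^ 16 + 9 * ζ ^ 17 - ζ ^ 18 - ζ ^ 19 + 5 * ζ ^ 20 + ζ ^ 21 + 2 * ζ ^ 22 + 5 * ζ ^ 23) * h1
  have e7 : (6 + 6 * ζ + 3 * ζ ^ 2 + 6 * ζ ^ 3 + 13 * ζ ^ 4 + 5 * ζ ^ 5 + 6 * ζ ^ 6 + 2 * ζ ^ 7 + 2 * ζ ^ 8 + 7 * ζ ^ 9 + 4 * ζ ^ 10 + 6 * ζ ^ 11 - 2 * ζ ^ 12) * (1 - (ζ ^ 7) + (ζ ^ 7) ^ 2 + (ζ ^ 7) ^ 4) = (4 + 8 * ζ + 13 * ζ ^ 2 + 8 * ζ ^ 3 + 18 * ζ ^ 4 + 18 * ζ ^ 5 + 26 * ζ ^ 6 + 7 * ζ ^ 7 + 4 * ζ ^ 8 + 8 * ζ ^ 9 + 7 * ζ ^ 10 + 4 * ζ ^ 11 + 3 * ζ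 ^ 12) := by
    linear_combination (-2 + 2 * ζ + 10 * ζ ^ 2 + 2 * ζ ^ 3 + 5 * ζ ^ 4 + 13 * ζ ^ 5 + 20 * ζ ^ 6 + 11 * ζ ^ 7 + 8 * ζ ^ 8 + 4 * ζ ^ 9 + 9 * ζ ^ 10 + 11 * ζ ^ 11 + 10 * ζ ^ 12 + 4 * ζ ^ 13 - 2 * ζ ^ 14 + 6 * ζ ^ 15 + 6 * ζ ^ 16 + 3 * ζ ^ 17 + 6 * ζ ^ 18 + 13 * ζ ^ 19 + 5 * ζ ^ 20 + 6 * ζ ^ 21 + 2 * ζ ^ 22 + 2 * ζ ^ 23 + 7 * ζ ^ 24 + 4 * ζ ^ 25 + 6 * ζ ^ 26 - 2 * ζ ^ 27) * h1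
  have e8 : (4 + 8 * ζ + 13 * ζ ^ 2 + 8 * ζ ^ 3 + 18 * ζ ^ 4 + 18 * ζ ^ 5 + 26 * ζ ^ 6 + 7 * ζ ^ 7 + 4 * ζ ^ 8 + 8 * ζ ^ 9 + 7 * ζ ^ 10 + 4 * ζ ^ 11 + 3 * ζ ^ 12) * (1 - (ζ ^ 8) + (ζ ^ 8) ^ 2 + (ζ ^ 8) ^ 4) = (-10 * ζ + 17 * ζ ^ 2 + 15 * ζ ^ 3 + 22 * ζ ^ 4 + 27 * ζ ^ 5 + 34 * ζ ^ 6 + 30 * ζ ^ 7 + 31 * ζ ^ 8 + 34 * ζ ^ 9 + 19 * ζ ^ 10 + 18 * ζ ^ 11 + 19 * ζ ^ 12) := by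
    linear_combination (-4 - 18 * ζ + 4 * ζ ^ 2 + 7 * ζ ^ 3 + 4 * ζ ^ 4 + 9 * ζ ^ 5 + 8 * ζ ^ 6 + 23 * ζ ^ 7 + 31 * ζ ^ 8 + 34 * ζ ^ 9 + 25 * ζ ^ 10 + 22 * ζ ^ 11 + 34 * ζ ^ 12 + 14 * ζ ^ 13 + 8 * ζ ^ 14 + 11 * ζ ^ 15 + 7 * ζ ^ 16 + 4 * ζ ^ 17 + 3 * ζ ^ 18 + 4 * ζ ^ 19 + 8 * ζ ^ 20 + 13 * ζ ^ 21 + 8 * ζ ^ 22 + 18 * ζ ^ 23 + 18 * ζ ^ 24 + 26 * ζ ^ 25 + 7 * ζ ^ 26 + 4 * ζ ^ 27 + 8 * ζ ^ 28 + 7 * ζ ^ 29 + 4 * ζ ^ 30 + 3 * ζ ^ 31) * h1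
  have e9 : (-10 * ζ + 17 * ζ ^ 2 + 15 * ζ ^ 3 + 22 * ζ ^ 4 + 27 * ζ ^ 5 + 34 * ζ ^ 6 + 30 * ζ ^ 7 + 31 * ζ ^ 8 + 34 * ζ ^ 9 + 19 * ζ ^ 10 + 18 * ζ ^ 11 + 19 * ζ ^ 12) * (1 - (ζ ^ 9) + (ζ ^ 9) ^ 2 + (ζ ^ 9) ^ 4) = (24 + 19 * ζ + 29 * ζ ^ 2 + 37 * ζ ^ 3 + 40 * ζ ^ 4 + 24 * ζ ^ 5 + 39 * ζ ^ 6 + 48 * ζ ^ 7 + 45 * ζ ^ 8 + 75 * ζ ^ 9 + 56 * ζ ^ 10 + 25 * ζ ^ 11 + 51 * ζ ^ 12) := by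
    linear_combination (24 + 29 * ζ + 12 * ζ ^ 2 + 22 * ζ ^ 3 + 18 * ζ ^ 4 - 3 * ζ ^ 5 + 5 * ζ ^ 6 + 18 * ζ ^ 7 + 14 * ζ ^ 8 + 41 * ζ ^ 9 + 27 * ζ ^ 10 + 24 * ζ ^ 11 + 47 * ζ ^ 12 + 46 * ζ ^ 13 + 56 * ζ ^ 14 + 46 * ζ ^ 15 + 52 * ζ ^ 16 + 49 * ζ ^ 17 + 31 * ζ ^ 18 + 34 * ζ ^ 19 + 19 * ζ ^ 20 + 18 * ζ ^ 21 + 19 * ζ ^ 22 - 10 * ζ ^ 24 + 17 * ζ ^ 25 + 15 * ζ ^ 26 + 22 * ζ ^ 27 + 27 * ζ ^ 28 + 34 * ζ ^ 29 + 30 * ζ ^ 30 + 31 * ζ ^ 31 + 34 * ζ ^ 32 + 19 * ζ ^ 33 + 18 * ζ ^ 34 + 19 * ζ ^ 35) * h1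
  have e10 : (24 + 19 * ζ + 29 * ζ ^ 2 + 37 * ζ ^ 3 + 40 * ζ ^ 4 + 24 * ζ ^ 5 + 39 * ζ ^ 6 + 48 * ζ ^ 7 + 45 * ζ ^ 8 + 75 * ζ ^ 9 + 56 * ζ ^ 10 + 25 * ζ ^ 11 + 51 * ζ ^ 12) * (1 - (ζ ^ 10) + (ζ ^ 10) ^ 2 + (ζ ^ 10) ^ 4) = (77 + 51 * ζ + 69 * ζ ^ 2 + 102 * ζ ^ 3 + 85 * ζ ^ 4 + 44 * ζ ^ 5 + 39 * ζ ^ 6 + 55 * ζ ^ 7 + 87 * ζ ^ 8 + 98 * ζ ^ 9 + 144 * ζ ^ 10 + 102 * ζ ^ 11 + 71 * ζ ^ 12) := by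
    linear_combination (53 + 32 * ζ + 40 * ζ ^ 2 + 65 * ζ ^ 3 + 45 * ζ ^ 4 + 20 * ζ ^ 5 + 7 * ζ ^ 7 + 42 * ζ ^ 8 + 23 * ζ ^ 9 + 112 * ζ ^ 10 + 96 * ζ ^ 11 + 49 * ζ ^ 12 + 90 * ζ ^ 13 + 72 * ζ ^ 14 + 64 * ζ ^ 15 + 104 * ζ ^ 16 + 93 * ζ ^ 17 + 65 * ζ ^ 18 + 75 * ζ ^ 19 + 39 * ζ ^ 20 + 48 * ζ ^ 21 + 45 * ζ ^ 22 + 75 * ζ ^ 23 + 56 * ζ ^ 24 + 25 * ζ ^ 25 + 51 * ζ ^ 26 + 24 * ζ ^ 27 + 19 * ζ ^ 28 + 29 * ζ ^ 29 + 37 * ζ ^ 30 + 40 * ζ ^ 31 + 24 * ζ ^ 32 + 39 * ζ ^ 33 + 48 * ζ ^ 34 + 45 * ζ ^ 35 + 75 * ζ ^ 36 + 56 * ζ ^ 37 + 25 * ζ ^ 38 + 51 * ζ ^ 39) * h1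
  have e11 : (77 + 51 * ζ + 69 * ζ ^ 2 + 102 * ζ ^ 3 + 85 * ζ ^ 4 + 44 * ζ ^ 5 + 39 * ζ ^ 6 + 55 * ζ ^ 7 + 87 * ζ ^ 8 + 98 * ζ ^ 9 + 144 * ζ ^ 10 + 102 * ζ ^ 11 + 71 * ζ ^ 12) * (1 - (ζ ^ 11) + (ζ ^ 11) ^ 2 + (ζ ^ 11) ^ 4) = (180 + 91 * ζ + 167 * ζ ^ 2 + 215 * ζ ^ 3 + 204 * ζ ^ 4 + 164 * ζ ^ 5 + 147 * ζ ^ 6 + 128 * ζ ^ 7 + 116 * ζ ^ 8 + 158 * ζ ^ 9 + 168 * ζ ^ 10 + 133 * ζ ^ 11 + 177 * ζ ^ 12) := by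
    linear_combination (103 + 40 * ζ + 98 * ζ ^ 2 + 113 * ζ ^ 3 + 119 * ζ ^ 4 + 120 * ζ ^ 5 + 108 * ζ ^ 6 + 73 * ζ ^ 7 + 29 * ζ ^ 8 + 60 * ζ ^ 9 + 24 * ζ ^ 10 + 108 * ζ ^ 11 + 157 * ζ ^ 12 + 172 * ζ ^ 13 + 142 * ζ ^ 14 + 183 * ζ ^ 15 + 157 * ζ ^ 16 + 158 * ζ ^ 17 + 175 * ζ ^ 18 + 195 * ζ ^ 19 + 171 * ζ ^ 20 + 173 * ζ ^ 21 + 85 * ζ ^ 22 + 44 * ζ ^ 23 + 39 * ζ ^ 24 + 55 * ζ ^ 25 + 87 * ζ ^ 26 + 98 * ζ ^ 27 + 144 * ζ ^ 28 + 102 * ζ ^ 29 + 71 * ζ ^ 30 + 77 * ζ ^ 31 + 51 * ζ ^ 32 + 69 * ζ ^ 33 + 102 * ζ ^ 34 + 85 * ζ ^ 35 + 44 * ζ ^ 36 + 39 * ζ ^ 37 + 55 * ζ ^ 38 + 87 * ζ ^ 39 + 98 * ζ ^ 40 + 144 * ζ ^ 41 + 102 * ζ ^ 42 + 71 * ζ ^ 43)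 * h1
  have e12 : (180 + 91 * ζ + 167 * ζ ^ 2 + 215 * ζ ^ 3 + 204 * ζ ^ 4 + 164 * ζ ^ 5 + 147 * ζ ^ 6 + 128 * ζ ^ 7 + 116 * ζ ^ 8 + 158 * ζ ^ 9 + 168 * ζ ^ 10 + 133 * ζ ^ 11 + 177 * ζ ^ 12) * (1 - (ζ ^ 12) + (ζ ^ 12) ^ 2 + (ζ ^ 12) ^ 4) = (460 + 303 * ζ + 303 * ζ ^ 2 + 303 * ζ ^ 3 + 303 * ζ ^ 4 + 303 * ζ ^ 5 + 303 * ζ ^ 6 + 303 * ζ ^ 7 + 303 * ζ ^ 8 + 303 * ζ ^ 9 + 303 * ζ ^ 10 + 303 * ζ ^ 11 + 303 * ζ ^ 12) := by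
    linear_combination (280 + 212 * ζ + 136 * ζ ^ 2 + 88 * ζ ^ 3 + 99 * ζ ^ 4 + 139 * ζ ^ 5 + 156 * ζ ^ 6 + 175 * ζ ^ 7 + 187 * ζ ^ 8 + 145 * ζ ^ 9 + 135 * ζ ^ 10 + 170 * ζ ^ 11 + 306 * ζ ^ 12 + 371 * ζ ^ 13 + 379 * ζ ^ 14 + 351 * ζ ^ 15 + 292 * ζ ^ 16 + 263 * ζ ^ 17 + 286 * ζ ^ 18 + 284 * ζ ^ 19 + 291 * ζ ^ 20 + 345 * ζ ^ 21 + 313 * ζ ^ 22 + 268 * ζ ^ 23 + 167 * ζ ^ 24 + 215 * ζ ^ 25 + 204 * ζ ^ 26 + 164 * ζ ^ 27 + 147 * ζ ^ 28 + 128 * ζ ^ 29 + 116 * ζ ^ 30 + 158 * ζ ^ 31 + 168 * ζ ^ 32 + 133 * ζ ^ 33 + 177 * ζ ^ 34 + 180 * ζ ^ 35 + 91 * ζ ^ 36 + 167 * ζ ^ 37 + 215 * ζ ^ 38 + 204 * ζ ^ 39 + 164 * ζ ^ 40 + 147 * ζ ^ 41 + 128 * ζ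 ^ 42 + 116 * ζ ^ 43 + 158 * ζ ^ 44 + 168 * ζ ^ 45 + 133 * ζ ^ 46 + 177 * ζ ^ 47) * h1
  rw [e2, e3, e4, e5, e6, e7, e8, e9, e10, e11, e12]
  linear_combination (303) * hΦ

theorem cast_157_zmod_13 : ((157 : ℕ) : ZMod 13) = 1 := by decide

theorem exists_isPrincipal_13_157 (K : Type*) [Field K] [NumberField K]
    [IsCyclotomicExtension {13} ℚ K] :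
    ∃ P ∈ primesOver (span {((157 : ℕ) : ℤ)}) (𝓞 K), Submodule.IsPrincipal P := by
  have hp : Fact (Nat.Prime 13) := ⟨by norm_num⟩
  have hζ := IsCyclotomicExtension.zeta_spec 13 ℚ K
  have h1 : (IsCyclotomicExtension.zeta 13 ℚ K) ^ 13 = 1 := hζ.pow_eq_one
  have hΦ : (let ζ := IsCyclotomicExtension.zeta 13 ℚ K; 1 + ζ + ζ ^ 2 + ζ ^ 3 + ζ ^ 4 + ζ ^ 5 + ζ ^ 6 + ζ ^ 7 + ζ ^ 8 + ζ ^ 9 + ζ ^ 10 + ζ ^ 11 + ζ ^ 12) = 0 := by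
    have := hζ.geom_sum_eq_zero (by norm_num)
    simp only [Finset.sum_range_succ, Finset.sum_range_zero] at this
    linear_combination this
  have hord : orderOf ((157 : ℕ) : ZMod 13) = 1 := by
    rw [cast_157_zmod_13, orderOf_one]
  refine exists_isPrincipal_of_prod_eq (p := 13) (K := K) 157 (by norm_num) (by norm_num)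
    (1 - X + X ^ 2 + X ^ 4 : ℤ[X]) 1 hord ?_
  simp only [Finset.prod_Ico_succ_top, Finset.Ico_self, Finset.prod_empty, map_sub, map_add,
    map_one, map_pow, aeval_X, Nat.one_le_ofNat, le_refl, one_mul]
  rw [normIdentity_13_157 _ h1 hΦ]
  norm_num

theorem minkowski_floor_le_13 (K : Type*) [Field K] [NumberField K]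
    [IsCyclotomicExtension {13} ℚ K] :
    ⌊(4 / π) ^ InfinitePlace.nrComplexPlaces K *
      ((Module.finrank ℚ K).factorial / (Module.finrank ℚ K) ^ Module.finrank ℚ K *
        √|(discr K : ℝ)|)⌋₊ ≤ 312 := by
  have hp : Fact (Nat.Prime 13) := ⟨by norm_num⟩
  rw [IsCyclotomicExtension.Rat.discr_prime 13 K, IsCyclotomicExtension.finrank (n := 13) K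
    (Polynomial.cyclotomic.irreducible_rat (by norm_num)),
    IsCyclotomicExtension.Rat.nrComplexPlaces_eq_totient_div_two 13,
    Nat.totient_prime hp.out]
  have hfact : ((13 - 1 : ℕ).factorial : ℝ) = 479001600 := by
    norm_num [Nat.factorial]
  have hsqrt : √|(((-1) ^ ((13 - 1) / 2) * (13 : ℕ) ^ (13 - 2) : ℤ) : ℝ)| ≤ 1338883 := by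
    rw [Real.sqrt_le_left (by norm_num)]
    norm_num
  have hpi : (4 / π) ^ ((13 - 1) / 2) ≤ (4 / 3.14 : ℝ) ^ ((13 - 1) / 2) := by
    apply pow_le_pow_left₀ (by positivity)
    apply div_le_div_of_nonneg_left (by norm_num) (by norm_num) pi_gt_d2.le
  rw [hfact]
  have hlt : (4 / π) ^ ((13 - 1) / 2) *
      ((479001600 : ℝ) / ((13 - 1 : ℕ) : ℝ) ^ (13 - 1) *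
        √|(((-1) ^ ((13 - 1) / 2) * (13 : ℕ) ^ (13 - 2) : ℤ) : ℝ)|) < ((312 + 1 : ℕ) : ℝ) := by
    calc _ ≤ (4 / 3.14 : ℝ) ^ ((13 - 1) / 2) *
          ((479001600 : ℝ) / ((13 - 1 : ℕ) : ℝ) ^ (13 - 1) * 1338883) := by
          gcongr
      _ < ((312 + 1 : ℕ) : ℝ) := by norm_num
  have := (Nat.floor_lt (by positivity)).mpr hlt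
  omega

set_option maxRecDepth 100000 in
theorem check13 : ∀ q ∈ Finset.Icc 2 312, ∀ k ∈ Finset.Icc 1 8,
    (q ∈ ({2, 3, 5, 7, 11, 13, 17} : Finset ℕ) ∨ ∀ r ∈ ({2, 3, 5, 7, 11, 13, 17} : Finset ℕ), q % r ≠ 0) →
    q ≠ 13 → q ∉ ({3, 53, 79, 131, 157} : Finset ℕ) → q ^ k ≤ 312 → q ^ k % 13 ≠ 1 := by
  decide

/-- The ring of integers of `ℚ(ζ_13)` is a principal ideal domain. -/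
theorem pid13 (K : Type*) [Field K] [NumberField K] [IsCyclotomicExtension {13} ℚ K] :
    IsPrincipalIdealRing (𝓞 K) := by
  have hp : Fact (Nat.Prime 13) := ⟨by norm_num⟩
  refine isPrincipalIdealRing_of_checks (p := 13) 312 (minkowski_floor_le_13 K)
    {3, 53, 79, 131, 157} ?_ ?_
  · intro q hq _ _
    simp only [Finset.mem_insert, Finset.mem_singleton] at hq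
    rcases hq with rfl | rfl | rfl | rfl | rfl
    · exact exists_isPrincipal_13_3 K
    · exact exists_isPrincipal_13_53 K
    · exact exists_isPrincipal_13_79 K
    · exact exists_isPrincipal_13_131 K
    · exact exists_isPrincipal_13_157 K
  · intro q hq hqB hqp hqexc k hk hle
    have hkm : k ≤ 8 := exponent_le_of_pow_le hq.two_le hle (by norm_num)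
    exact check13 q (Finset.mem_Icc.mpr ⟨hq.two_le, hqB⟩) k (Finset.mem_Icc.mpr ⟨hk, hkm⟩)
      (prime_mem_or_forall_mod_ne_zero hq _ (by
        intro r hr
        simp only [Finset.mem_insert, Finset.mem_singleton] at hr
        rcases hr with rfl | rfl | rfl | rfl | rfl | rfl | rfl <;> norm_num)) hqp hqexc hle

end Fermat.Agent.S10.helper15
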