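import Fermat.Agent.S10.helper15_PIDTools

set_option autoImplicit false

namespace Fermat.Agent.S10.helper15

open NumberField Ideal Polynomial Real

theorem minkowski_floor_le_7 (K : Type*) [Field K] [NumberField K]
    [IsCyclotomicExtension {7} ℚ K] :
    ⌊(4 / π) ^ InfinitePlace.nrComplexPlaces K *
      ((Module.finrank ℚ K).factorial / (Module.finrank ℚ K) ^ Module.finrank ℚ K *
        √|(discr K : ℝ)|)⌋₊ ≤ 4 := by
  have hp : Fact (Nat.Prime 7) := ⟨by norm_num⟩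
  rw [IsCyclotomicExtension.Rat.discr_prime 7 K, IsCyclotomicExtension.finrank (n := 7) K
    (Polynomial.cyclotomic.irreducible_rat (by norm_num)),
    IsCyclotomicExtension.Rat.nrComplexPlaces_eq_totient_div_two 7,
    Nat.totient_prime hp.out]
  have hfact : ((7 - 1 : ℕ).factorial : ℝ) = 720 := by
    norm_num [Nat.factorial]
  have hsqrt : √|(((-1) ^ ((7 - 1) / 2) * (7 : ℕ) ^ (7 - 2) : ℤ) : ℝ)| ≤ 130 := by
    rw [Real.sqrt_le_left (by norm_num)]
    norm_num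
  have hpi : (4 / π) ^ ((7 - 1) / 2) ≤ (4 / 3 : ℝ) ^ ((7 - 1) / 2) := by
    apply pow_le_pow_left₀ (by positivity)
    apply div_le_div_of_nonneg_left (by norm_num) (by norm_num) pi_gt_three.le
  rw [hfact]
  have hlt : (4 / π) ^ ((7 - 1) / 2) *
      ((720 : ℝ) / ((7 - 1 : ℕ) : ℝ) ^ (7 - 1) *
        √|(((-1) ^ ((7 - 1) / 2) * (7 : ℕ) ^ (7 - 2) : ℤ) : ℝ)|) < (5 : ℕ) := by
    calc _ ≤ (4 / 3 : ℝ) ^ ((7 - 1) / 2) * ((720 : ℝ) / ((7 - 1 : ℕ) : ℝ) ^ (7 - 1) * 130) := by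
          gcongr
      _ < (5 : ℕ) := by norm_num
  have := (Nat.floor_lt (by positivity)).mpr hlt
  omega

theorem check7 : ∀ q ∈ Finset.Icc 2 4, ∀ k ∈ Finset.Icc 1 2,
    (q ∈ ({2} : Finset ℕ) ∨ ∀ r ∈ ({2} : Finset ℕ), q % r ≠ 0) →
    q ^ k ≤ 4 → q ^ k % 7 ≠ 1 := by
  decide

/-- The ring of integers of `ℚ(ζ₇)` is a principal ideal domain. -/
theorem pid7 (K : Type*) [Field K] [NumberField K] [IsCyclotomicExtension {7} ℚ K] :
    IsPrincipalIdealRing (𝓞 K) := by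
  have hp : Fact (Nat.Prime 7) := ⟨by norm_num⟩
  refine isPrincipalIdealRing_of_checks (p := 7) 4 (minkowski_floor_le_7 K) ∅ (by simp) ?_
  intro q hq hqB _ _ k hk hle
  have hk2 : k ≤ 2 := exponent_le_of_pow_le hq.two_le hle (by norm_num)
  exact check7 q (Finset.mem_Icc.mpr ⟨hq.two_le, hqB⟩) k (Finset.mem_Icc.mpr ⟨hk, hk2⟩)
    (prime_mem_or_forall_mod_ne_zero hq _ (by simp; norm_num)) hle

end Fermat.Agent.S10.helper15
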