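import Mathlib

set_option autoImplicit false

namespace Fermat.Agent.S10.helper15

open NumberField Ideal

section Principal

variable {p : ℕ} [hp : Fact p.Prime] {K : Type*} [Field K] [NumberField K]
  [IsCyclotomicExtension {p} ℚ K]

/-- If `α ∈ 𝓞 K` has norm of absolute value `q ^ f` where `f` is the order of `q` modulo `p`
(`q ≠ p` prime), then the ideal generated by `α` is a (principal) prime over `q`. -/
theorem exists_isPrincipal_of_natAbs_norm_eq (q : ℕ) (hq : q.Prime) (hqp : q ≠ p) (α : 𝓞 K)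
    (hα : (Algebra.norm ℤ α).natAbs = q ^ orderOf (q : ZMod p)) :
    ∃ P ∈ primesOver (span {(q : ℤ)}) (𝓞 K), Submodule.IsPrincipal P := by
  have hqp' : ¬ q ∣ p := fun h => hqp ((Nat.prime_dvd_prime_iff_eq hq hp.out).mp h)
  have hf : 0 < orderOf (q : ZMod p) := by
    have : Fact q.Prime := ⟨hq⟩
    have hunit : IsUnit (q : ZMod p) := by
      rw [ZMod.isUnit_iff_coprime]
      exact (Nat.coprime_primes hq hp.out).mpr hqp
    obtain ⟨u, hu⟩ := hunit
    rw [← hu, orderOf_units]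
    exact orderOf_pos u
  set I : Ideal (𝓞 K) := span {α} with hI
  have hnorm : absNorm I = q ^ orderOf (q : ZMod p) := by
    rw [hI, absNorm_span_singleton, hα]
  have hItop : I ≠ ⊤ := by
    intro h
    rw [h, absNorm_top] at hnorm
    have : 1 < q ^ orderOf (q : ZMod p) := Nat.one_lt_pow hf.ne' hq.one_lt
    omega
  obtain ⟨P, hPmax, hIP⟩ := exists_le_maximal I hItop
  have hPprime : P.IsPrime := hPmax.isPrime
  have hqP : (q : 𝓞 K) ∈ P := by
    have h1 : ((absNorm I : ℕ) : 𝓞 K) ∈ I := absNorm_mem I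
    rw [hnorm] at h1
    have h2 : ((q ^ orderOf (q : ZMod p) : ℕ) : 𝓞 K) ∈ P := hIP h1
    rw [Nat.cast_pow] at h2
    exact hPprime.mem_of_pow_mem _ h2
  have hqmax : (span {(q : ℤ)}).IsMaximal :=
    (isPrime_of_prime (prime_span_singleton_iff.mpr
      (Nat.prime_iff_prime_int.mp hq))).isMaximal (by simp [hq.ne_zero])
  have hlies : P.LiesOver (span {(q : ℤ)}) := by
    constructor
    refine hqmax.eq_of_le ?_ ?_
    · intro h
      have := hPprime.ne_top
      apply this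
      rw [eq_top_iff_one]
      have h1 : (1 : ℤ) ∈ P.under ℤ := by rw [h]; trivial
      simpa using h1
    · rw [span_singleton_le_iff_mem]
      simpa [Ideal.mem_comap] using hqP
  have : Fact q.Prime := ⟨hq⟩
  have hdeg : P.inertiaDeg ℤ = orderOf (q : ZMod p) :=
    IsCyclotomicExtension.Rat.inertiaDeg_eq_of_not_dvd q K P hqp'
  have hPnorm : absNorm P = q ^ orderOf (q : ZMod p) := by
    rw [← hdeg, Ideal.pow_inertiaDeg q P]
  refine ⟨P, ⟨hPprime, hlies⟩, ?_⟩
  have hIne : I ≠ ⊥ := by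
    intro h
    rw [h, absNorm_bot] at hnorm
    exact (pow_pos hq.pos _).ne hnorm
  have hPI : P = I := by
    obtain ⟨J, hJ⟩ := Ideal.dvd_iff_le.mpr hIP
    have h3 : absNorm I = absNorm P * absNorm J := by rw [hJ, map_mul]
    rw [hnorm, hPnorm] at h3
    have h4 : absNorm J = 1 := by
      have hpos : 0 < q ^ orderOf (q : ZMod p) := pow_pos hq.pos _
      nlinarith
    rw [absNorm_eq_one_iff] at h4
    rw [hJ, h4, mul_top]
  rw [hPI]
  exact ⟨⟨α, rfl⟩⟩

end Principal

end Fermat.Agent.S10.helper15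

namespace Fermat.Agent.S10.helper15

open NumberField Ideal Polynomial

section Norm

variable {p : ℕ} [hp : Fact p.Prime] {K : Type*} [Field K] [NumberField K]
  [IsCyclotomicExtension {p} ℚ K]

theorem prod_units_val_eq_prod_Ico {M : Type*} [CommMonoid M] (g : ℕ → M) :
    ∏ u : (ZMod p)ˣ, g (u : ZMod p).val = ∏ k ∈ Finset.Ico 1 p, g k := by
  have hp' := hp.out
  refine Finset.prod_bij (fun u _ => (u : ZMod p).val) ?_ ?_ ?_ ?_
  · intro u _
    rw [Finset.mem_Ico]
    refine ⟨?_, ZMod.val_lt _⟩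
    rw [Nat.one_le_iff_ne_zero]
    intro h
    rw [ZMod.val_eq_zero] at h
    exact u.ne_zero h
  · intro u _ v _ h
    exact Units.ext (ZMod.val_injective p h)
  · intro k hk
    rw [Finset.mem_Ico] at hk
    have hcop : Nat.Coprime k p := by
      rw [Nat.coprime_comm, Nat.Prime.coprime_iff_not_dvd hp']
      intro h
      have := Nat.le_of_dvd (by omega) h
      omega
    refine ⟨ZMod.unitOfCoprime k hcop, Finset.mem_univ _, ?_⟩
    rw [ZMod.coe_unitOfCoprime, ZMod.val_natCast, Nat.mod_eq_of_lt hk.2]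
  · intro u _
    rfl

theorem algebraMap_norm_aeval (f : ℤ[X]) {ζ : K} (hζ : IsPrimitiveRoot ζ p) :
    algebraMap ℚ K (Algebra.norm ℚ (aeval ζ f)) = ∏ k ∈ Finset.Ico 1 p, aeval (ζ ^ k) f := by
  have : NeZero p := ⟨hp.out.ne_zero⟩
  have : IsGalois ℚ K := IsCyclotomicExtension.isGalois {p} ℚ K
  rw [Algebra.norm_eq_prod_automorphisms]
  rw [← prod_units_val_eq_prod_Ico (p := p) (fun k => aeval (ζ ^ k) f)]
  rw [← Equiv.prod_comp (IsCyclotomicExtension.Rat.galEquivZMod p K).toEquiv]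
  refine Finset.prod_congr rfl fun σ _ => ?_
  have h1 : σ (aeval ζ f) = aeval (σ ζ) f := by
    have := Polynomial.aeval_algHom_apply (σ : K →ₐ[ℚ] K).toRingHom.toIntAlgHom ζ f
    simpa using this.symm
  rw [h1, IsCyclotomicExtension.Rat.galEquivZMod_apply_of_pow_eq p K σ hζ.pow_eq_one]
  rfl

end Norm

end Fermat.Agent.S10.helper15

namespace Fermat.Agent.S10.helper15

open NumberField Ideal Polynomial

section Assemble

variable {p : ℕ} [hp : Fact p.Prime] {K : Type*} [Field K] [NumberField K]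
  [IsCyclotomicExtension {p} ℚ K]

/-- The norm (over `ℤ`) of `f(ζ)` as soon as the product of the conjugates has been computed. -/
theorem natAbs_norm_aeval_of_prod_eq (f : ℤ[X]) (N : ℕ)
    (h : ∏ k ∈ Finset.Ico 1 p, aeval ((IsCyclotomicExtension.zeta p ℚ K) ^ k) f = (N : K)) :
    (Algebra.norm ℤ (aeval (IsCyclotomicExtension.zeta_spec p ℚ K).toInteger f)).natAbs = N := by
  set ζ := IsCyclotomicExtension.zeta p ℚ K with hζdef
  have hζ : IsPrimitiveRoot ζ p := IsCyclotomicExtension.zeta_spec p ℚ K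
  set α : 𝓞 K := aeval hζ.toInteger f with hα
  have hαK : (algebraMap (𝓞 K) K α) = aeval ζ f := by
    rw [hα, ← Polynomial.aeval_algebraMap_apply]
    rfl
  have h1 : algebraMap ℚ K (Algebra.norm ℚ (algebraMap (𝓞 K) K α)) = algebraMap ℚ K (N : ℚ) := by
    rw [hαK, algebraMap_norm_aeval f hζ, h]
    simp
  have h2 : Algebra.norm ℚ (algebraMap (𝓞 K) K α) = (N : ℚ) :=
    (algebraMap ℚ K).injective h1
  have h3 : ((Algebra.norm ℤ α : ℤ) : ℚ) = (N : ℚ) := by
    rw [Algebra.coe_norm_int]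
    exact h2
  have h4 : Algebra.norm ℤ α = (N : ℤ) := by exact_mod_cast h3
  rw [h4, Int.natAbs_natCast]

/-- A principal prime over `q` from an explicit element whose conjugates multiply to `q ^ f`. -/
theorem exists_isPrincipal_of_prod_eq (q : ℕ) (hq : q.Prime) (hqp : q ≠ p) (f : ℤ[X]) (m : ℕ)
    (hm : orderOf (q : ZMod p) = m)
    (h : ∏ k ∈ Finset.Ico 1 p, aeval ((IsCyclotomicExtension.zeta p ℚ K) ^ k) f =
      ((q ^ m : ℕ) : K)) :
    ∃ P ∈ primesOver (span {(q : ℤ)}) (𝓞 K), Submodule.IsPrincipal P := by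
  refine exists_isPrincipal_of_natAbs_norm_eq q hq hqp
    (aeval (IsCyclotomicExtension.zeta_spec p ℚ K).toInteger f) ?_
  rw [hm]
  exact natAbs_norm_aeval_of_prod_eq f (q ^ m) h

/-- For a prime `q ≠ p` with large `q ^ (order of q mod p)`, every prime above `q` has large
norm. -/
theorem exists_lt_pow_inertiaDeg (B q : ℕ) (hq : q.Prime) (hqp : q ≠ p)
    (h : ∀ k, 0 < k → q ^ k ≤ B → q ^ k % p ≠ 1) :
    ∃ P ∈ primesOver (span {(q : ℤ)}) (𝓞 K), B < q ^ P.inertiaDeg ℤ := by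
  have hqp' : ¬ q ∣ p := fun h => hqp ((Nat.prime_dvd_prime_iff_eq hq hp.out).mp h)
  have : Fact q.Prime := ⟨hq⟩
  have hqprime : (span {(q : ℤ)}).IsPrime :=
    isPrime_of_prime (prime_span_singleton_iff.mpr (Nat.prime_iff_prime_int.mp hq))
  obtain ⟨⟨P, hP1, hP2⟩⟩ := (span {(q : ℤ)}).nonempty_primesOver (S := 𝓞 K)
  refine ⟨P, ⟨hP1, hP2⟩, ?_⟩
  have hdeg : P.inertiaDeg ℤ = orderOf (q : ZMod p) :=
    IsCyclotomicExtension.Rat.inertiaDeg_eq_of_not_dvd q K P hqp'
  rw [hdeg]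
  have hf : 0 < orderOf (q : ZMod p) := by
    have hunit : IsUnit (q : ZMod p) := by
      rw [ZMod.isUnit_iff_coprime]
      exact (Nat.coprime_primes hq hp.out).mpr hqp
    obtain ⟨u, hu⟩ := hunit
    rw [← hu, orderOf_units]
    exact orderOf_pos u
  by_contra hcon
  push Not at hcon
  apply h _ hf hcon
  have h1 : ((q ^ orderOf (q : ZMod p) : ℕ) : ZMod p) = ((1 : ℕ) : ZMod p) := by
    rw [Nat.cast_pow, pow_orderOf_eq_one, Nat.cast_one]
  rw [ZMod.natCast_eq_natCast_iff'] at h1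
  rw [h1, Nat.mod_eq_of_lt hp.out.one_lt]

/-- The prime `p` itself: the prime above it is principal. -/
theorem exists_isPrincipal_self :
    ∃ P ∈ primesOver (span {(p : ℤ)}) (𝓞 K), Submodule.IsPrincipal P := by
  have hζ := IsCyclotomicExtension.zeta_spec p ℚ K
  refine ⟨span {hζ.toInteger - 1}, ⟨?_, ?_⟩, ⟨⟨_, rfl⟩⟩⟩
  · exact IsCyclotomicExtension.Rat.isPrime_span_zeta_sub_one' p hζ
  · have hK : IsCyclotomicExtension {p ^ (0 + 1)} ℚ K := by
      rw [zero_add, pow_one]; infer_instance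
    have hζ' : IsPrimitiveRoot (IsCyclotomicExtension.zeta p ℚ K) (p ^ (0 + 1)) := by
      rw [zero_add, pow_one]; exact hζ
    exact IsCyclotomicExtension.Rat.liesOver_span_zeta_sub_one p 0 hζ'

/-- General principality criterion for `ℚ(ζ_p)`: bound `B` for the Minkowski bound, a finite set
of exceptional primes for which a principal prime is known, and a numerical check for all other
primes. -/
theorem isPrincipalIdealRing_of_checks (B : ℕ)
    (hM : ⌊(4 / Real.pi) ^ InfinitePlace.nrComplexPlaces K *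
      ((Module.finrank ℚ K).factorial / (Module.finrank ℚ K) ^ Module.finrank ℚ K *
        √|(discr K : ℝ)|)⌋₊ ≤ B)
    (exc : Finset ℕ)
    (hexc : ∀ q ∈ exc, q.Prime → q ≠ p →
      ∃ P ∈ primesOver (span {(q : ℤ)}) (𝓞 K), Submodule.IsPrincipal P)
    (hcheck : ∀ q, q.Prime → q ≤ B → q ≠ p → q ∉ exc →
      ∀ k, 0 < k → q ^ k ≤ B → q ^ k % p ≠ 1) :
    IsPrincipalIdealRing (𝓞 K) := by
  have : IsGalois ℚ K := IsCyclotomicExtension.isGalois {p} ℚ K
  apply RingOfIntegers.isPrincipalIdealRing_of_isPrincipal_of_lt_or_isPrincipal_of_mem_primesOver_of_mem_Icc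
  intro q hq hqprime
  rw [Finset.mem_Icc] at hq
  have hqB : q ≤ B := hq.2.trans hM
  by_cases hqp : q = p
  · subst hqp
    obtain ⟨P, hP, hprin⟩ := exists_isPrincipal_self (p := q) (K := K)
    exact ⟨P, hP, Or.inr hprin⟩
  by_cases hqexc : q ∈ exc
  · obtain ⟨P, hP, hprin⟩ := hexc q hqexc hqprime hqp
    exact ⟨P, hP, Or.inr hprin⟩
  · obtain ⟨P, hP, hlt⟩ := exists_lt_pow_inertiaDeg (p := p) (K := K) B q hqprime hqp
      (hcheck q hqprime hqB hqp hqexc)
    exact ⟨P, hP, Or.inl (lt_of_le_of_lt hM hlt)⟩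

/-- A prime is either in a given finite set of primes or coprime to all of them. -/
theorem prime_mem_or_forall_mod_ne_zero {q : ℕ} (hq : q.Prime) (S : Finset ℕ)
    (hS : ∀ r ∈ S, r.Prime) : q ∈ S ∨ ∀ r ∈ S, q % r ≠ 0 := by
  by_cases h : q ∈ S
  · exact Or.inl h
  · refine Or.inr fun r hr hmod => h ?_
    have hdvd : r ∣ q := Nat.dvd_of_mod_eq_zero hmod
    rwa [← (Nat.prime_dvd_prime_iff_eq (hS r hr) hq).mp hdvd]

/-- Bound on exponents. -/
theorem exponent_le_of_pow_le {q k B m : ℕ} (hq : 2 ≤ q) (hle : q ^ k ≤ B) (hB : B < 2 ^ (m + 1)) :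
    k ≤ m := by
  by_contra hcon
  push Not at hcon
  have h1 : 2 ^ (m + 1) ≤ q ^ k :=
    (Nat.pow_le_pow_left hq (m + 1)).trans (Nat.pow_le_pow_right (by omega) hcon)
  omega

end Assemble

end Fermat.Agent.S10.helper15
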