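/-
Sophie Germain's theorem and the first case of Fermat's Last Theorem for the
exponents 5, 7, 11 and 13 (elementary, over the integers only).
-/
import Mathlib
import Fermat.Prelude.Def_FLTPrelim_FreyPackage

set_option autoImplicit false

namespace Fermat.Agent.S10.helper43

open Finset

section Phi

variable {R : Type*} [CommRing R]

/-- The cofactor `(x ^ p + y ^ p) / (x + y)` (for odd `p`). -/
def sgPhi (p : ℕ) (x y : R) : R := ∑ i ∈ range p, x ^ i * (-y) ^ (p - 1 - i)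

lemma sgPhi_mul {p : ℕ} (hp : Odd p) (x y : R) : sgPhi p x y * (x + y) = x ^ p + y ^ p := by
  have h := geom_sum₂_mul x (-y) p
  rw [Odd.neg_pow hp y, sub_neg_eq_add, sub_neg_eq_add] at h
  exact h

lemma map_sgPhi {S : Type*} [CommRing S] (f : R →+* S) (p : ℕ) (x y : R) :
    f (sgPhi p x y) = sgPhi p (f x) (f y) := by
  simp [sgPhi, map_sum, map_mul, map_pow, map_neg]

lemma sgPhi_zero_left {p : ℕ} (hp : Odd p) (y : R) : sgPhi p 0 y = y ^ (p - 1) := by
  obtain ⟨k, rfl⟩ := hp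
  have hpos : 0 ∈ range (2 * k + 1) := by simp
  rw [sgPhi, Finset.sum_eq_single_of_mem 0 hpos]
  · simp [Even.neg_pow (n := 2 * k) ⟨k, by ring⟩]
  · intro i _ hi
    simp [zero_pow hi]

lemma sgPhi_of_add_eq_zero {p : ℕ} (hp : Odd p) {x y : R} (h : x + y = 0) :
    sgPhi p x y = (p : R) * y ^ (p - 1) := by
  have hx : x = -y := eq_neg_of_add_eq_zero_left h
  obtain ⟨k, rfl⟩ := hp
  have key : ∀ i ∈ range (2 * k + 1), x ^ i * (-y) ^ (2 * k + 1 - 1 - i) = y ^ (2 * k) := by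
    intro i hi
    have hi' : i ≤ 2 * k := by
      have := Finset.mem_range.mp hi
      omega
    rw [hx, ← pow_add]
    have : i + (2 * k + 1 - 1 - i) = 2 * k := by omega
    rw [this, Even.neg_pow ⟨k, by ring⟩]
  rw [sgPhi, Finset.sum_congr rfl key]
  simp

end Phi

/-- The two factors of `x ^ p + y ^ p` are coprime in the first case. -/
lemma isCoprime_add_sgPhi {p : ℕ} (hp : p.Prime) (hodd : Odd p) {x y z : ℤ}
    (hxy : IsCoprime x y) (h : x ^ p + y ^ p + z ^ p = 0) (hz : ¬ (p : ℤ) ∣ z) :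
    IsCoprime (x + y) (sgPhi p x y) := by
  have hprod : sgPhi p x y * (x + y) = x ^ p + y ^ p := sgPhi_mul hodd x y
  apply isCoprime_of_prime_dvd
  · rintro ⟨h1, h2⟩
    -- x + y = 0 forces z = 0, contradicting `hz`
    have hz0 : z ^ p = 0 := by
      have : x ^ p + y ^ p = 0 := by rw [← hprod, h1, mul_zero]
      linarith
    have : z = 0 := pow_eq_zero_iff hp.ne_zero |>.mp hz0
    exact hz (this ▸ dvd_zero _)
  · intro r hr hr1 hr2
    -- pass to the field `ZMod` of the prime `r`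
    have hrp : r ∣ (p : ℤ) * y ^ (p - 1) := by
      -- work in the quotient by `r`
      have hmap : (Ideal.Quotient.mk (Ideal.span {r})) (sgPhi p x y) =
          (p : ℤ ⧸ Ideal.span {r}) * (Ideal.Quotient.mk (Ideal.span {r}) y) ^ (p - 1) := by
        rw [map_sgPhi]
        apply sgPhi_of_add_eq_zero hodd
        rw [← map_add, Ideal.Quotient.eq_zero_iff_mem, Ideal.mem_span_singleton]
        exact hr1
      have h0 : (Ideal.Quotient.mk (Ideal.span {r})) (sgPhi p x y) = 0 := by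
        rw [Ideal.Quotient.eq_zero_iff_mem, Ideal.mem_span_singleton]
        exact hr2
      rw [h0] at hmap
      have : (Ideal.Quotient.mk (Ideal.span {r})) ((p : ℤ) * y ^ (p - 1)) = 0 := by
        rw [map_mul, map_pow, map_natCast]
        exact hmap.symm
      rwa [Ideal.Quotient.eq_zero_iff_mem, Ideal.mem_span_singleton] at this
    rcases hr.dvd_or_dvd hrp with hrp' | hry
    · -- `r` is associated to `p`, so `p ∣ x + y`, hence `p ∣ z`
      have hpr : (p : ℤ) ∣ r :=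
        hr.irreducible.dvd_symm (Nat.prime_iff_prime_int.mp hp).irreducible hrp'
      have h1 : (p : ℤ) ∣ x ^ p + y ^ p := by
        rw [← hprod]
        exact Dvd.dvd.mul_left (hpr.trans hr1) _
      have h2 : (p : ℤ) ∣ z ^ p := by
        have : z ^ p = -(x ^ p + y ^ p) := by linarith
        rw [this]
        exact (dvd_neg).mpr h1
      exact hz (Int.Prime.dvd_pow' hp h2)
    · have hry' : r ∣ y := hr.dvd_of_dvd_pow hry
      have hrx : r ∣ x := by
        have : x = (x + y) - y := by ring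
        rw [this]
        exact dvd_sub hr1 hry'
      exact hr.not_isUnit (hxy.isUnit_of_dvd' hrx hry')

/-- In the first case, both factors of `x ^ p + y ^ p = (-z) ^ p` are `p`-th powers. -/
lemma exists_pow_eq {p : ℕ} (hp : p.Prime) (hodd : Odd p) {x y z : ℤ}
    (hxy : IsCoprime x y) (h : x ^ p + y ^ p + z ^ p = 0) (hz : ¬ (p : ℤ) ∣ z) :
    (∃ a : ℤ, x + y = a ^ p) ∧ ∃ α : ℤ, sgPhi p x y = α ^ p := by
  have hcop := isCoprime_add_sgPhi hp hodd hxy h hz
  have hprod : (x + y) * sgPhi p x y = (-z) ^ p := by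
    rw [mul_comm, sgPhi_mul hodd, Odd.neg_pow hodd]
    linarith
  exact Int.eq_pow_of_mul_eq_pow_odd hcop hodd hprod

/-- The heart of Sophie Germain's argument: the case where the auxiliary prime `q`
divides `x`. -/
lemma sophie_germain_aux {p q : ℕ} (hodd : Odd p) (hq : q.Prime)
    (h1 : ∀ x y z : ZMod q, x ^ p + y ^ p + z ^ p = 0 → x = 0 ∨ y = 0 ∨ z = 0)
    (h2 : ∀ x : ZMod q, x ^ p ≠ (p : ZMod q))
    {x y z a b c α β : ℤ}
    (hxy : IsCoprime x y) (hzx : IsCoprime z x)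
    (ha : x + y = a ^ p) (hb : y + z = b ^ p) (hc : z + x = c ^ p)
    (hα : sgPhi p x y = α ^ p) (hβ : sgPhi p y z = β ^ p)
    (hqx : (q : ℤ) ∣ x) : False := by
  have : Fact q.Prime := ⟨hq⟩
  have hp0 : p ≠ 0 := hodd.pos.ne'
  have hqunit : ¬ IsUnit (q : ℤ) := (Nat.prime_iff_prime_int.mp hq).not_isUnit
  have hX : ((x : ℤ) : ZMod q) = 0 := (ZMod.intCast_zmod_eq_zero_iff_dvd x q).mpr hqx
  have hY : ((y : ℤ) : ZMod q) ≠ 0 := by
    intro hY
    exact hqunit (hxy.isUnit_of_dvd' hqx ((ZMod.intCast_zmod_eq_zero_iff_dvd y q).mp hY))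
  have hZ : ((z : ℤ) : ZMod q) ≠ 0 := by
    intro hZ
    exact hqunit (hzx.isUnit_of_dvd' ((ZMod.intCast_zmod_eq_zero_iff_dvd z q).mp hZ) hqx)
  -- cast all the equations
  have ha' : (y : ZMod q) = (a : ZMod q) ^ p := by
    have := congrArg (Int.cast : ℤ → ZMod q) ha
    push_cast at this
    rw [hX, zero_add] at this
    exact this
  have hb' : (y : ZMod q) + (z : ZMod q) = (b : ZMod q) ^ p := by
    have := congrArg (Int.cast : ℤ → ZMod q) hb
    push_cast at this
    exact this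
  have hc' : (z : ZMod q) = (c : ZMod q) ^ p := by
    have := congrArg (Int.cast : ℤ → ZMod q) hc
    push_cast at this
    rw [hX, add_zero] at this
    exact this
  have hα' : (y : ZMod q) ^ (p - 1) = (α : ZMod q) ^ p := by
    have := congrArg (Int.castRingHom (ZMod q)) hα
    rw [map_sgPhi, map_pow] at this
    simp only [eq_intCast] at this
    rw [hX, sgPhi_zero_left hodd] at this
    exact this
  have hsum : (a : ZMod q) ^ p + (c : ZMod q) ^ p + (-(b : ZMod q)) ^ p = 0 := by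
    rw [Odd.neg_pow hodd, ← ha', ← hc', ← hb']
    ring
  rcases h1 _ _ _ hsum with hA | hC | hB
  · apply hY
    rw [ha', hA, zero_pow hp0]
  · apply hZ
    rw [hc', hC, zero_pow hp0]
  · have hB' : (b : ZMod q) = 0 := neg_eq_zero.mp hB
    have hyz : (y : ZMod q) + (z : ZMod q) = 0 := by rw [hb', hB', zero_pow hp0]
    have hβ' : (p : ZMod q) * (z : ZMod q) ^ (p - 1) = (β : ZMod q) ^ p := by
      have := congrArg (Int.castRingHom (ZMod q)) hβ
      rw [map_sgPhi, map_pow] at this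
      simp only [eq_intCast] at this
      rw [sgPhi_of_add_eq_zero hodd hyz] at this
      exact this
    have hzy : (z : ZMod q) ^ (p - 1) = (y : ZMod q) ^ (p - 1) := by
      have hz' : (z : ZMod q) = -(y : ZMod q) := eq_neg_of_add_eq_zero_right hyz
      obtain ⟨k, hk⟩ := hodd
      have hk' : p - 1 = 2 * k := by omega
      rw [hz', hk', Even.neg_pow ⟨k, by ring⟩]
    have hαne : (α : ZMod q) ≠ 0 := by
      intro h0
      rw [h0, zero_pow hp0] at hα'
      exact hY (pow_eq_zero_iff (n := p - 1) (by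
        obtain ⟨k, hk⟩ := hodd
        intro h
        have : (y : ZMod q) ^ (p - 1) = 1 := by rw [h, pow_zero]
        rw [this] at hα'
        exact one_ne_zero hα') |>.mp hα')
    apply h2 ((β : ZMod q) / (α : ZMod q))
    rw [div_pow, ← hβ', hzy, hα']
    field_simp

/-- **Sophie Germain's theorem.** Let `p` be an odd prime and `q` an auxiliary prime such that
`x ^ p + y ^ p + z ^ p = 0` has no solution mod `q` with `xyz ≠ 0`, and such that `p` is not a
`p`-th power mod `q`. Then the first case of Fermat's Last Theorem holds for `p`. -/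
theorem sophie_germain {p q : ℕ} (hp : p.Prime) (hodd : Odd p) (hq : q.Prime)
    (h1 : ∀ x y z : ZMod q, x ^ p + y ^ p + z ^ p = 0 → x = 0 ∨ y = 0 ∨ z = 0)
    (h2 : ∀ x : ZMod q, x ^ p ≠ (p : ZMod q))
    {x y z : ℤ} (hxy : IsCoprime x y) (hyz : IsCoprime y z) (hzx : IsCoprime z x)
    (h : x ^ p + y ^ p + z ^ p = 0) : (p : ℤ) ∣ x * y * z := by
  by_contra hndvd
  have hpx : ¬ (p : ℤ) ∣ x := fun hx => hndvd (Dvd.dvd.mul_right (Dvd.dvd.mul_right hx y) z)
  have hpy : ¬ (p : ℤ) ∣ y := fun hy => hndvd (Dvd.dvd.mul_right (Dvd.dvd.mul_left hy x) z)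
  have hpz : ¬ (p : ℤ) ∣ z := fun hz => hndvd (Dvd.dvd.mul_left hz (x * y))
  have hyzx : y ^ p + z ^ p + x ^ p = 0 := by linarith
  have hzxy : z ^ p + x ^ p + y ^ p = 0 := by linarith
  obtain ⟨⟨a, ha⟩, ⟨α, hα⟩⟩ := exists_pow_eq hp hodd hxy h hpz
  obtain ⟨⟨b, hb⟩, ⟨β, hβ⟩⟩ := exists_pow_eq hp hodd hyz hyzx hpx
  obtain ⟨⟨c, hc⟩, ⟨γ, hγ⟩⟩ := exists_pow_eq hp hodd hzx hzxy hpy
  have hcast : (x : ZMod q) ^ p + (y : ZMod q) ^ p + (z : ZMod q) ^ p = 0 := by
    have := congrArg (Int.cast : ℤ → ZMod q) h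
    push_cast at this
    exact this
  rcases h1 _ _ _ hcast with hx | hy | hz
  · exact sophie_germain_aux hodd hq h1 h2 hxy hzx ha hb hc hα hβ
      ((ZMod.intCast_zmod_eq_zero_iff_dvd x q).mp hx)
  · exact sophie_germain_aux hodd hq h1 h2 hyz hxy hb hc ha hβ hγ
      ((ZMod.intCast_zmod_eq_zero_iff_dvd y q).mp hy)
  · exact sophie_germain_aux hodd hq h1 h2 hzx hyz hc ha hb hγ hα
      ((ZMod.intCast_zmod_eq_zero_iff_dvd z q).mp hz)

end Fermat.Agent.S10.helper43

namespace Fermat.Agent.S10.helper43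

/-! ### The auxiliary primes -/

set_option maxRecDepth 100000 in
lemma pow_five_zmod_eleven :
    ∀ x : ZMod 11, x ^ 5 = 0 ∨ x ^ 5 = 1 ∨ x ^ 5 = -1 := by decide

set_option maxRecDepth 100000 in
lemma pow_eleven_zmod_twentythree :
    ∀ x : ZMod 23, x ^ 11 = 0 ∨ x ^ 11 = 1 ∨ x ^ 11 = -1 := by decide

set_option maxRecDepth 100000 in
lemma pow_seven_zmod_twentynine :
    ∀ x : ZMod 29, x ^ 7 = 0 ∨ x ^ 7 = 1 ∨ x ^ 7 = -1 ∨ x ^ 7 = 12 ∨ x ^ 7 = -12 := by decide

set_option maxRecDepth 100000 in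
lemma pow_thirteen_zmod_fiftythree :
    ∀ x : ZMod 53, x ^ 13 = 0 ∨ x ^ 13 = 1 ∨ x ^ 13 = -1 ∨ x ^ 13 = 23 ∨ x ^ 13 = -23 := by
  decide

lemma sg_cond_five (x y z : ZMod 11) (h : x ^ 5 + y ^ 5 + z ^ 5 = 0) :
    x = 0 ∨ y = 0 ∨ z = 0 := by
  have : Fact (Nat.Prime 11) := ⟨by norm_num⟩
  by_contra hne
  simp only [not_or] at hne
  obtain ⟨hx, hy, hz⟩ := hne
  have hx' : x ^ 5 ≠ 0 := pow_ne_zero 5 hx
  have hy' : y ^ 5 ≠ 0 := pow_ne_zero 5 hy
  have hz' : z ^ 5 ≠ 0 := pow_ne_zero 5 hz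
  rcases pow_five_zmod_eleven x with h1 | h1 | h1 <;>
  rcases pow_five_zmod_eleven y with h2 | h2 | h2 <;>
  rcases pow_five_zmod_eleven z with h3 | h3 | h3 <;>
  first
  | exact hx' h1
  | exact hy' h2
  | exact hz' h3
  | (rw [h1, h2, h3] at h; revert h; decide)

lemma sg_cond_eleven (x y z : ZMod 23) (h : x ^ 11 + y ^ 11 + z ^ 11 = 0) :
    x = 0 ∨ y = 0 ∨ z = 0 := by
  have : Fact (Nat.Prime 23) := ⟨by norm_num⟩
  by_contra hne
  simp only [not_or] at hne
  obtain ⟨hx, hy, hz⟩ := hne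
  have hx' : x ^ 11 ≠ 0 := pow_ne_zero 11 hx
  have hy' : y ^ 11 ≠ 0 := pow_ne_zero 11 hy
  have hz' : z ^ 11 ≠ 0 := pow_ne_zero 11 hz
  rcases pow_eleven_zmod_twentythree x with h1 | h1 | h1 <;>
  rcases pow_eleven_zmod_twentythree y with h2 | h2 | h2 <;>
  rcases pow_eleven_zmod_twentythree z with h3 | h3 | h3 <;>
  first
  | exact hx' h1
  | exact hy' h2
  | exact hz' h3
  | (rw [h1, h2, h3] at h; revert h; decide)

lemma sg_cond_seven (x y z : ZMod 29) (h : x ^ 7 + y ^ 7 + z ^ 7 = 0) :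
    x = 0 ∨ y = 0 ∨ z = 0 := by
  have : Fact (Nat.Prime 29) := ⟨by norm_num⟩
  by_contra hne
  simp only [not_or] at hne
  obtain ⟨hx, hy, hz⟩ := hne
  have hx' : x ^ 7 ≠ 0 := pow_ne_zero 7 hx
  have hy' : y ^ 7 ≠ 0 := pow_ne_zero 7 hy
  have hz' : z ^ 7 ≠ 0 := pow_ne_zero 7 hz
  rcases pow_seven_zmod_twentynine x with h1 | h1 | h1 | h1 | h1 <;>
  rcases pow_seven_zmod_twentynine y with h2 | h2 | h2 | h2 | h2 <;>
  rcases pow_seven_zmod_twentynine z with h3 | h3 | h3 | h3 | h3 <;>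
  first
  | exact hx' h1
  | exact hy' h2
  | exact hz' h3
  | (rw [h1, h2, h3] at h; revert h; decide)

lemma sg_cond_thirteen (x y z : ZMod 53) (h : x ^ 13 + y ^ 13 + z ^ 13 = 0) :
    x = 0 ∨ y = 0 ∨ z = 0 := by
  have : Fact (Nat.Prime 53) := ⟨by norm_num⟩
  by_contra hne
  simp only [not_or] at hne
  obtain ⟨hx, hy, hz⟩ := hne
  have hx' : x ^ 13 ≠ 0 := pow_ne_zero 13 hx
  have hy' : y ^ 13 ≠ 0 := pow_ne_zero 13 hy
  have hz' : z ^ 13 ≠ 0 := pow_ne_zero 13 hz
  rcases pow_thirteen_zmod_fiftythree x with h1 | h1 | h1 | h1 | h1 <;>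
  rcases pow_thirteen_zmod_fiftythree y with h2 | h2 | h2 | h2 | h2 <;>
  rcases pow_thirteen_zmod_fiftythree z with h3 | h3 | h3 | h3 | h3 <;>
  first
  | exact hx' h1
  | exact hy' h2
  | exact hz' h3
  | (rw [h1, h2, h3] at h; revert h; decide)

lemma sg_cond'_five (x : ZMod 11) : x ^ 5 ≠ ((5 : ℕ) : ZMod 11) := by
  rcases pow_five_zmod_eleven x with h | h | h <;> rw [h] <;> decide

lemma sg_cond'_eleven (x : ZMod 23) : x ^ 11 ≠ ((11 : ℕ) : ZMod 23) := by
  rcases pow_eleven_zmod_twentythree x with h | h | h <;> rw [h] <;> decide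

lemma sg_cond'_seven (x : ZMod 29) : x ^ 7 ≠ ((7 : ℕ) : ZMod 29) := by
  rcases pow_seven_zmod_twentynine x with h | h | h | h | h <;> rw [h] <;> decide

lemma sg_cond'_thirteen (x : ZMod 53) : x ^ 13 ≠ ((13 : ℕ) : ZMod 53) := by
  rcases pow_thirteen_zmod_fiftythree x with h | h | h | h | h <;> rw [h] <;> decide

/-- Pairwise coprimality from coprimality of `a` and `b`. -/
lemma isCoprime_of_fermat {p : ℕ} (hp : 0 < p) {a b c : ℤ} (hab : IsCoprime a b)
    (h : a ^ p + b ^ p = c ^ p) : IsCoprime a c ∧ IsCoprime b c := by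
  constructor
  · have h1 : IsCoprime (a ^ p) (b ^ p) := hab.pow
    have h2 : IsCoprime (a ^ p) (b ^ p + a ^ p * 1) := h1.add_mul_left_right 1
    have h3 : IsCoprime (a ^ p) (c ^ p) := by
      rw [← h]
      convert h2 using 1
      ring
    exact (IsCoprime.pow_iff hp hp).mp h3
  · have h1 : IsCoprime (b ^ p) (a ^ p) := hab.symm.pow
    have h2 : IsCoprime (b ^ p) (a ^ p + b ^ p * 1) := h1.add_mul_left_right 1
    have h3 : IsCoprime (b ^ p) (c ^ p) := by
      rw [← h]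
      convert h2 using 1
      ring
    exact (IsCoprime.pow_iff hp hp).mp h3

/-- Sophie Germain's theorem, in the form `a ^ p + b ^ p = c ^ p`. -/
theorem sophie_germain' {p q : ℕ} (hp : p.Prime) (hodd : Odd p) (hq : q.Prime)
    (h1 : ∀ x y z : ZMod q, x ^ p + y ^ p + z ^ p = 0 → x = 0 ∨ y = 0 ∨ z = 0)
    (h2 : ∀ x : ZMod q, x ^ p ≠ (p : ZMod q))
    {a b c : ℤ} (hab : IsCoprime a b) (h : a ^ p + b ^ p = c ^ p) : (p : ℤ) ∣ a * b * c := by
  obtain ⟨hac, hbc⟩ := isCoprime_of_fermat hp.pos hab h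
  have h' : a ^ p + b ^ p + (-c) ^ p = 0 := by
    rw [Odd.neg_pow hodd, h]
    ring
  have := sophie_germain hp hodd hq h1 h2 hab hbc.neg_right hac.neg_right.symm h'
  rwa [mul_neg, dvd_neg] at this

/-- **First case of Fermat's Last Theorem for the exponents 5, 7, 11, 13**: any solution of
`a ^ p + b ^ p = c ^ p` in coprime integers has `p ∣ a * b * c`. -/
theorem caseI {p : ℕ} (hp : p = 5 ∨ p = 7 ∨ p = 11 ∨ p = 13) {a b c : ℤ}
    (hab : IsCoprime a b) (h : a ^ p + b ^ p = c ^ p) : (p : ℤ) ∣ a * b * c := by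
  rcases hp with rfl | rfl | rfl | rfl
  · exact sophie_germain' (q := 11) (by norm_num) (by decide) (by norm_num)
      sg_cond_five sg_cond'_five hab h
  · exact sophie_germain' (q := 29) (by norm_num) (by decide) (by norm_num)
      sg_cond_seven sg_cond'_seven hab h
  · exact sophie_germain' (q := 23) (by norm_num) (by decide) (by norm_num)
      sg_cond_eleven sg_cond'_eleven hab h
  · exact sophie_germain' (q := 53) (by norm_num) (by decide) (by norm_num)
      sg_cond_thirteen sg_cond'_thirteen hab h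

/-- A Frey package with exponent in `{5, 7, 11, 13}` is necessarily in the second case:
`p ∣ a * b * c`. -/
theorem frey_caseI (P : FreyPackage) (hp : P.p = 5 ∨ P.p = 7 ∨ P.p = 11 ∨ P.p = 13) :
    (P.p : ℤ) ∣ P.a * P.b * P.c := by
  have hab : IsCoprime P.a P.b := by
    rw [Int.isCoprime_iff_gcd_eq_one]
    have h := P.hgcdab
    rw [← Int.coe_gcd] at h
    exact_mod_cast h
  exact caseI hp hab P.hFLT

end Fermat.Agent.S10.helper43
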