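import Mathlib

/-!
# Case I of Fermat's Last Theorem for `p ∈ {5, 7, 11, 13}` via Sophie Germain's theorem

Purely elementary (integers and `ZMod q` only).
-/

set_option autoImplicit false

namespace Fermat.Agent.S10.helper58

open Finset

/-- The cofactor `φ(y, z) = ∑_{i<p} y^i (-z)^(p-1-i)`, so that `φ(y,z) * (y + z) = y^p + z^p`
for odd `p`. -/
def cof {R : Type*} [CommRing R] (p : ℕ) (y z : R) : R :=
  ∑ i ∈ range p, y ^ i * (-z) ^ (p - 1 - i)

lemma cof_mul {R : Type*} [CommRing R] {p : ℕ} (hp : Odd p) (y z : R) :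
    cof p y z * (y + z) = y ^ p + z ^ p := by
  have h := geom_sum₂_mul y (-z) p
  rw [sub_neg_eq_add, hp.neg_pow, sub_neg_eq_add] at h
  exact h

lemma cof_map {R S : Type*} [CommRing R] [CommRing S] (f : R →+* S) (p : ℕ) (y z : R) :
    f (cof p y z) = cof p (f y) (f z) := by
  simp [cof, map_sum, map_mul, map_pow, map_neg]

/-- If `y + z = 0` then `φ(y, z) = p * y^(p-1)`. -/
lemma cof_of_add_eq_zero {R : Type*} [CommRing R] (p : ℕ) (y z : R) (h : y + z = 0) :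
    cof p y z = p * y ^ (p - 1) := by
  have hz : -z = y := by linear_combination (-1 : R) * h
  unfold cof
  rw [hz]
  have : ∀ i ∈ range p, y ^ i * y ^ (p - 1 - i) = y ^ (p - 1) := by
    intro i hi
    rw [← pow_add]
    congr 1
    have := mem_range.mp hi
    omega
  rw [sum_congr rfl this, sum_const, card_range, nsmul_eq_mul]

/-- If `x = 0` then `φ(x, y) = y^(p-1)` for odd `p`. -/
lemma cof_of_left_eq_zero {R : Type*} [CommRing R] {p : ℕ} (hp : Odd p) (y : R) :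
    cof p (0 : R) y = y ^ (p - 1) := by
  unfold cof
  have hp0 : 0 < p := hp.pos
  rw [sum_eq_single_of_mem 0 (mem_range.mpr hp0)]
  · have he : Even (p - 1) := by
      obtain ⟨k, hk⟩ := hp
      exact ⟨k, by omega⟩
    simp [he.neg_pow]
  · intro i _ hi
    simp [zero_pow hi]

/-- If `y = 0` then `φ(x, y) = x^(p-1)`. -/
lemma cof_of_right_eq_zero {R : Type*} [CommRing R] {p : ℕ} (hp : 0 < p) (x : R) :
    cof p x (0 : R) = x ^ (p - 1) := by
  unfold cof
  rw [sum_eq_single_of_mem (p - 1) (mem_range.mpr (by omega))]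
  · simp
  · intro i hi hne
    have := mem_range.mp hi
    have h0 : p - 1 - i ≠ 0 := by omega
    simp [zero_pow h0]

/-- `φ(y,z) ≡ p y^(p-1)` modulo `y + z`. -/
lemma add_dvd_cof_sub (p : ℕ) (y z : ℤ) : (y + z) ∣ cof p y z - p * y ^ (p - 1) := by
  have hq : (Ideal.Quotient.mk (Ideal.span {y + z})) (cof p y z - p * y ^ (p - 1)) = 0 := by
    rw [map_sub, cof_map, cof_of_add_eq_zero]
    · simp
    · rw [← map_add]
      exact Ideal.Quotient.eq_zero_iff_mem.mpr (Ideal.subset_span rfl)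
  exact Ideal.mem_span_singleton.mp (Ideal.Quotient.eq_zero_iff_mem.mp hq)

/-- Key coprimality: if `y, z` are coprime and `p ∤ y + z` then `y + z` and `φ(y, z)` are
coprime. -/
lemma isCoprime_add_cof {p : ℕ} (hp : p.Prime) {y z : ℤ} (hyz : IsCoprime y z)
    (hpyz : ¬ (p : ℤ) ∣ y + z) : IsCoprime (y + z) (cof p y z) := by
  obtain ⟨k, hk⟩ := add_dvd_cof_sub p y z
  have h1 : IsCoprime (y + z) y := by
    have : IsCoprime z y := hyz.symm
    simpa [add_comm] using (IsCoprime.add_mul_left_left this 1)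
  have h2 : IsCoprime (y + z) (p : ℤ) := by
    have hpp : Prime (p : ℤ) := Nat.prime_iff_prime_int.mp hp
    exact ((Prime.coprime_iff_not_dvd hpp).mpr hpyz).symm
  have h3 : IsCoprime (y + z) ((p : ℤ) * y ^ (p - 1)) := IsCoprime.mul_right h2 h1.pow_right
  have h4 : cof p y z = (p : ℤ) * y ^ (p - 1) + (y + z) * k := by linear_combination hk
  rw [h4]
  exact IsCoprime.add_mul_left_right h3 k

/-- From a solution: `y + z` and `φ(y,z)` are `p`-th powers. -/
lemma exists_pow_eq {p : ℕ} (hp : p.Prime) (hodd : Odd p) {x y z : ℤ}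
    (h : x ^ p + y ^ p + z ^ p = 0) (hyz : IsCoprime y z) (hpx : ¬ (p : ℤ) ∣ x) :
    (∃ a : ℤ, y + z = a ^ p) ∧ ∃ α : ℤ, cof p y z = α ^ p := by
  have hmul : (y + z) * cof p y z = (-x) ^ p := by
    rw [mul_comm, cof_mul hodd, hodd.neg_pow]
    linear_combination h
  have hpp : Prime (p : ℤ) := Nat.prime_iff_prime_int.mp hp
  have hpyz : ¬ (p : ℤ) ∣ y + z := by
    intro hd
    have : (p : ℤ) ∣ (-x) ^ p := hmul ▸ Dvd.dvd.mul_right hd _
    exact hpx ((dvd_neg).mp (hpp.dvd_of_dvd_pow this))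
  exact Int.eq_pow_of_mul_eq_pow_odd (isCoprime_add_cof hp hyz hpyz) hodd hmul

/-- Core of Sophie Germain's theorem: the case where the auxiliary prime `q` divides `x`. -/
lemma sophie_germain_core {p q : ℕ} (hp : p.Prime) (hodd : Odd p) [hq : Fact q.Prime]
    (h1 : ∀ u v w : ZMod q, u ^ p + v ^ p + w ^ p = 0 → u = 0 ∨ v = 0 ∨ w = 0)
    (h2 : ∀ u : ZMod q, u ^ p ≠ (p : ZMod q))
    {x y z : ℤ} (h : x ^ p + y ^ p + z ^ p = 0)
    (hxy : IsCoprime x y) (hyz : IsCoprime y z) (hzx : IsCoprime z x)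
    (hpx : ¬ (p : ℤ) ∣ x) (hpy : ¬ (p : ℤ) ∣ y) (hpz : ¬ (p : ℤ) ∣ z)
    (hqx : (x : ZMod q) = 0) : False := by
  have hqprime : Prime (q : ℤ) := Nat.prime_iff_prime_int.mp hq.out
  -- the three factorisations
  obtain ⟨⟨a, ha⟩, ⟨α, hα⟩⟩ := exists_pow_eq hp hodd h hyz hpx
  have h' : y ^ p + z ^ p + x ^ p = 0 := by linear_combination h
  obtain ⟨⟨b, hb⟩, -⟩ := exists_pow_eq hp hodd h' hzx hpy
  have h'' : z ^ p + x ^ p + y ^ p = 0 := by linear_combination h
  obtain ⟨⟨c, hc⟩, ⟨γ, hγ⟩⟩ := exists_pow_eq hp hodd h'' hxy hpz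
  -- nonvanishing of y, z mod q
  have hy0 : (y : ZMod q) ≠ 0 := by
    intro hy
    have hx' : (q : ℤ) ∣ x := (ZMod.intCast_zmod_eq_zero_iff_dvd x q).mp hqx
    have hy' : (q : ℤ) ∣ y := (ZMod.intCast_zmod_eq_zero_iff_dvd y q).mp hy
    exact hqprime.not_isUnit (hxy.isUnit_of_dvd' hx' hy')
  have hz0 : (z : ZMod q) ≠ 0 := by
    intro hz
    have hx' : (q : ℤ) ∣ x := (ZMod.intCast_zmod_eq_zero_iff_dvd x q).mp hqx
    have hz' : (q : ℤ) ∣ z := (ZMod.intCast_zmod_eq_zero_iff_dvd z q).mp hz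
    exact hqprime.not_isUnit (hzx.isUnit_of_dvd' hz' hx')
  -- reduce mod q
  have hA : (y : ZMod q) + z = (a : ZMod q) ^ p := by exact_mod_cast congrArg (Int.cast : ℤ → ZMod q) ha
  have hB : (z : ZMod q) + x = (b : ZMod q) ^ p := by exact_mod_cast congrArg (Int.cast : ℤ → ZMod q) hb
  have hC : (x : ZMod q) + y = (c : ZMod q) ^ p := by exact_mod_cast congrArg (Int.cast : ℤ → ZMod q) hc
  rw [hqx] at hB hC
  rw [add_zero] at hB
  rw [zero_add] at hC
  -- b^p + c^p + (-a)^p = 2x = 0 mod q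
  have hsum : (b : ZMod q) ^ p + (c : ZMod q) ^ p + (-(a : ZMod q)) ^ p = 0 := by
    rw [hodd.neg_pow, ← hA, ← hB, ← hC]
    ring
  have ha0 : (a : ZMod q) = 0 := by
    rcases h1 _ _ _ hsum with hb0 | hc0 | ha0
    · exfalso
      rw [hb0, zero_pow hp.ne_zero] at hB
      exact hz0 hB
    · exfalso
      rw [hc0, zero_pow hp.ne_zero] at hC
      exact hy0 hC
    · exact neg_eq_zero.mp ha0
  rw [ha0, zero_pow hp.ne_zero] at hA
  -- α^p = p y^(p-1), γ^p = y^(p-1) mod q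
  have hα' : (α : ZMod q) ^ p = (p : ZMod q) * (y : ZMod q) ^ (p - 1) := by
    have := congrArg (Int.castRingHom (ZMod q)) hα
    rw [cof_map, map_pow] at this
    simp only [eq_intCast] at this
    rw [← this, cof_of_add_eq_zero p _ _ hA]
  have hγ' : (γ : ZMod q) ^ p = (y : ZMod q) ^ (p - 1) := by
    have := congrArg (Int.castRingHom (ZMod q)) hγ
    rw [cof_map, map_pow] at this
    simp only [eq_intCast] at this
    rw [← this, hqx, cof_of_left_eq_zero hodd]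
  have hγ0 : (γ : ZMod q) ^ p ≠ 0 := by
    rw [hγ']
    exact pow_ne_zero _ hy0
  apply h2 ((α : ZMod q) * ((γ : ZMod q))⁻¹)
  rw [mul_pow, inv_pow, hα', hγ']
  rw [hγ'] at hγ0
  field_simp

/-- **Sophie Germain's theorem** (general auxiliary prime form). -/
theorem sophie_germain {p q : ℕ} (hp : p.Prime) (hodd : Odd p) [hq : Fact q.Prime]
    (h1 : ∀ u v w : ZMod q, u ^ p + v ^ p + w ^ p = 0 → u = 0 ∨ v = 0 ∨ w = 0)
    (h2 : ∀ u : ZMod q, u ^ p ≠ (p : ZMod q))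
    {x y z : ℤ} (hxy : IsCoprime x y) (hyz : IsCoprime y z) (hzx : IsCoprime z x)
    (hpx : ¬ (p : ℤ) ∣ x) (hpy : ¬ (p : ℤ) ∣ y) (hpz : ¬ (p : ℤ) ∣ z) :
    x ^ p + y ^ p + z ^ p ≠ 0 := by
  intro h
  have hmod : (x : ZMod q) ^ p + (y : ZMod q) ^ p + (z : ZMod q) ^ p = 0 := by
    exact_mod_cast congrArg (Int.cast : ℤ → ZMod q) h
  rcases h1 _ _ _ hmod with hx | hy | hz
  · exact sophie_germain_core hp hodd h1 h2 h hxy hyz hzx hpx hpy hpz hx
  · exact sophie_germain_core hp hodd h1 h2 (by linear_combination h) hyz hzx hxy hpy hpz hpx hy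
  · exact sophie_germain_core hp hodd h1 h2 (by linear_combination h) hzx hxy hyz hpz hpx hpy hz

/-- Case I of FLT from an auxiliary Sophie Germain prime, in the form `a^p + b^p ≠ c^p`. -/
theorem caseI_of_aux {p q : ℕ} (hp : p.Prime) (hodd : Odd p) [hq : Fact q.Prime]
    (h1 : ∀ u v w : ZMod q, u ^ p + v ^ p + w ^ p = 0 → u = 0 ∨ v = 0 ∨ w = 0)
    (h2 : ∀ u : ZMod q, u ^ p ≠ (p : ZMod q))
    (a b c : ℤ) (hab : IsCoprime a b) (hpabc : ¬ (p : ℤ) ∣ a * b * c) :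
    a ^ p + b ^ p ≠ c ^ p := by
  intro h
  have hpa : ¬ (p : ℤ) ∣ a := fun hd => hpabc (Dvd.dvd.mul_right (Dvd.dvd.mul_right hd b) c)
  have hpb : ¬ (p : ℤ) ∣ b := fun hd => hpabc (Dvd.dvd.mul_right (Dvd.dvd.mul_left hd a) c)
  have hpc : ¬ (p : ℤ) ∣ -c := fun hd => hpabc (Dvd.dvd.mul_left ((dvd_neg).mp hd) (a * b))
  have hbc : IsCoprime b c := by
    have : IsCoprime b (c ^ p) := by
      rw [← h]
      have hb' : IsCoprime b (a ^ p) := hab.symm.pow_right
      have := IsCoprime.add_mul_left_right hb' (b ^ (p - 1))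
      rwa [← pow_succ', Nat.sub_add_cancel hp.pos] at this
    exact (IsCoprime.pow_right_iff hp.pos).mp this
  have hca : IsCoprime c a := by
    have : IsCoprime a (c ^ p) := by
      rw [← h]
      have ha' : IsCoprime a (b ^ p) := hab.pow_right
      have := IsCoprime.add_mul_left_right ha' (a ^ (p - 1))
      rw [← pow_succ', Nat.sub_add_cancel hp.pos] at this
      rwa [add_comm]
    exact ((IsCoprime.pow_right_iff hp.pos).mp this).symm
  refine sophie_germain hp hodd h1 h2 hab hbc.neg_right hca.neg_left hpa hpb hpc ?_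
  rw [hodd.neg_pow]
  linear_combination h

/-- Derive hypothesis (i) of Sophie Germain from a finite set containing all nonzero `p`-th
powers, no three of which sum to zero. -/
lemma aux_of_finset {p q : ℕ} (S : Finset (ZMod q))
    (hpow : ∀ u : ZMod q, u ≠ 0 → u ^ p ∈ S)
    (hsum : ∀ s ∈ S, ∀ t ∈ S, ∀ r ∈ S, s + t + r ≠ 0) :
    ∀ u v w : ZMod q, u ^ p + v ^ p + w ^ p = 0 → u = 0 ∨ v = 0 ∨ w = 0 := by
  intro u v w h
  by_contra hne
  push Not at hne
  exact hsum _ (hpow u hne.1) _ (hpow v hne.2.1) _ (hpow w hne.2.2) h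

theorem fact_prime_eleven : Fact (Nat.Prime 11) := ⟨by norm_num⟩
theorem fact_prime_twentynine : Fact (Nat.Prime 29) := ⟨by norm_num⟩
theorem fact_prime_twentythree : Fact (Nat.Prime 23) := ⟨by norm_num⟩
theorem fact_prime_fiftythree : Fact (Nat.Prime 53) := ⟨by norm_num⟩

set_option maxRecDepth 100000 in
lemma pow5_11 : ∀ u : ZMod 11, u ≠ 0 → u ^ 5 ∈ ({1, 10} : Finset (ZMod 11)) := by decide

set_option maxRecDepth 100000 in
lemma sum5_11 : ∀ s ∈ ({1, 10} : Finset (ZMod 11)), ∀ t ∈ ({1, 10} : Finset (ZMod 11)),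
    ∀ r ∈ ({1, 10} : Finset (ZMod 11)), s + t + r ≠ 0 := by decide

set_option maxRecDepth 100000 in
lemma not_pow5_11 : ∀ u : ZMod 11, u ^ 5 ≠ ((5 : ℕ) : ZMod 11) := by decide

set_option maxRecDepth 100000 in
lemma pow7_29 : ∀ u : ZMod 29, u ≠ 0 → u ^ 7 ∈ ({1, 12, 17, 28} : Finset (ZMod 29)) := by
  decide

set_option maxRecDepth 100000 in
lemma sum7_29 : ∀ s ∈ ({1, 12, 17, 28} : Finset (ZMod 29)),
    ∀ t ∈ ({1, 12, 17, 28} : Finset (ZMod 29)),
    ∀ r ∈ ({1, 12, 17, 28} : Finset (ZMod 29)), s + t + r ≠ 0 := by decide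

set_option maxRecDepth 100000 in
lemma not_pow7_29 : ∀ u : ZMod 29, u ^ 7 ≠ ((7 : ℕ) : ZMod 29) := by decide

set_option maxRecDepth 100000 in
lemma pow11_23 : ∀ u : ZMod 23, u ≠ 0 → u ^ 11 ∈ ({1, 22} : Finset (ZMod 23)) := by decide

set_option maxRecDepth 100000 in
lemma sum11_23 : ∀ s ∈ ({1, 22} : Finset (ZMod 23)), ∀ t ∈ ({1, 22} : Finset (ZMod 23)),
    ∀ r ∈ ({1, 22} : Finset (ZMod 23)), s + t + r ≠ 0 := by decide

set_option maxRecDepth 100000 in
lemma not_pow11_23 : ∀ u : ZMod 23, u ^ 11 ≠ ((11 : ℕ) : ZMod 23) := by decide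

set_option maxRecDepth 100000 in
lemma pow13_53 : ∀ u : ZMod 53, u ≠ 0 → u ^ 13 ∈ ({1, 23, 30, 52} : Finset (ZMod 53)) := by
  decide

set_option maxRecDepth 100000 in
lemma sum13_53 : ∀ s ∈ ({1, 23, 30, 52} : Finset (ZMod 53)),
    ∀ t ∈ ({1, 23, 30, 52} : Finset (ZMod 53)),
    ∀ r ∈ ({1, 23, 30, 52} : Finset (ZMod 53)), s + t + r ≠ 0 := by decide

set_option maxRecDepth 100000 in
lemma not_pow13_53 : ∀ u : ZMod 53, u ^ 13 ≠ ((13 : ℕ) : ZMod 53) := by decide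

/-- Case I of FLT for exponent 5 (auxiliary prime 11). -/
theorem caseI_five (a b c : ℤ) (hab : IsCoprime a b) (h : ¬ ((5 : ℕ) : ℤ) ∣ a * b * c) :
    a ^ 5 + b ^ 5 ≠ c ^ 5 :=
  haveI := fact_prime_eleven
  caseI_of_aux (p := 5) (q := 11) (by norm_num) (by decide)
    (aux_of_finset _ pow5_11 sum5_11) not_pow5_11 a b c hab h

/-- Case I of FLT for exponent 7 (auxiliary prime 29). -/
theorem caseI_seven (a b c : ℤ) (hab : IsCoprime a b) (h : ¬ ((7 : ℕ) : ℤ) ∣ a * b * c) :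
    a ^ 7 + b ^ 7 ≠ c ^ 7 :=
  haveI := fact_prime_twentynine
  caseI_of_aux (p := 7) (q := 29) (by norm_num) (by decide)
    (aux_of_finset _ pow7_29 sum7_29) not_pow7_29 a b c hab h

/-- Case I of FLT for exponent 11 (auxiliary prime 23). -/
theorem caseI_eleven (a b c : ℤ) (hab : IsCoprime a b) (h : ¬ ((11 : ℕ) : ℤ) ∣ a * b * c) :
    a ^ 11 + b ^ 11 ≠ c ^ 11 :=
  haveI := fact_prime_twentythree
  caseI_of_aux (p := 11) (q := 23) (by norm_num) (by decide)
    (aux_of_finset _ pow11_23 sum11_23) not_pow11_23 a b c hab h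

/-- Case I of FLT for exponent 13 (auxiliary prime 53). -/
theorem caseI_thirteen (a b c : ℤ) (hab : IsCoprime a b) (h : ¬ ((13 : ℕ) : ℤ) ∣ a * b * c) :
    a ^ 13 + b ^ 13 ≠ c ^ 13 :=
  haveI := fact_prime_fiftythree
  caseI_of_aux (p := 13) (q := 53) (by norm_num) (by decide)
    (aux_of_finset _ pow13_53 sum13_53) not_pow13_53 a b c hab h

/-- **Case I of Fermat's Last Theorem for `p ∈ {5, 7, 11, 13}`**: no solution of
`a^p + b^p = c^p` in coprime integers with `p ∤ abc`. -/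
theorem caseI {p : ℕ} (hp : p = 5 ∨ p = 7 ∨ p = 11 ∨ p = 13) (a b c : ℤ) (hab : IsCoprime a b)
    (h : ¬ (p : ℤ) ∣ a * b * c) : a ^ p + b ^ p ≠ c ^ p := by
  rcases hp with rfl | rfl | rfl | rfl
  · exact caseI_five a b c hab h
  · exact caseI_seven a b c hab h
  · exact caseI_eleven a b c hab h
  · exact caseI_thirteen a b c hab h

end Fermat.Agent.S10.helper58
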