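import Mathlib

/-!
# Principal prime ideals from explicit identities (helper64)

Generic, norm-free criterion used for the class-number-one proofs of small cyclotomic
fields: if `R = ℤ[ζ]`, `q` is a prime number, `g ∈ ℤ[X]` is irreducible modulo `q`, and `I`
is a proper ideal containing `q` and `g(ζ)`, then `I` is a maximal ideal lying over `q`.
-/

set_option autoImplicit false
set_option linter.style.haveILetI false

namespace Fermat.Agent.S10.helper64

open Polynomial Ideal

/-- A polynomial over `ℤ` that vanishes modulo `q` takes values in any ideal containing `q`. -/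
theorem aeval_mem_of_map_eq_zero {R : Type*} [CommRing R] (ζ : R) (q : ℕ) (I : Ideal R)
    (hq : (q : R) ∈ I) (h : ℤ[X]) (hh : h.map (Int.castRingHom (ZMod q)) = 0) :
    aeval ζ h ∈ I := by
  rw [aeval_eq_sum_range]
  refine Ideal.sum_mem _ fun n _ => ?_
  have hc : (Int.castRingHom (ZMod q)) (h.coeff n) = 0 := by
    rw [← coeff_map, hh, coeff_zero]
  rw [eq_intCast, ZMod.intCast_zmod_eq_zero_iff_dvd] at hc
  obtain ⟨c, hc⟩ := hc
  rw [hc, zsmul_eq_mul]
  push_cast
  exact Ideal.mul_mem_right _ _ (Ideal.mul_mem_right _ _ hq)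

/-- Generic maximality criterion: a proper ideal of `ℤ[ζ]` containing `q` and `g(ζ)` with
`g` irreducible modulo `q` is maximal. -/
theorem isMaximal_of_irreducible_mod {R : Type*} [CommRing R] (ζ : R)
    (hζ : Algebra.adjoin ℤ {ζ} = ⊤) (q : ℕ) (hqp : q.Prime) (g : ℤ[X])
    (hg : Irreducible (g.map (Int.castRingHom (ZMod q)))) (I : Ideal R)
    (hq : (q : R) ∈ I) (hgI : aeval ζ g ∈ I) (hI : (1 : R) ∉ I) : I.IsMaximal := by
  haveI : Fact q.Prime := ⟨hqp⟩
  have hsurj : ∀ x : R, ∃ h : ℤ[X], aeval ζ h = x := by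
    intro x
    have hx : x ∈ Algebra.adjoin ℤ {ζ} := by rw [hζ]; exact Algebra.mem_top
    rw [Algebra.adjoin_singleton_eq_range_aeval] at hx
    exact hx
  have hlift : Function.Surjective (Polynomial.map (Int.castRingHom (ZMod q))) :=
    Polynomial.map_surjective _ (ZMod.intCast_surjective)
  rw [Ideal.isMaximal_iff]
  refine ⟨hI, fun J x hIJ hxI hxJ => ?_⟩
  obtain ⟨h, rfl⟩ := hsurj x
  have hndvd : ¬ g.map (Int.castRingHom (ZMod q)) ∣ h.map (Int.castRingHom (ZMod q)) := by
    rintro ⟨u', hu'⟩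
    obtain ⟨u, rfl⟩ := hlift u'
    apply hxI
    have h0 : (h - g * u).map (Int.castRingHom (ZMod q)) = 0 := by
      rw [Polynomial.map_sub, Polynomial.map_mul, hu', sub_self]
    have h1 := aeval_mem_of_map_eq_zero ζ q I hq _ h0
    have h2 : aeval ζ h = aeval ζ (h - g * u) + aeval ζ g * aeval ζ u := by
      rw [map_sub, map_mul]; ring
    rw [h2]
    exact Ideal.add_mem _ h1 (Ideal.mul_mem_right _ _ hgI)
  obtain ⟨a', b', hab⟩ := (hg.coprime_iff_not_dvd).mpr hndvd
  obtain ⟨a, rfl⟩ := hlift a'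
  obtain ⟨b, rfl⟩ := hlift b'
  have h0 : (a * g + b * h - 1).map (Int.castRingHom (ZMod q)) = 0 := by
    rw [Polynomial.map_sub, Polynomial.map_add, Polynomial.map_mul, Polynomial.map_mul, hab,
      Polynomial.map_one, sub_self]
  have h1 := hIJ (aeval_mem_of_map_eq_zero ζ q I hq _ h0)
  have h2 : (1 : R) = aeval ζ a * aeval ζ g + aeval ζ b * aeval ζ h - aeval ζ (a * g + b * h - 1) := by
    simp only [map_sub, map_add, map_mul, map_one]; ring
  rw [h2]
  exact Ideal.sub_mem _ (Ideal.add_mem _ (Ideal.mul_mem_left _ _ (hIJ hgI))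
    (Ideal.mul_mem_left _ _ hxJ)) h1

/-- A maximal ideal containing the prime number `q` lies over `(q)`. -/
theorem liesOver_of_isMaximal_of_mem {R : Type*} [CommRing R] (q : ℕ) (hq : q.Prime)
    (I : Ideal R) [hI : I.IsMaximal] (hqI : (q : R) ∈ I) :
    I.LiesOver (Ideal.span {(q : ℤ)}) := by
  constructor
  have hmax : (Ideal.span {(q : ℤ)}).IsMaximal :=
    PrincipalIdealRing.isMaximal_of_irreducible
      (Nat.prime_iff_prime_int.mp hq).irreducible
  refine hmax.eq_of_le ?_ ?_
  · intro htop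
    have h1 : (1 : ℤ) ∈ Ideal.under ℤ I := by rw [htop]; exact Submodule.mem_top
    rw [Ideal.under_def, Ideal.mem_comap, map_one] at h1
    exact hI.ne_top ((Ideal.eq_top_iff_one _).mpr h1)
  · rw [Ideal.span_singleton_le_iff_mem, Ideal.under_def, Ideal.mem_comap]
    simpa using hqI

/-- Packaged form: the principal ideal `(α)` is a prime over `q`. -/
theorem span_singleton_mem_primesOver {R : Type*} [CommRing R] (ζ : R)
    (hζ : Algebra.adjoin ℤ {ζ} = ⊤) (q : ℕ) (hqp : q.Prime) (g : ℤ[X])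
    (hg : Irreducible (g.map (Int.castRingHom (ZMod q)))) (α β γ : R)
    (hβ : α * β = (q : R)) (hγ : α * γ = aeval ζ g)
    {F : Type*} [CommRing F] [Nontrivial F] (φ : R →+* F) (hφ : φ α = 0) :
    Ideal.span {α} ∈ (Ideal.span {(q : ℤ)}).primesOver R := by
  have h1 : (1 : R) ∉ Ideal.span {α} := by
    intro h
    rw [Ideal.mem_span_singleton] at h
    obtain ⟨u, hu⟩ := h
    have := congrArg φ hu
    rw [map_one, map_mul, hφ, zero_mul] at this
    exact one_ne_zero this
  have hqI : (q : R) ∈ Ideal.span {α} := Ideal.mem_span_singleton.mpr ⟨β, hβ.symm⟩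
  have hgI : aeval ζ g ∈ Ideal.span {α} := Ideal.mem_span_singleton.mpr ⟨γ, hγ.symm⟩
  have hmax : (Ideal.span {α}).IsMaximal :=
    isMaximal_of_irreducible_mod ζ hζ q hqp g hg _ hqI hgI h1
  exact ⟨hmax.isPrime, liesOver_of_isMaximal_of_mem q hqp _ hqI⟩

end Fermat.Agent.S10.helper64
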