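import Mathlib
import Fermat.Agent.S10.helper64_PrincipalPrime

/-!
# Principal primes in prime cyclotomic rings `ℤ[ζ_p]` (helper64)

Number-field layer on top of `helper64_PrincipalPrime`: for `K = ℚ(ζ_p)` we show that the
principal ideal `(a(ζ))` is a prime of `𝓞 K` over `q` from explicit ring identities.
-/

set_option autoImplicit false
set_option linter.style.haveILetI false

namespace Fermat.Agent.S10.helper64

open NumberField Ideal Polynomial IsCyclotomicExtension

section Generic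

variable (p : ℕ) [hp : Fact p.Prime] (K : Type*) [Field K] [NumberField K]
  [IsCyclotomicExtension {p} ℚ K]

/-- The chosen primitive `p`-th root of unity, as an algebraic integer. -/
noncomputable abbrev zetaInt : 𝓞 K := (IsCyclotomicExtension.zeta_spec p ℚ K).toInteger

theorem adjoin_zetaInt : Algebra.adjoin ℤ {zetaInt p K} = ⊤ :=
  IsCyclotomicExtension.Rat.adjoin_singleton_eq_top (IsCyclotomicExtension.zeta_spec p ℚ K)

theorem sum_zetaInt : ∑ i ∈ Finset.range p, (zetaInt p K) ^ i = 0 :=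
  (IsCyclotomicExtension.zeta_spec p ℚ K).toInteger_isPrimitiveRoot.geom_sum_eq_zero
    hp.out.one_lt

theorem exists_ringHom_zetaInt {F : Type*} [CommRing F] (r : F)
    (hr : ∑ i ∈ Finset.range p, r ^ i = 0) :
    ∃ φ : 𝓞 K →+* F, φ (zetaInt p K) = r := by
  have hζ := IsCyclotomicExtension.zeta_spec p ℚ K
  have hmin : minpoly ℤ hζ.integralPowerBasis.gen = cyclotomic p ℤ := by
    rw [hζ.integralPowerBasis_gen, cyclotomic_eq_minpoly hζ hp.out.pos,
      ← RingOfIntegers.minpoly_coe]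
    rfl
  have h0 : aeval r (minpoly ℤ hζ.integralPowerBasis.gen) = 0 := by
    rw [hmin, cyclotomic_prime, map_sum]
    simpa using hr
  refine ⟨(hζ.integralPowerBasis.lift r h0 : 𝓞 K →+* F), ?_⟩
  have := hζ.integralPowerBasis.lift_gen r h0
  rw [hζ.integralPowerBasis_gen] at this
  exact this

/-- Degree-one case: the principal ideal `(α)`, `α = a(ζ)`, is a prime over `q` as soon as
`α β = q`, `α γ = ζ - r` and `a(r) = 0`, `Φ_p(r) = 0` modulo `q`. -/
theorem span_mem_primesOver_of_linear (q : ℕ) (hq : q.Prime) (r : ℤ) (a : ℤ[X]) (β γ : 𝓞 K)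
    (hβ : aeval (zetaInt p K) a * β = (q : 𝓞 K))
    (hγ : aeval (zetaInt p K) a * γ = zetaInt p K - (r : 𝓞 K))
    (hr : ∑ i ∈ Finset.range p, (r : ZMod q) ^ i = 0)
    (har : aeval (r : ZMod q) a = 0) :
    Ideal.span {aeval (zetaInt p K) a} ∈ (Ideal.span {(q : ℤ)}).primesOver (𝓞 K) := by
  haveI : Fact q.Prime := ⟨hq⟩
  obtain ⟨φ, hφ⟩ := exists_ringHom_zetaInt p K (r : ZMod q) hr
  refine span_singleton_mem_primesOver (zetaInt p K) (adjoin_zetaInt p K) q hq (X - C r) ?_
    _ β γ hβ ?_ φ ?_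
  · rw [Polynomial.map_sub, Polynomial.map_X, Polynomial.map_C]
    exact Polynomial.irreducible_X_sub_C _
  · rw [hγ]; simp
  · have : φ (aeval (zetaInt p K) a) = aeval (φ (zetaInt p K)) a :=
      (Polynomial.aeval_algHom_apply φ.toIntAlgHom (zetaInt p K) a).symm
    rw [this, hφ, har]

/-- General case: `(α)`, `α = a(ζ)`, is a prime over `q` as soon as `α β = q`,
`α γ = g(ζ)` with `g` irreducible modulo `q` dividing both `Φ_p` and `a` modulo `q`. -/
theorem span_mem_primesOver_of_irreducible (q : ℕ) (hq : q.Prime) (g a : ℤ[X]) (β γ : 𝓞 K)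
    (hg : Irreducible (g.map (Int.castRingHom (ZMod q))))
    (hβ : aeval (zetaInt p K) a * β = (q : 𝓞 K))
    (hγ : aeval (zetaInt p K) a * γ = aeval (zetaInt p K) g)
    (hΦ : g.map (Int.castRingHom (ZMod q)) ∣ ∑ i ∈ Finset.range p, (X : (ZMod q)[X]) ^ i)
    (ha : g.map (Int.castRingHom (ZMod q)) ∣ a.map (Int.castRingHom (ZMod q))) :
    Ideal.span {aeval (zetaInt p K) a} ∈ (Ideal.span {(q : ℤ)}).primesOver (𝓞 K) := by
  haveI : Fact q.Prime := ⟨hq⟩
  set gq := g.map (Int.castRingHom (ZMod q)) with hgq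
  have : Nontrivial (AdjoinRoot gq) :=
    AdjoinRoot.nontrivial gq (Polynomial.degree_pos_of_irreducible hg).ne'
  have hr : ∑ i ∈ Finset.range p, (AdjoinRoot.root gq) ^ i = 0 := by
    obtain ⟨c, hc⟩ := hΦ
    have := congrArg (AdjoinRoot.mk gq) hc
    rw [map_mul, AdjoinRoot.mk_self, zero_mul, map_sum] at this
    simpa using this
  obtain ⟨φ, hφ⟩ := exists_ringHom_zetaInt p K (AdjoinRoot.root gq) hr
  refine span_singleton_mem_primesOver (zetaInt p K) (adjoin_zetaInt p K) q hq g hg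
    _ β γ hβ hγ φ ?_
  have h1 : φ (aeval (zetaInt p K) a) = aeval (φ (zetaInt p K)) a :=
    (Polynomial.aeval_algHom_apply φ.toIntAlgHom (zetaInt p K) a).symm
  rw [h1, hφ]
  obtain ⟨c, hc⟩ := ha
  have h2 : aeval (AdjoinRoot.root gq) a =
      AdjoinRoot.mk gq (a.map (Int.castRingHom (ZMod q))) := by
    have h3 := AdjoinRoot.aeval_eq_of_algebra gq a
    rw [show algebraMap ℤ (ZMod q) = Int.castRingHom (ZMod q) from rfl] at h3
    rw [← h3]
  rw [h2, hc, map_mul, AdjoinRoot.mk_self, zero_mul]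

end Generic

end Fermat.Agent.S10.helper64
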