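import Mathlib
import Fermat.Agent.S10.helper64_CyclotomicPrimes

/-!
# `ℤ[ζ₁₃]` is a principal ideal domain (helper64)

Minkowski bound `< 307`; the primes of norm `≤ 306` lie over `3` (norm `27`), `13`, `53`,
`79`, `131`, `157`, and each of them is shown to be principal by an explicit generator.
-/

set_option autoImplicit false
set_option linter.unusedSimpArgs false
set_option linter.unnecessarySimpa false

namespace Fermat.Agent.S10.helper64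

open NumberField Ideal Polynomial IsCyclotomicExtension Real

/-! ### Numerics of the Minkowski bound -/

theorem minkowski_numeric_13 :
    (4 / π) ^ 6 * (((12 : ℕ).factorial : ℝ) / (12 : ℝ) ^ 12 * √|((13 ^ 11 : ℤ) : ℝ)|) < 307 := by
  have hpi : (3.1415 : ℝ) < π := Real.pi_gt_d4
  have hpos : (0 : ℝ) < π := Real.pi_pos
  have h1 : (4 / π) ^ 6 ≤ (4 / 3.1415) ^ 6 := by
    apply pow_le_pow_left₀ (by positivity)
    apply div_le_div_of_nonneg_left (by norm_num) (by norm_num) hpi.le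
  have h2 : √|((13 ^ 11 : ℤ) : ℝ)| ≤ 1338716 := by
    rw [Real.sqrt_le_iff]
    refine ⟨by norm_num, ?_⟩
    rw [abs_of_nonneg (by positivity)]
    norm_num
  have h3 : ((12 : ℕ).factorial : ℝ) = 479001600 := by
    norm_num [Nat.factorial]
  rw [h3]
  calc (4 / π) ^ 6 * (479001600 / (12 : ℝ) ^ 12 * √|((13 ^ 11 : ℤ) : ℝ)|)
      ≤ (4 / 3.1415) ^ 6 * (479001600 / (12 : ℝ) ^ 12 * 1338716) := by
        gcongr
    _ < 307 := by norm_num

theorem floor_minkowski_13 (K : Type*) [Field K] [NumberField K]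
    [IsCyclotomicExtension {13} ℚ K] :
    ⌊(4 / π) ^ InfinitePlace.nrComplexPlaces K *
        (((Module.finrank ℚ K).factorial : ℝ) / (Module.finrank ℚ K : ℝ) ^ Module.finrank ℚ K *
          √|((NumberField.discr K : ℤ) : ℝ)|)⌋₊ ≤ 306 := by
  have : Fact (Nat.Prime 13) := ⟨by norm_num⟩
  have h1 : InfinitePlace.nrComplexPlaces K = 6 := by
    rw [IsCyclotomicExtension.Rat.nrComplexPlaces_eq_totient_div_two 13 K,
      Nat.totient_prime (by norm_num)]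
  have h2 : Module.finrank ℚ K = 12 := by
    rw [IsCyclotomicExtension.finrank (n := 13) K
      (Polynomial.cyclotomic.irreducible_rat (by norm_num)), Nat.totient_prime (by norm_num)]
  have h3 : NumberField.discr K = 13 ^ 11 := by
    rw [IsCyclotomicExtension.Rat.discr_prime 13 K]
    norm_num
  rw [h1, h2, h3]
  apply Nat.le_of_lt_succ
  rw [Nat.floor_lt (by positivity)]
  have := minkowski_numeric_13
  push_cast at this ⊢
  linarith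

/-! ### Orders modulo 13 -/

theorem orderOf_zmod_eq (n : ℕ) (r d : ℕ) (hd : 0 < d) (h1 : ((r : ℕ) : ZMod n) ^ d = 1)
    (h2 : ∀ m, m < d → 0 < m → ((r : ℕ) : ZMod n) ^ m ≠ 1) (q : ℕ) (hq : q % n = r) :
    orderOf (q : ZMod n) = d := by
  rw [← ZMod.natCast_mod q n, hq]
  exact (orderOf_eq_iff hd).mpr ⟨h1, h2⟩

theorem ord13_2 (q : ℕ) (hq : q % 13 = 2) : orderOf (q : ZMod 13) = 12 :=
  orderOf_zmod_eq 13 2 12 (by norm_num) (by decide)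
    (fun m hm hm0 => by interval_cases m <;> decide) q hq
theorem ord13_3 (q : ℕ) (hq : q % 13 = 3) : orderOf (q : ZMod 13) = 3 :=
  orderOf_zmod_eq 13 3 3 (by norm_num) (by decide)
    (fun m hm hm0 => by interval_cases m <;> decide) q hq
theorem ord13_4 (q : ℕ) (hq : q % 13 = 4) : orderOf (q : ZMod 13) = 6 :=
  orderOf_zmod_eq 13 4 6 (by norm_num) (by decide)
    (fun m hm hm0 => by interval_cases m <;> decide) q hq
theorem ord13_5 (q : ℕ) (hq : q % 13 = 5) : orderOf (q : ZMod 13) = 4 :=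
  orderOf_zmod_eq 13 5 4 (by norm_num) (by decide)
    (fun m hm hm0 => by interval_cases m <;> decide) q hq
theorem ord13_6 (q : ℕ) (hq : q % 13 = 6) : orderOf (q : ZMod 13) = 12 :=
  orderOf_zmod_eq 13 6 12 (by norm_num) (by decide)
    (fun m hm hm0 => by interval_cases m <;> decide) q hq
theorem ord13_7 (q : ℕ) (hq : q % 13 = 7) : orderOf (q : ZMod 13) = 12 :=
  orderOf_zmod_eq 13 7 12 (by norm_num) (by decide)
    (fun m hm hm0 => by interval_cases m <;> decide) q hq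
theorem ord13_8 (q : ℕ) (hq : q % 13 = 8) : orderOf (q : ZMod 13) = 4 :=
  orderOf_zmod_eq 13 8 4 (by norm_num) (by decide)
    (fun m hm hm0 => by interval_cases m <;> decide) q hq
theorem ord13_9 (q : ℕ) (hq : q % 13 = 9) : orderOf (q : ZMod 13) = 3 :=
  orderOf_zmod_eq 13 9 3 (by norm_num) (by decide)
    (fun m hm hm0 => by interval_cases m <;> decide) q hq
theorem ord13_10 (q : ℕ) (hq : q % 13 = 10) : orderOf (q : ZMod 13) = 6 :=
  orderOf_zmod_eq 13 10 6 (by norm_num) (by decide)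
    (fun m hm hm0 => by interval_cases m <;> decide) q hq
theorem ord13_11 (q : ℕ) (hq : q % 13 = 11) : orderOf (q : ZMod 13) = 12 :=
  orderOf_zmod_eq 13 11 12 (by norm_num) (by decide)
    (fun m hm hm0 => by interval_cases m <;> decide) q hq
theorem ord13_12 (q : ℕ) (hq : q % 13 = 12) : orderOf (q : ZMod 13) = 2 :=
  orderOf_zmod_eq 13 12 2 (by norm_num) (by decide)
    (fun m hm hm0 => by interval_cases m; decide) q hq

theorem prime_mod13_one (q : ℕ) (hq : q.Prime) (hq306 : q ≤ 306) (h1 : q % 13 = 1) :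
    q = 53 ∨ q = 79 ∨ q = 131 ∨ q = 157 := by
  obtain ⟨k, hk⟩ : ∃ k, q = 13 * k + 1 := ⟨q / 13, by omega⟩
  have hk23 : k ≤ 23 := by omega
  subst hk
  interval_cases k <;> first | omega | (exfalso; revert hq; norm_num)

theorem pow_orderOf_gt_13 (q : ℕ) (hq : q.Prime) (hq306 : q ≤ 306) (h3 : q ≠ 3) (h13 : q ≠ 13)
    (h53 : q ≠ 53) (h79 : q ≠ 79) (h131 : q ≠ 131) (h157 : q ≠ 157) :
    306 < q ^ orderOf (q : ZMod 13) := by
  have h2 : 2 ≤ q := hq.two_le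
  have hlt : q % 13 < 13 := Nat.mod_lt _ (by norm_num)
  have hpow : ∀ d a : ℕ, a ≤ q → 306 < a ^ d → 306 < q ^ d := fun d a ha h =>
    lt_of_lt_of_le h (Nat.pow_le_pow_left ha d)
  interval_cases hr : q % 13
  · exfalso
    have : 13 ∣ q := Nat.dvd_of_mod_eq_zero hr
    exact h13 ((Nat.prime_dvd_prime_iff_eq (by norm_num) hq).mp this).symm
  · rcases prime_mod13_one q hq hq306 hr with h | h | h | h <;> contradiction
  · rw [ord13_2 q hr]; exact hpow 12 2 h2 (by norm_num)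
  · rw [ord13_3 q hr]; exact hpow 3 16 (by omega) (by norm_num)
  · rw [ord13_4 q hr]; exact hpow 6 4 (by omega) (by norm_num)
  · rw [ord13_5 q hr]; exact hpow 4 5 (by omega) (by norm_num)
  · rw [ord13_6 q hr]; exact hpow 12 2 h2 (by norm_num)
  · rw [ord13_7 q hr]; exact hpow 12 2 h2 (by norm_num)
  · rw [ord13_8 q hr]; exact hpow 4 8 (by omega) (by norm_num)
  · rw [ord13_9 q hr]; exact hpow 3 9 (by omega) (by norm_num)
  · rw [ord13_10 q hr]; exact hpow 6 10 (by omega) (by norm_num)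
  · rw [ord13_11 q hr]; exact hpow 12 2 h2 (by norm_num)
  · rw [ord13_12 q hr]
    have : q ≠ 12 := by rintro rfl; revert hq; norm_num
    exact hpow 2 25 (by omega) (by norm_num)

/-! ### Explicit identities in `ℤ[ζ₁₃]` -/

theorem id13_3_beta {R : Type*} [CommRing R] (ζ : R) (h : ∑ i ∈ Finset.range 13, ζ ^ i = 0) :
    (1 + ζ - ζ ^ 3) * (-1 - ζ ^ 2 - ζ ^ 3 - 2 * ζ ^ 5 - ζ ^ 7 - 2 * ζ ^ 8 + ζ ^ 9 - 3 * ζ ^ 10)
      = 3 := by
  simp only [Finset.sum_range_succ, Finset.sum_range_zero] at h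
  linear_combination (-4 + 3 * ζ) * h

theorem id13_53_beta {R : Type*} [CommRing R] (ζ : R) (h : ∑ i ∈ Finset.range 13, ζ ^ i = 0) :
    (1 + ζ + ζ ^ 3) * (1 - 24 * ζ - 35 * ζ ^ 2 - 25 * ζ ^ 3 - 10 * ζ ^ 4 - 14 * ζ ^ 5 - 20 * ζ ^ 6 - 29 * ζ ^ 7 - 16 * ζ ^ 8 - 23 * ζ ^ 9 - 7 * ζ ^ 10 - 36 * ζ ^ 11) = 53 := by
  simp only [Finset.sum_range_succ, Finset.sum_range_zero] at h
  linear_combination (-52 + 29 * ζ - 36 * ζ ^ 2) * h

theorem id13_53_gamma {R : Type*} [CommRing R] (ζ : R) (h : ∑ i ∈ Finset.range 13, ζ ^ i = 0) :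
    (1 + ζ + ζ ^ 3) * (1 - 7 * ζ - 11 * ζ ^ 2 - 8 * ζ ^ 3 - 3 * ζ ^ 4 - 4 * ζ ^ 5 - 6 * ζ ^ 6 - 9 * ζ ^ 7 - 5 * ζ ^ 8 - 7 * ζ ^ 9 - 2 * ζ ^ 10 - 11 * ζ ^ 11) = ζ - (-17) := by
  simp only [Finset.sum_range_succ, Finset.sum_range_zero] at h
  linear_combination (-16 + 9 * ζ - 11 * ζ ^ 2) * h

theorem id13_131_beta {R : Type*} [CommRing R] (ζ : R) (h : ∑ i ∈ Finset.range 13, ζ ^ i = 0) :
    (1 - ζ - ζ ^ 3) * (111 + 78 * ζ + 17 * ζ ^ 2 + 67 * ζ ^ 3 + 84 * ζ ^ 4 + 40 * ζ ^ 5 + 46 * ζ ^ 6 + 69 * ζ ^ 7 + 48 * ζ ^ 8 + 33 * ζ ^ 9 + 41 * ζ ^ 10 + 28 * ζ ^ 11) = 131 := by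
  simp only [Finset.sum_range_succ, Finset.sum_range_zero] at h
  linear_combination (-20 - 13 * ζ - 28 * ζ ^ 2) * h

theorem id13_131_gamma {R : Type*} [CommRing R] (ζ : R) (h : ∑ i ∈ Finset.range 13, ζ ^ i = 0) :
    (1 - ζ - ζ ^ 3) * (43 + 31 * ζ + 7 * ζ ^ 2 + 26 * ζ ^ 3 + 33 * ζ ^ 4 + 16 * ζ ^ 5 + 18 * ζ ^ 6 + 27 * ζ ^ 7 + 19 * ζ ^ 8 + 13 * ζ ^ 9 + 16 * ζ ^ 10 + 11 * ζ ^ 11) = ζ - (-51) := by
  simp only [Finset.sum_range_succ, Finset.sum_range_zero] at h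
  linear_combination (-8 - 5 * ζ - 11 * ζ ^ 2) * h

theorem id13_79_beta {R : Type*} [CommRing R] (ζ : R) (h : ∑ i ∈ Finset.range 13, ζ ^ i = 0) :
    (1 + ζ - ζ ^ 4) * (24 - 25 * ζ - 27 * ζ ^ 2 + 10 * ζ ^ 3 - 3 * ζ ^ 4 - 39 * ζ ^ 5 - 5 * ζ ^ 6 - 2 * ζ ^ 7 - 18 * ζ ^ 8 - 38 * ζ ^ 9 + 16 * ζ ^ 10 - 35 * ζ ^ 11) = 79 := by
  simp only [Finset.sum_range_succ, Finset.sum_range_zero] at h
  linear_combination (-55 + 54 * ζ - 51 * ζ ^ 2 + 35 * ζ ^ 3) * h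

theorem id13_79_gamma {R : Type*} [CommRing R] (ζ : R) (h : ∑ i ∈ Finset.range 13, ζ ^ i = 0) :
    (1 + ζ - ζ ^ 4) * (5 - 4 * ζ - 5 * ζ ^ 2 + 2 * ζ ^ 3 - 7 * ζ ^ 5 - ζ ^ 6 - 3 * ζ ^ 8 - 7 * ζ ^ 9 + 3 * ζ ^ 10 - 6 * ζ ^ 11) = ζ - (-15) := by
  simp only [Finset.sum_range_succ, Finset.sum_range_zero] at h
  linear_combination (-10 + 10 * ζ - 9 * ζ ^ 2 + 6 * ζ ^ 3) * h

theorem id13_157_beta {R : Type*} [CommRing R] (ζ : R) (h : ∑ i ∈ Finset.range 13, ζ ^ i = 0) :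
    (1 - ζ + ζ ^ 2 + ζ ^ 4) * (89 + 86 * ζ + 42 * ζ ^ 2 + 77 * ζ ^ 3 + 67 * ζ ^ 4 + 25 * ζ ^ 5 + 37 * ζ ^ 6 + 56 * ζ ^ 7 + 73 * ζ ^ 8 + 113 * ζ ^ 9 + 124 * ζ ^ 10 + 76 * ζ ^ 11) = 157 := by
  simp only [Finset.sum_range_succ, Finset.sum_range_zero] at h
  linear_combination (-68 + 65 * ζ + 48 * ζ ^ 2 + 76 * ζ ^ 3) * h

theorem id13_157_gamma {R : Type*} [CommRing R] (ζ : R) (h : ∑ i ∈ Finset.range 13, ζ ^ i = 0) :
    (1 - ζ + ζ ^ 2 + ζ ^ 4) * (-43 - 41 * ζ - 20 * ζ ^ 2 - 37 * ζ ^ 3 - 32 * ζ ^ 4 - 12 * ζ ^ 5 - 18 * ζ ^ 6 - 27 * ζ ^ 7 - 35 * ζ ^ 8 - 54 * ζ ^ 9 - 59 * ζ ^ 10 - 36 * ζ ^ 11) = ζ - 75 := by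
  simp only [Finset.sum_range_succ, Finset.sum_range_zero] at h
  linear_combination (32 - 31 * ζ - 23 * ζ ^ 2 - 36 * ζ ^ 3) * h

/-! ### The primes over `3`, `53`, `79`, `131`, `157` are principal -/

theorem irreducible_13_3 :
    Irreducible ((X ^ 3 - X - 1 : ℤ[X]).map (Int.castRingHom (ZMod 3))) := by
  have hmap : (X ^ 3 - X - 1 : ℤ[X]).map (Int.castRingHom (ZMod 3)) = X ^ 3 - X - 1 := by
    simp
  rw [hmap]
  apply Polynomial.irreducible_of_degree_le_three_of_not_isRoot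
  · have : (X ^ 3 - X - 1 : (ZMod 3)[X]).natDegree = 3 := by compute_degree!
    rw [this]; decide
  · intro x
    simp only [IsRoot, eval_sub, eval_pow, eval_X, eval_one]
    revert x
    decide

theorem dvd_cyclotomic_13_3 :
    (X ^ 3 - X - 1 : ℤ[X]).map (Int.castRingHom (ZMod 3)) ∣
      ∑ i ∈ Finset.range 13, (X : (ZMod 3)[X]) ^ i := by
  have hmap : (X ^ 3 - X - 1 : ℤ[X]).map (Int.castRingHom (ZMod 3)) = X ^ 3 - X - 1 := by
    simp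
  rw [hmap]
  have h3 : (3 : (ZMod 3)[X]) = 0 := by
    have : ((3 : ℕ) : (ZMod 3)[X]) = 0 := by
      rw [← Polynomial.C_eq_natCast, ZMod.natCast_self, map_zero]
    simpa using this
  refine ⟨-1 - X ^ 2 - X ^ 3 + X ^ 5 - X ^ 7 + X ^ 8 + X ^ 9, ?_⟩
  simp only [Finset.sum_range_succ, Finset.sum_range_zero]
  linear_combination (X ^ 5 + X ^ 6 + X ^ 9 + X ^ 10) * h3

theorem exists_principal_prime_13_3 (K : Type*) [Field K] [NumberField K]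
    [IsCyclotomicExtension {13} ℚ K] :
    ∃ P ∈ (Ideal.span {((3 : ℕ) : ℤ)}).primesOver (𝓞 K), Submodule.IsPrincipal P := by
  have : Fact (Nat.Prime 13) := ⟨by norm_num⟩
  have hΦ := sum_zetaInt 13 K
  refine ⟨_, span_mem_primesOver_of_irreducible 13 K 3 (by norm_num) (X ^ 3 - X - 1)
    (1 + X - X ^ 3)
    (-1 - zetaInt 13 K ^ 2 - zetaInt 13 K ^ 3 - 2 * zetaInt 13 K ^ 5 - zetaInt 13 K ^ 7
      - 2 * zetaInt 13 K ^ 8 + zetaInt 13 K ^ 9 - 3 * zetaInt 13 K ^ 10)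
    (-1) irreducible_13_3 ?_ ?_ dvd_cyclotomic_13_3 ?_, ⟨_, rfl⟩⟩
  · simp only [map_add, map_sub, map_one, aeval_X, map_pow]
    rw [id13_3_beta _ hΦ]; norm_num
  · simp only [map_add, map_sub, map_one, aeval_X, map_pow]
    ring
  · refine ⟨-1, ?_⟩
    simp only [Polynomial.map_add, Polynomial.map_sub, Polynomial.map_one, Polynomial.map_X,
      Polynomial.map_pow]
    ring

theorem exists_principal_prime_13_53 (K : Type*) [Field K] [NumberField K]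
    [IsCyclotomicExtension {13} ℚ K] :
    ∃ P ∈ (Ideal.span {((53 : ℕ) : ℤ)}).primesOver (𝓞 K), Submodule.IsPrincipal P := by
  have : Fact (Nat.Prime 13) := ⟨by norm_num⟩
  have hΦ := sum_zetaInt 13 K
  refine ⟨_, span_mem_primesOver_of_linear 13 K 53 (by norm_num) (-17) (1 + X + X ^ 3)
    (1 - 24 * (zetaInt 13 K) - 35 * (zetaInt 13 K) ^ 2 - 25 * (zetaInt 13 K) ^ 3 - 10 * (zetaInt 13 K) ^ 4 - 14 * (zetaInt 13 K) ^ 5 - 20 * (zetaInt 13 K) ^ 6 - 29 * (zetaInt 13 K) ^ 7 - 16 * (zetaInt 13 K) ^ 8 - 23 * (zetaInt 13 K) ^ 9 - 7 * (zetaInt 13 K) ^ 10 - 36 * (zetaInt 13 K) ^ 11)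
    (1 - 7 * (zetaInt 13 K) - 11 * (zetaInt 13 K) ^ 2 - 8 * (zetaInt 13 K) ^ 3 - 3 * (zetaInt 13 K) ^ 4 - 4 * (zetaInt 13 K) ^ 5 - 6 * (zetaInt 13 K) ^ 6 - 9 * (zetaInt 13 K) ^ 7 - 5 * (zetaInt 13 K) ^ 8 - 7 * (zetaInt 13 K) ^ 9 - 2 * (zetaInt 13 K) ^ 10 - 11 * (zetaInt 13 K) ^ 11)
    ?_ ?_ ?_ ?_, ⟨_, rfl⟩⟩
  · simp only [map_add, map_sub, map_one, aeval_X, map_pow]
    rw [id13_53_beta _ hΦ]; norm_num
  · simp only [map_add, map_sub, map_one, aeval_X, map_pow]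
    rw [id13_53_gamma _ hΦ]; norm_num
  · decide
  · simp only [map_add, map_sub, map_one, aeval_X, map_pow]
    decide

theorem exists_principal_prime_13_131 (K : Type*) [Field K] [NumberField K]
    [IsCyclotomicExtension {13} ℚ K] :
    ∃ P ∈ (Ideal.span {((131 : ℕ) : ℤ)}).primesOver (𝓞 K), Submodule.IsPrincipal P := by
  have : Fact (Nat.Prime 13) := ⟨by norm_num⟩
  have hΦ := sum_zetaInt 13 K
  refine ⟨_, span_mem_primesOver_of_linear 13 K 131 (by norm_num) (-51) (1 - X - X ^ 3)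
    (111 + 78 * (zetaInt 13 K) + 17 * (zetaInt 13 K) ^ 2 + 67 * (zetaInt 13 K) ^ 3 + 84 * (zetaInt 13 K) ^ 4 + 40 * (zetaInt 13 K) ^ 5 + 46 * (zetaInt 13 K) ^ 6 + 69 * (zetaInt 13 K) ^ 7 + 48 * (zetaInt 13 K) ^ 8 + 33 * (zetaInt 13 K) ^ 9 + 41 * (zetaInt 13 K) ^ 10 + 28 * (zetaInt 13 K) ^ 11)
    (43 + 31 * (zetaInt 13 K) + 7 * (zetaInt 13 K) ^ 2 + 26 * (zetaInt 13 K) ^ 3 + 33 * (zetaInt 13 K) ^ 4 + 16 * (zetaInt 13 K) ^ 5 + 18 * (zetaInt 13 K) ^ 6 + 27 * (zetaInt 13 K) ^ 7 + 19 * (zetaInt 13 K) ^ 8 + 13 * (zetaInt 13 K) ^ 9 + 16 * (zetaInt 13 K) ^ 10 + 11 * (zetaInt 13 K) ^ 11)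
    ?_ ?_ ?_ ?_, ⟨_, rfl⟩⟩
  · simp only [map_add, map_sub, map_one, aeval_X, map_pow]
    rw [id13_131_beta _ hΦ]; norm_num
  · simp only [map_add, map_sub, map_one, aeval_X, map_pow]
    rw [id13_131_gamma _ hΦ]; norm_num
  · decide
  · simp only [map_add, map_sub, map_one, aeval_X, map_pow]
    decide

theorem exists_principal_prime_13_79 (K : Type*) [Field K] [NumberField K]
    [IsCyclotomicExtension {13} ℚ K] :
    ∃ P ∈ (Ideal.span {((79 : ℕ) : ℤ)}).primesOver (𝓞 K), Submodule.IsPrincipal P := by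
  have : Fact (Nat.Prime 13) := ⟨by norm_num⟩
  have hΦ := sum_zetaInt 13 K
  refine ⟨_, span_mem_primesOver_of_linear 13 K 79 (by norm_num) (-15) (1 + X - X ^ 4)
    (24 - 25 * (zetaInt 13 K) - 27 * (zetaInt 13 K) ^ 2 + 10 * (zetaInt 13 K) ^ 3 - 3 * (zetaInt 13 K) ^ 4 - 39 * (zetaInt 13 K) ^ 5 - 5 * (zetaInt 13 K) ^ 6 - 2 * (zetaInt 13 K) ^ 7 - 18 * (zetaInt 13 K) ^ 8 - 38 * (zetaInt 13 K) ^ 9 + 16 * (zetaInt 13 K) ^ 10 - 35 * (zetaInt 13 K) ^ 11)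
    (5 - 4 * (zetaInt 13 K) - 5 * (zetaInt 13 K) ^ 2 + 2 * (zetaInt 13 K) ^ 3 - 7 * (zetaInt 13 K) ^ 5 - (zetaInt 13 K) ^ 6 - 3 * (zetaInt 13 K) ^ 8 - 7 * (zetaInt 13 K) ^ 9 + 3 * (zetaInt 13 K) ^ 10 - 6 * (zetaInt 13 K) ^ 11)
    ?_ ?_ ?_ ?_, ⟨_, rfl⟩⟩
  · simp only [map_add, map_sub, map_one, aeval_X, map_pow]
    rw [id13_79_beta _ hΦ]; norm_num
  · simp only [map_add, map_sub, map_one, aeval_X, map_pow]
    rw [id13_79_gamma _ hΦ]; norm_num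
  · decide
  · simp only [map_add, map_sub, map_one, aeval_X, map_pow]
    decide

theorem exists_principal_prime_13_157 (K : Type*) [Field K] [NumberField K]
    [IsCyclotomicExtension {13} ℚ K] :
    ∃ P ∈ (Ideal.span {((157 : ℕ) : ℤ)}).primesOver (𝓞 K), Submodule.IsPrincipal P := by
  have : Fact (Nat.Prime 13) := ⟨by norm_num⟩
  have hΦ := sum_zetaInt 13 K
  refine ⟨_, span_mem_primesOver_of_linear 13 K 157 (by norm_num) 75 (1 - X + X ^ 2 + X ^ 4)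
    (89 + 86 * (zetaInt 13 K) + 42 * (zetaInt 13 K) ^ 2 + 77 * (zetaInt 13 K) ^ 3 + 67 * (zetaInt 13 K) ^ 4 + 25 * (zetaInt 13 K) ^ 5 + 37 * (zetaInt 13 K) ^ 6 + 56 * (zetaInt 13 K) ^ 7 + 73 * (zetaInt 13 K) ^ 8 + 113 * (zetaInt 13 K) ^ 9 + 124 * (zetaInt 13 K) ^ 10 + 76 * (zetaInt 13 K) ^ 11)
    (-43 - 41 * (zetaInt 13 K) - 20 * (zetaInt 13 K) ^ 2 - 37 * (zetaInt 13 K) ^ 3 - 32 * (zetaInt 13 K) ^ 4 - 12 * (zetaInt 13 K) ^ 5 - 18 * (zetaInt 13 K) ^ 6 - 27 * (zetaInt 13 K) ^ 7 - 35 * (zetaInt 13 K) ^ 8 - 54 * (zetaInt 13 K) ^ 9 - 59 * (zetaInt 13 K) ^ 10 - 36 * (zetaInt 13 K) ^ 11)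
    ?_ ?_ ?_ ?_, ⟨_, rfl⟩⟩
  · simp only [map_add, map_sub, map_one, aeval_X, map_pow]
    rw [id13_157_beta _ hΦ]; norm_num
  · simp only [map_add, map_sub, map_one, aeval_X, map_pow]
    rw [id13_157_gamma _ hΦ]; norm_num
  · decide
  · simp only [map_add, map_sub, map_one, aeval_X, map_pow]
    decide

/-! ### Main theorem -/

/-- The ring of integers of `ℚ(ζ₁₃)` is a principal ideal domain. -/
theorem pid13 (K : Type*) [Field K] [NumberField K] [IsCyclotomicExtension {13} ℚ K] :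
    IsPrincipalIdealRing (𝓞 K) := by
  have h13 : Fact (Nat.Prime 13) := ⟨by norm_num⟩
  have hgal : IsGalois ℚ K := IsCyclotomicExtension.isGalois {13} ℚ K
  have hM := floor_minkowski_13 K
  refine RingOfIntegers.isPrincipalIdealRing_of_isPrincipal_of_lt_or_isPrincipal_of_mem_primesOver_of_mem_Icc
    (fun q hq hqp => ?_)
  have hq306 : q ≤ 306 := (Finset.mem_Icc.mp hq).2.trans hM
  by_cases e13 : q = 13
  · subst e13
    have hζ := IsCyclotomicExtension.zeta_spec 13 ℚ K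
    exact ⟨Ideal.span {hζ.toInteger - 1},
      ⟨IsCyclotomicExtension.Rat.isPrime_span_zeta_sub_one' 13 hζ,
        IsCyclotomicExtension.Rat.liesOver_span_zeta_sub_one 13 0 (K := K)
          (by simpa using hζ)⟩, Or.inr ⟨_, rfl⟩⟩
  by_cases e3 : q = 3
  · subst e3
    obtain ⟨P, hP, hPp⟩ := exists_principal_prime_13_3 K
    exact ⟨P, hP, Or.inr hPp⟩
  by_cases e53 : q = 53
  · subst e53
    obtain ⟨P, hP, hPp⟩ := exists_principal_prime_13_53 K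
    exact ⟨P, hP, Or.inr hPp⟩
  by_cases e79 : q = 79
  · subst e79
    obtain ⟨P, hP, hPp⟩ := exists_principal_prime_13_79 K
    exact ⟨P, hP, Or.inr hPp⟩
  by_cases e131 : q = 131
  · subst e131
    obtain ⟨P, hP, hPp⟩ := exists_principal_prime_13_131 K
    exact ⟨P, hP, Or.inr hPp⟩
  by_cases e157 : q = 157
  · subst e157
    obtain ⟨P, hP, hPp⟩ := exists_principal_prime_13_157 K
    exact ⟨P, hP, Or.inr hPp⟩
  have hqF : Fact q.Prime := ⟨hqp⟩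
  obtain ⟨⟨P, hP1, hP2⟩⟩ := (Ideal.span {(q : ℤ)}).nonempty_primesOver (S := 𝓞 K)
  refine ⟨P, ⟨hP1, hP2⟩, Or.inl ?_⟩
  have hnd : ¬ q ∣ 13 := by
    intro h
    exact e13 ((Nat.prime_dvd_prime_iff_eq hqp (by norm_num)).mp h)
  rw [IsCyclotomicExtension.Rat.inertiaDeg_eq_of_not_dvd q K P hnd]
  exact lt_of_le_of_lt hM (pow_orderOf_gt_13 q hqp hq306 e3 e13 e53 e79 e131 e157)

end Fermat.Agent.S10.helper64
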