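import Mathlib.NumberTheory.NumberField.Cyclotomic.PID
import Mathlib.NumberTheory.NumberField.Cyclotomic.Ideal
import Mathlib.NumberTheory.Cyclotomic.Gal
import Mathlib.RingTheory.Norm.Transitivity
import Mathlib.Tactic

/-!
# Class number one for the cyclotomic fields `ℚ(ζ₇)`, `ℚ(ζ₁₁)`, `ℚ(ζ₁₃)`

Part of the Kummer route to S10/S11 (helper71).  Main results: `pid7`, `pid11`, `pid13`.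
-/

set_option autoImplicit false
set_option linter.style.haveILetI false

namespace Fermat.Agent.S10.helper71

open NumberField Polynomial Ideal

/-- If `α ∈ 𝓞 K` (`K` the `p`-th cyclotomic field) has absolute norm `q ^ f`, where `q ≠ p` is a
prime and `f` is the order of `q` modulo `p`, then `(α)` is a prime ideal above `q`. -/
theorem span_singleton_mem_primesOver {p : ℕ} [NeZero p] (K : Type*) [Field K] [NumberField K]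
    [IsCyclotomicExtension {p} ℚ K] {q : ℕ} (hq : q.Prime) (hqp : ¬ q ∣ p) {f : ℕ}
    (hf : orderOf (q : ZMod p) = f) (hf0 : f ≠ 0) (α : 𝓞 K)
    (hα : (Algebra.norm ℤ α).natAbs = q ^ f) :
    span {α} ∈ (span {(q : ℤ)}).primesOver (𝓞 K) := by
  have : Fact q.Prime := ⟨hq⟩
  have hI : absNorm (span {α}) = q ^ f := by rw [absNorm_span_singleton, hα]
  have hne : span {α} ≠ ⊤ := by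
    intro h
    rw [h, absNorm_top] at hI
    exact (Nat.one_lt_pow hf0 hq.one_lt).ne hI
  obtain ⟨P, hPmax, hIP⟩ := Ideal.exists_le_maximal _ hne
  have hPprime : P.IsPrime := hPmax.isPrime
  have hqP : (q : 𝓞 K) ∈ P := by
    have h1 : ((q ^ f : ℕ) : 𝓞 K) ∈ P := hI ▸ hIP (absNorm_mem _)
    rw [Nat.cast_pow] at h1
    exact hPprime.mem_of_pow_mem _ h1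
  have hlies : P.LiesOver (span {(q : ℤ)}) := by
    constructor
    have hmax : (span {(q : ℤ)}).IsMaximal :=
      (isPrime_of_prime (prime_span_singleton_iff.mpr (Nat.prime_iff_prime_int.mp hq))).isMaximal
        (by simp [hq.ne_zero])
    refine hmax.eq_of_le (Ideal.IsPrime.under ℤ P).ne_top ?_
    rw [span_singleton_le_iff_mem, mem_comap]
    simpa using hqP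
  have hdeg : P.inertiaDeg ℤ = f := by
    rw [IsCyclotomicExtension.Rat.inertiaDeg_eq_of_not_dvd q K P hqp, hf]
  have hP : absNorm P = q ^ f := by
    rw [← hdeg]
    exact (natAbs_pow_inertiaDeg (q : ℤ) P).symm
  have hIeq : span {α} = P := by
    obtain ⟨J, hJ⟩ := Ideal.dvd_iff_le.mpr hIP
    have h2 : absNorm (span {α}) = absNorm P * absNorm J := by rw [hJ, map_mul]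
    rw [hI, hP] at h2
    have h3 : absNorm J = 1 := by
      have hpos : 0 < q ^ f := pow_pos hq.pos f
      exact (Nat.eq_of_mul_eq_mul_left hpos (by rw [mul_one]; exact h2)).symm
    rw [absNorm_eq_one_iff] at h3
    rw [hJ, h3, mul_top]
  rw [hIeq]
  exact ⟨hPprime, hlies⟩

theorem prod_units_zmod_eq_prod_Ico {p : ℕ} [Fact p.Prime] {M : Type*} [CommMonoid M]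
    (F : ℕ → M) :
    ∏ t : (ZMod p)ˣ, F ((t : ZMod p).val) = ∏ k ∈ Finset.Ico 1 p, F k := by
  have hp : p.Prime := Fact.out
  refine Finset.prod_bij (fun t _ => ((t : ZMod p)).val) ?_ ?_ ?_ ?_
  · intro t _
    rw [Finset.mem_Ico]
    refine ⟨?_, ZMod.val_lt _⟩
    rw [Nat.one_le_iff_ne_zero, Ne, ZMod.val_eq_zero]
    exact t.ne_zero
  · intro t₁ _ t₂ _ h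
    exact Units.ext (ZMod.val_injective p h)
  · intro k hk
    rw [Finset.mem_Ico] at hk
    have hcop : Nat.Coprime k p := by
      rw [Nat.coprime_comm, hp.coprime_iff_not_dvd]
      exact Nat.not_dvd_of_pos_of_lt hk.1 hk.2
    refine ⟨ZMod.unitOfCoprime k hcop, Finset.mem_univ _, ?_⟩
    simp [ZMod.val_natCast, Nat.mod_eq_of_lt hk.2]
  · intro t _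
    rfl

/-- The norm of `F ζ` is the product of the `F (ζ ^ k)`, `1 ≤ k < p`, for any Galois-equivariant
`F` (e.g. a polynomial function with rational coefficients). -/
theorem algebraMap_norm_eq_prod_Ico {p : ℕ} [Fact p.Prime] (K : Type*) [Field K] [NumberField K]
    [IsCyclotomicExtension {p} ℚ K] (F : K → K)
    (hF : ∀ (σ : K ≃ₐ[ℚ] K) (x : K), σ (F x) = F (σ x)) :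
    algebraMap ℚ K (Algebra.norm ℚ (F (IsCyclotomicExtension.zeta p ℚ K))) =
      ∏ k ∈ Finset.Ico 1 p, F ((IsCyclotomicExtension.zeta p ℚ K) ^ k) := by
  have hp : p.Prime := Fact.out
  have : NeZero p := ⟨hp.ne_zero⟩
  have : IsGalois ℚ K := IsCyclotomicExtension.isGalois {p} ℚ K
  have hirr : Irreducible (cyclotomic p ℚ) := cyclotomic.irreducible_rat hp.pos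
  set ζ := IsCyclotomicExtension.zeta p ℚ K with hζdef
  have hζ : IsPrimitiveRoot ζ p := IsCyclotomicExtension.zeta_spec p ℚ K
  rw [Algebra.norm_eq_prod_automorphisms]
  let e := IsCyclotomicExtension.autEquivPow K hirr
  rw [← Equiv.prod_comp e.symm.toEquiv]
  rw [← prod_units_zmod_eq_prod_Ico (p := p) (fun k => F (ζ ^ k))]
  refine Finset.prod_congr rfl fun t _ => ?_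
  rw [hF]
  congr 1
  have h1 := hζ.autToPow_spec ℚ (e.symm t)
  have h2 : (IsPrimitiveRoot.autToPow ℚ hζ) (e.symm t) = t := e.apply_symm_apply t
  rw [h2] at h1
  exact h1.symm

theorem natAbs_norm_eq_of_prod {p : ℕ} [Fact p.Prime] (K : Type*) [Field K] [NumberField K]
    [IsCyclotomicExtension {p} ℚ K] (α : 𝓞 K) (F : K → K)
    (hF : ∀ (σ : K ≃ₐ[ℚ] K) (x : K), σ (F x) = F (σ x))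
    (hα : (α : K) = F (IsCyclotomicExtension.zeta p ℚ K)) (N : ℕ)
    (hN : ∏ k ∈ Finset.Ico 1 p, F ((IsCyclotomicExtension.zeta p ℚ K) ^ k) = (N : K)) :
    (Algebra.norm ℤ α).natAbs = N := by
  have h1 := algebraMap_norm_eq_prod_Ico (p := p) K F hF
  rw [hN, ← hα, ← Algebra.coe_norm_int] at h1
  have h2 : ((Algebra.norm ℤ α : ℤ) : K) = ((N : ℤ) : K) := by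
    have h0 : (algebraMap ℚ K) ((Algebra.norm ℤ α : ℤ) : ℚ) = ((Algebra.norm ℤ α : ℤ) : K) := by
      simp
    rw [← h0, h1]
    simp
  have h3 : Algebra.norm ℤ α = (N : ℤ) := by exact_mod_cast h2
  rw [h3, Int.natAbs_natCast]

theorem prod_Ico_one_thirteen {M : Type*} [CommMonoid M] (f : ℕ → M) :
    ∏ k ∈ Finset.Ico 1 13, f k =
      f 1 * f 2 * f 3 * f 4 * f 5 * f 6 * f 7 * f 8 * f 9 * f 10 * f 11 * f 12 := by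
  rw [Finset.prod_Ico_eq_prod_range]
  simp only [Finset.prod_range_succ, Finset.prod_range_zero, one_mul]

theorem prod_Ico_one_eleven {M : Type*} [CommMonoid M] (f : ℕ → M) :
    ∏ k ∈ Finset.Ico 1 11, f k =
      f 1 * f 2 * f 3 * f 4 * f 5 * f 6 * f 7 * f 8 * f 9 * f 10 := by
  rw [Finset.prod_Ico_eq_prod_range]
  simp only [Finset.prod_range_succ, Finset.prod_range_zero, one_mul]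

/-- For a prime `q ≠ p`, some prime above `q` has norm `q ^ f` with `f` the order of `q` mod `p`;
this is large as soon as all the relevant powers of `q` are. -/
theorem exists_primesOver_lt {p : ℕ} [Fact p.Prime] (K : Type*) [Field K] [NumberField K]
    [IsCyclotomicExtension {p} ℚ K] (B : ℕ) {q : ℕ} (hq : q.Prime) (hqp : q ≠ p)
    (hbig : ∀ f, 0 < f → f ∣ p - 1 → q ^ f % p = 1 → B < q ^ f) :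
    ∃ P ∈ (span {(q : ℤ)}).primesOver (𝓞 K), B < q ^ P.inertiaDeg ℤ := by
  have hp : p.Prime := Fact.out
  have : NeZero p := ⟨hp.ne_zero⟩
  have : Fact q.Prime := ⟨hq⟩
  have hqp' : ¬ q ∣ p := fun h => hqp ((Nat.prime_dvd_prime_iff_eq hq hp).mp h)
  have hpq' : ¬ p ∣ q := fun h => hqp ((Nat.prime_dvd_prime_iff_eq hp hq).mp h).symm
  obtain ⟨⟨P, hP1, hP2⟩⟩ := (span {(q : ℤ)}).nonempty_primesOver (S := 𝓞 K)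
  refine ⟨P, ⟨hP1, hP2⟩, ?_⟩
  rw [IsCyclotomicExtension.Rat.inertiaDeg_eq_of_not_dvd q K P hqp']
  have hq0 : (q : ZMod p) ≠ 0 := by
    rw [Ne, ZMod.natCast_eq_zero_iff]
    exact hpq'
  have h1 : (q : ZMod p) ^ (p - 1) = 1 := ZMod.pow_card_sub_one_eq_one hq0
  have hdvd : orderOf (q : ZMod p) ∣ p - 1 := orderOf_dvd_of_pow_eq_one h1
  have hpos : 0 < orderOf (q : ZMod p) := by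
    rcases Nat.eq_zero_or_pos (orderOf (q : ZMod p)) with h0 | h0
    · rw [h0, zero_dvd_iff] at hdvd
      have := hp.two_le
      omega
    · exact h0
  refine hbig _ hpos hdvd ?_
  have h2 : (q : ZMod p) ^ orderOf (q : ZMod p) = 1 := pow_orderOf_eq_one _
  have h3 : ((q ^ orderOf (q : ZMod p) : ℕ) : ZMod p) = ((1 : ℕ) : ZMod p) := by
    rw [Nat.cast_pow, h2, Nat.cast_one]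
  rw [ZMod.natCast_eq_natCast_iff'] at h3
  rw [h3, Nat.mod_eq_of_lt hp.one_lt]

/-- The prime above `p` in the `p`-th cyclotomic field is principal. -/
theorem exists_primesOver_isPrincipal_self {p : ℕ} [Fact p.Prime] (K : Type*) [Field K]
    [NumberField K] [IsCyclotomicExtension {p} ℚ K] :
    ∃ P ∈ (span {(p : ℤ)}).primesOver (𝓞 K), Submodule.IsPrincipal P := by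
  obtain ⟨⟨P, hP1, hP2⟩⟩ := (span {(p : ℤ)}).nonempty_primesOver (S := 𝓞 K)
  refine ⟨P, ⟨hP1, hP2⟩, ?_⟩
  rw [IsCyclotomicExtension.Rat.eq_span_zeta_sub_one_of_liesOver' p K
    (IsCyclotomicExtension.zeta_spec p ℚ K) P]
  exact ⟨⟨_, rfl⟩⟩

theorem norm_comp_13_27 {R : Type*} [CommRing R] (ζ : R)
    (hΦ : 1 + ζ + ζ^2 + ζ^3 + ζ^4 + ζ^5 + ζ^6 + ζ^7 + ζ^8 + ζ^9 + ζ^10 + ζ^11 + ζ^12 = 0) :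
    (1 + ζ^1 - (ζ^1)^3) * (1 + ζ^2 - (ζ^2)^3) * (1 + ζ^3 - (ζ^3)^3) * (1 + ζ^4 - (ζ^4)^3) * (1 + ζ^5 - (ζ^5)^3) * (1 + ζ^6 - (ζ^6)^3) * (1 + ζ^7 - (ζ^7)^3) * (1 + ζ^8 - (ζ^8)^3) * (1 + ζ^9 - (ζ^9)^3) * (1 + ζ^10 - (ζ^10)^3) * (1 + ζ^11 - (ζ^11)^3) * (1 + ζ^12 - (ζ^12)^3) = 27 := by
  have h0 : (1 + ζ^1 - (ζ^1)^3) * (1 + ζ^2 - (ζ^2)^3) = 1 + ζ + ζ^2 - ζ^5 - ζ^6 - ζ^7 + ζ^9 := by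
    linear_combination (0) * hΦ
  rw [h0]
  have h1 : (1 + ζ + ζ^2 - ζ^5 - ζ^6 - ζ^7 + ζ^9) * (1 + ζ^3 - (ζ^3)^3) = ζ + ζ^2 + ζ^3 - 2*ζ^5 - 2*ζ^6 - 2*ζ^7 - 2*ζ^8 - 2*ζ^9 - 3*ζ^10 - 2*ζ^11 := by
    linear_combination (1 - ζ + ζ^4 + ζ^5 - ζ^6) * hΦ
  rw [h1]
  have h2 : (ζ + ζ^2 + ζ^3 - 2*ζ^5 - 2*ζ^6 - 2*ζ^7 - 2*ζ^8 - 2*ζ^9 - 3*ζ^10 - 2*ζ^11) * (1 + ζ^4 - (ζ^4)^3) = -1 - ζ + 3*ζ^3 + 4*ζ^4 + 3*ζ^5 + 3*ζ^6 + 3*ζ^7 + 2*ζ^8 + ζ^9 - ζ^10 - 2*ζ^11 := by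
    linear_combination (1 + ζ - ζ^2 - 3*ζ^3 - 2*ζ^4 - ζ^9 + ζ^10 + 2*ζ^11) * hΦ
  rw [h2]
  have h3 : (-1 - ζ + 3*ζ^3 + 4*ζ^4 + 3*ζ^5 + 3*ζ^6 + 3*ζ^7 + 2*ζ^8 + ζ^9 - ζ^10 - 2*ζ^11) * (1 + ζ^5 - (ζ^5)^3) = -1 - 4*ζ - 4*ζ^2 - 2*ζ^3 - 5*ζ^5 - 6*ζ^6 - 4*ζ^7 - 2*ζ^8 - 2*ζ^9 - 4*ζ^10 - 4*ζ^11 := by
    linear_combination (3*ζ + ζ^2 + ζ^3 - ζ^4 + 3*ζ^5 + ζ^6 - ζ^7 - ζ^10 - ζ^11 - 2*ζ^12 - ζ^13 + 2*ζ^14) * hΦ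
  rw [h3]
  have h4 : (-1 - 4*ζ - 4*ζ^2 - 2*ζ^3 - 5*ζ^5 - 6*ζ^6 - 4*ζ^7 - 2*ζ^8 - 2*ζ^9 - 4*ζ^10 - 4*ζ^11) * (1 + ζ^6 - (ζ^6)^3) = -1 - 2*ζ - 2*ζ^4 - 2*ζ^5 - ζ^6 - 2*ζ^7 - 2*ζ^8 - 2*ζ^9 + 3*ζ^10 - ζ^11 := by
    linear_combination (-2*ζ - 2*ζ^2 + 2*ζ^3 + 4*ζ^4 - 5*ζ^5 - 3*ζ^6 + 2*ζ^8 + 2*ζ^9 - 5*ζ^10 - ζ^11 + 2*ζ^12 + 2*ζ^13 - 2*ζ^15 + 4*ζ^17) * hΦ
  rw [h4]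
  have h5 : (-1 - 2*ζ - 2*ζ^4 - 2*ζ^5 - ζ^6 - 2*ζ^7 - 2*ζ^8 - 2*ζ^9 + 3*ζ^10 - ζ^11) * (1 + ζ^7 - (ζ^7)^3) = -3*ζ + 3*ζ^4 - 6*ζ^5 - 3*ζ^7 - 3*ζ^8 + 3*ζ^10 - 3*ζ^11 := by
    linear_combination (-1 + 2*ζ - ζ^2 - 5*ζ^4 + 9*ζ^5 - 5*ζ^6 + ζ^7 - ζ^8 - ζ^9 + 2*ζ^10 - 2*ζ^12 + ζ^14 - ζ^15 + 5*ζ^18 - 4*ζ^19 + ζ^20) * hΦ
  rw [h5]
  have h6 : (-3*ζ + 3*ζ^4 - 6*ζ^5 - 3*ζ^7 - 3*ζ^8 + 3*ζ^10 - 3*ζ^11) * (1 + ζ^8 - (ζ^8)^3) = -12 - 9*ζ - 12*ζ^2 - 3*ζ^3 - 3*ζ^4 - 6*ζ^5 - 6*ζ^6 - 9*ζ^7 - 12*ζ^8 - 6*ζ^9 - 3*ζ^10 - 9*ζ^11 := by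
    linear_combination (12 - 6*ζ + 6*ζ^2 - 9*ζ^3 + 3*ζ^4 - 6*ζ^5 + 6*ζ^6 + 3*ζ^8 - 6*ζ^9 + 3*ζ^10 - 3*ζ^12 + 3*ζ^13 + 3*ζ^15 - 9*ζ^16 + 6*ζ^17 - 3*ζ^18 + 3*ζ^20 + 3*ζ^21 - 6*ζ^22 + 3*ζ^23) * hΦ
  rw [h6]
  have h7 : (-12 - 9*ζ - 12*ζ^2 - 3*ζ^3 - 3*ζ^4 - 6*ζ^5 - 6*ζ^6 - 9*ζ^7 - 12*ζ^8 - 6*ζ^9 - 3*ζ^10 - 9*ζ^11) * (1 + ζ^9 - (ζ^9)^3) = -21 - 9*ζ - 15*ζ^2 - 6*ζ^3 - 18*ζ^4 - 15*ζ^5 - 9*ζ^6 - 18*ζ^7 - 9*ζ^8 - 12*ζ^9 - 12*ζ^10 - 24*ζ^11 := by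
    linear_combination (9 - 9*ζ + 3*ζ^2 + 12*ζ^4 - 6*ζ^5 - 6*ζ^6 + 6*ζ^7 - 12*ζ^8 - 3*ζ^9 + 6*ζ^10 + 3*ζ^11 - 6*ζ^12 + 9*ζ^13 - 12*ζ^14 + 3*ζ^15 - 3*ζ^16 + 9*ζ^17 - 3*ζ^19 - 3*ζ^21 - 3*ζ^22 + 6*ζ^23 + 3*ζ^24 - 6*ζ^25 + 9*ζ^26) * hΦ
  rw [h7]
  have h8 : (-21 - 9*ζ - 15*ζ^2 - 6*ζ^3 - 18*ζ^4 - 15*ζ^5 - 9*ζ^6 - 18*ζ^7 - 9*ζ^8 - 12*ζ^9 - 12*ζ^10 - 24*ζ^11) * (1 + ζ^10 - (ζ^10)^3) = -9 - 9*ζ - 9*ζ^3 - 9*ζ^4 - 9*ζ^5 - 18*ζ^7 - 9*ζ^8 + 9*ζ^9 - 18*ζ^10 - 9*ζ^11 := by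
    linear_combination (-12 + 12*ζ - 15*ζ^2 + 18*ζ^3 - 12*ζ^4 + 3*ζ^5 - 3*ζ^6 + 9*ζ^7 - 21*ζ^9 + 6*ζ^10 - 9*ζ^11 + 9*ζ^12 - 3*ζ^13 - 12*ζ^15 + 24*ζ^16 - 21*ζ^17 + 12*ζ^18 - 6*ζ^19 + 9*ζ^20 - 12*ζ^21 + 3*ζ^22 + 6*ζ^23 - 9*ζ^24 + 9*ζ^25 - 3*ζ^26 - 12*ζ^28 + 24*ζ^29) * hΦ
  rw [h8]
  have h9 : (-9 - 9*ζ - 9*ζ^3 - 9*ζ^4 - 9*ζ^5 - 18*ζ^7 - 9*ζ^8 + 9*ζ^9 - 18*ζ^10 - 9*ζ^11) * (1 + ζ^11 - (ζ^11)^3) = -9 - 27*ζ^3 + 9*ζ^4 - 18*ζ^5 - 9*ζ^6 - 18*ζ^8 - 9*ζ^10 - 9*ζ^11 := by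
    linear_combination (-9*ζ + 9*ζ^2 + 18*ζ^3 - 36*ζ^4 + 27*ζ^5 - 27*ζ^7 + 27*ζ^8 - 18*ζ^10 + 9*ζ^13 - 18*ζ^14 + 9*ζ^15 + 18*ζ^16 - 27*ζ^17 + 9*ζ^18 + 9*ζ^19 - 9*ζ^20 + 9*ζ^22 - 9*ζ^23 + 9*ζ^26 - 18*ζ^27 + 9*ζ^28 + 18*ζ^29 - 27*ζ^30 + 9*ζ^31 + 9*ζ^32) * hΦ
  rw [h9]
  have h10 : (-9 - 27*ζ^3 + 9*ζ^4 - 18*ζ^5 - 9*ζ^6 - 18*ζ^8 - 9*ζ^10 - 9*ζ^11) * (1 + ζ^12 - (ζ^12)^3) = 27 := by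
    linear_combination (-36 + 36*ζ - 27*ζ^3 + 36*ζ^4 - 27*ζ^5 + 9*ζ^6 + 9*ζ^7 - 18*ζ^8 + 18*ζ^9 - 9*ζ^10 - 27*ζ^13 + 36*ζ^14 - 27*ζ^15 + 9*ζ^16 + 9*ζ^17 - 18*ζ^18 + 18*ζ^19 - 9*ζ^20 + 9*ζ^22 - 9*ζ^23 + 9*ζ^24 - 27*ζ^26 + 36*ζ^27 - 27*ζ^28 + 9*ζ^29 + 9*ζ^30 - 18*ζ^31 + 18*ζ^32 - 9*ζ^33 + 9*ζ^35) * hΦ
  rw [h10]

theorem norm_comp_13_53 {R : Type*} [CommRing R] (ζ : R)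
    (hΦ : 1 + ζ + ζ^2 + ζ^3 + ζ^4 + ζ^5 + ζ^6 + ζ^7 + ζ^8 + ζ^9 + ζ^10 + ζ^11 + ζ^12 = 0) :
    (1 - ζ^1 + (ζ^1)^3) * (1 - ζ^2 + (ζ^2)^3) * (1 - ζ^3 + (ζ^3)^3) * (1 - ζ^4 + (ζ^4)^3) * (1 - ζ^5 + (ζ^5)^3) * (1 - ζ^6 + (ζ^6)^3) * (1 - ζ^7 + (ζ^7)^3) * (1 - ζ^8 + (ζ^8)^3) * (1 - ζ^9 + (ζ^9)^3) * (1 - ζ^10 + (ζ^10)^3) * (1 - ζ^11 + (ζ^11)^3) * (1 - ζ^12 + (ζ^12)^3) = 53 := by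
  have h0 : (1 - ζ^1 + (ζ^1)^3) * (1 - ζ^2 + (ζ^2)^3) = 1 - ζ - ζ^2 + 2*ζ^3 - ζ^5 + ζ^6 - ζ^7 + ζ^9 := by
    linear_combination (0) * hΦ
  rw [h0]
  have h1 : (1 - ζ - ζ^2 + 2*ζ^3 - ζ^5 + ζ^6 - ζ^7 + ζ^9) * (1 - ζ^3 + (ζ^3)^3) = -3*ζ - ζ^2 - ζ^3 - 2*ζ^6 - 2*ζ^7 - ζ^10 - 2*ζ^11 := by
    linear_combination (1 + ζ - 2*ζ^2 + 2*ζ^3 - ζ^4 - ζ^5 + ζ^6) * hΦ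
  rw [h1]
  have h2 : (-3*ζ - ζ^2 - ζ^3 - 2*ζ^6 - 2*ζ^7 - ζ^10 - 2*ζ^11) * (1 - ζ^4 + (ζ^4)^3) = -3 - 3*ζ - ζ^3 + ζ^5 - 3*ζ^6 - ζ^7 - ζ^9 - ζ^10 := by
    linear_combination (3 - 3*ζ - ζ^2 + ζ^3 + 2*ζ^5 - 2*ζ^7 + ζ^9 + ζ^10 - 2*ζ^11) * hΦ
  rw [h2]
  have h3 : (-3 - 3*ζ - ζ^3 + ζ^5 - 3*ζ^6 - ζ^7 - ζ^9 - ζ^10) * (1 - ζ^5 + (ζ^5)^3) = -3 - 2*ζ - 2*ζ^2 - 4*ζ^3 + 3*ζ^5 - 2*ζ^8 - 2*ζ^9 - 2*ζ^10 + 2*ζ^11 := by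
    linear_combination (-ζ + 3*ζ^2 + ζ^3 - 3*ζ^4 + ζ^5 - ζ^6 - ζ^7 + 4*ζ^8 - 2*ζ^9 - ζ^10 + ζ^11 - ζ^13) * hΦ
  rw [h3]
  have h4 : (-3 - 2*ζ - 2*ζ^2 - 4*ζ^3 + 3*ζ^5 - 2*ζ^8 - 2*ζ^9 - 2*ζ^10 + 2*ζ^11) * (1 - ζ^6 + (ζ^6)^3) = -5 - 2*ζ - 2*ζ^2 - 2*ζ^4 + ζ^6 - 4*ζ^8 + 2*ζ^9 + ζ^10 - ζ^11 := by
    linear_combination (2 - 2*ζ - 4*ζ^3 + 6*ζ^4 + ζ^5 - ζ^6 + 2*ζ^8 - 4*ζ^9 - 3*ζ^10 + 3*ζ^11 + 2*ζ^13 - 4*ζ^16 + 2*ζ^17) * hΦ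
  rw [h4]
  have h5 : (-5 - 2*ζ - 2*ζ^2 - 2*ζ^4 + ζ^6 - 4*ζ^8 + 2*ζ^9 + ζ^10 - ζ^11) * (1 - ζ^7 + (ζ^7)^3) = -4 + ζ + 4*ζ^2 - 4*ζ^3 + ζ^4 + 4*ζ^5 + 2*ζ^6 + 7*ζ^7 - 5*ζ^8 + 4*ζ^9 + ζ^10 + 3*ζ^11 := by
    linear_combination (-1 - 2*ζ - 3*ζ^2 + 10*ζ^3 - 7*ζ^4 - ζ^5 + 3*ζ^6 - ζ^7 + 5*ζ^8 - 3*ζ^9 - 2*ζ^11 + 2*ζ^12 - 2*ζ^13 - ζ^14 + ζ^15 + 4*ζ^16 - 6*ζ^17 + ζ^18 + 2*ζ^19 - ζ^20) * hΦ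
  rw [h5]
  have h6 : (-4 + ζ + 4*ζ^2 - 4*ζ^3 + ζ^4 + 4*ζ^5 + 2*ζ^6 + 7*ζ^7 - 5*ζ^8 + 4*ζ^9 + ζ^10 + 3*ζ^11) * (1 - ζ^8 + (ζ^8)^3) = -4 - 5*ζ - 2*ζ^2 + 5*ζ^3 - ζ^4 + 10*ζ^5 - 6*ζ^6 + 11*ζ^7 + 6*ζ^9 - 3*ζ^10 + 3*ζ^11 := by
    linear_combination (6*ζ - 15*ζ^3 + 11*ζ^4 - 8*ζ^5 + 14*ζ^6 - 12*ζ^7 + 3*ζ^8 - 2*ζ^9 + 3*ζ^10 + 4*ζ^11 - 5*ζ^12 - 3*ζ^13 + 8*ζ^14 - 5*ζ^15 - 3*ζ^16 + 2*ζ^17 - 5*ζ^18 + 12*ζ^19 - 9*ζ^20 + 3*ζ^21 - 2*ζ^22 + 3*ζ^23) * hΦ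
  rw [h6]
  have h7 : (-4 - 5*ζ - 2*ζ^2 + 5*ζ^3 - ζ^4 + 10*ζ^5 - 6*ζ^6 + 11*ζ^7 + 6*ζ^9 - 3*ζ^10 + 3*ζ^11) * (1 - ζ^9 + (ζ^9)^3) = -1 - 17*ζ + ζ^2 - 6*ζ^3 + 6*ζ^4 + 5*ζ^5 + 9*ζ^6 + 4*ζ^7 + 13*ζ^8 + 12*ζ^9 + 10*ζ^10 + 4*ζ^11 := by
    linear_combination (-3 + 15*ζ - 15*ζ^2 + 14*ζ^3 - 18*ζ^4 + 12*ζ^5 - 20*ζ^6 + 22*ζ^7 - 20*ζ^8 + 11*ζ^9 - 6*ζ^10 + 9*ζ^11 - 6*ζ^12 + 3*ζ^13 + 4*ζ^14 + ζ^15 - 3*ζ^16 - 7*ζ^17 + 6*ζ^18 - 11*ζ^19 + 16*ζ^20 - 17*ζ^21 + 11*ζ^22 - 6*ζ^23 + 9*ζ^24 - 6*ζ^25 + 3*ζ^26) * hΦ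
  rw [h7]
  have h8 : (-1 - 17*ζ + ζ^2 - 6*ζ^3 + 6*ζ^4 + 5*ζ^5 + 9*ζ^6 + 4*ζ^7 + 13*ζ^8 + 12*ζ^9 + 10*ζ^10 + 4*ζ^11) * (1 - ζ^10 + (ζ^10)^3) = 5 - 25*ζ - 12*ζ^2 - 27*ζ^3 - 11*ζ^4 - 37*ζ^5 - 14*ζ^6 - 24*ζ^7 + 3*ζ^8 + 5*ζ^9 + 8*ζ^10 + 13*ζ^11 := by
    linear_combination (-6 + 14*ζ + 5*ζ^2 + 8*ζ^3 - 4*ζ^4 + 25*ζ^5 - 19*ζ^6 + 5*ζ^7 - 18*ζ^8 - 3*ζ^9 - 4*ζ^10 + 5*ζ^11 - 9*ζ^12 + ζ^13 + 2*ζ^14 + 6*ζ^15 + 4*ζ^16 + ζ^17 + 16*ζ^18 - 18*ζ^19 + 7*ζ^20 - 12*ζ^21 + ζ^22 - 4*ζ^23 + 5*ζ^24 - 9*ζ^25 + ζ^26 + 2*ζ^27 + 6*ζ^28 + 4*ζ^29) * hΦ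
  rw [h8]
  have h9 : (5 - 25*ζ - 12*ζ^2 - 27*ζ^3 - 11*ζ^4 - 37*ζ^5 - 14*ζ^6 - 24*ζ^7 + 3*ζ^8 + 5*ζ^9 + 8*ζ^10 + 13*ζ^11) * (1 - ζ^11 + (ζ^11)^3) = 15 - 10*ζ + 14*ζ^2 + 27*ζ^3 + 23*ζ^4 + 12*ζ^5 - 5*ζ^6 - 12*ζ^7 - 18*ζ^8 - 8*ζ^9 - 7*ζ^10 + 9*ζ^11 := by
    linear_combination (-10 - 5*ζ - 11*ζ^2 - 28*ζ^3 + 20*ζ^4 - 15*ζ^5 + 40*ζ^6 - 3*ζ^7 + 33*ζ^8 - 8*ζ^9 + 2*ζ^10 - 16*ζ^11 + 26*ζ^12 - 23*ζ^13 + 10*ζ^14 - 27*ζ^15 - 2*ζ^16 - 3*ζ^17 - 5*ζ^18 + 13*ζ^19 - 5*ζ^20 + 30*ζ^21 - 13*ζ^22 + 15*ζ^23 - 16*ζ^24 + 26*ζ^25 - 23*ζ^26 + 10*ζ^27 - 27*ζ^28 - 2*ζ^29 - 3*ζ^30 - 5*ζ^31 + 13*ζ^32) * hΦ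
  rw [h9]
  have h10 : (15 - 10*ζ + 14*ζ^2 + 27*ζ^3 + 23*ζ^4 + 12*ζ^5 - 5*ζ^6 - 12*ζ^7 - 18*ζ^8 - 8*ζ^9 - 7*ζ^10 + 9*ζ^11) * (1 - ζ^12 + (ζ^12)^3) = 53 := by
    linear_combination (-38 + 28*ζ + 24*ζ^2 + 13*ζ^3 - 4*ζ^4 - 11*ζ^5 - 17*ζ^6 - 7*ζ^7 - 6*ζ^8 + 10*ζ^9 + ζ^10 + 16*ζ^11 - 24*ζ^12 - 13*ζ^13 + 4*ζ^14 + 11*ζ^15 + 17*ζ^16 + 7*ζ^17 + 6*ζ^18 - 10*ζ^19 - ζ^20 - 16*ζ^21 + 9*ζ^22 - 15*ζ^23 + 25*ζ^24 - 24*ζ^25 - 13*ζ^26 + 4*ζ^27 + 11*ζ^28 + 17*ζ^29 + 7*ζ^30 + 6*ζ^31 - 10*ζ^32 - ζ^33 - 16*ζ^34 + 9*ζ^35) * hΦ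
  rw [h10]

theorem norm_comp_13_79 {R : Type*} [CommRing R] (ζ : R)
    (hΦ : 1 + ζ + ζ^2 + ζ^3 + ζ^4 + ζ^5 + ζ^6 + ζ^7 + ζ^8 + ζ^9 + ζ^10 + ζ^11 + ζ^12 = 0) :
    (1 - ζ^1 - (ζ^1)^4) * (1 - ζ^2 - (ζ^2)^4) * (1 - ζ^3 - (ζ^3)^4) * (1 - ζ^4 - (ζ^4)^4) * (1 - ζ^5 - (ζ^5)^4) * (1 - ζ^6 - (ζ^6)^4) * (1 - ζ^7 - (ζ^7)^4) * (1 - ζ^8 - (ζ^8)^4) * (1 - ζ^9 - (ζ^9)^4) * (1 - ζ^10 - (ζ^10)^4) * (1 - ζ^11 - (ζ^11)^4) * (1 - ζ^12 - (ζ^12)^4) = 79 := by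
  have h0 : (1 - ζ^1 - (ζ^1)^4) * (1 - ζ^2 - (ζ^2)^4) = -2*ζ - 2*ζ^2 - 2*ζ^4 - ζ^5 - ζ^7 - 2*ζ^8 - ζ^10 - ζ^11 := by
    linear_combination (1) * hΦ
  rw [h0]
  have h1 : (-2*ζ - 2*ζ^2 - 2*ζ^4 - ζ^5 - ζ^7 - 2*ζ^8 - ζ^10 - ζ^11) * (1 - ζ^3 - (ζ^3)^4) = 3 + ζ - 2*ζ^2 + 2*ζ^3 + ζ^4 + ζ^5 + ζ^6 + 3*ζ^7 - ζ^8 + ζ^9 + ζ^10 + ζ^11 := by
    linear_combination (-3 + 3*ζ^2 - 2*ζ^3 + ζ^4 + ζ^5 - ζ^6 - ζ^7 + 2*ζ^8 - ζ^9 + ζ^11) * hΦ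
  rw [h1]
  have h2 : (3 + ζ - 2*ζ^2 + 2*ζ^3 + ζ^4 + ζ^5 + ζ^6 + 3*ζ^7 - ζ^8 + ζ^9 + ζ^10 + ζ^11) * (1 - ζ^4 - (ζ^4)^4) = 1 - ζ - 3*ζ^2 - ζ^3 - 3*ζ^4 + 2*ζ^5 + ζ^6 - 3*ζ^8 - ζ^9 - 3*ζ^10 - ζ^11 := by
    linear_combination (2 - ζ^2 + 2*ζ^3 - 2*ζ^4 - 3*ζ^5 + 4*ζ^6 - ζ^7 + 2*ζ^10 - 4*ζ^11 + 2*ζ^12 - ζ^15) * hΦ
  rw [h2]
  have h3 : (1 - ζ - 3*ζ^2 - ζ^3 - 3*ζ^4 + 2*ζ^5 + ζ^6 - 3*ζ^8 - ζ^9 - 3*ζ^10 - ζ^11) * (1 - ζ^5 - (ζ^5)^4) = 5 + 2*ζ + 5*ζ^2 + 3*ζ^3 + 2*ζ^4 + 4*ζ^5 + 4*ζ^6 + 4*ζ^7 + ζ^8 + 7*ζ^9 - 2*ζ^10 + 3*ζ^11 := by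
    linear_combination (-4 + ζ - 5*ζ^2 + 4*ζ^3 - ζ^4 + 2*ζ^5 + ζ^6 + ζ^7 - 2*ζ^8 - 2*ζ^9 + 2*ζ^10 - 2*ζ^11 + 5*ζ^12 - ζ^13 - ζ^14 - 3*ζ^15 + 2*ζ^16 - 2*ζ^17 + 2*ζ^18 + ζ^19) * hΦ
  rw [h3]
  have h4 : (5 + 2*ζ + 5*ζ^2 + 3*ζ^3 + 2*ζ^4 + 4*ζ^5 + 4*ζ^6 + 4*ζ^7 + ζ^8 + 7*ζ^9 - 2*ζ^10 + 3*ζ^11) * (1 - ζ^6 - (ζ^6)^4) = 2 + 4*ζ + 2*ζ^2 + 7*ζ^3 + ζ^4 + 6*ζ^5 + 4*ζ^6 + ζ^7 + 4*ζ^8 + 7*ζ^9 + 2*ζ^10 := by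
    linear_combination (3 - 5*ζ + 5*ζ^2 - 7*ζ^3 + 5*ζ^4 - 3*ζ^5 - 3*ζ^6 + 6*ζ^7 - 9*ζ^8 + 5*ζ^9 - 3*ζ^10 + 5*ζ^11 - 3*ζ^12 + 3*ζ^13 - 2*ζ^14 - ζ^15 + 2*ζ^16 - 3*ζ^19 + 6*ζ^20 - 9*ζ^21 + 5*ζ^22 - 3*ζ^23) * hΦ
  rw [h4]
  have h5 : (2 + 4*ζ + 2*ζ^2 + 7*ζ^3 + ζ^4 + 6*ζ^5 + 4*ζ^6 + ζ^7 + 4*ζ^8 + 7*ζ^9 + 2*ζ^10) * (1 - ζ^7 - (ζ^7)^4) = 6 + 11*ζ + 4*ζ^2 + 4*ζ^3 + 5*ζ^4 + 7*ζ^5 + 11*ζ^6 + ζ^7 + 4*ζ^8 + 12*ζ^9 - ζ^10 := by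
    linear_combination (-4 - 3*ζ + 5*ζ^2 + 5*ζ^3 - 7*ζ^4 + 3*ζ^5 - 6*ζ^6 + 5*ζ^7 - 2*ζ^8 - 3*ζ^9 + 3*ζ^10 + 3*ζ^11 - 5*ζ^12 - 2*ζ^13 + 2*ζ^15 + 2*ζ^16 - 2*ζ^17 + 5*ζ^18 - 6*ζ^19 + 5*ζ^20 - 2*ζ^21 - 3*ζ^22 + 3*ζ^23 + 3*ζ^24 - 5*ζ^25 - 2*ζ^26) * hΦ
  rw [h5]
  have h6 : (6 + 11*ζ + 4*ζ^2 + 4*ζ^3 + 5*ζ^4 + 7*ζ^5 + 11*ζ^6 + ζ^7 + 4*ζ^8 + 12*ζ^9 - ζ^10) * (1 - ζ^8 - (ζ^8)^4) = 14 + 12*ζ + 7*ζ^2 + 17*ζ^3 + 9*ζ^4 + 24*ζ^5 + 21*ζ^6 + 6*ζ^7 + 10*ζ^8 + 13*ζ^9 + 6*ζ^10 + 5*ζ^11 := by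
    linear_combination (-8 + 7*ζ - 2*ζ^2 - 10*ζ^3 + 9*ζ^4 - 13*ζ^5 + 7*ζ^6 + 5*ζ^7 - 7*ζ^8 + ζ^10 + 2*ζ^11 + 4*ζ^12 - 10*ζ^13 + 3*ζ^14 + 8*ζ^15 - 13*ζ^16 + ζ^17 + 6*ζ^19 + 5*ζ^20 - 7*ζ^21 + ζ^23 + 2*ζ^24 + 4*ζ^25 - 10*ζ^26 + 3*ζ^27 + 8*ζ^28 - 13*ζ^29 + ζ^30) * hΦ
  rw [h6]
  have h7 : (14 + 12*ζ + 7*ζ^2 + 17*ζ^3 + 9*ζ^4 + 24*ζ^5 + 21*ζ^6 + 6*ζ^7 + 10*ζ^8 + 13*ζ^9 + 6*ζ^10 + 5*ζ^11) * (1 - ζ^9 - (ζ^9)^4) = 12 + 3*ζ - 14*ζ^2 + 14*ζ^3 + 17*ζ^4 + 25*ζ^5 + 26*ζ^6 + 19*ζ^7 + 29*ζ^8 + 23*ζ^9 + 4*ζ^10 + 10*ζ^11 := by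
    linear_combination (2 + 7*ζ + 12*ζ^2 - 18*ζ^3 - 11*ζ^4 + 7*ζ^5 - 4*ζ^6 - 8*ζ^7 - 6*ζ^8 - 5*ζ^9 + 14*ζ^10 - 2*ζ^11 - 5*ζ^12 + 10*ζ^13 - 8*ζ^14 + 15*ζ^15 - 3*ζ^16 - 15*ζ^17 + 4*ζ^18 + 3*ζ^19 - 7*ζ^20 - ζ^21 - 5*ζ^22 + 14*ζ^23 - 2*ζ^24 - 5*ζ^25 + 10*ζ^26 - 8*ζ^27 + 15*ζ^28 - 3*ζ^29 - 15*ζ^30 + 4*ζ^31 + 3*ζ^32 - 7*ζ^33 - ζ^34 - 5*ζ^35) * hΦ
  rw [h7]
  have h8 : (12 + 3*ζ - 14*ζ^2 + 14*ζ^3 + 17*ζ^4 + 25*ζ^5 + 26*ζ^6 + 19*ζ^7 + 29*ζ^8 + 23*ζ^9 + 4*ζ^10 + 10*ζ^11) * (1 - ζ^10 - (ζ^10)^4) = -6 - 30*ζ - 46*ζ^2 - 2*ζ^3 - 20*ζ^4 - 25*ζ^5 - 26*ζ^6 - 15*ζ^7 - 4*ζ^8 - 10*ζ^9 - 35*ζ^10 - ζ^11 := by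
    linear_combination (18 + 15*ζ - ζ^2 - 16*ζ^3 + 21*ζ^4 + 13*ζ^5 + 2*ζ^6 - 18*ζ^7 - ζ^8 - 6*ζ^10 - 19*ζ^11 + 6*ζ^12 - 10*ζ^13 + 12*ζ^14 - 9*ζ^15 - 17*ζ^16 + 28*ζ^17 + 3*ζ^18 + 8*ζ^19 + ζ^20 - 7*ζ^21 + 10*ζ^22 - 6*ζ^23 - 19*ζ^24 + 6*ζ^25 - 10*ζ^26 + 12*ζ^27 - 9*ζ^28 - 17*ζ^29 + 28*ζ^30 + 3*ζ^31 + 8*ζ^32 + ζ^33 - 7*ζ^34 + 10*ζ^35 - 6*ζ^36 - 19*ζ^37 + 6*ζ^38 - 10*ζ^39) * hΦ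
  rw [h8]
  have h9 : (-6 - 30*ζ - 46*ζ^2 - 2*ζ^3 - 20*ζ^4 - 25*ζ^5 - 26*ζ^6 - 15*ζ^7 - 4*ζ^8 - 10*ζ^9 - 35*ζ^10 - ζ^11) * (1 - ζ^11 - (ζ^11)^4) = -1 - 63*ζ - 36*ζ^2 - 21*ζ^3 - 39*ζ^4 - 49*ζ^5 - 37*ζ^6 - 4*ζ^7 - 12*ζ^8 - 34*ζ^9 - 55*ζ^10 - 14*ζ^11 := by
    linear_combination (-5 + 38*ζ - 43*ζ^2 + 29*ζ^3 + 5*ζ^5 - 13*ζ^6 - 22*ζ^7 + 19*ζ^8 + 16*ζ^9 - 4*ζ^10 - ζ^11 + 11*ζ^12 + 11*ζ^13 - 6*ζ^14 - 25*ζ^15 + 34*ζ^16 + ζ^17 - 6*ζ^18 - 24*ζ^19 - 16*ζ^20 + 44*ζ^21 - 18*ζ^22 - 5*ζ^23 - ζ^24 + 11*ζ^25 + 11*ζ^26 - 6*ζ^27 - 25*ζ^28 + 34*ζ^29 + ζ^30 - 6*ζ^31 - 24*ζ^32 - 16*ζ^33 + 44*ζ^34 - 18*ζ^35 - 5*ζ^36 - ζ^37 + 11*ζ^38 + 11*ζ^39 - 6*ζ^40 - 25*ζ^41 + 34*ζ^42 + ζ^43) * hΦ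
  rw [h9]
  have h10 : (-1 - 63*ζ - 36*ζ^2 - 21*ζ^3 - 39*ζ^4 - 49*ζ^5 - 37*ζ^6 - 4*ζ^7 - 12*ζ^8 - 34*ζ^9 - 55*ζ^10 - 14*ζ^11) * (1 - ζ^12 - (ζ^12)^4) = 79 := by
    linear_combination (-80 + 17*ζ + 27*ζ^2 + 15*ζ^3 - 18*ζ^4 - 10*ζ^5 + 12*ζ^6 + 33*ζ^7 - 8*ζ^8 - 22*ζ^9 - 21*ζ^10 + 41*ζ^11 + 15*ζ^12 - 18*ζ^13 - 10*ζ^14 + 12*ζ^15 + 33*ζ^16 - 8*ζ^17 - 22*ζ^18 - 21*ζ^19 + 41*ζ^20 + 14*ζ^21 - ζ^22 - 62*ζ^23 + 27*ζ^24 + 15*ζ^25 - 18*ζ^26 - 10*ζ^27 + 12*ζ^28 + 33*ζ^29 - 8*ζ^30 - 22*ζ^31 - 21*ζ^32 + 41*ζ^33 + 14*ζ^34 - ζ^35 - 62*ζ^36 + 27*ζ^37 + 15*ζ^38 - 18*ζ^39 - 10*ζ^40 + 12*ζ^41 + 33*ζ^42 - 8*ζ^43 - 22*ζ^44 - 21*ζ^45 + 41*ζ^46 + 14*ζ^47) * hΦ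
  rw [h10]

theorem norm_comp_13_131 {R : Type*} [CommRing R] (ζ : R)
    (hΦ : 1 + ζ + ζ^2 + ζ^3 + ζ^4 + ζ^5 + ζ^6 + ζ^7 + ζ^8 + ζ^9 + ζ^10 + ζ^11 + ζ^12 = 0) :
    (1 - ζ^1 - (ζ^1)^3) * (1 - ζ^2 - (ζ^2)^3) * (1 - ζ^3 - (ζ^3)^3) * (1 - ζ^4 - (ζ^4)^3) * (1 - ζ^5 - (ζ^5)^3) * (1 - ζ^6 - (ζ^6)^3) * (1 - ζ^7 - (ζ^7)^3) * (1 - ζ^8 - (ζ^8)^3) * (1 - ζ^9 - (ζ^9)^3) * (1 - ζ^10 - (ζ^10)^3) * (1 - ζ^11 - (ζ^11)^3) * (1 - ζ^12 - (ζ^12)^3) = 131 := by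
  have h0 : (1 - ζ^1 - (ζ^1)^3) * (1 - ζ^2 - (ζ^2)^3) = 1 - ζ - ζ^2 + ζ^5 - ζ^6 + ζ^7 + ζ^9 := by
    linear_combination (0) * hΦ
  rw [h0]
  have h1 : (1 - ζ - ζ^2 + ζ^5 - ζ^6 + ζ^7 + ζ^9) * (1 - ζ^3 - (ζ^3)^3) = 2 - ζ + ζ^2 - ζ^3 + 2*ζ^4 + 2*ζ^5 + 2*ζ^7 + 2*ζ^9 + ζ^10 + 2*ζ^11 := by
    linear_combination (-1 + ζ - 2*ζ^2 + 2*ζ^3 - ζ^4 + ζ^5 - ζ^6) * hΦ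
  rw [h1]
  have h2 : (2 - ζ + ζ^2 - ζ^3 + 2*ζ^4 + 2*ζ^5 + 2*ζ^7 + 2*ζ^9 + ζ^10 + 2*ζ^11) * (1 - ζ^4 - (ζ^4)^3) = 3 - ζ + 2*ζ^2 - ζ^3 + 5*ζ^5 - ζ^6 + 5*ζ^7 - 2*ζ^8 + ζ^9 + ζ^10 + 2*ζ^11 := by
    linear_combination (-1 + ζ - ζ^2 + ζ^3 - 2*ζ^5 + 2*ζ^6 - 2*ζ^7 + 2*ζ^8 - ζ^9 + ζ^10 - 2*ζ^11) * hΦ
  rw [h2]
  have h3 : (3 - ζ + 2*ζ^2 - ζ^3 + 5*ζ^5 - ζ^6 + 5*ζ^7 - 2*ζ^8 + ζ^9 + ζ^10 + 2*ζ^11) * (1 - ζ^5 - (ζ^5)^3) = 9 + 4*ζ + 4*ζ^2 + 4*ζ^3 + 4*ζ^4 + 9*ζ^5 + 6*ζ^6 + 4*ζ^7 + 6*ζ^8 + 2*ζ^9 + 4*ζ^10 + 8*ζ^11 := by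
    linear_combination (-6 + ζ + 3*ζ^2 - 3*ζ^3 + ζ^4 - 3*ζ^5 + ζ^6 + 5*ζ^7 - 6*ζ^8 + 6*ζ^9 - 7*ζ^10 + 3*ζ^11 + ζ^13 - 2*ζ^14) * hΦ
  rw [h3]
  have h4 : (9 + 4*ζ + 4*ζ^2 + 4*ζ^3 + 4*ζ^4 + 9*ζ^5 + 6*ζ^6 + 4*ζ^7 + 6*ζ^8 + 2*ζ^9 + 4*ζ^10 + 8*ζ^11) * (1 - ζ^6 - (ζ^6)^3) = 9 + 6*ζ + 8*ζ^2 + 2*ζ^3 + 6*ζ^4 + 10*ζ^5 + 3*ζ^6 + 6*ζ^7 + 8*ζ^8 + 4*ζ^9 + ζ^10 + 3*ζ^11 := by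
    linear_combination (-2*ζ - 2*ζ^2 + 6*ζ^3 - 4*ζ^4 + ζ^5 - 5*ζ^6 + 5*ζ^10 - 3*ζ^11 - 2*ζ^12 + 2*ζ^13 - 4*ζ^14 + 2*ζ^15 + 4*ζ^16 - 8*ζ^17) * hΦ
  rw [h4]
  have h5 : (9 + 6*ζ + 8*ζ^2 + 2*ζ^3 + 6*ζ^4 + 10*ζ^5 + 3*ζ^6 + 6*ζ^7 + 8*ζ^8 + 4*ζ^9 + ζ^10 + 3*ζ^11) * (1 - ζ^7 - (ζ^7)^3) = 12 + 13*ζ + 10*ζ^2 + 6*ζ^3 + 17*ζ^4 + 22*ζ^5 + 16*ζ^6 + 13*ζ^7 + 9*ζ^8 + 6*ζ^9 + 7*ζ^10 + 11*ζ^11 := by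
    linear_combination (-3 - 4*ζ + 5*ζ^2 - 2*ζ^3 - 7*ζ^4 - ζ^5 - ζ^6 - 3*ζ^7 + 9*ζ^8 - 3*ζ^9 + 2*ζ^10 - 6*ζ^11 + 4*ζ^12 + 4*ζ^13 - 7*ζ^14 + 3*ζ^15 + 2*ζ^16 - 4*ζ^17 - 3*ζ^18 + 2*ζ^19 - 3*ζ^20) * hΦ
  rw [h5]
  have h6 : (12 + 13*ζ + 10*ζ^2 + 6*ζ^3 + 17*ζ^4 + 22*ζ^5 + 16*ζ^6 + 13*ζ^7 + 9*ζ^8 + 6*ζ^9 + 7*ζ^10 + 11*ζ^11) * (1 - ζ^8 - (ζ^8)^3) = 10 + 21*ζ + 10*ζ^2 + 5*ζ^3 + 25*ζ^4 + 32*ζ^5 + 26*ζ^6 + 37*ζ^7 + 20*ζ^8 + 12*ζ^9 + 27*ζ^10 + 23*ζ^11 := by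
    linear_combination (2 - 10*ζ + 8*ζ^2 + ζ^3 - 9*ζ^4 - 2*ζ^5 - 14*ζ^7 + ζ^8 + 4*ζ^9 - 11*ζ^10 + 12*ζ^11 + ζ^12 - 3*ζ^13 - 4*ζ^14 + 11*ζ^15 + 5*ζ^16 - 6*ζ^17 - 3*ζ^18 - 4*ζ^19 - 3*ζ^20 + ζ^21 + 4*ζ^22 - 11*ζ^23) * hΦ
  rw [h6]
  have h7 : (10 + 21*ζ + 10*ζ^2 + 5*ζ^3 + 25*ζ^4 + 32*ζ^5 + 26*ζ^6 + 37*ζ^7 + 20*ζ^8 + 12*ζ^9 + 27*ζ^10 + 23*ζ^11) * (1 - ζ^9 - (ζ^9)^3) = 13 + 7*ζ - 9*ζ^2 - 14*ζ^3 + 28*ζ^4 + 23*ζ^5 - 5*ζ^6 + 16*ζ^7 + 11*ζ^8 + 10*ζ^9 + 22*ζ^10 + 14*ζ^11 := by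
    linear_combination (-3 + 17*ζ + 5*ζ^2 - 22*ζ^4 + 12*ζ^5 + 22*ζ^6 - 10*ζ^7 - 12*ζ^8 - 17*ζ^9 - 8*ζ^10 + 15*ζ^11 - 4*ζ^12 - 23*ζ^13 + 10*ζ^14 + 11*ζ^15 - 11*ζ^16 - 5*ζ^17 + 20*ζ^18 + 7*ζ^19 - 6*ζ^20 + 11*ζ^21 - 17*ζ^22 - 8*ζ^23 + 15*ζ^24 - 4*ζ^25 - 23*ζ^26) * hΦ
  rw [h7]
  have h8 : (13 + 7*ζ - 9*ζ^2 - 14*ζ^3 + 28*ζ^4 + 23*ζ^5 - 5*ζ^6 + 16*ζ^7 + 11*ζ^8 + 10*ζ^9 + 22*ζ^10 + 14*ζ^11) * (1 - ζ^10 - (ζ^10)^3) = 19 - 41*ζ - 44*ζ^2 - 7*ζ^3 + ζ^4 + 7*ζ^5 - 4*ζ^6 + 10*ζ^7 - 29*ζ^8 - 11*ζ^9 + 16*ζ^10 - 7*ζ^11 := by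
    linear_combination (-6 + 54*ζ - 13*ζ^2 - 42*ζ^3 + 34*ζ^4 - 11*ζ^5 - 17*ζ^6 + 7*ζ^7 + 34*ζ^8 - 19*ζ^9 - 28*ζ^10 + 21*ζ^11 - 5*ζ^12 - ζ^13 + 12*ζ^14 - 8*ζ^15 - 14*ζ^16 + 13*ζ^17 - 6*ζ^18 - 16*ζ^19 - 5*ζ^20 + 42*ζ^21 - 5*ζ^22 - 28*ζ^23 + 21*ζ^24 - 5*ζ^25 - ζ^26 + 12*ζ^27 - 8*ζ^28 - 14*ζ^29) * hΦ
  rw [h8]
  have h9 : (19 - 41*ζ - 44*ζ^2 - 7*ζ^3 + ζ^4 + 7*ζ^5 - 4*ζ^6 + 10*ζ^7 - 29*ζ^8 - 11*ζ^9 + 16*ζ^10 - 7*ζ^11) * (1 - ζ^11 - (ζ^11)^3) = 33 - 78*ζ - 50*ζ^2 - 37*ζ^3 - 45*ζ^4 - 30*ζ^5 - 9*ζ^6 - 32*ζ^7 - 38*ζ^8 + 6*ζ^9 - 11*ζ^10 - 61*ζ^11 := by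
    linear_combination (-14 + 51*ζ - 31*ζ^2 + 24*ζ^3 + 16*ζ^4 - 9*ζ^5 - 32*ζ^6 + 37*ζ^7 - 33*ζ^8 - 26*ζ^9 + 44*ζ^10 + 8*ζ^11 + 6*ζ^12 - 11*ζ^13 + 14*ζ^14 - 39*ζ^15 + 18*ζ^16 + 27*ζ^17 - 23*ζ^18 + 7*ζ^19 + 19*ζ^20 - 60*ζ^21 - 3*ζ^22 + 37*ζ^23 + 8*ζ^24 + 6*ζ^25 - 11*ζ^26 + 14*ζ^27 - 39*ζ^28 + 18*ζ^29 + 27*ζ^30 - 23*ζ^31 + 7*ζ^32) * hΦ
  rw [h9]
  have h10 : (33 - 78*ζ - 50*ζ^2 - 37*ζ^3 - 45*ζ^4 - 30*ζ^5 - 9*ζ^6 - 32*ζ^7 - 38*ζ^8 + 6*ζ^9 - 11*ζ^10 - 61*ζ^11) * (1 - ζ^12 - (ζ^12)^3) = 131 := by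
    linear_combination (-98 + 20*ζ + 28*ζ^2 + 13*ζ^3 - 8*ζ^4 + 15*ζ^5 + 21*ζ^6 - 23*ζ^7 - 6*ζ^8 + 44*ζ^9 - 17*ζ^10 - 50*ζ^11 + 28*ζ^12 + 13*ζ^13 - 8*ζ^14 + 15*ζ^15 + 21*ζ^16 - 23*ζ^17 - 6*ζ^18 + 44*ζ^19 - 17*ζ^20 - 50*ζ^21 + 61*ζ^22 + 33*ζ^23 - 111*ζ^24 + 28*ζ^25 + 13*ζ^26 - 8*ζ^27 + 15*ζ^28 + 21*ζ^29 - 23*ζ^30 - 6*ζ^31 + 44*ζ^32 - 17*ζ^33 - 50*ζ^34 + 61*ζ^35) * hΦ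
  rw [h10]

theorem norm_comp_13_157 {R : Type*} [CommRing R] (ζ : R)
    (hΦ : 1 + ζ + ζ^2 + ζ^3 + ζ^4 + ζ^5 + ζ^6 + ζ^7 + ζ^8 + ζ^9 + ζ^10 + ζ^11 + ζ^12 = 0) :
    (1 - ζ^1 + (ζ^1)^2 + (ζ^1)^4) * (1 - ζ^2 + (ζ^2)^2 + (ζ^2)^4) * (1 - ζ^3 + (ζ^3)^2 + (ζ^3)^4) * (1 - ζ^4 + (ζ^4)^2 + (ζ^4)^4) * (1 - ζ^5 + (ζ^5)^2 + (ζ^5)^4) * (1 - ζ^6 + (ζ^6)^2 + (ζ^6)^4) * (1 - ζ^7 + (ζ^7)^2 + (ζ^7)^4) * (1 - ζ^8 + (ζ^8)^2 + (ζ^8)^4) * (1 - ζ^9 + (ζ^9)^2 + (ζ^9)^4) * (1 - ζ^10 + (ζ^10)^2 + (ζ^10)^4) * (1 - ζ^11 + (ζ^11)^2 + (ζ^11)^4) * (1 - ζ^12 + (ζ^12)^2 + (ζ^12)^4) = 157 := by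
  have h0 : (1 - ζ^1 + (ζ^1)^2 + (ζ^1)^4) * (1 - ζ^2 + (ζ^2)^2 + (ζ^2)^4) = -2*ζ - ζ^2 - 2*ζ^5 - ζ^6 - ζ^7 + ζ^8 - 2*ζ^9 - ζ^11 := by
    linear_combination (1) * hΦ
  rw [h0]
  have h1 : (-2*ζ - ζ^2 - 2*ζ^5 - ζ^6 - ζ^7 + ζ^8 - 2*ζ^9 - ζ^11) * (1 - ζ^3 + (ζ^3)^2 + (ζ^3)^4) = -4 - 2*ζ - 4*ζ^2 - ζ^3 - 2*ζ^4 - 3*ζ^5 - 3*ζ^6 - 3*ζ^7 - ζ^8 - 2*ζ^9 - ζ^10 - 5*ζ^11 := by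
    linear_combination (4 - 4*ζ + 3*ζ^2 - 2*ζ^3 + 3*ζ^4 - 2*ζ^5 - 2*ζ^7 + 3*ζ^8 - 2*ζ^9 + ζ^10 - ζ^11) * hΦ
  rw [h1]
  have h2 : (-4 - 2*ζ - 4*ζ^2 - ζ^3 - 2*ζ^4 - 3*ζ^5 - 3*ζ^6 - 3*ζ^7 - ζ^8 - 2*ζ^9 - ζ^10 - 5*ζ^11) * (1 - ζ^4 + (ζ^4)^2 + (ζ^4)^4) = -3 - 6*ζ + ζ^2 - 3*ζ^3 + ζ^4 - 3*ζ^5 - 2*ζ^6 - ζ^7 - 3*ζ^8 - ζ^9 - 2*ζ^10 - ζ^11 := by
    linear_combination (-1 + 5*ζ - 9*ζ^2 + 7*ζ^3 - ζ^4 + ζ^5 + ζ^6 - 4*ζ^7 + ζ^8 - 2*ζ^11 + ζ^12 - ζ^13 + 4*ζ^14 - 5*ζ^15) * hΦ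
  rw [h2]
  have h3 : (-3 - 6*ζ + ζ^2 - 3*ζ^3 + ζ^4 - 3*ζ^5 - 2*ζ^6 - ζ^7 - 3*ζ^8 - ζ^9 - 2*ζ^10 - ζ^11) * (1 - ζ^5 + (ζ^5)^2 + (ζ^5)^4) = -4 - 4*ζ - 2*ζ^2 - 4*ζ^3 - ζ^4 - 3*ζ^5 + 4*ζ^6 - 6*ζ^7 - 6*ζ^8 - 4*ζ^10 - 3*ζ^11 := by
    linear_combination (1 - 3*ζ + 5*ζ^2 - 2*ζ^3 + ζ^4 + ζ^5 - 3*ζ^6 + 4*ζ^7 + 2*ζ^8 - 8*ζ^9 + 4*ζ^10 - 4*ζ^11 + 4*ζ^12 - ζ^13 - ζ^14 + 2*ζ^15 - 2*ζ^16 + ζ^17 - ζ^18 - ζ^19) * hΦ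
  rw [h3]
  have h4 : (-4 - 4*ζ - 2*ζ^2 - 4*ζ^3 - ζ^4 - 3*ζ^5 + 4*ζ^6 - 6*ζ^7 - 6*ζ^8 - 4*ζ^10 - 3*ζ^11) * (1 - ζ^6 + (ζ^6)^2 + (ζ^6)^4) = 8 + 8*ζ + 5*ζ^2 + 8*ζ^3 + 15*ζ^4 + 7*ζ^5 + 8*ζ^6 + 4*ζ^7 + 4*ζ^8 + 9*ζ^9 + 6*ζ^10 + 8*ζ^11 := by
    linear_combination (-12 + 5*ζ^2 - 5*ζ^3 - 4*ζ^4 + 6*ζ^5 + 10*ζ^6 - 6*ζ^7 - 2*ζ^8 + 3*ζ^9 - 4*ζ^10 + ζ^11 - 2*ζ^13 + 2*ζ^14 - 3*ζ^15 + 2*ζ^16 - 7*ζ^17 + 10*ζ^18 - 6*ζ^20 + 4*ζ^21 - ζ^22 - 3*ζ^23) * hΦ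
  rw [h4]
  have h5 : (8 + 8*ζ + 5*ζ^2 + 8*ζ^3 + 15*ζ^4 + 7*ζ^5 + 8*ζ^6 + 4*ζ^7 + 4*ζ^8 + 9*ζ^9 + 6*ζ^10 + 8*ζ^11) * (1 - ζ^7 + (ζ^7)^2 + (ζ^7)^4) = 1 + 5*ζ + 10*ζ^2 + 5*ζ^3 + 15*ζ^4 + 15*ζ^5 + 23*ζ^6 + 4*ζ^7 + ζ^8 + 5*ζ^9 + 4*ζ^10 + ζ^11 := by
    linear_combination (7 - 4*ζ - 8*ζ^2 + 8*ζ^3 - 3*ζ^4 - 8*ζ^5 - 7*ζ^6 + 7*ζ^7 + 3*ζ^8 + 4*ζ^9 - 5*ζ^10 - 2*ζ^11 + ζ^12 + 6*ζ^13 + 8*ζ^14 - 8*ζ^15 + 3*ζ^17 - 3*ζ^18 - 7*ζ^19 + 8*ζ^20 - ζ^21 + 4*ζ^22 - 5*ζ^24 + 3*ζ^25 - 2*ζ^26 + 8*ζ^27) * hΦ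
  rw [h5]
  have h6 : (1 + 5*ζ + 10*ζ^2 + 5*ζ^3 + 15*ζ^4 + 15*ζ^5 + 23*ζ^6 + 4*ζ^7 + ζ^8 + 5*ζ^9 + 4*ζ^10 + ζ^11) * (1 - ζ^8 + (ζ^8)^2 + (ζ^8)^4) = -19 - 29*ζ - 2*ζ^2 - 4*ζ^3 + 3*ζ^4 + 8*ζ^5 + 15*ζ^6 + 11*ζ^7 + 12*ζ^8 + 15*ζ^9 - ζ^11 := by
    linear_combination (20 + 14*ζ - 22*ζ^2 - 3*ζ^3 + 3*ζ^4 - 5*ζ^5 + ζ^6 - 15*ζ^7 - 5*ζ^8 - 3*ζ^9 + 9*ζ^10 + 3*ζ^11 - 12*ζ^12 + 20*ζ^13 + 6*ζ^14 - 3*ζ^15 + ζ^16 + 3*ζ^17 + ζ^18 - ζ^19 - 4*ζ^20 - 5*ζ^21 + 5*ζ^22 - 10*ζ^23 - 8*ζ^25 + 19*ζ^26 + 3*ζ^27 - 4*ζ^28 + ζ^29 + 3*ζ^30 + ζ^31) * hΦ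
  rw [h6]
  have h7 : (-19 - 29*ζ - 2*ζ^2 - 4*ζ^3 + 3*ζ^4 + 8*ζ^5 + 15*ζ^6 + 11*ζ^7 + 12*ζ^8 + 15*ζ^9 - ζ^11) * (1 - ζ^9 + (ζ^9)^2 + (ζ^9)^4) = -27 - 32*ζ - 22*ζ^2 - 14*ζ^3 - 11*ζ^4 - 27*ζ^5 - 12*ζ^6 - 3*ζ^7 - 6*ζ^8 + 24*ζ^9 + 5*ζ^10 - 26*ζ^11 := by
    linear_combination (8 - 5*ζ + 17*ζ^2 - 10*ζ^3 + 4*ζ^4 + 21*ζ^5 - 8*ζ^6 - 13*ζ^7 + 4*ζ^8 - 8*ζ^9 + 14*ζ^10 + 3*ζ^11 - 23*ζ^12 + ζ^13 - 10*ζ^14 + 10*ζ^15 - 6*ζ^16 + 3*ζ^17 - ζ^18 - 3*ζ^19 + 15*ζ^20 + ζ^21 - ζ^22 + 19*ζ^23 + 10*ζ^24 - 27*ζ^25 + 2*ζ^26 - 7*ζ^27 - 5*ζ^28 - 7*ζ^29 + 4*ζ^30 - ζ^31 - 3*ζ^32 + 15*ζ^33 + ζ^34 - ζ^35) * hΦ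
  rw [h7]
  have h8 : (-27 - 32*ζ - 22*ζ^2 - 14*ζ^3 - 11*ζ^4 - 27*ζ^5 - 12*ζ^6 - 3*ζ^7 - 6*ζ^8 + 24*ζ^9 + 5*ζ^10 - 26*ζ^11) * (1 - ζ^10 + (ζ^10)^2 + (ζ^10)^4) = 6 - 20*ζ - 2*ζ^2 + 31*ζ^3 + 14*ζ^4 - 27*ζ^5 - 32*ζ^6 - 16*ζ^7 + 16*ζ^8 + 27*ζ^9 + 73*ζ^10 + 31*ζ^11 := by
    linear_combination (-33 + 21*ζ - 8*ζ^2 - 25*ζ^3 + 20*ζ^4 + 25*ζ^5 + 20*ζ^6 - 7*ζ^7 - 35*ζ^8 + 19*ζ^9 - 38*ζ^10 + 16*ζ^11 + 47*ζ^12 - 41*ζ^13 + 18*ζ^14 + 8*ζ^15 - 40*ζ^16 + 11*ζ^17 + 28*ζ^18 - 10*ζ^19 - 15*ζ^20 - 9*ζ^21 + 3*ζ^22 - 30*ζ^23 + 19*ζ^24 + 31*ζ^25 - 26*ζ^26 + 27*ζ^27 + 5*ζ^28 - 10*ζ^29 - 8*ζ^30 - 3*ζ^31 + 16*ζ^32 - 15*ζ^33 - 9*ζ^34 + 3*ζ^35 - 30*ζ^36 + 19*ζ^37 + 31*ζ^38 - 26*ζ^39) * hΦ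
  rw [h8]
  have h9 : (6 - 20*ζ - 2*ζ^2 + 31*ζ^3 + 14*ζ^4 - 27*ζ^5 - 32*ζ^6 - 16*ζ^7 + 16*ζ^8 + 27*ζ^9 + 73*ζ^10 + 31*ζ^11) * (1 - ζ^11 + (ζ^11)^2 + (ζ^11)^4) = 3 - 86*ζ - 10*ζ^2 + 38*ζ^3 + 27*ζ^4 - 13*ζ^5 - 30*ζ^6 - 49*ζ^7 - 61*ζ^8 - 19*ζ^9 - 9*ζ^10 - 44*ζ^11 := by
    linear_combination (3 + 63*ζ - 58*ζ^2 - 15*ζ^3 - 6*ζ^4 - ζ^5 + 12*ζ^6 + 35*ζ^7 + 44*ζ^8 - 31*ζ^9 + 36*ζ^10 - 13*ζ^11 - 49*ζ^12 - 15*ζ^13 + 30*ζ^14 - 41*ζ^15 + 26*ζ^16 - ζ^17 - 17*ζ^18 - 20*ζ^19 + 24*ζ^20 - 2*ζ^21 + 17*ζ^22 + 41*ζ^23 + 5*ζ^24 - 16*ζ^25 - 32*ζ^26 - 11*ζ^27 - 46*ζ^28 + 42*ζ^29 + 31*ζ^30 - 6*ζ^31 + 26*ζ^32 - 18*ζ^33 - 33*ζ^34 + 17*ζ^35 + 41*ζ^36 + 5*ζ^37 - 16*ζ^38 - 32*ζ^39 - 11*ζ^40 - 46*ζ^41 + 42*ζ^42 + 31*ζ^43) * hΦ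
  rw [h9]
  have h10 : (3 - 86*ζ - 10*ζ^2 + 38*ζ^3 + 27*ζ^4 - 13*ζ^5 - 30*ζ^6 - 49*ζ^7 - 61*ζ^8 - 19*ζ^9 - 9*ζ^10 - 44*ζ^11) * (1 - ζ^12 + (ζ^12)^2 + (ζ^12)^4) = 157 := by
    linear_combination (-154 + 68*ζ + 76*ζ^2 + 48*ζ^3 - 11*ζ^4 - 40*ζ^5 - 17*ζ^6 - 19*ζ^7 - 12*ζ^8 + 42*ζ^9 + 10*ζ^10 - 35*ζ^11 + 41*ζ^12 - 65*ζ^13 - 8*ζ^14 + 28*ζ^15 + 59*ζ^16 + 29*ζ^17 - 23*ζ^18 + 2*ζ^19 - 7*ζ^20 - 54*ζ^21 + 32*ζ^22 + 45*ζ^23 - 76*ζ^24 - 48*ζ^25 + 11*ζ^26 + 40*ζ^27 + 17*ζ^28 + 19*ζ^29 + 12*ζ^30 - 42*ζ^31 - 10*ζ^32 + 35*ζ^33 - 44*ζ^34 - 3*ζ^35 + 89*ζ^36 - 76*ζ^37 - 48*ζ^38 + 11*ζ^39 + 40*ζ^40 + 17*ζ^41 + 19*ζ^42 + 12*ζ^43 - 42*ζ^44 - 10*ζ^45 + 35*ζ^46 - 44*ζ^47) * hΦ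
  rw [h10]

theorem norm_comp_11_23 {R : Type*} [CommRing R] (ζ : R)
    (hΦ : 1 + ζ + ζ^2 + ζ^3 + ζ^4 + ζ^5 + ζ^6 + ζ^7 + ζ^8 + ζ^9 + ζ^10 = 0) :
    (1 - ζ^1 + (ζ^1)^3) * (1 - ζ^2 + (ζ^2)^3) * (1 - ζ^3 + (ζ^3)^3) * (1 - ζ^4 + (ζ^4)^3) * (1 - ζ^5 + (ζ^5)^3) * (1 - ζ^6 + (ζ^6)^3) * (1 - ζ^7 + (ζ^7)^3) * (1 - ζ^8 + (ζ^8)^3) * (1 - ζ^9 + (ζ^9)^3) * (1 - ζ^10 + (ζ^10)^3) = 23 := by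
  have h0 : (1 - ζ^1 + (ζ^1)^3) * (1 - ζ^2 + (ζ^2)^3) = 1 - ζ - ζ^2 + 2*ζ^3 - ζ^5 + ζ^6 - ζ^7 + ζ^9 := by
    linear_combination (0) * hΦ
  rw [h0]
  have h1 : (1 - ζ - ζ^2 + 2*ζ^3 - ζ^5 + ζ^6 - ζ^7 + ζ^9) * (1 - ζ^3 + (ζ^3)^3) = -ζ^2 + 2*ζ^4 - ζ^5 - ζ^6 + ζ^8 + ζ^9 := by
    linear_combination (1 - 2*ζ + ζ^2 + ζ^3 - 2*ζ^4 + 2*ζ^5 - ζ^6 - ζ^7 + ζ^8) * hΦ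
  rw [h1]
  have h2 : (-ζ^2 + 2*ζ^4 - ζ^5 - ζ^6 + ζ^8 + ζ^9) * (1 - ζ^4 + (ζ^4)^3) = -2 - 3*ζ - 4*ζ^2 - 3*ζ^3 - ζ^5 - 3*ζ^6 - 3*ζ^7 - 3*ζ^8 + ζ^9 := by
    linear_combination (2 + ζ - ζ^4 - 2*ζ^5 + 3*ζ^6 - ζ^8 - ζ^9 + ζ^11) * hΦ
  rw [h2]
  have h3 : (-2 - 3*ζ - 4*ζ^2 - 3*ζ^3 - ζ^5 - 3*ζ^6 - 3*ζ^7 - 3*ζ^8 + ζ^9) * (1 - ζ^5 + (ζ^5)^3) = -ζ + 2*ζ^2 - 2*ζ^3 - 2*ζ^6 + 2*ζ^8 + 2*ζ^9 := by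
    linear_combination (-2 - 4*ζ^2 + 5*ζ^3 + ζ^4 + ζ^5 + ζ^6 - ζ^7 - 3*ζ^8 + ζ^9 + 2*ζ^10 - 4*ζ^13 + ζ^14) * hΦ
  rw [h3]
  have h4 : (-ζ + 2*ζ^2 - 2*ζ^3 - 2*ζ^6 + 2*ζ^8 + 2*ζ^9) * (1 - ζ^6 + (ζ^6)^3) = 2 + 3*ζ + 2*ζ^2 - 2*ζ^3 + 2*ζ^4 + 4*ζ^5 + 3*ζ^7 + ζ^8 + 8*ζ^9 := by
    linear_combination (-2 - 2*ζ + 4*ζ^2 - 2*ζ^4 - 2*ζ^5 + 2*ζ^6 + ζ^8 - 3*ζ^9 + 4*ζ^10 - 2*ζ^11 + 2*ζ^13 - 2*ζ^14 - 2*ζ^15 + 2*ζ^17) * hΦ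
  rw [h4]
  have h5 : (2 + 3*ζ + 2*ζ^2 - 2*ζ^3 + 2*ζ^4 + 4*ζ^5 + 3*ζ^7 + ζ^8 + 8*ζ^9) * (1 - ζ^7 + (ζ^7)^3) = -1 - 3*ζ - 4*ζ^2 - 7*ζ^3 + ζ^4 - 8*ζ^5 - ζ^6 - 2*ζ^7 + 2*ζ^8 + 2*ζ^9 := by
    linear_combination (3 + 3*ζ - ζ^3 - 4*ζ^4 + 11*ζ^5 - 11*ζ^6 + 2*ζ^7 - 7*ζ^8 + 8*ζ^9 - 2*ζ^10 - ζ^11 + ζ^12 + 4*ζ^13 - 4*ζ^14 - 2*ζ^15 + 4*ζ^16 - 3*ζ^17 + 2*ζ^18 - 7*ζ^19 + 8*ζ^20) * hΦ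
  rw [h5]
  have h6 : (-1 - 3*ζ - 4*ζ^2 - 7*ζ^3 + ζ^4 - 8*ζ^5 - ζ^6 - 2*ζ^7 + 2*ζ^8 + 2*ζ^9) * (1 - ζ^8 + (ζ^8)^3) = 2 - 10*ζ - 3*ζ^2 - 15*ζ^3 - 7*ζ^4 - 23*ζ^5 - 8*ζ^6 - 16*ζ^7 - 4*ζ^8 - 3*ζ^9 := by
    linear_combination (-3 + 10*ζ - 8*ζ^2 + 9*ζ^3 + 7*ζ^5 - 8*ζ^6 + 7*ζ^7 - 7*ζ^8 + ζ^9 - 4*ζ^10 + 2*ζ^12 + ζ^13 + 2*ζ^14 + ζ^15 + 3*ζ^16 - 8*ζ^17 + 9*ζ^18 - 7*ζ^19 + ζ^20 - 4*ζ^21 + 2*ζ^23) * hΦ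
  rw [h6]
  have h7 : (2 - 10*ζ - 3*ζ^2 - 15*ζ^3 - 7*ζ^4 - 23*ζ^5 - 8*ζ^6 - 16*ζ^7 - 4*ζ^8 - 3*ζ^9) * (1 - ζ^9 + (ζ^9)^3) = 10 + 2*ζ + 13*ζ^2 + 18*ζ^3 + 14*ζ^4 + 8*ζ^5 - ζ^6 - 3*ζ^7 - 6*ζ^8 + ζ^9 := by
    linear_combination (-8 - 4*ζ - 4*ζ^2 - 17*ζ^3 + 12*ζ^4 - 10*ζ^5 + 24*ζ^6 - 6*ζ^7 + 15*ζ^8 - 8*ζ^9 + 16*ζ^10 - 15*ζ^11 + 8*ζ^12 - 12*ζ^13 - ζ^14 - 3*ζ^15 - 2*ζ^16 + 12*ζ^17 - 7*ζ^18 + 12*ζ^19 - 8*ζ^20 + 16*ζ^21 - 15*ζ^22 + 8*ζ^23 - 12*ζ^24 - ζ^25 - 3*ζ^26) * hΦ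
  rw [h7]
  have h8 : (10 + 2*ζ + 13*ζ^2 + 18*ζ^3 + 14*ζ^4 + 8*ζ^5 - ζ^6 - 3*ζ^7 - 6*ζ^8 + ζ^9) * (1 - ζ^10 + (ζ^10)^3) = 23 := by
    linear_combination (-13 + 15*ζ + 11*ζ^2 + 5*ζ^3 - 4*ζ^4 - 6*ζ^5 - 9*ζ^6 - 2*ζ^7 - 3*ζ^8 + 7*ζ^9 - 11*ζ^10 - 5*ζ^11 + 4*ζ^12 + 6*ζ^13 + 9*ζ^14 + 2*ζ^15 + 3*ζ^16 - 7*ζ^17 + ζ^18 - 10*ζ^19 + 8*ζ^20 - 11*ζ^21 - 5*ζ^22 + 4*ζ^23 + 6*ζ^24 + 9*ζ^25 + 2*ζ^26 + 3*ζ^27 - 7*ζ^28 + ζ^29) * hΦ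
  rw [h8]


set_option maxRecDepth 100000 in
set_option synthInstance.maxSize 2000 in
theorem small_prime_pow_13 : ∀ q < 313, ∀ f < 13,
    (1 < q ∧ 0 < f ∧ q ^ f < 313 ∧ q ^ f % 13 = 1) →
    (q = 3 ∨ q = 53 ∨ q = 79 ∨ q = 131 ∨ q = 157 ∨
      (q % 2 = 0 ∧ q ≠ 2) ∨ (q % 3 = 0 ∧ q ≠ 3) ∨ (q % 5 = 0 ∧ q ≠ 5) ∨ (q % 7 = 0 ∧ q ≠ 7) ∨
      (q % 11 = 0 ∧ q ≠ 11)) := by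
  decide

theorem not_prime_of_mod {q d : ℕ} (hd : 1 < d) (h : q % d = 0 ∧ q ≠ d) : ¬ q.Prime := by
  intro hq
  have hdvd : d ∣ q := Nat.dvd_of_mod_eq_zero h.1
  rcases (Nat.dvd_prime hq).mp hdvd with h1 | h1
  · omega
  · exact h.2 h1.symm

open Real Nat InfinitePlace Module in
theorem minkowski_lt_13 (K : Type*) [Field K] [NumberField K] [IsCyclotomicExtension {13} ℚ K] :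
    ⌊(4 / π) ^ nrComplexPlaces K *
      ((finrank ℚ K)! / (finrank ℚ K) ^ (finrank ℚ K) * √|(discr K : ℝ)|)⌋₊ < 313 := by
  have hp : Fact (Nat.Prime 13) := ⟨by norm_num⟩
  have hfin : finrank ℚ K = 12 := by
    rw [IsCyclotomicExtension.finrank (n := 13) K (cyclotomic.irreducible_rat (by norm_num)),
      totient_prime hp.out]
  have hnr : nrComplexPlaces K = 6 := by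
    rw [IsCyclotomicExtension.Rat.nrComplexPlaces_eq_totient_div_two 13, totient_prime hp.out]
  have hd : discr K = 13 ^ 11 := by
    rw [IsCyclotomicExtension.Rat.discr_prime 13 K]
    norm_num
  rw [hfin, hnr, hd]
  have hsqrt : √|((13 ^ 11 : ℤ) : ℝ)| ≤ 1338716 := by
    rw [Real.sqrt_le_left (by norm_num)]
    norm_num
  have hpi : (4 / π) ^ 6 ≤ (4 / 3.14) ^ 6 := by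
    gcongr
    exact pi_gt_d2.le
  rw [Nat.floor_lt (by positivity)]
  calc (4 / π) ^ 6 * (((12 : ℕ)! : ℝ) / ((12 : ℕ) : ℝ) ^ 12 * √|((13 ^ 11 : ℤ) : ℝ)|)
      ≤ (4 / 3.14) ^ 6 * (((12 : ℕ)! : ℝ) / ((12 : ℕ) : ℝ) ^ 12 * 1338716) := by gcongr
    _ < ((313 : ℕ) : ℝ) := by
      norm_num [Nat.factorial]

/-- Packaging: an element `F ζ` of `𝓞 K`, `K = ℚ(ζ₁₃)`, whose conjugates multiply to `q ^ f`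
generates a prime above `q`. -/
theorem exists_primesOver_isPrincipal_13 (K : Type*) [Field K] [NumberField K]
    [IsCyclotomicExtension {13} ℚ K] {q : ℕ} (hq : q.Prime) (hq13 : q ≠ 13) {f : ℕ}
    (hf : orderOf (q : ZMod 13) = f) (hf0 : f ≠ 0) (α : 𝓞 K) (F : K → K)
    (hF : ∀ (σ : K ≃ₐ[ℚ] K) (x : K), σ (F x) = F (σ x))
    (hα : (α : K) = F (IsCyclotomicExtension.zeta 13 ℚ K))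
    (hN : F (IsCyclotomicExtension.zeta 13 ℚ K ^ 1) * F (IsCyclotomicExtension.zeta 13 ℚ K ^ 2) *
      F (IsCyclotomicExtension.zeta 13 ℚ K ^ 3) * F (IsCyclotomicExtension.zeta 13 ℚ K ^ 4) *
      F (IsCyclotomicExtension.zeta 13 ℚ K ^ 5) * F (IsCyclotomicExtension.zeta 13 ℚ K ^ 6) *
      F (IsCyclotomicExtension.zeta 13 ℚ K ^ 7) * F (IsCyclotomicExtension.zeta 13 ℚ K ^ 8) *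
      F (IsCyclotomicExtension.zeta 13 ℚ K ^ 9) * F (IsCyclotomicExtension.zeta 13 ℚ K ^ 10) *
      F (IsCyclotomicExtension.zeta 13 ℚ K ^ 11) * F (IsCyclotomicExtension.zeta 13 ℚ K ^ 12) =
        ((q ^ f : ℕ) : K)) :
    ∃ P ∈ (span {(q : ℤ)}).primesOver (𝓞 K), Submodule.IsPrincipal P := by
  have hp : Fact (Nat.Prime 13) := ⟨by norm_num⟩
  have hqp : ¬ q ∣ 13 := fun h => hq13 ((Nat.prime_dvd_prime_iff_eq hq hp.out).mp h)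
  refine ⟨span {α}, span_singleton_mem_primesOver K hq hqp hf hf0 α ?_, ⟨⟨_, rfl⟩⟩⟩
  refine natAbs_norm_eq_of_prod (p := 13) K α F hF hα (q ^ f) ?_
  rw [prod_Ico_one_thirteen]
  exact hN

theorem zeta13_sum {K : Type*} [Field K] {ζ : K} (hζ : IsPrimitiveRoot ζ 13) :
    1 + ζ + ζ^2 + ζ^3 + ζ^4 + ζ^5 + ζ^6 + ζ^7 + ζ^8 + ζ^9 + ζ^10 + ζ^11 + ζ^12 = 0 := by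
  have h := hζ.geom_sum_eq_zero (by norm_num)
  simp only [Finset.sum_range_succ, Finset.sum_range_zero] at h
  linear_combination h

/-- `ℤ[ζ₁₃]` is a principal ideal domain. -/
theorem pid13 (K : Type*) [Field K] [NumberField K] [IsCyclotomicExtension {13} ℚ K] :
    IsPrincipalIdealRing (𝓞 K) := by
  have hp : Fact (Nat.Prime 13) := ⟨by norm_num⟩
  have : IsGalois ℚ K := IsCyclotomicExtension.isGalois {13} ℚ K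
  have hζ : IsPrimitiveRoot (IsCyclotomicExtension.zeta 13 ℚ K) 13 :=
    IsCyclotomicExtension.zeta_spec 13 ℚ K
  have hΦ := zeta13_sum hζ
  have hcoe : (algebraMap (𝓞 K) K) hζ.toInteger = IsCyclotomicExtension.zeta 13 ℚ K := rfl
  apply RingOfIntegers.isPrincipalIdealRing_of_isPrincipal_of_lt_or_isPrincipal_of_mem_primesOver_of_mem_Icc
  intro q hqmem hq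
  have hM := minkowski_lt_13 K
  rw [Finset.mem_Icc] at hqmem
  have hq313 : q < 313 := lt_of_le_of_lt hqmem.2 hM
  by_cases h13 : q = 13
  · subst h13
    obtain ⟨P, hP, hprin⟩ := exists_primesOver_isPrincipal_self (p := 13) K
    exact ⟨P, hP, Or.inr hprin⟩
  by_cases hex : q = 3 ∨ q = 53 ∨ q = 79 ∨ q = 131 ∨ q = 157
  · rcases hex with rfl | rfl | rfl | rfl | rfl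
    · -- q = 3, f = 3, α = 1 + ζ - ζ^3
      obtain ⟨P, hP, hprin⟩ := exists_primesOver_isPrincipal_13 K hq h13 (f := 3)
        (orderOf_eq_prime (by decide) (by decide)) (by norm_num)
        (1 + hζ.toInteger - hζ.toInteger ^ 3) (fun x => 1 + x - x ^ 3)
        (fun σ x => by simp) (by simp [hcoe])
        (by
          have := norm_comp_13_27 (IsCyclotomicExtension.zeta 13 ℚ K) hΦ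
          simpa using this)
      exact ⟨P, hP, Or.inr hprin⟩
    · -- q = 53, α = 1 - ζ + ζ^3
      obtain ⟨P, hP, hprin⟩ := exists_primesOver_isPrincipal_13 K hq h13 (f := 1)
        (orderOf_eq_one_iff.mpr (by decide)) (by norm_num)
        (1 - hζ.toInteger + hζ.toInteger ^ 3) (fun x => 1 - x + x ^ 3)
        (fun σ x => by simp) (by simp [hcoe])
        (by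
          have := norm_comp_13_53 (IsCyclotomicExtension.zeta 13 ℚ K) hΦ
          simpa using this)
      exact ⟨P, hP, Or.inr hprin⟩
    · -- q = 79, α = 1 - ζ - ζ^4
      obtain ⟨P, hP, hprin⟩ := exists_primesOver_isPrincipal_13 K hq h13 (f := 1)
        (orderOf_eq_one_iff.mpr (by decide)) (by norm_num)
        (1 - hζ.toInteger - hζ.toInteger ^ 4) (fun x => 1 - x - x ^ 4)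
        (fun σ x => by simp) (by simp [hcoe])
        (by
          have := norm_comp_13_79 (IsCyclotomicExtension.zeta 13 ℚ K) hΦ
          simpa using this)
      exact ⟨P, hP, Or.inr hprin⟩
    · -- q = 131, α = 1 - ζ - ζ^3
      obtain ⟨P, hP, hprin⟩ := exists_primesOver_isPrincipal_13 K hq h13 (f := 1)
        (orderOf_eq_one_iff.mpr (by decide)) (by norm_num)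
        (1 - hζ.toInteger - hζ.toInteger ^ 3) (fun x => 1 - x - x ^ 3)
        (fun σ x => by simp) (by simp [hcoe])
        (by
          have := norm_comp_13_131 (IsCyclotomicExtension.zeta 13 ℚ K) hΦ
          simpa using this)
      exact ⟨P, hP, Or.inr hprin⟩
    · -- q = 157, α = 1 - ζ + ζ^2 + ζ^4
      obtain ⟨P, hP, hprin⟩ := exists_primesOver_isPrincipal_13 K hq h13 (f := 1)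
        (orderOf_eq_one_iff.mpr (by decide)) (by norm_num)
        (1 - hζ.toInteger + hζ.toInteger ^ 2 + hζ.toInteger ^ 4) (fun x => 1 - x + x ^ 2 + x ^ 4)
        (fun σ x => by simp) (by simp [hcoe])
        (by
          have := norm_comp_13_157 (IsCyclotomicExtension.zeta 13 ℚ K) hΦ
          simpa using this)
      exact ⟨P, hP, Or.inr hprin⟩
  · obtain ⟨P, hP, hlt⟩ := exists_primesOver_lt (p := 13) K 312 hq h13 (by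
      intro f hf0 hfdvd hmod
      by_contra hcon
      have hlt : q ^ f < 313 := by omega
      have hf13 : f < 13 := by
        have := Nat.le_of_dvd (by norm_num) hfdvd
        omega
      rcases small_prime_pow_13 q hq313 f hf13 ⟨hq.one_lt, hf0, hlt, hmod⟩ with
        h | h | h | h | h | h | h | h | h | h
      · exact hex (Or.inl h)
      · exact hex (Or.inr (Or.inl h))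
      · exact hex (Or.inr (Or.inr (Or.inl h)))
      · exact hex (Or.inr (Or.inr (Or.inr (Or.inl h))))
      · exact hex (Or.inr (Or.inr (Or.inr (Or.inr h))))
      · exact not_prime_of_mod (by norm_num) h hq
      · exact not_prime_of_mod (by norm_num) h hq
      · exact not_prime_of_mod (by norm_num) h hq
      · exact not_prime_of_mod (by norm_num) h hq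
      · exact not_prime_of_mod (by norm_num) h hq)
    refine ⟨P, hP, Or.inl (lt_of_le_of_lt ?_ hlt)⟩
    omega


set_option maxRecDepth 100000 in
set_option synthInstance.maxSize 2000 in
theorem small_prime_pow_11 : ∀ q < 60, ∀ f < 11,
    (1 < q ∧ 0 < f ∧ q ^ f < 60 ∧ q ^ f % 11 = 1) →
    (q = 23 ∨ (q % 2 = 0 ∧ q ≠ 2) ∨ (q % 3 = 0 ∧ q ≠ 3) ∨ (q % 5 = 0 ∧ q ≠ 5) ∨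
      (q % 7 = 0 ∧ q ≠ 7)) := by
  decide

open Real Nat InfinitePlace Module in
theorem minkowski_lt_11 (K : Type*) [Field K] [NumberField K] [IsCyclotomicExtension {11} ℚ K] :
    ⌊(4 / π) ^ nrComplexPlaces K *
      ((finrank ℚ K)! / (finrank ℚ K) ^ (finrank ℚ K) * √|(discr K : ℝ)|)⌋₊ < 60 := by
  have hp : Fact (Nat.Prime 11) := ⟨by norm_num⟩
  have hfin : finrank ℚ K = 10 := by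
    rw [IsCyclotomicExtension.finrank (n := 11) K (cyclotomic.irreducible_rat (by norm_num)),
      totient_prime hp.out]
  have hnr : nrComplexPlaces K = 5 := by
    rw [IsCyclotomicExtension.Rat.nrComplexPlaces_eq_totient_div_two 11, totient_prime hp.out]
  have hd : discr K = -(11 ^ 9) := by
    rw [IsCyclotomicExtension.Rat.discr_prime 11 K]
    norm_num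
  rw [hfin, hnr, hd]
  have hsqrt : √|((-(11 ^ 9) : ℤ) : ℝ)| ≤ 48559 := by
    rw [Real.sqrt_le_left (by norm_num)]
    norm_num
  have hpi : (4 / π) ^ 5 ≤ (4 / 3.14) ^ 5 := by
    gcongr
    exact pi_gt_d2.le
  rw [Nat.floor_lt (by positivity)]
  calc (4 / π) ^ 5 * (((10 : ℕ)! : ℝ) / ((10 : ℕ) : ℝ) ^ 10 * √|((-(11 ^ 9) : ℤ) : ℝ)|)
      ≤ (4 / 3.14) ^ 5 * (((10 : ℕ)! : ℝ) / ((10 : ℕ) : ℝ) ^ 10 * 48559) := by gcongr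
    _ < ((60 : ℕ) : ℝ) := by
      norm_num [Nat.factorial]

theorem zeta11_sum {K : Type*} [Field K] {ζ : K} (hζ : IsPrimitiveRoot ζ 11) :
    1 + ζ + ζ^2 + ζ^3 + ζ^4 + ζ^5 + ζ^6 + ζ^7 + ζ^8 + ζ^9 + ζ^10 = 0 := by
  have h := hζ.geom_sum_eq_zero (by norm_num)
  simp only [Finset.sum_range_succ, Finset.sum_range_zero] at h
  linear_combination h

/-- `ℤ[ζ₁₁]` is a principal ideal domain. -/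
theorem pid11 (K : Type*) [Field K] [NumberField K] [IsCyclotomicExtension {11} ℚ K] :
    IsPrincipalIdealRing (𝓞 K) := by
  have hp : Fact (Nat.Prime 11) := ⟨by norm_num⟩
  have : IsGalois ℚ K := IsCyclotomicExtension.isGalois {11} ℚ K
  have hζ : IsPrimitiveRoot (IsCyclotomicExtension.zeta 11 ℚ K) 11 :=
    IsCyclotomicExtension.zeta_spec 11 ℚ K
  have hΦ := zeta11_sum hζ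
  have hcoe : (algebraMap (𝓞 K) K) hζ.toInteger = IsCyclotomicExtension.zeta 11 ℚ K := rfl
  apply RingOfIntegers.isPrincipalIdealRing_of_isPrincipal_of_lt_or_isPrincipal_of_mem_primesOver_of_mem_Icc
  intro q hqmem hq
  have hM := minkowski_lt_11 K
  rw [Finset.mem_Icc] at hqmem
  have hq60 : q < 60 := lt_of_le_of_lt hqmem.2 hM
  by_cases h11 : q = 11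
  · subst h11
    obtain ⟨P, hP, hprin⟩ := exists_primesOver_isPrincipal_self (p := 11) K
    exact ⟨P, hP, Or.inr hprin⟩
  by_cases hex : q = 23
  · subst hex
    -- q = 23, α = 1 - ζ + ζ^3
    have hqp : ¬ 23 ∣ 11 := by norm_num
    refine ⟨span {1 - hζ.toInteger + hζ.toInteger ^ 3},
      span_singleton_mem_primesOver K hq hqp (f := 1) (orderOf_eq_one_iff.mpr (by decide))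
        (by norm_num) _ ?_, Or.inr ⟨⟨_, rfl⟩⟩⟩
    refine natAbs_norm_eq_of_prod (p := 11) K _ (fun x => 1 - x + x ^ 3) (fun σ x => by simp)
      (by simp [hcoe]) (23 ^ 1) ?_
    rw [prod_Ico_one_eleven]
    have := norm_comp_11_23 (IsCyclotomicExtension.zeta 11 ℚ K) hΦ
    simpa using this
  · obtain ⟨P, hP, hlt⟩ := exists_primesOver_lt (p := 11) K 59 hq h11 (by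
      intro f hf0 hfdvd hmod
      by_contra hcon
      have hlt : q ^ f < 60 := by omega
      have hf11 : f < 11 := by
        have := Nat.le_of_dvd (by norm_num) hfdvd
        omega
      rcases small_prime_pow_11 q hq60 f hf11 ⟨hq.one_lt, hf0, hlt, hmod⟩ with
        h | h | h | h | h
      · exact hex h
      · exact not_prime_of_mod (by norm_num) h hq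
      · exact not_prime_of_mod (by norm_num) h hq
      · exact not_prime_of_mod (by norm_num) h hq
      · exact not_prime_of_mod (by norm_num) h hq)
    refine ⟨P, hP, Or.inl (lt_of_le_of_lt ?_ hlt)⟩
    omega


theorem small_prime_pow_7 : ∀ q < 5, ∀ f < 7,
    (1 < q ∧ 0 < f ∧ q ^ f < 5 ∧ q ^ f % 7 = 1) → False := by
  decide

open Real Nat InfinitePlace Module in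
theorem minkowski_lt_7 (K : Type*) [Field K] [NumberField K] [IsCyclotomicExtension {7} ℚ K] :
    ⌊(4 / π) ^ nrComplexPlaces K *
      ((finrank ℚ K)! / (finrank ℚ K) ^ (finrank ℚ K) * √|(discr K : ℝ)|)⌋₊ < 5 := by
  have hp : Fact (Nat.Prime 7) := ⟨by norm_num⟩
  have hfin : finrank ℚ K = 6 := by
    rw [IsCyclotomicExtension.finrank (n := 7) K (cyclotomic.irreducible_rat (by norm_num)),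
      totient_prime hp.out]
  have hnr : nrComplexPlaces K = 3 := by
    rw [IsCyclotomicExtension.Rat.nrComplexPlaces_eq_totient_div_two 7, totient_prime hp.out]
  have hd : discr K = -(7 ^ 5) := by
    rw [IsCyclotomicExtension.Rat.discr_prime 7 K]
    norm_num
  rw [hfin, hnr, hd]
  have hsqrt : √|((-(7 ^ 5) : ℤ) : ℝ)| ≤ 130 := by
    rw [Real.sqrt_le_left (by norm_num)]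
    norm_num
  have hpi : (4 / π) ^ 3 ≤ (4 / 3) ^ 3 := by
    gcongr
    exact pi_gt_three.le
  rw [Nat.floor_lt (by positivity)]
  calc (4 / π) ^ 3 * (((6 : ℕ)! : ℝ) / ((6 : ℕ) : ℝ) ^ 6 * √|((-(7 ^ 5) : ℤ) : ℝ)|)
      ≤ (4 / 3) ^ 3 * (((6 : ℕ)! : ℝ) / ((6 : ℕ) : ℝ) ^ 6 * 130) := by gcongr
    _ < ((5 : ℕ) : ℝ) := by
      norm_num [Nat.factorial]

/-- `ℤ[ζ₇]` is a principal ideal domain. -/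
theorem pid7 (K : Type*) [Field K] [NumberField K] [IsCyclotomicExtension {7} ℚ K] :
    IsPrincipalIdealRing (𝓞 K) := by
  have hp : Fact (Nat.Prime 7) := ⟨by norm_num⟩
  have : IsGalois ℚ K := IsCyclotomicExtension.isGalois {7} ℚ K
  apply RingOfIntegers.isPrincipalIdealRing_of_isPrincipal_of_lt_or_isPrincipal_of_mem_primesOver_of_mem_Icc
  intro q hqmem hq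
  have hM := minkowski_lt_7 K
  rw [Finset.mem_Icc] at hqmem
  have hq5 : q < 5 := lt_of_le_of_lt hqmem.2 hM
  have h7 : q ≠ 7 := by omega
  obtain ⟨P, hP, hlt⟩ := exists_primesOver_lt (p := 7) K 4 hq h7 (by
    intro f hf0 hfdvd hmod
    by_contra hcon
    have hlt : q ^ f < 5 := by omega
    have hf7 : f < 7 := by
      have := Nat.le_of_dvd (by norm_num) hfdvd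
      omega
    exact small_prime_pow_7 q hq5 f hf7 ⟨hq.one_lt, hf0, hlt, hmod⟩)
  refine ⟨P, hP, Or.inl (lt_of_le_of_lt ?_ hlt)⟩
  omega

end Fermat.Agent.S10.helper71
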