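import Mathlib

set_option autoImplicit false

/-!
# Case I of Fermat's Last Theorem for `p ∈ {5, 7, 11, 13}` (Sophie Germain–Legendre)

Elementary: only integer arithmetic and arithmetic in `ZMod q` for an auxiliary prime `q`.
-/

namespace Fermat.Agent.S10.helper88

/-- The cofactor `(y ^ p + z ^ p) / (y + z)` for odd `p`, written as a geometric sum. -/
def cofactor (p : ℕ) (y z : ℤ) : ℤ := ∑ i ∈ Finset.range p, y ^ i * (-z) ^ (p - 1 - i)

lemma add_mul_cofactor {p : ℕ} (hp : Odd p) (y z : ℤ) :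
    (y + z) * cofactor p y z = y ^ p + z ^ p := by
  have h := geom_sum₂_mul y (-z) p
  rw [sub_neg_eq_add, hp.neg_pow] at h
  unfold cofactor
  linarith

lemma add_dvd_cofactor_sub (p : ℕ) (y z : ℤ) :
    (y + z) ∣ cofactor p y z - p * y ^ (p - 1) := by
  have hsum : cofactor p y z - p * y ^ (p - 1) =
      ∑ i ∈ Finset.range p, (y ^ i * (-z) ^ (p - 1 - i) - y ^ (p - 1)) := by
    unfold cofactor
    rw [Finset.sum_sub_distrib]
    simp
  rw [hsum]
  refine Finset.dvd_sum fun i hi => ?_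
  have hi' : i + (p - 1 - i) = p - 1 := by
    have := Finset.mem_range.mp hi
    omega
  have h1 : y ^ i * (-z) ^ (p - 1 - i) - y ^ (p - 1) =
      y ^ i * ((-z) ^ (p - 1 - i) - y ^ (p - 1 - i)) := by
    rw [mul_sub, ← pow_add, hi']
  rw [h1]
  have h2 : (-z) - y ∣ (-z) ^ (p - 1 - i) - y ^ (p - 1 - i) := sub_dvd_pow_sub_pow _ _ _
  have h3 : (y + z) ∣ (-z) - y := ⟨-1, by ring⟩
  exact Dvd.dvd.mul_left (h3.trans h2) _

lemma isCoprime_add_cofactor {p : ℕ} (hp : p.Prime) (hpodd : Odd p) {x y z : ℤ}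
    (hyz : IsCoprime y z) (hpx : ¬ (p : ℤ) ∣ x) (h : x ^ p + y ^ p + z ^ p = 0) :
    IsCoprime (y + z) (cofactor p y z) := by
  obtain ⟨t, ht⟩ := add_dvd_cofactor_sub p y z
  have hcof : cofactor p y z = (p : ℤ) * y ^ (p - 1) + t * (y + z) := by linarith
  rw [hcof]
  refine IsCoprime.add_mul_right_right ?_ t
  have hdvd : (y + z) ∣ x ^ p := by
    have h1 := add_mul_cofactor hpodd y z
    have h2 : x ^ p = -(y ^ p + z ^ p) := by linarith
    rw [h2, ← h1]
    exact (Dvd.intro _ rfl).neg_right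
  have hcop_p : IsCoprime (y + z) (p : ℤ) := by
    have hpp : Prime (p : ℤ) := Nat.prime_iff_prime_int.mp hp
    rw [isCoprime_comm]
    refine (Prime.coprime_iff_not_dvd hpp).mpr fun hdiv => hpx ?_
    exact hpp.dvd_of_dvd_pow (hdiv.trans hdvd)
  have hcop_y : IsCoprime (y + z) y := by
    have : IsCoprime z y := hyz.symm
    have h3 : IsCoprime (z + 1 * y) y := IsCoprime.add_mul_right_left this 1
    simpa [add_comm] using h3
  exact hcop_p.mul_right (hcop_y.pow_right)

lemma exists_pow_eq {p : ℕ} (hp : p.Prime) (hpodd : Odd p) {x y z : ℤ}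
    (hyz : IsCoprime y z) (hpx : ¬ (p : ℤ) ∣ x) (h : x ^ p + y ^ p + z ^ p = 0) :
    (∃ a : ℤ, y + z = a ^ p) ∧ ∃ α : ℤ, cofactor p y z = α ^ p := by
  have hcop := isCoprime_add_cofactor hp hpodd hyz hpx h
  have hmul : (y + z) * cofactor p y z = (-x) ^ p := by
    rw [add_mul_cofactor hpodd, hpodd.neg_pow]
    linarith
  exact Int.eq_pow_of_mul_eq_pow_odd hcop hpodd hmul


/-- The two Sophie Germain conditions on the pair `(p, q)`. -/
structure SGCond (p q : ℕ) : Prop where
  sum_pow : ∀ x y z : ZMod q, x ^ p + y ^ p + z ^ p = 0 → x = 0 ∨ y = 0 ∨ z = 0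
  not_pow : ∀ x : ZMod q, x ^ p ≠ (p : ZMod q)

lemma not_dvd_of_isCoprime {q : ℕ} (hq : q.Prime) {x y : ℤ} (hxy : IsCoprime x y)
    (hx : (q : ℤ) ∣ x) : ¬ (q : ℤ) ∣ y := by
  intro hy
  have hqq : Prime (q : ℤ) := Nat.prime_iff_prime_int.mp hq
  exact hqq.not_isUnit (hxy.isUnit_of_dvd' hx hy)

theorem sophie_germain_aux {p q : ℕ} (hp : p.Prime) (hpodd : Odd p) (hq : q.Prime)
    (hc : SGCond p q)
    {x y z : ℤ} (hxy : IsCoprime x y) (hxz : IsCoprime x z) (hyz : IsCoprime y z)
    (hpx : ¬ (p : ℤ) ∣ x) (hpy : ¬ (p : ℤ) ∣ y) (hpz : ¬ (p : ℤ) ∣ z)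
    (h : x ^ p + y ^ p + z ^ p = 0) (hqx : (q : ℤ) ∣ x) : False := by
  have : Fact q.Prime := ⟨hq⟩
  obtain ⟨⟨a, ha⟩, ⟨α, hα⟩⟩ := exists_pow_eq hp hpodd hyz hpx h
  obtain ⟨⟨b, hb⟩, -⟩ := exists_pow_eq hp hpodd (x := y) (y := z) (z := x) hxz.symm hpy
    (by linarith)
  obtain ⟨⟨c, hc'⟩, -⟩ := exists_pow_eq hp hpodd (x := z) (y := x) (z := y) hxy hpz
    (by linarith)
  have hx0 : ((x : ℤ) : ZMod q) = 0 := (ZMod.intCast_zmod_eq_zero_iff_dvd x q).mpr hqx
  have hy0 : ((y : ℤ) : ZMod q) ≠ 0 := fun h0 =>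
    not_dvd_of_isCoprime hq hxy hqx ((ZMod.intCast_zmod_eq_zero_iff_dvd y q).mp h0)
  have hz0 : ((z : ℤ) : ZMod q) ≠ 0 := fun h0 =>
    not_dvd_of_isCoprime hq hxz hqx ((ZMod.intCast_zmod_eq_zero_iff_dvd z q).mp h0)
  have hA : ((a : ℤ) : ZMod q) ^ p = (y : ZMod q) + (z : ZMod q) := by
    have := congrArg (Int.cast : ℤ → ZMod q) ha
    push_cast at this
    exact this.symm
  have hB : ((b : ℤ) : ZMod q) ^ p = (z : ZMod q) := by
    have := congrArg (Int.cast : ℤ → ZMod q) hb
    push_cast at this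
    rw [hx0, add_zero] at this
    exact this.symm
  have hC : ((c : ℤ) : ZMod q) ^ p = (y : ZMod q) := by
    have := congrArg (Int.cast : ℤ → ZMod q) hc'
    push_cast at this
    rw [hx0, zero_add] at this
    exact this.symm
  have hsum : ((c : ℤ) : ZMod q) ^ p + ((b : ℤ) : ZMod q) ^ p + (-((a : ℤ) : ZMod q)) ^ p = 0 := by
    rw [hpodd.neg_pow, hA, hB, hC]
    ring
  have hp0 : p ≠ 0 := hp.ne_zero
  rcases hc.sum_pow _ _ _ hsum with hc0 | hb0 | ha0
  · rw [hc0, zero_pow hp0] at hC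
    exact hy0 hC.symm
  · rw [hb0, zero_pow hp0] at hB
    exact hz0 hB.symm
  · have ha0' : ((a : ℤ) : ZMod q) = 0 := neg_eq_zero.mp ha0
    have hyz0 : (y : ZMod q) + (z : ZMod q) = 0 := by
      rw [← hA, ha0', zero_pow hp0]
    have hqyz : (q : ℤ) ∣ y + z := by
      rw [← ZMod.intCast_zmod_eq_zero_iff_dvd]
      push_cast
      exact hyz0
    have hcofq : (q : ℤ) ∣ cofactor p y z - p * y ^ (p - 1) :=
      hqyz.trans (add_dvd_cofactor_sub p y z)
    have hcof0 : ((α : ℤ) : ZMod q) ^ p = (p : ZMod q) * (y : ZMod q) ^ (p - 1) := by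
      have h1 := (ZMod.intCast_zmod_eq_zero_iff_dvd _ q).mpr hcofq
      rw [hα] at h1
      push_cast at h1
      exact sub_eq_zero.mp h1
    have hcne : ((c : ℤ) : ZMod q) ≠ 0 := by
      intro hc0
      rw [hc0, zero_pow hp0] at hC
      exact hy0 hC.symm
    have hkey : (((α : ℤ) : ZMod q) * (((c : ℤ) : ZMod q) ^ (p - 1))⁻¹) ^ p = (p : ZMod q) := by
      rw [mul_pow, hcof0, ← hC, inv_pow, ← pow_mul, ← pow_mul, mul_comm (p - 1) p]
      exact mul_inv_cancel_right₀ (pow_ne_zero _ hcne) _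
    exact hc.not_pow _ hkey

/-- **Sophie Germain's theorem** (with a general auxiliary prime `q`). -/
theorem sophie_germain {p q : ℕ} (hp : p.Prime) (hpodd : Odd p) (hq : q.Prime)
    (hc : SGCond p q)
    {x y z : ℤ} (hxy : IsCoprime x y) (hxz : IsCoprime x z) (hyz : IsCoprime y z)
    (h : x ^ p + y ^ p + z ^ p = 0) : (p : ℤ) ∣ x * y * z := by
  by_contra hndvd
  have hpx : ¬ (p : ℤ) ∣ x := fun hd => hndvd ((hd.mul_right y).mul_right z)
  have hpy : ¬ (p : ℤ) ∣ y := fun hd => hndvd ((hd.mul_left x).mul_right z)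
  have hpz : ¬ (p : ℤ) ∣ z := fun hd => hndvd (hd.mul_left (x * y))
  have hmod : ((x : ℤ) : ZMod q) ^ p + ((y : ℤ) : ZMod q) ^ p + ((z : ℤ) : ZMod q) ^ p = 0 := by
    have := congrArg (Int.cast : ℤ → ZMod q) h
    push_cast at this
    exact this
  rcases hc.sum_pow _ _ _ hmod with hx0 | hy0 | hz0
  · exact sophie_germain_aux hp hpodd hq hc hxy hxz hyz hpx hpy hpz h
      ((ZMod.intCast_zmod_eq_zero_iff_dvd x q).mp hx0)
  · exact sophie_germain_aux hp hpodd hq hc (x := y) (y := z) (z := x) hyz hxy.symm hxz.symm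
      hpy hpz hpx (by linarith) ((ZMod.intCast_zmod_eq_zero_iff_dvd y q).mp hy0)
  · exact sophie_germain_aux hp hpodd hq hc (x := z) (y := x) (z := y) hxz.symm hyz.symm hxy
      hpz hpx hpy (by linarith) ((ZMod.intCast_zmod_eq_zero_iff_dvd z q).mp hz0)

/-- Case I of Fermat's Last Theorem for exponent `p`, given a Sophie Germain auxiliary prime. -/
theorem caseI_of_SGCond {p q : ℕ} (hp : p.Prime) (hpodd : Odd p) (hq : q.Prime)
    (hc : SGCond p q) (a b c : ℤ) (hab : IsCoprime a b) (hndvd : ¬ (p : ℤ) ∣ a * b * c) :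
    a ^ p + b ^ p ≠ c ^ p := by
  intro h
  have hp0 : 0 < p := hp.pos
  have hac : IsCoprime a c := by
    have h1 : IsCoprime a (b ^ p) := hab.pow_right
    have h2 : IsCoprime a (b ^ p + a ^ (p - 1) * a) := IsCoprime.add_mul_right_right h1 _
    have h3 : b ^ p + a ^ (p - 1) * a = c ^ p := by
      rw [← pow_succ, Nat.sub_add_cancel hp0]
      linarith
    rw [h3] at h2
    exact (IsCoprime.pow_right_iff hp0).mp h2
  have hbc : IsCoprime b c := by
    have h1 : IsCoprime b (a ^ p) := hab.symm.pow_right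
    have h2 : IsCoprime b (a ^ p + b ^ (p - 1) * b) := IsCoprime.add_mul_right_right h1 _
    have h3 : a ^ p + b ^ (p - 1) * b = c ^ p := by
      rw [← pow_succ, Nat.sub_add_cancel hp0]
      linarith
    rw [h3] at h2
    exact (IsCoprime.pow_right_iff hp0).mp h2
  have h0 : a ^ p + b ^ p + (-c) ^ p = 0 := by
    rw [hpodd.neg_pow]
    linarith
  have hdvd := sophie_germain hp hpodd hq hc hab hac.neg_right hbc.neg_right h0
  apply hndvd
  have : a * b * -c = -(a * b * c) := by ring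
  rw [this] at hdvd
  exact (dvd_neg.mp hdvd)


lemma sgCond_5_11 : SGCond 5 11 where
  sum_pow := by
    have hpow : ∀ x : ZMod 11, x = 0 ∨ x ^ 5 = 1 ∨ x ^ 5 = -1 := by decide
    intro x y z h
    rcases hpow x with hx | hx | hx
    · exact Or.inl hx
    all_goals
      rcases hpow y with hy | hy | hy
      · exact Or.inr (Or.inl hy)
      all_goals
        rcases hpow z with hz | hz | hz
        · exact Or.inr (Or.inr hz)
        all_goals
          rw [hx, hy, hz] at h
          exact absurd h (by decide)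
  not_pow := by decide

lemma sgCond_11_23 : SGCond 11 23 where
  sum_pow := by
    have hpow : ∀ x : ZMod 23, x = 0 ∨ x ^ 11 = 1 ∨ x ^ 11 = -1 := by decide
    intro x y z h
    rcases hpow x with hx | hx | hx
    · exact Or.inl hx
    all_goals
      rcases hpow y with hy | hy | hy
      · exact Or.inr (Or.inl hy)
      all_goals
        rcases hpow z with hz | hz | hz
        · exact Or.inr (Or.inr hz)
        all_goals
          rw [hx, hy, hz] at h
          exact absurd h (by decide)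
  not_pow := by decide

lemma sgCond_7_29 : SGCond 7 29 where
  sum_pow := by
    have hpow : ∀ x : ZMod 29, x = 0 ∨ x ^ 7 = 1 ∨ x ^ 7 = -1 ∨ x ^ 7 = 12 ∨ x ^ 7 = -12 := by
      decide
    intro x y z h
    rcases hpow x with hx | hx | hx | hx | hx
    · exact Or.inl hx
    all_goals
      rcases hpow y with hy | hy | hy | hy | hy
      · exact Or.inr (Or.inl hy)
      all_goals
        rcases hpow z with hz | hz | hz | hz | hz
        · exact Or.inr (Or.inr hz)
        all_goals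
          rw [hx, hy, hz] at h
          exact absurd h (by decide)
  not_pow := by decide

lemma sgCond_13_53 : SGCond 13 53 where
  sum_pow := by
    have hpow : ∀ x : ZMod 53,
        x = 0 ∨ x ^ 13 = 1 ∨ x ^ 13 = -1 ∨ x ^ 13 = 23 ∨ x ^ 13 = -23 := by
      decide
    intro x y z h
    rcases hpow x with hx | hx | hx | hx | hx
    · exact Or.inl hx
    all_goals
      rcases hpow y with hy | hy | hy | hy | hy
      · exact Or.inr (Or.inl hy)
      all_goals
        rcases hpow z with hz | hz | hz | hz | hz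
        · exact Or.inr (Or.inr hz)
        all_goals
          rw [hx, hy, hz] at h
          exact absurd h (by decide)
  not_pow := by decide

/-- **Case I of Fermat's Last Theorem for `p ∈ {5, 7, 11, 13}`** (Sophie Germain–Legendre):
if `a ^ p + b ^ p = c ^ p` with `a`, `b` coprime then `p ∣ a * b * c`. -/
theorem caseI (p : ℕ) (hp : p = 5 ∨ p = 7 ∨ p = 11 ∨ p = 13) (a b c : ℤ)
    (hab : IsCoprime a b) (hndvd : ¬ (p : ℤ) ∣ a * b * c) : a ^ p + b ^ p ≠ c ^ p := by
  rcases hp with rfl | rfl | rfl | rfl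
  · exact caseI_of_SGCond (q := 11) (by norm_num) (by decide) (by norm_num) sgCond_5_11
      a b c hab hndvd
  · exact caseI_of_SGCond (q := 29) (by norm_num) (by decide) (by norm_num) sgCond_7_29
      a b c hab hndvd
  · exact caseI_of_SGCond (q := 23) (by norm_num) (by decide) (by norm_num) sgCond_11_23
      a b c hab hndvd
  · exact caseI_of_SGCond (q := 53) (by norm_num) (by decide) (by norm_num) sgCond_13_53
      a b c hab hndvd

/-- Variant: the conclusion as a divisibility statement. -/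
theorem dvd_mul_of_pow_add_pow_eq (p : ℕ) (hp : p = 5 ∨ p = 7 ∨ p = 11 ∨ p = 13) (a b c : ℤ)
    (hab : IsCoprime a b) (h : a ^ p + b ^ p = c ^ p) : (p : ℤ) ∣ a * b * c := by
  by_contra hndvd
  exact caseI p hp a b c hab hndvd h

end Fermat.Agent.S10.helper88
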