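import Mathlib

/-!
# Upper bound for the Minkowski bound of a prime cyclotomic field (helper93)
-/

open NumberField Polynomial Ideal RingOfIntegers IsCyclotomicExtension.Rat Module

namespace Fermat.Agent.S10.helper93

variable (p : ℕ) [hp : Fact p.Prime] (K : Type*) [Field K] [NumberField K]
  [hK : IsCyclotomicExtension {p} ℚ K]

/-- If `(4/c)^(2 r₂) (n!/nⁿ)² p^(p-2) < (B+1)²` for some `0 < c < π`, then the floor of the
Minkowski bound of `ℚ(ζ_p)` is at most `B`. -/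
theorem floor_minkowski_le (B : ℕ) (c : ℝ) (hc : 0 < c) (hcπ : c < Real.pi)
    (hnum : (4 / c) ^ (2 * ((p - 1) / 2)) *
      (((p - 1).factorial : ℝ) / ((p - 1 : ℕ) : ℝ) ^ (p - 1)) ^ 2 * (p : ℝ) ^ (p - 2)
        < ((B : ℝ) + 1) ^ 2) :
    ⌊(4 / Real.pi) ^ InfinitePlace.nrComplexPlaces K *
        (((finrank ℚ K).factorial : ℝ) / ((finrank ℚ K : ℕ) : ℝ) ^ finrank ℚ K *
          √|((NumberField.discr K : ℤ) : ℝ)|)⌋₊ ≤ B := by
  have : NeZero p := ⟨hp.out.ne_zero⟩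
  have hfin : finrank ℚ K = p - 1 := by
    rw [IsCyclotomicExtension.finrank (n := p) K (cyclotomic.irreducible_rat hp.out.pos),
      Nat.totient_prime hp.out]
  have hr2 : InfinitePlace.nrComplexPlaces K = (p - 1) / 2 := by
    rw [nrComplexPlaces_eq_totient_div_two p, Nat.totient_prime hp.out]
  have hdisc : |((NumberField.discr K : ℤ) : ℝ)| = (p : ℝ) ^ (p - 2) := by
    rw [discr_prime p K]
    push_cast
    rw [abs_mul, abs_pow, abs_pow, abs_neg, abs_one, one_pow, one_mul, Nat.abs_cast]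
  rw [hfin, hr2, hdisc]
  set M : ℝ := (4 / Real.pi) ^ ((p - 1) / 2) *
    (((p - 1).factorial : ℝ) / ((p - 1 : ℕ) : ℝ) ^ (p - 1) * √((p : ℝ) ^ (p - 2))) with hM
  have hπ : 0 < Real.pi := Real.pi_pos
  have hM0 : 0 ≤ M := by positivity
  have hlt : M < (B : ℝ) + 1 := by
    have hB0 : (0 : ℝ) ≤ (B : ℝ) + 1 := by positivity
    apply lt_of_pow_lt_pow_left₀ 2 hB0
    have hsq : M ^ 2 = (4 / Real.pi) ^ (2 * ((p - 1) / 2)) *
        (((p - 1).factorial : ℝ) / ((p - 1 : ℕ) : ℝ) ^ (p - 1)) ^ 2 * (p : ℝ) ^ (p - 2) := by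
      rw [hM, mul_pow, mul_pow, Real.sq_sqrt (by positivity), ← pow_mul, mul_comm ((p - 1) / 2) 2]
      ring
    rw [hsq]
    refine lt_of_le_of_lt ?_ hnum
    have h4 : 4 / Real.pi ≤ 4 / c := by
      apply div_le_div_of_nonneg_left (by norm_num) hc hcπ.le
    have h40 : 0 ≤ 4 / Real.pi := by positivity
    gcongr
  have : ⌊M⌋₊ < B + 1 := by
    rw [Nat.floor_lt hM0]
    exact_mod_cast hlt
  omega

end Fermat.Agent.S10.helper93
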