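import Fermat.Agent.S10.helper93_PIDTools
import Fermat.Agent.S10.helper93_Minkowski

/-!
# `ℤ[ζ₁₁]` is a PID (helper93)
-/

open NumberField Polynomial Ideal RingOfIntegers IsCyclotomicExtension.Rat Module

namespace Fermat.Agent.S10.helper93

section eleven

theorem cyclotomic_eleven_int :
    cyclotomic 11 ℤ = 1 + X + X ^ 2 + X ^ 3 + X ^ 4 + X ^ 5 + X ^ 6 + X ^ 7 + X ^ 8 + X ^ 9
      + X ^ 10 := by
  have : Fact (Nat.Prime 11) := ⟨by norm_num⟩
  rw [cyclotomic_prime]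
  simp only [Finset.sum_range_succ, Finset.sum_range_zero]
  ring

theorem sum_pow_zmod23_eleven : ∑ i ∈ Finset.range 11, (((4 : ℤ) : ℤ) : ZMod 23) ^ i = 0 := by
  decide

variable (K : Type*) [Field K] [NumberField K] [hK : IsCyclotomicExtension {11} ℚ K]

theorem principal_over_23_of_eleven [Fact (Nat.Prime 11)] [Fact (Nat.Prime 23)] :
    ∃ P ∈ primesOver (span {((23 : ℕ) : ℤ)}) (𝓞 K), Submodule.IsPrincipal P := by
  refine exists_isPrincipal_primesOver_of_root 11 K 23 4 sum_pow_zmod23_eleven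
    (1 + X + X ^ 3)
    (-2 - 14 * X - 17 * X ^ 2 - 12 * X ^ 3 - 5 * X ^ 4 - 9 * X ^ 5 - 10 * X ^ 6 - 16 * X ^ 7
      - 6 * X ^ 8 - 15 * X ^ 9)
    (1 + 3 * X + 3 * X ^ 2 + 2 * X ^ 3 + X ^ 4 + 2 * X ^ 5 + 2 * X ^ 6 + 3 * X ^ 7 + X ^ 8
      + 3 * X ^ 9)
    3
    (17 + 4 * X + X ^ 2)
    (-25 + 9 * X - 15 * X ^ 2)
    (5 - 2 * X + 3 * X ^ 2) ?_ ?_ ?_
  · rw [cyclotomic_eleven_int]
    simp only [Nat.cast_ofNat]
    ring
  · rw [cyclotomic_eleven_int]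
    simp only [map_ofNat]
    ring
  · simp only [Nat.cast_ofNat, map_ofNat]
    ring

theorem pow_check_eleven : ∀ q ∈ Finset.Icc 2 59, q.Prime → q ≠ 11 → q ≠ 23 →
    ∀ j ∈ Finset.Icc 1 5, q ^ j ≤ 59 → q ^ j % 11 ≠ 1 := by decide

/-- The ring of integers of `ℚ(ζ₁₁)` is a principal ideal domain. -/
theorem pid11 : IsPrincipalIdealRing (𝓞 K) := by
  have h11 : Fact (Nat.Prime 11) := ⟨by norm_num⟩
  have h23 : Fact (Nat.Prime 23) := ⟨by norm_num⟩
  have hGal : IsGalois ℚ K := IsCyclotomicExtension.isGalois {11} ℚ K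
  have hB := floor_minkowski_le 11 K 59 3.14 (by norm_num) Real.pi_gt_d2 (by norm_num)
  apply RingOfIntegers.isPrincipalIdealRing_of_isPrincipal_of_lt_or_isPrincipal_of_mem_primesOver_of_mem_Icc
  intro q hq hqprime
  rw [Finset.mem_Icc] at hq
  have hq59 : q ≤ 59 := hq.2.trans hB
  have hqf : Fact q.Prime := ⟨hqprime⟩
  by_cases e11 : q = 11
  · subst e11
    obtain ⟨P, hP, hPp⟩ := exists_isPrincipal_primesOver_self 11 K
    exact ⟨P, hP, Or.inr hPp⟩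
  by_cases e23 : q = 23
  · subst e23
    obtain ⟨P, hP, hPp⟩ := principal_over_23_of_eleven K
    exact ⟨P, hP, Or.inr hPp⟩
  · obtain ⟨P, hP, hlt⟩ := exists_primesOver_lt_pow 11 K q e11 59
      (pow_mod_ne_one_of_bounded 11 q 59 5 hqprime.two_le (by norm_num)
        (pow_check_eleven q (Finset.mem_Icc.mpr ⟨hqprime.two_le, hq59⟩) hqprime e11 e23))
    exact ⟨P, hP, Or.inl (lt_of_le_of_lt hB hlt)⟩

end eleven

end Fermat.Agent.S10.helper93
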