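import Fermat.Agent.S10.helper93_PIDTools
import Fermat.Agent.S10.helper93_Minkowski

/-!
# `ℤ[ζ_13]` is a PID (helper93)
-/

open NumberField Polynomial Ideal RingOfIntegers IsCyclotomicExtension.Rat Module

namespace Fermat.Agent.S10.helper93

theorem cyclotomic_thirteen_int :
    cyclotomic 13 ℤ = 1 + X + X ^ 2 + X ^ 3 + X ^ 4 + X ^ 5 + X ^ 6 + X ^ 7 + X ^ 8 + X ^ 9 + X ^ 10 + X ^ 11 + X ^ 12 := by
  have : Fact (Nat.Prime 13) := ⟨by norm_num⟩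
  rw [cyclotomic_prime]
  simp only [Finset.sum_range_succ, Finset.sum_range_zero]
  ring

theorem sum_pow_zmod53_thirteen : ∑ i ∈ Finset.range 13, (((36 : ℤ) : ℤ) : ZMod 53) ^ i = 0 := by
  decide

theorem principal_over_53_of_thirteen (K : Type*) [Field K] [NumberField K]
    [hK : IsCyclotomicExtension {13} ℚ K] [Fact (Nat.Prime 13)] [Fact (Nat.Prime 53)] :
    ∃ P ∈ primesOver (span {((53 : ℕ) : ℤ)}) (𝓞 K), Submodule.IsPrincipal P := by
  refine exists_isPrincipal_primesOver_of_root 13 K 53 36 sum_pow_zmod53_thirteen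
    (1 + X + X ^ 3)
    (1 - 24 * X - 35 * X ^ 2 - 25 * X ^ 3 - 10 * X ^ 4 - 14 * X ^ 5 - 20 * X ^ 6 - 29 * X ^ 7 - 16 * X ^ 8
      - 23 * X ^ 9 - 7 * X ^ 10 - 36 * X ^ 11)
    (17 * X + 24 * X ^ 2 + 17 * X ^ 3 + 7 * X ^ 4 + 10 * X ^ 5 + 14 * X ^ 6 + 20 * X ^ 7 + 11 * X ^ 8
      + 16 * X ^ 9 + 5 * X ^ 10 + 25 * X ^ 11)
    (881)
    (1297 + 36 * X + X ^ 2)
    (-52 + 29 * X - 36 * X ^ 2)
    (36 - 20 * X + 25 * X ^ 2) ?_ ?_ ?_
  · rw [cyclotomic_thirteen_int]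
    simp only [Nat.cast_ofNat]
    ring
  · rw [cyclotomic_thirteen_int]
    simp only [map_ofNat]
    ring
  · simp only [Nat.cast_ofNat, map_ofNat]
    ring

theorem sum_pow_zmod79_thirteen : ∑ i ∈ Finset.range 13, (((64 : ℤ) : ℤ) : ZMod 79) ^ i = 0 := by
  decide

theorem principal_over_79_of_thirteen (K : Type*) [Field K] [NumberField K]
    [hK : IsCyclotomicExtension {13} ℚ K] [Fact (Nat.Prime 13)] [Fact (Nat.Prime 79)] :
    ∃ P ∈ primesOver (span {((79 : ℕ) : ℤ)}) (𝓞 K), Submodule.IsPrincipal P := by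
  refine exists_isPrincipal_primesOver_of_root 13 K 79 64 sum_pow_zmod79_thirteen
    (1 + X - X ^ 4)
    (24 - 25 * X - 27 * X ^ 2 + 10 * X ^ 3 - 3 * X ^ 4 - 39 * X ^ 5 - 5 * X ^ 6 - 2 * X ^ 7 - 18 * X ^ 8
      - 38 * X ^ 9 + 16 * X ^ 10 - 35 * X ^ 11)
    (-19 + 21 * X + 22 * X ^ 2 - 8 * X ^ 3 + 3 * X ^ 4 + 32 * X ^ 5 + 4 * X ^ 6 + 2 * X ^ 7 + 15 * X ^ 8
      + 31 * X ^ 9 - 13 * X ^ 10 + 29 * X ^ 11)
    (-212369)
    (-262143 - 4096 * X - 64 * X ^ 2 - X ^ 3)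
    (-55 + 54 * X - 51 * X ^ 2 + 35 * X ^ 3)
    (45 - 44 * X + 42 * X ^ 2 - 29 * X ^ 3) ?_ ?_ ?_
  · rw [cyclotomic_thirteen_int]
    simp only [Nat.cast_ofNat]
    ring
  · rw [cyclotomic_thirteen_int]
    simp only [map_ofNat]
    ring
  · simp only [Nat.cast_ofNat, map_ofNat]
    ring

theorem sum_pow_zmod131_thirteen : ∑ i ∈ Finset.range 13, (((80 : ℤ) : ℤ) : ZMod 131) ^ i = 0 := by
  decide

theorem principal_over_131_of_thirteen (K : Type*) [Field K] [NumberField K]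
    [hK : IsCyclotomicExtension {13} ℚ K] [Fact (Nat.Prime 13)] [Fact (Nat.Prime 131)] :
    ∃ P ∈ primesOver (span {((131 : ℕ) : ℤ)}) (𝓞 K), Submodule.IsPrincipal P := by
  refine exists_isPrincipal_primesOver_of_root 13 K 131 80 sum_pow_zmod131_thirteen
    (1 - X - X ^ 3)
    (111 + 78 * X + 17 * X ^ 2 + 67 * X ^ 3 + 84 * X ^ 4 + 40 * X ^ 5 + 46 * X ^ 6 + 69 * X ^ 7 + 48 * X ^ 8
      + 33 * X ^ 9 + 41 * X ^ 10 + 28 * X ^ 11)
    (-68 - 47 * X - 10 * X ^ 2 - 41 * X ^ 3 - 51 * X ^ 4 - 24 * X ^ 5 - 28 * X ^ 6 - 42 * X ^ 7 - 29 * X ^ 8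
      - 20 * X ^ 9 - 25 * X ^ 10 - 17 * X ^ 11)
    (-3909)
    (-6401 - 80 * X - X ^ 2)
    (-20 - 13 * X - 28 * X ^ 2)
    (12 + 8 * X + 17 * X ^ 2) ?_ ?_ ?_
  · rw [cyclotomic_thirteen_int]
    simp only [Nat.cast_ofNat]
    ring
  · rw [cyclotomic_thirteen_int]
    simp only [map_ofNat]
    ring
  · simp only [Nat.cast_ofNat, map_ofNat]
    ring

theorem sum_pow_zmod157_thirteen : ∑ i ∈ Finset.range 13, (((75 : ℤ) : ℤ) : ZMod 157) ^ i = 0 := by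
  decide

theorem principal_over_157_of_thirteen (K : Type*) [Field K] [NumberField K]
    [hK : IsCyclotomicExtension {13} ℚ K] [Fact (Nat.Prime 13)] [Fact (Nat.Prime 157)] :
    ∃ P ∈ primesOver (span {((157 : ℕ) : ℤ)}) (𝓞 K), Submodule.IsPrincipal P := by
  refine exists_isPrincipal_primesOver_of_root 13 K 157 75 sum_pow_zmod157_thirteen
    (1 - X + X ^ 2 + X ^ 4)
    (89 + 86 * X + 42 * X ^ 2 + 77 * X ^ 3 + 67 * X ^ 4 + 25 * X ^ 5 + 37 * X ^ 6 + 56 * X ^ 7 + 73 * X ^ 8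
      + 113 * X ^ 9 + 124 * X ^ 10 + 76 * X ^ 11)
    (-43 - 41 * X - 20 * X ^ 2 - 37 * X ^ 3 - 32 * X ^ 4 - 12 * X ^ 5 - 18 * X ^ 6 - 27 * X ^ 7 - 35 * X ^ 8
      - 54 * X ^ 9 - 59 * X ^ 10 - 36 * X ^ 11)
    (201568)
    (421949 + 5626 * X + 75 * X ^ 2 + X ^ 3)
    (-68 + 65 * X + 48 * X ^ 2 + 76 * X ^ 3)
    (32 - 31 * X - 23 * X ^ 2 - 36 * X ^ 3) ?_ ?_ ?_
  · rw [cyclotomic_thirteen_int]
    simp only [Nat.cast_ofNat]
    ring
  · rw [cyclotomic_thirteen_int]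
    simp only [map_ofNat]
    ring
  · simp only [Nat.cast_ofNat, map_ofNat]
    ring

theorem cubic_map_zmod3 :
    (X ^ 3 - X - 1 : ℤ[X]).map (Int.castRingHom (ZMod 3)) = X ^ 3 - X - 1 := by
  simp only [Polynomial.map_sub, Polynomial.map_pow, Polynomial.map_X, Polynomial.map_one]

theorem cubic_zmod3_natDegree : (X ^ 3 - X - 1 : (ZMod 3)[X]).natDegree = 3 := by
  compute_degree!

theorem cubic_zmod3_monic : (X ^ 3 - X - 1 : (ZMod 3)[X]).Monic := by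
  have h : (X ^ 3 - X - 1 : (ZMod 3)[X]) = X ^ (2 + 1) - (X + 1) := by ring
  rw [h]
  apply monic_X_pow_sub
  compute_degree!

theorem cubic_zmod3_irreducible : Irreducible (X ^ 3 - X - 1 : (ZMod 3)[X]) := by
  apply irreducible_of_degree_le_three_of_not_isRoot
  · rw [cubic_zmod3_natDegree]; decide
  · intro x
    simp only [IsRoot.def, eval_sub, eval_pow, eval_X, eval_one]
    revert x
    decide

theorem cubic_zmod3_dvd :
    (X ^ 3 - X - 1 : (ZMod 3)[X]) ∣ (cyclotomic 13 ℤ).map (Int.castRingHom (ZMod 3)) := by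
  have h : cyclotomic 13 ℤ = (X ^ 3 - X - 1) * (-1 - X ^ 2 - X ^ 3 + X ^ 5 - X ^ 7 + X ^ 8 + X ^ 9)
      + C (3 : ℤ) * (X ^ 5 + X ^ 6 + X ^ 9 + X ^ 10) := by
    rw [cyclotomic_thirteen_int]
    simp only [map_ofNat]
    ring
  have h3 : (Int.castRingHom (ZMod 3)) 3 = 0 := by decide
  have h2 := congrArg (Polynomial.map (Int.castRingHom (ZMod 3))) h
  rw [Polynomial.map_add, Polynomial.map_mul, Polynomial.map_mul, Polynomial.map_C, h3, map_zero,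
    zero_mul, add_zero, cubic_map_zmod3] at h2
  exact Dvd.intro _ h2.symm

theorem principal_over_3_of_thirteen (K : Type*) [Field K] [NumberField K]
    [hK : IsCyclotomicExtension {13} ℚ K] [Fact (Nat.Prime 13)] [Fact (Nat.Prime 3)] :
    ∃ P ∈ primesOver (span {((3 : ℕ) : ℤ)}) (𝓞 K), Submodule.IsPrincipal P := by
  refine exists_isPrincipal_primesOver_of_factor 13 K 3 (X ^ 3 - X - 1)
    (1 + X - X ^ 3)
    (-1 - X ^ 2 - X ^ 3 - 2 * X ^ 5 - X ^ 7 - 2 * X ^ 8 + X ^ 9 - 3 * X ^ 10)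
    (-1)
    (0)
    (-1)
    (-4 + 3 * X)
    (0) ?_ ?_ ?_ ?_ ?_ ?_
  · rw [cubic_map_zmod3]; exact cubic_zmod3_irreducible
  · rw [cubic_map_zmod3]; exact cubic_zmod3_monic
  · rw [cubic_map_zmod3]; exact cubic_zmod3_dvd
  · rw [cyclotomic_thirteen_int]
    simp only [Nat.cast_ofNat]
    ring
  · rw [cyclotomic_thirteen_int]
    ring
  · simp only [Nat.cast_ofNat]
    ring

set_option maxRecDepth 100000 in
theorem pow_check_thirteen : ∀ q ∈ Finset.Icc 2 307, q.Prime → q ≠ 13 → q ≠ 3 → q ≠ 53 → q ≠ 79 →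
    q ≠ 131 → q ≠ 157 →
    ∀ j ∈ Finset.Icc 1 8, q ^ j ≤ 307 → q ^ j % 13 ≠ 1 := by decide

/-- The ring of integers of `ℚ(ζ₁₃)` is a principal ideal domain. -/
theorem pid13 (K : Type*) [Field K] [NumberField K] [hK : IsCyclotomicExtension {13} ℚ K] :
    IsPrincipalIdealRing (𝓞 K) := by
  have h13 : Fact (Nat.Prime 13) := ⟨by norm_num⟩
  have h3 : Fact (Nat.Prime 3) := ⟨by norm_num⟩
  have h53 : Fact (Nat.Prime 53) := ⟨by norm_num⟩
  have h79 : Fact (Nat.Prime 79) := ⟨by norm_num⟩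
  have h131 : Fact (Nat.Prime 131) := ⟨by norm_num⟩
  have h157 : Fact (Nat.Prime 157) := ⟨by norm_num⟩
  have hGal : IsGalois ℚ K := IsCyclotomicExtension.isGalois {13} ℚ K
  have hB := floor_minkowski_le 13 K 307 3.14 (by norm_num) Real.pi_gt_d2 (by norm_num)
  apply RingOfIntegers.isPrincipalIdealRing_of_isPrincipal_of_lt_or_isPrincipal_of_mem_primesOver_of_mem_Icc
  intro q hq hqprime
  rw [Finset.mem_Icc] at hq
  have hqB : q ≤ 307 := hq.2.trans hB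
  have hqf : Fact q.Prime := ⟨hqprime⟩
  by_cases e13 : q = 13
  · subst e13
    obtain ⟨P, hP, hPp⟩ := exists_isPrincipal_primesOver_self 13 K
    exact ⟨P, hP, Or.inr hPp⟩
  by_cases e3 : q = 3
  · subst e3
    obtain ⟨P, hP, hPp⟩ := principal_over_3_of_thirteen K
    exact ⟨P, hP, Or.inr hPp⟩
  by_cases e53 : q = 53
  · subst e53
    obtain ⟨P, hP, hPp⟩ := principal_over_53_of_thirteen K
    exact ⟨P, hP, Or.inr hPp⟩
  by_cases e79 : q = 79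
  · subst e79
    obtain ⟨P, hP, hPp⟩ := principal_over_79_of_thirteen K
    exact ⟨P, hP, Or.inr hPp⟩
  by_cases e131 : q = 131
  · subst e131
    obtain ⟨P, hP, hPp⟩ := principal_over_131_of_thirteen K
    exact ⟨P, hP, Or.inr hPp⟩
  by_cases e157 : q = 157
  · subst e157
    obtain ⟨P, hP, hPp⟩ := principal_over_157_of_thirteen K
    exact ⟨P, hP, Or.inr hPp⟩
  · obtain ⟨P, hP, hlt⟩ := exists_primesOver_lt_pow 13 K q e13 307
      (pow_mod_ne_one_of_bounded 13 q 307 8 hqprime.two_le (by norm_num)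
        (pow_check_thirteen q (Finset.mem_Icc.mpr ⟨hqprime.two_le, hqB⟩) hqprime e13 e3 e53 e79
          e131 e157))
    exact ⟨P, hP, Or.inl (lt_of_le_of_lt hB hlt)⟩

end Fermat.Agent.S10.helper93
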