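import Fermat.Agent.S10.helper93_PIDTools
import Fermat.Agent.S10.helper93_Minkowski

/-!
# `ℤ[ζ₇]` is a PID (helper93)
-/

open NumberField Polynomial Ideal RingOfIntegers IsCyclotomicExtension.Rat Module

namespace Fermat.Agent.S10.helper93

theorem pow_check_seven : ∀ q ∈ Finset.Icc 2 7, q.Prime → q ≠ 7 →
    ∀ j ∈ Finset.Icc 1 2, q ^ j ≤ 7 → q ^ j % 7 ≠ 1 := by decide

/-- The ring of integers of `ℚ(ζ₇)` is a principal ideal domain. -/
theorem pid7 (K : Type*) [Field K] [NumberField K] [hK : IsCyclotomicExtension {7} ℚ K] :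
    IsPrincipalIdealRing (𝓞 K) := by
  have h7 : Fact (Nat.Prime 7) := ⟨by norm_num⟩
  have hGal : IsGalois ℚ K := IsCyclotomicExtension.isGalois {7} ℚ K
  have hB := floor_minkowski_le 7 K 7 3 (by norm_num) Real.pi_gt_three (by norm_num)
  apply RingOfIntegers.isPrincipalIdealRing_of_isPrincipal_of_lt_or_isPrincipal_of_mem_primesOver_of_mem_Icc
  intro q hq hqprime
  rw [Finset.mem_Icc] at hq
  have hqB : q ≤ 7 := hq.2.trans hB
  have hqf : Fact q.Prime := ⟨hqprime⟩
  by_cases e7 : q = 7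
  · subst e7
    obtain ⟨P, hP, hPp⟩ := exists_isPrincipal_primesOver_self 7 K
    exact ⟨P, hP, Or.inr hPp⟩
  · obtain ⟨P, hP, hlt⟩ := exists_primesOver_lt_pow 7 K q e7 7
      (pow_mod_ne_one_of_bounded 7 q 7 2 hqprime.two_le (by norm_num)
        (pow_check_seven q (Finset.mem_Icc.mpr ⟨hqprime.two_le, hqB⟩) hqprime e7))
    exact ⟨P, hP, Or.inl (lt_of_le_of_lt hB hlt)⟩

end Fermat.Agent.S10.helper93
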