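import Mathlib

/-!
# Tools for proving that `ℤ[ζ_p]` is a PID for small primes `p` (helper93)

Generic lemmas feeding Mathlib's Minkowski-bound criterion
`RingOfIntegers.isPrincipalIdealRing_of_isPrincipal_of_lt_or_isPrincipal_of_mem_primesOver_of_mem_Icc`
for prime cyclotomic fields.
-/

open NumberField Polynomial Ideal RingOfIntegers IsCyclotomicExtension.Rat

namespace Fermat.Agent.S10.helper93

variable (p : ℕ) [hp : Fact p.Prime] (K : Type*) [Field K] [NumberField K]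
  [hK : IsCyclotomicExtension {p} ℚ K]

/-- The minimal polynomial over `ℤ` of the chosen primitive root (as an algebraic integer)
is the cyclotomic polynomial. -/
theorem minpoly_zeta_toInteger :
    minpoly ℤ (IsCyclotomicExtension.zeta_spec p ℚ K).toInteger = cyclotomic p ℤ := by
  have hpos : 0 < p := hp.out.pos
  rw [← RingOfIntegers.minpoly_coe]
  exact (cyclotomic_eq_minpoly (IsCyclotomicExtension.zeta_spec p ℚ K) hpos).symm

theorem aeval_zeta_cyclotomic :
    aeval (IsCyclotomicExtension.zeta_spec p ℚ K).toInteger (cyclotomic p ℤ) = 0 := by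
  rw [← minpoly_zeta_toInteger p K]
  exact minpoly.aeval _ _

/-- Kummer–Dedekind + explicit generator: if `Q` is (a lift of) a monic irreducible factor of
`Φ_p` modulo `q` and `A(ζ)` generates the ideal `(q, Q(ζ))` (witnessed by polynomial identities),
then some prime above `q` is principal. -/
theorem exists_isPrincipal_primesOver_of_factor (q : ℕ) [hq : Fact q.Prime]
    (Q A B G D E S₁ S₂ : ℤ[X])
    (hirr : Irreducible (Q.map (Int.castRingHom (ZMod q))))
    (hmonic : (Q.map (Int.castRingHom (ZMod q))).Monic)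
    (hdvd : Q.map (Int.castRingHom (ZMod q)) ∣ (cyclotomic p ℤ).map (Int.castRingHom (ZMod q)))
    (h1 : A * B = (q : ℤ[X]) + cyclotomic p ℤ * S₁)
    (h2 : A * G = Q + cyclotomic p ℤ * S₂)
    (h3 : A = (q : ℤ[X]) * D + Q * E) :
    ∃ P ∈ primesOver (span {(q : ℤ)}) (𝓞 K), Submodule.IsPrincipal P := by
  classical
  set ζ := (IsCyclotomicExtension.zeta_spec p ℚ K).toInteger with hζdef
  have hexp : ¬ q ∣ exponent ζ := by
    rw [exponent_eq_one_iff.mpr <| adjoin_singleton_eq_top (IsCyclotomicExtension.zeta_spec p ℚ K)]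
    exact hq.out.not_dvd_one
  have hmin : minpoly ℤ ζ = cyclotomic p ℤ := minpoly_zeta_toInteger p K
  have hne : (minpoly ℤ ζ).map (Int.castRingHom (ZMod q)) ≠ 0 :=
    map_monic_ne_zero (minpoly.monic ζ.isIntegral)
  have hQ : Q.map (Int.castRingHom (ZMod q)) ∈ monicFactorsMod ζ q := by
    rw [Multiset.mem_toFinset, Polynomial.mem_normalizedFactors_iff hne, hmin]
    exact ⟨hirr, hmonic, hdvd⟩
  refine ⟨((NumberField.Ideal.primesOverSpanEquivMonicFactorsMod hexp).symm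
      ⟨Q.map (Int.castRingHom (ZMod q)), hQ⟩ : Ideal (𝓞 K)),
    ((NumberField.Ideal.primesOverSpanEquivMonicFactorsMod hexp).symm ⟨_, hQ⟩).prop, ?_⟩
  rw [NumberField.Ideal.primesOverSpanEquivMonicFactorsMod_symm_apply_eq_span hexp hQ]
  have hΦ : aeval ζ (cyclotomic p ℤ) = 0 := aeval_zeta_cyclotomic p K
  have e1 : aeval ζ A * aeval ζ B = (q : 𝓞 K) := by
    have := congrArg (aeval ζ) h1
    simpa [hΦ] using this
  have e2 : aeval ζ A * aeval ζ G = aeval ζ Q := by
    have := congrArg (aeval ζ) h2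
    simpa [hΦ] using this
  have e3 : aeval ζ A = (q : 𝓞 K) * aeval ζ D + aeval ζ Q * aeval ζ E := by
    have := congrArg (aeval ζ) h3
    simpa using this
  refine ⟨⟨aeval ζ A, ?_⟩⟩
  apply le_antisymm
  · rw [Ideal.submodule_span_eq, Ideal.span_le]
    rintro x (rfl | rfl)
    · exact Ideal.mem_span_singleton.mpr ⟨aeval ζ B, e1.symm⟩
    · exact Ideal.mem_span_singleton.mpr ⟨aeval ζ G, e2.symm⟩
  · rw [Ideal.submodule_span_eq, Ideal.span_le]
    rintro x rfl
    rw [SetLike.mem_coe, e3]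
    refine Ideal.add_mem _ (Ideal.mul_mem_right _ _ (Ideal.subset_span (by simp)))
      (Ideal.mul_mem_right _ _ (Ideal.subset_span (by simp)))

/-- Degree-one case of `exists_isPrincipal_primesOver_of_factor`: `r` is a root of `Φ_p`
modulo `q` and `A(ζ)` generates `(q, ζ - r)`. -/
theorem exists_isPrincipal_primesOver_of_root (q : ℕ) [hq : Fact q.Prime] (r : ℤ)
    (hr : ∑ i ∈ Finset.range p, ((r : ℤ) : ZMod q) ^ i = 0)
    (A B G D E S₁ S₂ : ℤ[X])
    (h1 : A * B = (q : ℤ[X]) + cyclotomic p ℤ * S₁)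
    (h2 : A * G = (X - C r) + cyclotomic p ℤ * S₂)
    (h3 : A = (q : ℤ[X]) * D + (X - C r) * E) :
    ∃ P ∈ primesOver (span {(q : ℤ)}) (𝓞 K), Submodule.IsPrincipal P := by
  refine exists_isPrincipal_primesOver_of_factor p K q (X - C r) A B G D E S₁ S₂ ?_ ?_ ?_ h1 h2 h3
  · simp only [Polynomial.map_sub, Polynomial.map_X, Polynomial.map_C]
    exact irreducible_X_sub_C _
  · simp only [Polynomial.map_sub, Polynomial.map_X, Polynomial.map_C]
    exact monic_X_sub_C _
  · simp only [Polynomial.map_sub, Polynomial.map_X, Polynomial.map_C]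
    rw [dvd_iff_isRoot, map_cyclotomic_int, cyclotomic_prime]
    simp only [IsRoot.def, eval_finsetSum, eval_pow, eval_X, eq_intCast]
    exact hr

/-- The prime above `p` itself is principal. -/
theorem exists_isPrincipal_primesOver_self :
    ∃ P ∈ primesOver (span {(p : ℤ)}) (𝓞 K), Submodule.IsPrincipal P := by
  have : (span {(p : ℤ)}).IsPrime :=
    (Ideal.span_singleton_prime (by exact_mod_cast hp.out.ne_zero)).mpr
      (Nat.prime_iff_prime_int.mp hp.out)
  obtain ⟨⟨P, hP1, hP2⟩⟩ := (span {(p : ℤ)}).nonempty_primesOver (S := 𝓞 K)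
  refine ⟨P, ⟨hP1, hP2⟩, ?_⟩
  rw [eq_span_zeta_sub_one_of_liesOver' p K (IsCyclotomicExtension.zeta_spec p ℚ K) P]
  exact ⟨⟨_, rfl⟩⟩

/-- For a prime `q ≠ p`, every prime above `q` has norm `q ^ f` with `q ^ f ≡ 1 mod p`; so if no
power `q ^ j ≤ B` (`j ≥ 1`) is `≡ 1 mod p`, the norm exceeds `B`. -/
theorem exists_primesOver_lt_pow (q : ℕ) [hq : Fact q.Prime] (hqp : q ≠ p) (B : ℕ)
    (h : ∀ j : ℕ, 0 < j → q ^ j ≤ B → q ^ j % p ≠ 1) :
    ∃ P ∈ primesOver (span {(q : ℤ)}) (𝓞 K), B < q ^ P.inertiaDeg ℤ := by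
  have : (span {(q : ℤ)}).IsPrime :=
    (Ideal.span_singleton_prime (by exact_mod_cast hq.out.ne_zero)).mpr
      (Nat.prime_iff_prime_int.mp hq.out)
  have : NeZero p := ⟨hp.out.ne_zero⟩
  obtain ⟨⟨P, hP1, hP2⟩⟩ := (span {(q : ℤ)}).nonempty_primesOver (S := 𝓞 K)
  refine ⟨P, ⟨hP1, hP2⟩, ?_⟩
  have hndvd : ¬ q ∣ p := fun hdvd =>
    hqp ((Nat.prime_dvd_prime_iff_eq hq.out hp.out).mp hdvd)
  rw [inertiaDeg_eq_of_not_dvd q K P hndvd]
  by_contra hle
  rw [not_lt] at hle
  have hcop : q.Coprime p := (Nat.coprime_primes hq.out hp.out).mpr hqp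
  have hunit : IsUnit (q : ZMod p) := (ZMod.isUnit_iff_coprime q p).mpr hcop
  have hpos : 0 < orderOf (q : ZMod p) := by
    rw [orderOf_pos_iff]
    exact hunit.isOfFinOrder
  have h1 : ((q ^ orderOf (q : ZMod p) : ℕ) : ZMod p) = 1 := by
    push_cast
    exact pow_orderOf_eq_one _
  have h2 : q ^ orderOf (q : ZMod p) % p = 1 := by
    have h3 : ((q ^ orderOf (q : ZMod p) : ℕ) : ZMod p) = ((1 : ℕ) : ZMod p) := by
      rw [h1]; simp
    have h4 := (ZMod.natCast_eq_natCast_iff' _ _ _).mp h3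
    rw [h4]
    exact Nat.mod_eq_of_lt hp.out.one_lt
  exact h _ hpos hle h2

omit hp in
/-- Reduce the unbounded exponent check to a bounded one. -/
theorem pow_mod_ne_one_of_bounded (q B J : ℕ) (hq : 2 ≤ q) (hJ : B < 2 ^ (J + 1))
    (h : ∀ j ∈ Finset.Icc 1 J, q ^ j ≤ B → q ^ j % p ≠ 1) :
    ∀ j : ℕ, 0 < j → q ^ j ≤ B → q ^ j % p ≠ 1 := by
  intro j hj hle
  refine h j (Finset.mem_Icc.mpr ⟨hj, ?_⟩) hle
  by_contra hlt
  rw [not_le] at hlt
  have h1 : 2 ^ (J + 1) ≤ 2 ^ j := Nat.pow_le_pow_right (by norm_num) hlt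
  have h2 : 2 ^ j ≤ q ^ j := Nat.pow_le_pow_left hq j
  omega

end Fermat.Agent.S10.helper93
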