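import Mathlib

/-!
# Kummer route, piece (D-units): toolkit

For a prime `p` and a `p`-th cyclotomic extension `K` of `ℚ` we construct a ring homomorphism
`Φ : 𝓞 K →+* S[ε]`, `S = (ZMod p)[X] / (X ^ (p - 2))`, sending `ζ` to `(1 + x) + ε`, and the
associated logarithmic derivative `L : (𝓞 K)ˣ →* Multiplicative S`, which kills every unit that is
congruent to a rational integer modulo `p`.
-/

set_option autoImplicit false

namespace Fermat.Agent.S10.helper96

open Polynomial NumberField TrivSqZeroExt

noncomputable section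

/-- The truncated polynomial ring `(ZMod p)[X] / (X ^ n)`. -/
def TruncRing (p n : ℕ) : Type := (ZMod p)[X] ⧸ Ideal.span {(X : (ZMod p)[X]) ^ n}

instance instCommRingTruncRing (p n : ℕ) : CommRing (TruncRing p n) :=
  inferInstanceAs (CommRing ((ZMod p)[X] ⧸ Ideal.span {(X : (ZMod p)[X]) ^ n}))

/-- The quotient map `(ZMod p)[X] → (ZMod p)[X] / (X ^ n)`. -/
def qmk (p n : ℕ) : (ZMod p)[X] →+* TruncRing p n :=
  Ideal.Quotient.mk (Ideal.span {(X : (ZMod p)[X]) ^ n})

theorem qmk_eq_zero_iff {p n : ℕ} {f : (ZMod p)[X]} : qmk p n f = 0 ↔ X ^ n ∣ f := by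
  rw [← Ideal.mem_span_singleton]
  exact Ideal.Quotient.eq_zero_iff_mem

/-- The class of a polynomial with integer coefficients in the truncated polynomial ring. -/
def tmk (p n : ℕ) : ℤ[X] →+* TruncRing p n :=
  (qmk p n).comp (Polynomial.mapRingHom (Int.castRingHom (ZMod p)))

theorem tmk_X_pow (p n : ℕ) : tmk p n (X ^ n) = 0 := by
  simp only [tmk, RingHom.comp_apply, coe_mapRingHom, Polynomial.map_pow, map_X]
  exact qmk_eq_zero_iff.mpr dvd_rfl

theorem tmk_natCast_self (p n : ℕ) : tmk p n (p : ℤ[X]) = 0 := by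
  simp only [tmk, RingHom.comp_apply, coe_mapRingHom, Polynomial.map_natCast]
  rw [CharP.cast_eq_zero, map_zero]

theorem natCast_self_truncRing (p n : ℕ) : ((p : ℕ) : TruncRing p n) = 0 := by
  rw [← map_natCast (tmk p n), tmk_natCast_self]

/-- If the class of `F` vanishes in `(ZMod p)[X] / (X ^ n)`, then `p` divides the coefficients of
`F` in degrees `< n`. -/
theorem dvd_coeff_of_tmk_eq_zero {p n : ℕ} {F : ℤ[X]} (h : tmk p n F = 0) {k : ℕ} (hk : k < n) :
    (p : ℤ) ∣ F.coeff k := by
  simp only [tmk, RingHom.comp_apply, coe_mapRingHom] at h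
  rw [qmk_eq_zero_iff, Polynomial.X_pow_dvd_iff] at h
  have := h k hk
  rw [coeff_map, eq_intCast] at this
  exact (ZMod.intCast_zmod_eq_zero_iff_dvd _ _).mp this

theorem aeval_tmk (p n : ℕ) (g f : ℤ[X]) : aeval (tmk p n g) f = tmk p n (f.comp g) := by
  rw [comp, Polynomial.hom_eval₂, aeval_def]
  congr 1
  exact RingHom.ext_int _ _

section DualNumber

variable {S : Type*} [CommRing S]

/-- The logarithmic derivative on the units of the dual numbers. -/
def dlogUnits : (DualNumber S)ˣ →* Multiplicative S where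
  toFun u := Multiplicative.ofAdd (snd (u : DualNumber S) * fst ((u⁻¹ : (DualNumber S)ˣ) : DualNumber S))
  map_one' := by simp
  map_mul' u v := by
    have hu : fst (u : DualNumber S) * fst ((u⁻¹ : (DualNumber S)ˣ) : DualNumber S) = 1 := by
      rw [← fst_mul, Units.mul_inv, fst_one]
    have hv : fst (v : DualNumber S) * fst ((v⁻¹ : (DualNumber S)ˣ) : DualNumber S) = 1 := by
      rw [← fst_mul, Units.mul_inv, fst_one]
    rw [← ofAdd_add]
    congr 1
    simp only [Units.val_mul, mul_inv_rev, DualNumber.snd_mul, fst_mul]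
    linear_combination
      (snd (v : DualNumber S) * fst ((v⁻¹ : (DualNumber S)ˣ) : DualNumber S)) * hu +
      (snd (u : DualNumber S) * fst ((u⁻¹ : (DualNumber S)ˣ) : DualNumber S)) * hv

theorem dlogUnits_apply (u : (DualNumber S)ˣ) :
    Multiplicative.toAdd (dlogUnits u) =
      snd (u : DualNumber S) * fst ((u⁻¹ : (DualNumber S)ˣ) : DualNumber S) := rfl

theorem dlogUnits_eq_of_snd_eq {u : (DualNumber S)ˣ} {w : S}
    (h : snd (u : DualNumber S) = fst (u : DualNumber S) * w) :
    Multiplicative.toAdd (dlogUnits u) = w := by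
  have hu : fst (u : DualNumber S) * fst ((u⁻¹ : (DualNumber S)ˣ) : DualNumber S) = 1 := by
    rw [← fst_mul, Units.mul_inv, fst_one]
  rw [dlogUnits_apply, h]
  linear_combination w * hu

theorem dlogUnits_eq_zero_of_snd_eq_zero {u : (DualNumber S)ˣ}
    (h : snd (u : DualNumber S) = 0) : Multiplicative.toAdd (dlogUnits u) = 0 := by
  rw [dlogUnits_apply, h, zero_mul]

/-- Taylor expansion: evaluating an integer polynomial at `a + ε`. -/
theorem aeval_inl_add_eps (a : S) (f : ℤ[X]) :
    aeval (inl a + DualNumber.eps : DualNumber S) f =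
      inl (aeval a f) + inr (aeval a (derivative f)) := by
  induction f using Polynomial.induction_on' with
  | add f g hf hg =>
    rw [map_add, hf, hg, derivative_add, map_add, map_add, inl_add, inr_add]
    abel
  | monomial n c =>
    rw [aeval_monomial, aeval_monomial, derivative_monomial, aeval_monomial]
    ext
    · simp [fst_pow]
    · simp only [snd_mul, fst_pow, snd_pow, fst_add, fst_inl, DualNumber.fst_eps, add_zero,
        snd_add, snd_inl, DualNumber.snd_eps, zero_add, snd_inr]
      simp [Algebra.smul_def, mul_comm]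
      ring

end DualNumber

section Cyclotomic

variable (p : ℕ) [hp : Fact p.Prime]

/-- The point `(1 + x) + ε` of the dual numbers over `(ZMod p)[X] / (X ^ (p - 2))`. -/
def basePoint : DualNumber (TruncRing p (p - 2)) :=
  inl (tmk p (p - 2) (1 + X)) + DualNumber.eps

theorem aeval_basePoint (f : ℤ[X]) :
    aeval (basePoint p) f =
      inl (tmk p (p - 2) (f.comp (1 + X))) + inr (tmk p (p - 2) ((derivative f).comp (1 + X))) := by
  rw [basePoint, aeval_inl_add_eps, aeval_tmk, aeval_tmk]

theorem map_cyclotomic_zmod : (cyclotomic p ℤ).map (Int.castRingHom (ZMod p)) = (X - 1) ^ (p - 1) := by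
  rw [map_cyclotomic_int]
  have h := cyclotomic_mul_prime_pow_eq (ZMod p) (p := p) (m := 1) hp.out.not_dvd_one
    (k := 1) one_pos
  rwa [pow_one, mul_one, pow_zero, cyclotomic_one] at h

theorem tmk_cyclotomic_comp : tmk p (p - 2) ((cyclotomic p ℤ).comp (1 + X)) = 0 := by
  have h2 : 2 ≤ p := hp.out.two_le
  simp only [tmk, RingHom.comp_apply, coe_mapRingHom, Polynomial.map_comp, Polynomial.map_add,
    Polynomial.map_one, map_X, map_cyclotomic_zmod]
  rw [qmk_eq_zero_iff]
  simp only [pow_comp, sub_comp, one_comp, X_comp, add_sub_cancel_left]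
  exact pow_dvd_pow X (by omega)

theorem tmk_derivative_cyclotomic_comp :
    tmk p (p - 2) ((derivative (cyclotomic p ℤ)).comp (1 + X)) = 0 := by
  have h2 : 2 ≤ p := hp.out.two_le
  simp only [tmk, RingHom.comp_apply, coe_mapRingHom, Polynomial.map_comp, Polynomial.map_add,
    Polynomial.map_one, map_X]
  rw [← Polynomial.derivative_map, map_cyclotomic_zmod]
  rw [qmk_eq_zero_iff]
  simp only [derivative_pow, derivative_sub, derivative_X, derivative_one, sub_zero, mul_one,
    mul_comp, pow_comp, sub_comp, one_comp, X_comp, add_sub_cancel_left]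
  rw [show p - 1 - 1 = p - 2 by omega]
  exact Dvd.intro_left _ rfl

theorem aeval_basePoint_cyclotomic : aeval (basePoint p) (cyclotomic p ℤ) = 0 := by
  rw [aeval_basePoint, tmk_cyclotomic_comp, tmk_derivative_cyclotomic_comp, inl_zero, inr_zero,
    add_zero]

variable (K : Type*) [Field K] [NumberField K] [IsCyclotomicExtension {p} ℚ K]

/-- The chosen primitive `p`-th root of unity in `𝓞 K`. -/
def zetaInt : 𝓞 K := (IsCyclotomicExtension.zeta_spec p ℚ K).toInteger

theorem zetaInt_isPrimitiveRoot : IsPrimitiveRoot (zetaInt p K) p :=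
  (IsCyclotomicExtension.zeta_spec p ℚ K).toInteger_isPrimitiveRoot

theorem minpoly_zetaInt : minpoly ℤ (zetaInt p K) = cyclotomic p ℤ := by
  rw [zetaInt, ← RingOfIntegers.minpoly_coe]
  exact (cyclotomic_eq_minpoly (IsCyclotomicExtension.zeta_spec p ℚ K) hp.out.pos).symm

theorem integralPowerBasis_gen_eq :
    (IsCyclotomicExtension.zeta_spec p ℚ K).integralPowerBasis.gen = zetaInt p K :=
  IsPrimitiveRoot.integralPowerBasis_gen _

theorem aeval_basePoint_minpoly :
    aeval (basePoint p)
      (minpoly ℤ (IsCyclotomicExtension.zeta_spec p ℚ K).integralPowerBasis.gen) = 0 := by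
  rw [integralPowerBasis_gen_eq, minpoly_zetaInt, aeval_basePoint_cyclotomic]

/-- The ring homomorphism `𝓞 K → S[ε]` sending `ζ` to `(1 + x) + ε`. -/
def dualHom : 𝓞 K →ₐ[ℤ] DualNumber (TruncRing p (p - 2)) :=
  (IsCyclotomicExtension.zeta_spec p ℚ K).integralPowerBasis.lift (basePoint p)
    (aeval_basePoint_minpoly p K)

theorem dualHom_aeval (f : ℤ[X]) :
    dualHom p K (aeval (zetaInt p K) f) =
      inl (tmk p (p - 2) (f.comp (1 + X))) + inr (tmk p (p - 2) ((derivative f).comp (1 + X))) := by
  rw [← aeval_basePoint, ← integralPowerBasis_gen_eq]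
  exact PowerBasis.lift_aeval _ _ _ f

theorem dualHom_natCast_self : dualHom p K ((p : ℕ) : 𝓞 K) = 0 := by
  rw [map_natCast]
  ext
  · rw [fst_natCast, fst_zero, natCast_self_truncRing]
  · rw [snd_natCast, snd_zero]

/-- The logarithmic derivative `(𝓞 K)ˣ → (ZMod p)[X] / (X ^ (p - 2))`. -/
def unitLog : (𝓞 K)ˣ →* Multiplicative (TruncRing p (p - 2)) :=
  dlogUnits.comp (Units.map (dualHom p K : 𝓞 K →* DualNumber (TruncRing p (p - 2))))

/-- The logarithmic derivative kills the units congruent to a rational integer modulo `p`. -/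
theorem unitLog_eq_zero_of_congr (u : (𝓞 K)ˣ)
    (h : ∃ n : ℤ, ((p : ℕ) : 𝓞 K) ∣ (u : 𝓞 K) - n) :
    Multiplicative.toAdd (unitLog p K u) = 0 := by
  obtain ⟨n, c, hc⟩ := h
  have hu : (u : 𝓞 K) = n + (p : 𝓞 K) * c := by rw [← hc]; ring
  apply dlogUnits_eq_zero_of_snd_eq_zero
  rw [Units.coe_map, MonoidHom.coe_coe, hu, map_add, map_mul, dualHom_natCast_self, zero_mul,
    add_zero, map_intCast, snd_intCast]

/-- Certificate lemma: computing the logarithmic derivative of an explicit unit. -/
theorem unitLog_eq_of_cert (u : (𝓞 K)ˣ) (f V Vd W C D : ℤ[X])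
    (hu : (u : 𝓞 K) = aeval (zetaInt p K) f)
    (hV : f.comp (1 + X) = V) (hVd : (derivative f).comp (1 + X) = Vd)
    (hcert : Vd - V * W = X ^ (p - 2) * C + (p : ℤ[X]) * D) :
    Multiplicative.toAdd (unitLog p K u) = tmk p (p - 2) W := by
  apply dlogUnits_eq_of_snd_eq
  rw [Units.coe_map, MonoidHom.coe_coe, hu, dualHom_aeval, hV, hVd]
  simp only [snd_add, snd_inl, snd_inr, zero_add, fst_add, fst_inl, fst_inr, add_zero]
  have h : Vd = V * W + X ^ (p - 2) * C + (p : ℤ[X]) * D := by linear_combination hcert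
  rw [h, map_add, map_add, map_mul, map_mul, map_mul, tmk_X_pow, tmk_natCast_self, zero_mul,
    zero_mul, add_zero, add_zero]

end Cyclotomic

end

end Fermat.Agent.S10.helper96
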