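import Fermat.Agent.S10.helper96_Units

/-!
# Kummer route, piece (D-units): explicit independent units for `p = 11`

Generated certificates; see `helper96_Units.lean` for the method.
-/

set_option autoImplicit false

namespace Fermat.Agent.S10.helper96

open Polynomial NumberField

noncomputable section

/-- `11` is prime, as a `Fact`. -/
theorem factPrimeEleven : Fact (Nat.Prime 11) := ⟨by norm_num⟩

attribute [local instance] factPrimeEleven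

variable (K : Type*) [Field K] [NumberField K] [IsCyclotomicExtension {11} ℚ K]

/-- The unit `ζ`. -/
def unit11_0 : (𝓞 K)ˣ := ((zetaInt_isPrimitiveRoot 11 K).isUnit (by norm_num)).unit

/-- The cyclotomic unit `1 + ζ + ⋯ + ζ ^ 1`. -/
def unit11_1 : (𝓞 K)ˣ :=
  ((zetaInt_isPrimitiveRoot 11 K).geom_sum_isUnit (by norm_num)
    (by norm_num : Nat.Coprime 2 11)).unit

/-- The cyclotomic unit `1 + ζ + ⋯ + ζ ^ 2`. -/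
def unit11_2 : (𝓞 K)ˣ :=
  ((zetaInt_isPrimitiveRoot 11 K).geom_sum_isUnit (by norm_num)
    (by norm_num : Nat.Coprime 3 11)).unit

/-- The cyclotomic unit `1 + ζ + ⋯ + ζ ^ 3`. -/
def unit11_3 : (𝓞 K)ˣ :=
  ((zetaInt_isPrimitiveRoot 11 K).geom_sum_isUnit (by norm_num)
    (by norm_num : Nat.Coprime 4 11)).unit

/-- The cyclotomic unit `1 + ζ + ⋯ + ζ ^ 4`. -/
def unit11_4 : (𝓞 K)ˣ :=
  ((zetaInt_isPrimitiveRoot 11 K).geom_sum_isUnit (by norm_num)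
    (by norm_num : Nat.Coprime 5 11)).unit

theorem unitLog_unit11_0 :
    Multiplicative.toAdd (unitLog 11 K (unit11_0 K)) =
      tmk 11 9 (1 - X + X ^ 2 - X ^ 3 + X ^ 4 - X ^ 5 + X ^ 6 - X ^ 7 + X ^ 8) :=
  unitLog_eq_of_cert 11 K _ (X) (1 + X) (1)
    (1 - X + X ^ 2 - X ^ 3 + X ^ 4 - X ^ 5 + X ^ 6 - X ^ 7 + X ^ 8)
    (-1)
    (0)
    (by simp [unit11_0])
    (by simp; try ring) (by simp; try ring)
    (show ((1) - (1 + X) * (1 - X + X ^ 2 - X ^ 3 + X ^ 4 - X ^ 5 + X ^ 6 - X ^ 7 + X ^ 8) : ℤ[X]) =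
        X ^ 9 * (-1) + 11 * (0) by ring)

theorem unitLog_unit11_1 :
    Multiplicative.toAdd (unitLog 11 K (unit11_1 K)) =
      tmk 11 9 (-5 - 3 * X - 4 * X ^ 2 + 2 * X ^ 3 - X ^ 4 - 5 * X ^ 5 - 3 * X ^ 6 - 4 * X ^ 7 + 2 * X ^ 8) :=
  unitLog_eq_of_cert 11 K _ (1 + X) (2 + X) (1)
    (-5 - 3 * X - 4 * X ^ 2 + 2 * X ^ 3 - X ^ 4 - 5 * X ^ 5 - 3 * X ^ 6 - 4 * X ^ 7 + 2 * X ^ 8)
    (-2)
    (1 + X + X ^ 2 + X ^ 5 + X ^ 6 + X ^ 7)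
    (by simp [unit11_1, Finset.sum_range_succ])
    (by simp; try ring) (by simp; try ring)
    (show ((1) - (2 + X) * (-5 - 3 * X - 4 * X ^ 2 + 2 * X ^ 3 - X ^ 4 - 5 * X ^ 5 - 3 * X ^ 6 - 4 * X ^ 7 + 2 * X ^ 8) : ℤ[X]) =
        X ^ 9 * (-2) + 11 * (1 + X + X ^ 2 + X ^ 5 + X ^ 6 + X ^ 7) by ring)

theorem unitLog_unit11_2 :
    Multiplicative.toAdd (unitLog 11 K (unit11_2 K)) =
      tmk 11 9 (1 - 4 * X + 5 * X ^ 3 - 5 * X ^ 4 - 4 * X ^ 5 + 2 * X ^ 6 + 3 * X ^ 7) :=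
  unitLog_eq_of_cert 11 K _ (1 + X + X ^ 2) (3 + 3 * X + X ^ 2) (3 + 2 * X)
    (1 - 4 * X + 5 * X ^ 3 - 5 * X ^ 4 - 4 * X ^ 5 + 2 * X ^ 6 + 3 * X ^ 7)
    (-3)
    (X + X ^ 2 - X ^ 3 + 2 * X ^ 5 + X ^ 6 - X ^ 7 - X ^ 8)
    (by simp [unit11_2, Finset.sum_range_succ])
    (by simp; try ring) (by simp; try ring)
    (show ((3 + 2 * X) - (3 + 3 * X + X ^ 2) * (1 - 4 * X + 5 * X ^ 3 - 5 * X ^ 4 - 4 * X ^ 5 + 2 * X ^ 6 + 3 * X ^ 7) : ℤ[X]) =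
        X ^ 9 * (-3) + 11 * (X + X ^ 2 - X ^ 3 + 2 * X ^ 5 + X ^ 6 - X ^ 7 - X ^ 8) by ring)

theorem unitLog_unit11_3 :
    Multiplicative.toAdd (unitLog 11 K (unit11_3 K)) =
      tmk 11 9 (-4 - 3 * X + X ^ 2 - 3 * X ^ 3 - 4 * X ^ 4 - 5 * X ^ 5 + 4 * X ^ 6) :=
  unitLog_eq_of_cert 11 K _ (1 + X + X ^ 2 + X ^ 3) (4 + 6 * X + 4 * X ^ 2 + X ^ 3) (6 + 8 * X + 3 * X ^ 2)
    (-4 - 3 * X + X ^ 2 - 3 * X ^ 3 - 4 * X ^ 4 - 5 * X ^ 5 + 4 * X ^ 6)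
    (-4)
    (2 + 4 * X + 3 * X ^ 2 + 2 * X ^ 3 + 3 * X ^ 4 + 5 * X ^ 5 + 3 * X ^ 6 - X ^ 8)
    (by simp [unit11_3, Finset.sum_range_succ])
    (by simp; try ring) (by simp; try ring)
    (show ((6 + 8 * X + 3 * X ^ 2) - (4 + 6 * X + 4 * X ^ 2 + X ^ 3) * (-4 - 3 * X + X ^ 2 - 3 * X ^ 3 - 4 * X ^ 4 - 5 * X ^ 5 + 4 * X ^ 6) : ℤ[X]) =
        X ^ 9 * (-4) + 11 * (2 + 4 * X + 3 * X ^ 2 + 2 * X ^ 3 + 3 * X ^ 4 + 5 * X ^ 5 + 3 * X ^ 6 - X ^ 8) by ring)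

theorem unitLog_unit11_4 :
    Multiplicative.toAdd (unitLog 11 K (unit11_4 K)) =
      tmk 11 9 (2 - X ^ 2 + 3 * X ^ 3 - 5 * X ^ 5 + 5 * X ^ 6 - 5 * X ^ 7 + 5 * X ^ 8) :=
  unitLog_eq_of_cert 11 K _ (1 + X + X ^ 2 + X ^ 3 + X ^ 4) (5 + 10 * X + 10 * X ^ 2 + 5 * X ^ 3 + X ^ 4) (10 + 20 * X + 15 * X ^ 2 + 4 * X ^ 3)
    (2 - X ^ 2 + 3 * X ^ 3 - 5 * X ^ 5 + 5 * X ^ 6 - 5 * X ^ 7 + 5 * X ^ 8)
    (-20 - 30 * X - 20 * X ^ 2 - 5 * X ^ 3)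
    (-X ^ 3 - 2 * X ^ 4 + X ^ 6 + 2 * X ^ 7)
    (by simp [unit11_4, Finset.sum_range_succ])
    (by simp; try ring) (by simp; try ring)
    (show ((10 + 20 * X + 15 * X ^ 2 + 4 * X ^ 3) - (5 + 10 * X + 10 * X ^ 2 + 5 * X ^ 3 + X ^ 4) * (2 - X ^ 2 + 3 * X ^ 3 - 5 * X ^ 5 + 5 * X ^ 6 - 5 * X ^ 7 + 5 * X ^ 8) : ℤ[X]) =
        X ^ 9 * (-20 - 30 * X - 20 * X ^ 2 - 5 * X ^ 3) + 11 * (-X ^ 3 - 2 * X ^ 4 + X ^ 6 + 2 * X ^ 7) by ring)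

/-- The family of units for `p = 11`. -/
def units11 : Fin ((11 - 1) / 2) → (𝓞 K)ˣ :=
  ![unit11_0 K, unit11_1 K, unit11_2 K, unit11_3 K, unit11_4 K]

theorem indep11 (e : Fin ((11 - 1) / 2) → ℤ)
    (h : ∃ n : ℤ, ((11 : ℕ) : 𝓞 K) ∣ ((∏ i, units11 K i ^ e i : (𝓞 K)ˣ) : 𝓞 K) - n) :
    ∀ i, ((11 : ℕ) : ℤ) ∣ e i := by
  have h0 := unitLog_eq_zero_of_congr 11 K _ h
  rw [show (∏ i, units11 K i ^ e i) = unit11_0 K ^ e 0 * unit11_1 K ^ e 1 * unit11_2 K ^ e 2 * unit11_3 K ^ e 3 * unit11_4 K ^ e 4 from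
    Fin.prod_univ_five _] at h0
  simp only [map_mul, map_zpow, toAdd_mul, toAdd_zpow, unitLog_unit11_0, unitLog_unit11_1, unitLog_unit11_2, unitLog_unit11_3, unitLog_unit11_4,
    zsmul_eq_mul] at h0
  simp only [← map_intCast (tmk 11 9), ← map_mul, ← map_add] at h0
  have c0 := dvd_coeff_of_tmk_eq_zero h0 (k := 0) (by norm_num)
  have c1 := dvd_coeff_of_tmk_eq_zero h0 (k := 1) (by norm_num)
  have c2 := dvd_coeff_of_tmk_eq_zero h0 (k := 2) (by norm_num)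
  have c3 := dvd_coeff_of_tmk_eq_zero h0 (k := 3) (by norm_num)
  have c4 := dvd_coeff_of_tmk_eq_zero h0 (k := 4) (by norm_num)
  have c5 := dvd_coeff_of_tmk_eq_zero h0 (k := 5) (by norm_num)
  have c6 := dvd_coeff_of_tmk_eq_zero h0 (k := 6) (by norm_num)
  have c7 := dvd_coeff_of_tmk_eq_zero h0 (k := 7) (by norm_num)
  have c8 := dvd_coeff_of_tmk_eq_zero h0 (k := 8) (by norm_num)
  simp [coeff_one, coeff_X, coeff_X_pow] at c0 c1 c2 c3 c4 c5 c6 c7 c8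
  have key : (11 : ℤ) ∣ e 0 ∧ (11 : ℤ) ∣ e 1 ∧ (11 : ℤ) ∣ e 2 ∧ (11 : ℤ) ∣ e 3 ∧ (11 : ℤ) ∣ e 4 := by
    generalize e 0 = x0 at c0 c1 c2 c3 c4 c5 c6 c7 c8
    generalize e 1 = x1 at c0 c1 c2 c3 c4 c5 c6 c7 c8
    generalize e 2 = x2 at c0 c1 c2 c3 c4 c5 c6 c7 c8
    generalize e 3 = x3 at c0 c1 c2 c3 c4 c5 c6 c7 c8
    generalize e 4 = x4 at c0 c1 c2 c3 c4 c5 c6 c7 c8
    obtain ⟨m0, hm0⟩ := c0
    obtain ⟨m1, hm1⟩ := c1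
    obtain ⟨m2, hm2⟩ := c2
    obtain ⟨m3, hm3⟩ := c3
    obtain ⟨m4, hm4⟩ := c4
    obtain ⟨m5, hm5⟩ := c5
    obtain ⟨m6, hm6⟩ := c6
    obtain ⟨m7, hm7⟩ := c7
    obtain ⟨m8, hm8⟩ := c8
    exact ⟨⟨(-2) * m0 + (1) * m1 + (-2) * m3 + (-2) * m7 - ((1) * x1 + (-2) * x2 + (1) * x3), by linear_combination (-2) * hm0 + (1) * hm1 + (-2) * hm3 + (-2) * hm7⟩,
      ⟨(-5) * m0 + (-3) * m1 + (-3) * m5 + (1) * m7 - ((4) * x1 + (2) * x2 + (4) * x3), by linear_combination (-5) * hm0 + (-3) * hm1 + (-3) * hm5 + (1) * hm7⟩,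
      ⟨(-4) * m0 + (-4) * m1 + (1) * m3 + (5) * m5 + (5) * m7 - ((-1) * x0 + (-1) * x1 + (1) * x2 + (-5) * x4), by linear_combination (-4) * hm0 + (-4) * hm1 + (1) * hm3 + (5) * hm5 + (5) * hm7⟩,
      ⟨(4) * m1 + (3) * m3 + (4) * m7 - ((-1) * x0 + (-2) * x1 + (1) * x2 + (-2) * x3 + (-1) * x4), by linear_combination (4) * hm1 + (3) * hm3 + (4) * hm7⟩,
      ⟨(2) * m0 + (2) * m1 + (1) * m3 + (1) * m5 + (-2) * m7 - ((-1) * x1 + (-1) * x2 + (-2) * x3 + (1) * x4), by linear_combination (2) * hm0 + (2) * hm1 + (1) * hm3 + (1) * hm5 + (-2) * hm7⟩⟩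
  intro i
  fin_cases i
  · exact key.1
  · exact key.2.1
  · exact key.2.2.1
  · exact key.2.2.2.1
  · exact key.2.2.2.2

end

end Fermat.Agent.S10.helper96
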