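import Fermat.Agent.S10.helper96_Units

/-!
# Kummer route, piece (D-units): explicit independent units for `p = 13`

Generated certificates; see `helper96_Units.lean` for the method.
-/

set_option autoImplicit false

namespace Fermat.Agent.S10.helper96

open Polynomial NumberField

noncomputable section

/-- `13` is prime, as a `Fact`. -/
theorem factPrimeThirteen : Fact (Nat.Prime 13) := ⟨by norm_num⟩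

attribute [local instance] factPrimeThirteen

variable (K : Type*) [Field K] [NumberField K] [IsCyclotomicExtension {13} ℚ K]

/-- The unit `ζ`. -/
def unit13_0 : (𝓞 K)ˣ := ((zetaInt_isPrimitiveRoot 13 K).isUnit (by norm_num)).unit

/-- The cyclotomic unit `1 + ζ + ⋯ + ζ ^ 1`. -/
def unit13_1 : (𝓞 K)ˣ :=
  ((zetaInt_isPrimitiveRoot 13 K).geom_sum_isUnit (by norm_num)
    (by norm_num : Nat.Coprime 2 13)).unit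

/-- The cyclotomic unit `1 + ζ + ⋯ + ζ ^ 2`. -/
def unit13_2 : (𝓞 K)ˣ :=
  ((zetaInt_isPrimitiveRoot 13 K).geom_sum_isUnit (by norm_num)
    (by norm_num : Nat.Coprime 3 13)).unit

/-- The cyclotomic unit `1 + ζ + ⋯ + ζ ^ 3`. -/
def unit13_3 : (𝓞 K)ˣ :=
  ((zetaInt_isPrimitiveRoot 13 K).geom_sum_isUnit (by norm_num)
    (by norm_num : Nat.Coprime 4 13)).unit

/-- The cyclotomic unit `1 + ζ + ⋯ + ζ ^ 4`. -/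
def unit13_4 : (𝓞 K)ˣ :=
  ((zetaInt_isPrimitiveRoot 13 K).geom_sum_isUnit (by norm_num)
    (by norm_num : Nat.Coprime 5 13)).unit

/-- The cyclotomic unit `1 + ζ + ⋯ + ζ ^ 5`. -/
def unit13_5 : (𝓞 K)ˣ :=
  ((zetaInt_isPrimitiveRoot 13 K).geom_sum_isUnit (by norm_num)
    (by norm_num : Nat.Coprime 6 13)).unit

theorem unitLog_unit13_0 :
    Multiplicative.toAdd (unitLog 13 K (unit13_0 K)) =
      tmk 13 11 (1 - X + X ^ 2 - X ^ 3 + X ^ 4 - X ^ 5 + X ^ 6 - X ^ 7 + X ^ 8 - X ^ 9 + X ^ 10) :=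
  unitLog_eq_of_cert 13 K _ (X) (1 + X) (1)
    (1 - X + X ^ 2 - X ^ 3 + X ^ 4 - X ^ 5 + X ^ 6 - X ^ 7 + X ^ 8 - X ^ 9 + X ^ 10)
    (-1)
    (0)
    (by simp [unit13_0])
    (by simp; try ring) (by simp; try ring)
    (show ((1) - (1 + X) * (1 - X + X ^ 2 - X ^ 3 + X ^ 4 - X ^ 5 + X ^ 6 - X ^ 7 + X ^ 8 - X ^ 9 + X ^ 10) : ℤ[X]) =
        X ^ 11 * (-1) + 13 * (0) by ring)

theorem unitLog_unit13_1 :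
    Multiplicative.toAdd (unitLog 13 K (unit13_1 K)) =
      tmk 13 11 (-6 + 3 * X + 5 * X ^ 2 + 4 * X ^ 3 - 2 * X ^ 4 + X ^ 5 + 6 * X ^ 6 - 3 * X ^ 7 - 5 * X ^ 8 - 4 * X ^ 9 + 2 * X ^ 10) :=
  unitLog_eq_of_cert 13 K _ (1 + X) (2 + X) (1)
    (-6 + 3 * X + 5 * X ^ 2 + 4 * X ^ 3 - 2 * X ^ 4 + X ^ 5 + 6 * X ^ 6 - 3 * X ^ 7 - 5 * X ^ 8 - 4 * X ^ 9 + 2 * X ^ 10)
    (-2)
    (1 - X ^ 2 - X ^ 3 - X ^ 6 + X ^ 8 + X ^ 9)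
    (by simp [unit13_1, Finset.sum_range_succ])
    (by simp; try ring) (by simp; try ring)
    (show ((1) - (2 + X) * (-6 + 3 * X + 5 * X ^ 2 + 4 * X ^ 3 - 2 * X ^ 4 + X ^ 5 + 6 * X ^ 6 - 3 * X ^ 7 - 5 * X ^ 8 - 4 * X ^ 9 + 2 * X ^ 10) : ℤ[X]) =
        X ^ 11 * (-2) + 13 * (1 - X ^ 2 - X ^ 3 - X ^ 6 + X ^ 8 + X ^ 9) by ring)

theorem unitLog_unit13_2 :
    Multiplicative.toAdd (unitLog 13 K (unit13_2 K)) =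
      tmk 13 11 (1 + 4 * X + 3 * X ^ 3 - 3 * X ^ 4 + 2 * X ^ 5 - X ^ 6 - 4 * X ^ 7 - 3 * X ^ 9 + 3 * X ^ 10) :=
  unitLog_eq_of_cert 13 K _ (1 + X + X ^ 2) (3 + 3 * X + X ^ 2) (3 + 2 * X)
    (1 + 4 * X + 3 * X ^ 3 - 3 * X ^ 4 + 2 * X ^ 5 - X ^ 6 - 4 * X ^ 7 - 3 * X ^ 9 + 3 * X ^ 10)
    (-6 - 3 * X)
    (-X - X ^ 2 - X ^ 3 + X ^ 7 + X ^ 8 + X ^ 9)
    (by simp [unit13_2, Finset.sum_range_succ])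
    (by simp; try ring) (by simp; try ring)
    (show ((3 + 2 * X) - (3 + 3 * X + X ^ 2) * (1 + 4 * X + 3 * X ^ 3 - 3 * X ^ 4 + 2 * X ^ 5 - X ^ 6 - 4 * X ^ 7 - 3 * X ^ 9 + 3 * X ^ 10) : ℤ[X]) =
        X ^ 11 * (-6 - 3 * X) + 13 * (-X - X ^ 2 - X ^ 3 + X ^ 7 + X ^ 8 + X ^ 9) by ring)

theorem unitLog_unit13_3 :
    Multiplicative.toAdd (unitLog 13 K (unit13_3 K)) =
      tmk 13 11 (-5 + 3 * X - 2 * X ^ 2 - 2 * X ^ 3 + X ^ 4 + X ^ 5 - 2 * X ^ 6 + 5 * X ^ 7 + 4 * X ^ 8 - 4 * X ^ 9 + 4 * X ^ 10) :=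
  unitLog_eq_of_cert 13 K _ (1 + X + X ^ 2 + X ^ 3) (4 + 6 * X + 4 * X ^ 2 + X ^ 3) (6 + 8 * X + 3 * X ^ 2)
    (-5 + 3 * X - 2 * X ^ 2 - 2 * X ^ 3 + X ^ 4 + X ^ 5 - 2 * X ^ 6 + 5 * X ^ 7 + 4 * X ^ 8 - 4 * X ^ 9 + 4 * X ^ 10)
    (-12 - 12 * X - 4 * X ^ 2)
    (2 + 2 * X + X ^ 2 + X ^ 3 + X ^ 4 - X ^ 7 - 3 * X ^ 8 - 2 * X ^ 9 - X ^ 10)
    (by simp [unit13_3, Finset.sum_range_succ])
    (by simp; try ring) (by simp; try ring)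
    (show ((6 + 8 * X + 3 * X ^ 2) - (4 + 6 * X + 4 * X ^ 2 + X ^ 3) * (-5 + 3 * X - 2 * X ^ 2 - 2 * X ^ 3 + X ^ 4 + X ^ 5 - 2 * X ^ 6 + 5 * X ^ 7 + 4 * X ^ 8 - 4 * X ^ 9 + 4 * X ^ 10) : ℤ[X]) =
        X ^ 11 * (-12 - 12 * X - 4 * X ^ 2) + 13 * (2 + 2 * X + X ^ 2 + X ^ 3 + X ^ 4 - X ^ 7 - 3 * X ^ 8 - 2 * X ^ 9 - X ^ 10) by ring)

theorem unitLog_unit13_4 :
    Multiplicative.toAdd (unitLog 13 K (unit13_4 K)) =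
      tmk 13 11 (2 - X ^ 2 + 6 * X ^ 3 + 2 * X ^ 5 - 2 * X ^ 6 + 4 * X ^ 7 - 6 * X ^ 8 + 3 * X ^ 9 + 5 * X ^ 10) :=
  unitLog_eq_of_cert 13 K _ (1 + X + X ^ 2 + X ^ 3 + X ^ 4) (5 + 10 * X + 10 * X ^ 2 + 5 * X ^ 3 + X ^ 4) (10 + 20 * X + 15 * X ^ 2 + 4 * X ^ 3)
    (2 - X ^ 2 + 6 * X ^ 3 + 2 * X ^ 5 - 2 * X ^ 6 + 4 * X ^ 7 - 6 * X ^ 8 + 3 * X ^ 9 + 5 * X ^ 10)
    (-54 - 59 * X - 28 * X ^ 2 - 5 * X ^ 3)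
    (-2 * X ^ 3 - 4 * X ^ 4 - 5 * X ^ 5 - 3 * X ^ 6 - 2 * X ^ 7 + X ^ 9 - X ^ 10)
    (by simp [unit13_4, Finset.sum_range_succ])
    (by simp; try ring) (by simp; try ring)
    (show ((10 + 20 * X + 15 * X ^ 2 + 4 * X ^ 3) - (5 + 10 * X + 10 * X ^ 2 + 5 * X ^ 3 + X ^ 4) * (2 - X ^ 2 + 6 * X ^ 3 + 2 * X ^ 5 - 2 * X ^ 6 + 4 * X ^ 7 - 6 * X ^ 8 + 3 * X ^ 9 + 5 * X ^ 10) : ℤ[X]) =
        X ^ 11 * (-54 - 59 * X - 28 * X ^ 2 - 5 * X ^ 3) + 13 * (-2 * X ^ 3 - 4 * X ^ 4 - 5 * X ^ 5 - 3 * X ^ 6 - 2 * X ^ 7 + X ^ 9 - X ^ 10) by ring)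

theorem unitLog_unit13_5 :
    Multiplicative.toAdd (unitLog 13 K (unit13_5 K)) =
      tmk 13 11 (-4 - 5 * X + 3 * X ^ 2 - 5 * X ^ 3 - 4 * X ^ 4 + X ^ 5 + 6 * X ^ 6 - 6 * X ^ 7 + 6 * X ^ 8 - 6 * X ^ 9 + 6 * X ^ 10) :=
  unitLog_eq_of_cert 13 K _ (1 + X + X ^ 2 + X ^ 3 + X ^ 4 + X ^ 5) (6 + 15 * X + 20 * X ^ 2 + 15 * X ^ 3 + 6 * X ^ 4 + X ^ 5) (15 + 40 * X + 45 * X ^ 2 + 24 * X ^ 3 + 5 * X ^ 4)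
    (-4 - 5 * X + 3 * X ^ 2 - 5 * X ^ 3 - 4 * X ^ 4 + X ^ 5 + 6 * X ^ 6 - 6 * X ^ 7 + 6 * X ^ 8 - 6 * X ^ 9 + 6 * X ^ 10)
    (-30 - 60 * X - 60 * X ^ 2 - 30 * X ^ 3 - 6 * X ^ 4)
    (3 + 10 * X + 14 * X ^ 2 + 13 * X ^ 3 + 11 * X ^ 4 + 11 * X ^ 5 + 7 * X ^ 6 + X ^ 7 - 4 * X ^ 8 - 2 * X ^ 9 - X ^ 10)
    (by simp [unit13_5, Finset.sum_range_succ])
    (by simp; try ring) (by simp; try ring)
    (show ((15 + 40 * X + 45 * X ^ 2 + 24 * X ^ 3 + 5 * X ^ 4) - (6 + 15 * X + 20 * X ^ 2 + 15 * X ^ 3 + 6 * X ^ 4 + X ^ 5) * (-4 - 5 * X + 3 * X ^ 2 - 5 * X ^ 3 - 4 * X ^ 4 + X ^ 5 + 6 * X ^ 6 - 6 * X ^ 7 + 6 * X ^ 8 - 6 * X ^ 9 + 6 * X ^ 10) : ℤ[X]) =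
        X ^ 11 * (-30 - 60 * X - 60 * X ^ 2 - 30 * X ^ 3 - 6 * X ^ 4) + 13 * (3 + 10 * X + 14 * X ^ 2 + 13 * X ^ 3 + 11 * X ^ 4 + 11 * X ^ 5 + 7 * X ^ 6 + X ^ 7 - 4 * X ^ 8 - 2 * X ^ 9 - X ^ 10) by ring)

/-- The family of units for `p = 13`. -/
def units13 : Fin ((13 - 1) / 2) → (𝓞 K)ˣ :=
  ![unit13_0 K, unit13_1 K, unit13_2 K, unit13_3 K, unit13_4 K, unit13_5 K]

theorem indep13 (e : Fin ((13 - 1) / 2) → ℤ)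
    (h : ∃ n : ℤ, ((13 : ℕ) : 𝓞 K) ∣ ((∏ i, units13 K i ^ e i : (𝓞 K)ˣ) : 𝓞 K) - n) :
    ∀ i, ((13 : ℕ) : ℤ) ∣ e i := by
  have h0 := unitLog_eq_zero_of_congr 13 K _ h
  rw [show (∏ i, units13 K i ^ e i) = unit13_0 K ^ e 0 * unit13_1 K ^ e 1 * unit13_2 K ^ e 2 * unit13_3 K ^ e 3 * unit13_4 K ^ e 4 * unit13_5 K ^ e 5 from
    Fin.prod_univ_six _] at h0
  simp only [map_mul, map_zpow, toAdd_mul, toAdd_zpow, unitLog_unit13_0, unitLog_unit13_1, unitLog_unit13_2, unitLog_unit13_3, unitLog_unit13_4, unitLog_unit13_5,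
    zsmul_eq_mul] at h0
  simp only [← map_intCast (tmk 13 11), ← map_mul, ← map_add] at h0
  have c0 := dvd_coeff_of_tmk_eq_zero h0 (k := 0) (by norm_num)
  have c1 := dvd_coeff_of_tmk_eq_zero h0 (k := 1) (by norm_num)
  have c2 := dvd_coeff_of_tmk_eq_zero h0 (k := 2) (by norm_num)
  have c3 := dvd_coeff_of_tmk_eq_zero h0 (k := 3) (by norm_num)
  have c4 := dvd_coeff_of_tmk_eq_zero h0 (k := 4) (by norm_num)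
  have c5 := dvd_coeff_of_tmk_eq_zero h0 (k := 5) (by norm_num)
  have c6 := dvd_coeff_of_tmk_eq_zero h0 (k := 6) (by norm_num)
  have c7 := dvd_coeff_of_tmk_eq_zero h0 (k := 7) (by norm_num)
  have c8 := dvd_coeff_of_tmk_eq_zero h0 (k := 8) (by norm_num)
  have c9 := dvd_coeff_of_tmk_eq_zero h0 (k := 9) (by norm_num)
  have c10 := dvd_coeff_of_tmk_eq_zero h0 (k := 10) (by norm_num)
  simp [coeff_one, coeff_X, coeff_X_pow] at c0 c1 c2 c3 c4 c5 c6 c7 c8 c9 c10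
  have key : (13 : ℤ) ∣ e 0 ∧ (13 : ℤ) ∣ e 1 ∧ (13 : ℤ) ∣ e 2 ∧ (13 : ℤ) ∣ e 3 ∧ (13 : ℤ) ∣ e 4 ∧ (13 : ℤ) ∣ e 5 := by
    generalize e 0 = x0 at c0 c1 c2 c3 c4 c5 c6 c7 c8 c9 c10
    generalize e 1 = x1 at c0 c1 c2 c3 c4 c5 c6 c7 c8 c9 c10
    generalize e 2 = x2 at c0 c1 c2 c3 c4 c5 c6 c7 c8 c9 c10
    generalize e 3 = x3 at c0 c1 c2 c3 c4 c5 c6 c7 c8 c9 c10
    generalize e 4 = x4 at c0 c1 c2 c3 c4 c5 c6 c7 c8 c9 c10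
    generalize e 5 = x5 at c0 c1 c2 c3 c4 c5 c6 c7 c8 c9 c10
    obtain ⟨m0, hm0⟩ := c0
    obtain ⟨m1, hm1⟩ := c1
    obtain ⟨m2, hm2⟩ := c2
    obtain ⟨m3, hm3⟩ := c3
    obtain ⟨m4, hm4⟩ := c4
    obtain ⟨m5, hm5⟩ := c5
    obtain ⟨m6, hm6⟩ := c6
    obtain ⟨m7, hm7⟩ := c7
    obtain ⟨m8, hm8⟩ := c8
    obtain ⟨m9, hm9⟩ := c9
    obtain ⟨m10, hm10⟩ := c10
    exact ⟨⟨(1) * m0 + (3) * m1 + (3) * m3 + (-4) * m5 + (-6) * m7 + (4) * m9 - ((1) * x1 + (2) * x2 + (-4) * x3 + (-2) * x5), by linear_combination (1) * hm0 + (3) * hm1 + (3) * hm3 + (-4) * hm5 + (-6) * hm7 + (4) * hm9⟩,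
      ⟨(-3) * m0 + (2) * m1 + (-3) * m3 + (-6) * m5 + (-2) * m7 + (6) * m9 - ((-1) * x1 + (-2) * x2 + (-1) * x3 + (-2) * x4 + (-1) * x5), by linear_combination (-3) * hm0 + (2) * hm1 + (-3) * hm3 + (-6) * hm5 + (-2) * hm7 + (6) * hm9⟩,
      ⟨(-1) * m0 + (-1) * m1 + (2) * m3 + (4) * m5 + (-6) * m9 - ((3) * x1 + (2) * x2 + (2) * x3 + (3) * x5), by linear_combination (-1) * hm0 + (-1) * hm1 + (2) * hm3 + (4) * hm5 + (-6) * hm9⟩,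
      ⟨(-6) * m0 + (-2) * m1 + (-4) * m3 + (-4) * m5 + (6) * m7 + (-2) * m9 - ((-4) * x2 + (5) * x3 + (-2) * x4 + (2) * x5), by linear_combination (-6) * hm0 + (-2) * hm1 + (-4) * hm3 + (-4) * hm5 + (6) * hm7 + (-2) * hm9⟩,
      ⟨(4) * m0 + (2) * m1 + (2) * m3 + (-6) * m5 + (1) * m7 + (5) * m9 - ((-3) * x1 + (-1) * x2 + (-3) * x3 + (2) * x4 + (-6) * x5), by linear_combination (4) * hm0 + (2) * hm1 + (2) * hm3 + (-6) * hm5 + (1) * hm7 + (5) * hm9⟩,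
      ⟨(4) * m0 + (1) * m1 + (2) * m3 + (-2) * m5 + (1) * m7 + (2) * m9 - ((-2) * x1 + (-2) * x3 + (2) * x4 + (-4) * x5), by linear_combination (4) * hm0 + (1) * hm1 + (2) * hm3 + (-2) * hm5 + (1) * hm7 + (2) * hm9⟩⟩
  intro i
  fin_cases i
  · exact key.1
  · exact key.2.1
  · exact key.2.2.1
  · exact key.2.2.2.1
  · exact key.2.2.2.2.1
  · exact key.2.2.2.2.2

end

end Fermat.Agent.S10.helper96
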