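import Fermat.Agent.S10.helper96_Units

/-!
# Kummer route, piece (D-units): explicit independent units for `p = 5`

Generated certificates; see `helper96_Units.lean` for the method.
-/

set_option autoImplicit false

namespace Fermat.Agent.S10.helper96

open Polynomial NumberField

noncomputable section

/-- `5` is prime, as a `Fact`. -/
theorem factPrimeFive : Fact (Nat.Prime 5) := ⟨by norm_num⟩

attribute [local instance] factPrimeFive

variable (K : Type*) [Field K] [NumberField K] [IsCyclotomicExtension {5} ℚ K]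

/-- The unit `ζ`. -/
def unit5_0 : (𝓞 K)ˣ := ((zetaInt_isPrimitiveRoot 5 K).isUnit (by norm_num)).unit

/-- The cyclotomic unit `1 + ζ + ⋯ + ζ ^ 1`. -/
def unit5_1 : (𝓞 K)ˣ :=
  ((zetaInt_isPrimitiveRoot 5 K).geom_sum_isUnit (by norm_num)
    (by norm_num : Nat.Coprime 2 5)).unit

theorem unitLog_unit5_0 :
    Multiplicative.toAdd (unitLog 5 K (unit5_0 K)) =
      tmk 5 3 (1 - X + X ^ 2) :=
  unitLog_eq_of_cert 5 K _ (X) (1 + X) (1)
    (1 - X + X ^ 2)
    (-1)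
    (0)
    (by simp [unit5_0])
    (by simp; try ring) (by simp; try ring)
    (show ((1) - (1 + X) * (1 - X + X ^ 2) : ℤ[X]) =
        X ^ 3 * (-1) + 5 * (0) by ring)

theorem unitLog_unit5_1 :
    Multiplicative.toAdd (unitLog 5 K (unit5_1 K)) =
      tmk 5 3 (-2 + X + 2 * X ^ 2) :=
  unitLog_eq_of_cert 5 K _ (1 + X) (2 + X) (1)
    (-2 + X + 2 * X ^ 2)
    (-2)
    (1 - X ^ 2)
    (by simp [unit5_1, Finset.sum_range_succ])
    (by simp; try ring) (by simp; try ring)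
    (show ((1) - (2 + X) * (-2 + X + 2 * X ^ 2) : ℤ[X]) =
        X ^ 3 * (-2) + 5 * (1 - X ^ 2) by ring)

/-- The family of units for `p = 5`. -/
def units5 : Fin ((5 - 1) / 2) → (𝓞 K)ˣ :=
  ![unit5_0 K, unit5_1 K]

theorem indep5 (e : Fin ((5 - 1) / 2) → ℤ)
    (h : ∃ n : ℤ, ((5 : ℕ) : 𝓞 K) ∣ ((∏ i, units5 K i ^ e i : (𝓞 K)ˣ) : 𝓞 K) - n) :
    ∀ i, ((5 : ℕ) : ℤ) ∣ e i := by
  have h0 := unitLog_eq_zero_of_congr 5 K _ h
  rw [show (∏ i, units5 K i ^ e i) = unit5_0 K ^ e 0 * unit5_1 K ^ e 1 from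
    Fin.prod_univ_two _] at h0
  simp only [map_mul, map_zpow, toAdd_mul, toAdd_zpow, unitLog_unit5_0, unitLog_unit5_1,
    zsmul_eq_mul] at h0
  simp only [← map_intCast (tmk 5 3), ← map_mul, ← map_add] at h0
  have c0 := dvd_coeff_of_tmk_eq_zero h0 (k := 0) (by norm_num)
  have c1 := dvd_coeff_of_tmk_eq_zero h0 (k := 1) (by norm_num)
  have c2 := dvd_coeff_of_tmk_eq_zero h0 (k := 2) (by norm_num)
  simp [coeff_one, coeff_X, coeff_X_pow] at c0 c1 c2
  have key : (5 : ℤ) ∣ e 0 ∧ (5 : ℤ) ∣ e 1 := by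
    generalize e 0 = x0 at c0 c1 c2
    generalize e 1 = x1 at c0 c1 c2
    obtain ⟨m0, hm0⟩ := c0
    obtain ⟨m1, hm1⟩ := c1
    obtain ⟨m2, hm2⟩ := c2
    exact ⟨⟨(-1) * m0 + (-2) * m1 - (0), by linear_combination (-1) * hm0 + (-2) * hm1⟩,
      ⟨(-1) * m0 + (-1) * m1 - (0), by linear_combination (-1) * hm0 + (-1) * hm1⟩⟩
  intro i
  fin_cases i
  · exact key.1
  · exact key.2

end

end Fermat.Agent.S10.helper96
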