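import Fermat.Agent.S10.helper96_Units

/-!
# Kummer route, piece (D-units): explicit independent units for `p = 7`

Generated certificates; see `helper96_Units.lean` for the method.
-/

set_option autoImplicit false

namespace Fermat.Agent.S10.helper96

open Polynomial NumberField

noncomputable section

/-- `7` is prime, as a `Fact`. -/
theorem factPrimeSeven : Fact (Nat.Prime 7) := ⟨by norm_num⟩

attribute [local instance] factPrimeSeven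

variable (K : Type*) [Field K] [NumberField K] [IsCyclotomicExtension {7} ℚ K]

/-- The unit `ζ`. -/
def unit7_0 : (𝓞 K)ˣ := ((zetaInt_isPrimitiveRoot 7 K).isUnit (by norm_num)).unit

/-- The cyclotomic unit `1 + ζ + ⋯ + ζ ^ 1`. -/
def unit7_1 : (𝓞 K)ˣ :=
  ((zetaInt_isPrimitiveRoot 7 K).geom_sum_isUnit (by norm_num)
    (by norm_num : Nat.Coprime 2 7)).unit

/-- The cyclotomic unit `1 + ζ + ⋯ + ζ ^ 2`. -/
def unit7_2 : (𝓞 K)ˣ :=
  ((zetaInt_isPrimitiveRoot 7 K).geom_sum_isUnit (by norm_num)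
    (by norm_num : Nat.Coprime 3 7)).unit

theorem unitLog_unit7_0 :
    Multiplicative.toAdd (unitLog 7 K (unit7_0 K)) =
      tmk 7 5 (1 - X + X ^ 2 - X ^ 3 + X ^ 4) :=
  unitLog_eq_of_cert 7 K _ (X) (1 + X) (1)
    (1 - X + X ^ 2 - X ^ 3 + X ^ 4)
    (-1)
    (0)
    (by simp [unit7_0])
    (by simp; try ring) (by simp; try ring)
    (show ((1) - (1 + X) * (1 - X + X ^ 2 - X ^ 3 + X ^ 4) : ℤ[X]) =
        X ^ 5 * (-1) + 7 * (0) by ring)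

theorem unitLog_unit7_1 :
    Multiplicative.toAdd (unitLog 7 K (unit7_1 K)) =
      tmk 7 5 (-3 - 2 * X + X ^ 2 + 3 * X ^ 3 + 2 * X ^ 4) :=
  unitLog_eq_of_cert 7 K _ (1 + X) (2 + X) (1)
    (-3 - 2 * X + X ^ 2 + 3 * X ^ 3 + 2 * X ^ 4)
    (-2)
    (1 + X - X ^ 3 - X ^ 4)
    (by simp [unit7_1, Finset.sum_range_succ])
    (by simp; try ring) (by simp; try ring)
    (show ((1) - (2 + X) * (-3 - 2 * X + X ^ 2 + 3 * X ^ 3 + 2 * X ^ 4) : ℤ[X]) =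
        X ^ 5 * (-2) + 7 * (1 + X - X ^ 3 - X ^ 4) by ring)

theorem unitLog_unit7_2 :
    Multiplicative.toAdd (unitLog 7 K (unit7_2 K)) =
      tmk 7 5 (1 + 2 * X - 3 * X ^ 3 + 3 * X ^ 4) :=
  unitLog_eq_of_cert 7 K _ (1 + X + X ^ 2) (3 + 3 * X + X ^ 2) (3 + 2 * X)
    (1 + 2 * X - 3 * X ^ 3 + 3 * X ^ 4)
    (-6 - 3 * X)
    (-X - X ^ 2 + X ^ 3)
    (by simp [unit7_2, Finset.sum_range_succ])
    (by simp; try ring) (by simp; try ring)
    (show ((3 + 2 * X) - (3 + 3 * X + X ^ 2) * (1 + 2 * X - 3 * X ^ 3 + 3 * X ^ 4) : ℤ[X]) =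
        X ^ 5 * (-6 - 3 * X) + 7 * (-X - X ^ 2 + X ^ 3) by ring)

/-- The family of units for `p = 7`. -/
def units7 : Fin ((7 - 1) / 2) → (𝓞 K)ˣ :=
  ![unit7_0 K, unit7_1 K, unit7_2 K]

theorem indep7 (e : Fin ((7 - 1) / 2) → ℤ)
    (h : ∃ n : ℤ, ((7 : ℕ) : 𝓞 K) ∣ ((∏ i, units7 K i ^ e i : (𝓞 K)ˣ) : 𝓞 K) - n) :
    ∀ i, ((7 : ℕ) : ℤ) ∣ e i := by
  have h0 := unitLog_eq_zero_of_congr 7 K _ h
  rw [show (∏ i, units7 K i ^ e i) = unit7_0 K ^ e 0 * unit7_1 K ^ e 1 * unit7_2 K ^ e 2 from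
    Fin.prod_univ_three _] at h0
  simp only [map_mul, map_zpow, toAdd_mul, toAdd_zpow, unitLog_unit7_0, unitLog_unit7_1, unitLog_unit7_2,
    zsmul_eq_mul] at h0
  simp only [← map_intCast (tmk 7 5), ← map_mul, ← map_add] at h0
  have c0 := dvd_coeff_of_tmk_eq_zero h0 (k := 0) (by norm_num)
  have c1 := dvd_coeff_of_tmk_eq_zero h0 (k := 1) (by norm_num)
  have c2 := dvd_coeff_of_tmk_eq_zero h0 (k := 2) (by norm_num)
  have c3 := dvd_coeff_of_tmk_eq_zero h0 (k := 3) (by norm_num)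
  have c4 := dvd_coeff_of_tmk_eq_zero h0 (k := 4) (by norm_num)
  simp [coeff_one, coeff_X, coeff_X_pow] at c0 c1 c2 c3 c4
  have key : (7 : ℤ) ∣ e 0 ∧ (7 : ℤ) ∣ e 1 ∧ (7 : ℤ) ∣ e 2 := by
    generalize e 0 = x0 at c0 c1 c2 c3 c4
    generalize e 1 = x1 at c0 c1 c2 c3 c4
    generalize e 2 = x2 at c0 c1 c2 c3 c4
    obtain ⟨m0, hm0⟩ := c0
    obtain ⟨m1, hm1⟩ := c1
    obtain ⟨m2, hm2⟩ := c2
    obtain ⟨m3, hm3⟩ := c3
    obtain ⟨m4, hm4⟩ := c4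
    exact ⟨⟨(-2) * m1 + (1) * m3 - ((1) * x1 + (-1) * x2), by linear_combination (-2) * hm1 + (1) * hm3⟩,
      ⟨(3) * m0 + (-3) * m1 + (-1) * m3 - ((1) * x0 + (-1) * x1), by linear_combination (3) * hm0 + (-3) * hm1 + (-1) * hm3⟩,
      ⟨(3) * m0 + (3) * m3 - ((-1) * x2), by linear_combination (3) * hm0 + (3) * hm3⟩⟩
  intro i
  fin_cases i
  · exact key.1
  · exact key.2.1
  · exact key.2.2

end

end Fermat.Agent.S10.helper96
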