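import Fermat.Agent.S10.helper96_Units5
import Fermat.Agent.S10.helper96_Units7
import Fermat.Agent.S10.helper96_Units11
import Fermat.Agent.S10.helper96_Units13

/-!
# Kummer route, piece (D-units): independent units for `p ∈ {5, 7, 11, 13}`

For `p ∈ {5, 7, 11, 13}` and `K` a `p`-th cyclotomic extension of `ℚ`, there is a family of
`(p - 1) / 2` units of `𝓞 K` which is independent modulo the units congruent to a rational integer
modulo `p`: this is the hypothesis needed to deduce Kummer's lemma from Dirichlet's unit theorem.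
-/

set_option autoImplicit false

namespace Fermat.Agent.S10.helper96

open NumberField

/-- Explicit independent units for `p ∈ {5, 7, 11, 13}`. -/
theorem exists_indep_units (p : ℕ) [Fact p.Prime] (hp : p = 5 ∨ p = 7 ∨ p = 11 ∨ p = 13)
    (K : Type*) [Field K] [NumberField K] [IsCyclotomicExtension {p} ℚ K] :
    ∃ v : Fin ((p - 1) / 2) → (𝓞 K)ˣ, ∀ e : Fin ((p - 1) / 2) → ℤ,
      (∃ n : ℤ, (p : 𝓞 K) ∣ ((∏ i, v i ^ e i : (𝓞 K)ˣ) : 𝓞 K) - n) → ∀ i, (p : ℤ) ∣ e i := by
  rcases hp with rfl | rfl | rfl | rfl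
  · exact ⟨units5 K, indep5 K⟩
  · exact ⟨units7 K, indep7 K⟩
  · exact ⟨units11 K, indep11 K⟩
  · exact ⟨units13 K, indep13 K⟩

end Fermat.Agent.S10.helper96
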